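import Mathlib
import Fermat.Prelude.Def_ModularCurve_GenusNumerics

/-!
# Combinatorics of `X = SL(2,ℤ) ⧸ Γ₀(N)` (PLAN-DIM (C))

* `card_X` : `#X = dedekindPsi N` (induction on the prime factors of `N`)
* `card_fix_S`, `card_fix_ST` : fixed points of `S`, `S * T` (`= nuTwo N`, `nuThree N`)
* `card_orbits_T` : number of `T`-orbits (`= cuspCount N`)

Everything rests on: `[g] = [g']` iff `a c' ≡ c a' (N)` (first columns of `g`, `g'`).
-/

open scoped MatrixGroups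
open ModularCurve CongruenceSubgroup

namespace Fermat.Agent.DimAux
namespace Count

section fix
variable (N : ℕ)

lemma inv_mul_10 (g g' : SL(2, ℤ)) : (g⁻¹ * g') 1 0 = g 0 0 * g' 1 0 - g 1 0 * g' 0 0 := by
  rw [Matrix.SpecialLinearGroup.coe_mul, Matrix.SpecialLinearGroup.SL2_inv_expl]
  simp [Matrix.mul_apply, Fin.sum_univ_two]
  ring

lemma mk_eq_mk_iff (g g' : SL(2, ℤ)) :
    (QuotientGroup.mk g : SL(2, ℤ) ⧸ Gamma0 N) = QuotientGroup.mk g' ↔
      (N : ℤ) ∣ g 0 0 * g' 1 0 - g 1 0 * g' 0 0 := by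
  rw [QuotientGroup.eq, Gamma0_mem, ZMod.intCast_zmod_eq_zero_iff_dvd, inv_mul_10]

lemma isCoprime_col (g : SL(2, ℤ)) : IsCoprime (g 0 0) (g 1 0) := by
  have hdet : g 0 0 * g 1 1 - g 0 1 * g 1 0 = 1 := by
    have := g.det_coe
    rwa [Matrix.det_fin_two] at this
  exact ⟨g 1 1, -g 0 1, by linear_combination hdet⟩

/-- the matrix with first column `(u, 1)` -/
def U (u : ℤ) : SL(2, ℤ) := ⟨!![u, -1; 1, 0], by simp [Matrix.det_fin_two_of]⟩

@[simp] lemma U_00 (u : ℤ) : U u 0 0 = u := rfl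
@[simp] lemma U_10 (u : ℤ) : U u 1 0 = 1 := rfl

/-- Fixed points of an element `γ` acting like `(a:c) ↦` something with cross product
`-(a² + ε a c + c²)`. -/
theorem card_fix_aux [NeZero N] (ε : ℤ) (γ : SL(2, ℤ))
    (hγ : ∀ g : SL(2, ℤ), (γ * g) 0 0 * g 1 0 - (γ * g) 1 0 * g 0 0
      = -(g 0 0 ^ 2 + ε * g 0 0 * g 1 0 + g 1 0 ^ 2)) :
    Nat.card {x : SL(2, ℤ) ⧸ Gamma0 N // γ • x = x}
      = Nat.card {u : ZMod N // u ^ 2 + ε * u + 1 = 0} := by
  have fix_iff : ∀ g : SL(2, ℤ), γ • (QuotientGroup.mk g : SL(2, ℤ) ⧸ Gamma0 N) = QuotientGroup.mk g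
      ↔ (N : ℤ) ∣ g 0 0 ^ 2 + ε * g 0 0 * g 1 0 + g 1 0 ^ 2 := by
    intro g
    have : γ • (QuotientGroup.mk g : SL(2, ℤ) ⧸ Gamma0 N) = QuotientGroup.mk (γ * g) := rfl
    rw [this, mk_eq_mk_iff, hγ, dvd_neg]
  symm
  have hwd : ∀ u : {u : ZMod N // u ^ 2 + ε * u + 1 = 0},
      γ • (QuotientGroup.mk (U (u.1.val : ℤ)) : SL(2, ℤ) ⧸ Gamma0 N)
        = QuotientGroup.mk (U (u.1.val : ℤ)) := by
    rintro ⟨u, hu⟩
    rw [fix_iff, ← ZMod.intCast_zmod_eq_zero_iff_dvd]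
    simp only [U_00, U_10]
    push_cast
    rw [ZMod.natCast_zmod_val]
    linear_combination hu
  refine Nat.card_eq_of_bijective
    (fun u => (⟨QuotientGroup.mk (U (u.1.val : ℤ)), hwd u⟩ :
      {x : SL(2, ℤ) ⧸ Gamma0 N // γ • x = x})) ⟨?_, ?_⟩
  · rintro ⟨u, hu⟩ ⟨u', hu'⟩ h
    have h1 := (mk_eq_mk_iff N _ _).mp (Subtype.ext_iff.mp h)
    simp only [U_00, U_10] at h1
    rw [← ZMod.intCast_zmod_eq_zero_iff_dvd] at h1
    push_cast at h1
    rw [ZMod.natCast_zmod_val, ZMod.natCast_zmod_val] at h1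
    exact Subtype.ext (by linear_combination h1)
  · rintro ⟨x, hx⟩
    induction x using QuotientGroup.induction_on with
    | H g =>
    rw [fix_iff] at hx
    obtain ⟨k, hk⟩ := hx
    obtain ⟨x, y, hxy⟩ := isCoprime_col g
    set a := g 0 0
    set c := g 1 0
    -- inverse of `c` mod `N`
    set w : ℤ := -x ^ 2 * ε * a - x ^ 2 * c + 2 * x * y * a + y ^ 2 * c with hw
    have hwc : w * c = 1 - N * (x ^ 2 * k) := by
      have : (x * a + y * c) ^ 2 = 1 := by rw [hxy]; ring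
      linear_combination this - x ^ 2 * hk
    have hwc' : ((w : ZMod N)) * (c : ZMod N) = 1 := by
      have := congrArg (Int.cast : ℤ → ZMod N) hwc
      push_cast at this
      simpa using this
    have hk' : (a : ZMod N) ^ 2 + ε * a * c + (c : ZMod N) ^ 2 = 0 := by
      have := congrArg (Int.cast : ℤ → ZMod N) hk
      push_cast at this
      simpa using this
    have hu : ((a : ZMod N) * w) ^ 2 + ε * ((a : ZMod N) * w) + 1 = 0 := by
      linear_combination (w : ZMod N) ^ 2 * hk' +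
        (-(ε : ZMod N) * a * w - (w : ZMod N) * c - 1) * hwc'
    refine ⟨⟨(a : ZMod N) * w, hu⟩, Subtype.ext ?_⟩
    show (QuotientGroup.mk (U _) : SL(2, ℤ) ⧸ Gamma0 N) = QuotientGroup.mk g
    rw [mk_eq_mk_iff, ← ZMod.intCast_zmod_eq_zero_iff_dvd]
    simp only [U_00, U_10]
    push_cast
    rw [ZMod.natCast_zmod_val]
    linear_combination (a : ZMod N) * hwc'

end fix

lemma psi_mul_of_dvd {p N : ℕ} (hp : p.Prime) (hN : N ≠ 0) (h : p ∣ N) :
    dedekindPsi (p * N) = p * dedekindPsi N := by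
  unfold dedekindPsi
  have hset : (p * N).divisors.filter Squarefree = N.divisors.filter Squarefree := by
    ext d
    simp only [Finset.mem_filter, Nat.mem_divisors]
    constructor
    · rintro ⟨⟨h1, -⟩, h2⟩
      refine ⟨⟨?_, hN⟩, h2⟩
      by_cases hpd : p ∣ d
      · obtain ⟨e, rfl⟩ := hpd
        have he : e ∣ N := Nat.dvd_of_mul_dvd_mul_left hp.pos h1
        have hpe : Nat.Coprime p e := by
          rw [Nat.Prime.coprime_iff_not_dvd hp]
          rintro ⟨f, rfl⟩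
          have := h2 p ⟨f, by ring⟩
          exact hp.one_lt.ne' (Nat.isUnit_iff.mp this)
        exact Nat.Coprime.mul_dvd_of_dvd_of_dvd hpe h he
      · have : Nat.Coprime d p := ((Nat.Prime.coprime_iff_not_dvd hp).mpr hpd).symm
        exact this.dvd_of_dvd_mul_left h1
    · rintro ⟨⟨h1, -⟩, h2⟩
      exact ⟨⟨h1.mul_left p, mul_ne_zero hp.ne_zero hN⟩, h2⟩
  rw [hset, Finset.mul_sum]
  refine Finset.sum_congr rfl fun d hd => ?_
  have hd' : d ∣ N := Nat.dvd_of_mem_divisors (Finset.mem_filter.mp hd).1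
  exact Nat.mul_div_assoc p hd'

lemma psi_mul_of_not_dvd {p N : ℕ} (hp : p.Prime) (hN : N ≠ 0) (h : ¬ p ∣ N) :
    dedekindPsi (p * N) = (p + 1) * dedekindPsi N := by
  unfold dedekindPsi
  set S := N.divisors.filter Squarefree with hS
  have hset : (p * N).divisors.filter Squarefree = S ∪ S.image (p * ·) := by
    ext d
    simp only [hS, Finset.mem_filter, Nat.mem_divisors, Finset.mem_union, Finset.mem_image]
    constructor
    · rintro ⟨⟨h1, -⟩, h2⟩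
      by_cases hpd : p ∣ d
      · obtain ⟨e, rfl⟩ := hpd
        exact Or.inr ⟨e, ⟨⟨Nat.dvd_of_mul_dvd_mul_left hp.pos h1, hN⟩, h2.of_mul_right⟩, rfl⟩
      · have : Nat.Coprime d p := ((Nat.Prime.coprime_iff_not_dvd hp).mpr hpd).symm
        exact Or.inl ⟨⟨this.dvd_of_dvd_mul_left h1, hN⟩, h2⟩
    · rintro (⟨⟨h1, -⟩, h2⟩ | ⟨e, ⟨⟨h1, -⟩, h2⟩, rfl⟩)
      · exact ⟨⟨h1.mul_left p, mul_ne_zero hp.ne_zero hN⟩, h2⟩
      · refine ⟨⟨Nat.mul_dvd_mul_left p h1, mul_ne_zero hp.ne_zero hN⟩, ?_⟩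
        have hpe : Nat.Coprime p e :=
          (Nat.Prime.coprime_iff_not_dvd hp).mpr (fun hh => h (hh.trans h1))
        exact (Nat.squarefree_mul hpe).mpr ⟨hp.prime.squarefree, h2⟩
  have hdisj : Disjoint S (S.image (p * ·)) := by
    rw [Finset.disjoint_left]
    intro d hd hd'
    obtain ⟨e, -, rfl⟩ := Finset.mem_image.mp hd'
    exact h ((Dvd.intro e rfl).trans (Nat.dvd_of_mem_divisors (Finset.mem_filter.mp hd).1))
  rw [hset, Finset.sum_union hdisj, Finset.sum_image (fun a _ b _ hab =>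
    Nat.eq_of_mul_eq_mul_left hp.pos hab), add_mul, one_mul, Finset.mul_sum]
  congr 1
  · refine Finset.sum_congr rfl fun d hd => ?_
    exact Nat.mul_div_assoc p (Nat.dvd_of_mem_divisors (Finset.mem_filter.mp hd).1)
  · refine Finset.sum_congr rfl fun d _ => ?_
    exact Nat.mul_div_mul_left N d hp.pos

/-- lower unipotent matrices -/
def L (c : ℤ) : SL(2, ℤ) := ⟨!![1, 0; c, 1], by simp [Matrix.det_fin_two_of]⟩

@[simp] lemma L_00 (c : ℤ) : L c 0 0 = 1 := rfl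
@[simp] lemma L_10 (c : ℤ) : L c 1 0 = c := rfl

lemma Gamma0_mem_iff_dvd {N : ℕ} {g : SL(2, ℤ)} : g ∈ Gamma0 N ↔ (N : ℤ) ∣ g 1 0 := by
  rw [Gamma0_mem, ZMod.intCast_zmod_eq_zero_iff_dvd]

lemma Gamma0_le {p N : ℕ} : Gamma0 (p * N) ≤ Gamma0 N := by
  intro g hg
  rw [Gamma0_mem_iff_dvd] at hg ⊢
  exact (Int.natCast_dvd_natCast.mpr (Dvd.intro_left p rfl)).trans hg

section relIndex
variable {p N : ℕ}

lemma mk_eq_mk_iff' (k k' : Gamma0 N) :
    (QuotientGroup.mk k : Gamma0 N ⧸ (Gamma0 (p * N)).subgroupOf (Gamma0 N)) = QuotientGroup.mk k' ↔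
      ((p * N : ℕ) : ℤ) ∣ (k : SL(2, ℤ)) 0 0 * (k' : SL(2, ℤ)) 1 0
        - (k : SL(2, ℤ)) 1 0 * (k' : SL(2, ℤ)) 0 0 := by
  rw [QuotientGroup.eq, Subgroup.mem_subgroupOf, Gamma0_mem_iff_dvd]
  have : ((k⁻¹ * k' : Gamma0 N) : SL(2, ℤ)) = (k : SL(2, ℤ))⁻¹ * (k' : SL(2, ℤ)) := rfl
  rw [this, inv_mul_10]

/-- `L (N c)` as an element of `Γ₀(N)` -/
def LN (N : ℕ) (c : ℤ) : Gamma0 N := ⟨L (N * c), by rw [Gamma0_mem_iff_dvd]; exact ⟨c, rfl⟩⟩

lemma LN_inj [NeZero p] (hN : N ≠ 0) (c c' : ZMod p)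
    (h : (QuotientGroup.mk (LN N (c.val : ℤ)) :
      Gamma0 N ⧸ (Gamma0 (p * N)).subgroupOf (Gamma0 N)) = QuotientGroup.mk (LN N (c'.val : ℤ))) :
    c = c' := by
  rw [mk_eq_mk_iff'] at h
  simp only [LN, L_00, L_10] at h
  have h1 : ((p * N : ℕ) : ℤ) ∣ (N : ℤ) * ((c'.val : ℤ) - c.val) := by
    convert h using 1; ring
  have h2 : (p : ℤ) ∣ (c'.val : ℤ) - c.val := by
    have hN' : (N : ℤ) ≠ 0 := by exact_mod_cast hN
    rw [Nat.cast_mul, mul_comm (p : ℤ)] at h1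
    exact (mul_dvd_mul_iff_left hN').mp h1
  rw [← ZMod.intCast_zmod_eq_zero_iff_dvd] at h2
  push_cast at h2
  rw [ZMod.natCast_zmod_val, ZMod.natCast_zmod_val] at h2
  exact (sub_eq_zero.mp h2).symm

lemma exists_LN (hp : p.Prime) (k : Gamma0 N) (ha : ¬ (p : ℤ) ∣ (k : SL(2, ℤ)) 0 0) :
    have : NeZero p := ⟨hp.ne_zero⟩
    ∃ c : ZMod p, (QuotientGroup.mk (LN N (c.val : ℤ)) :
      Gamma0 N ⧸ (Gamma0 (p * N)).subgroupOf (Gamma0 N)) = QuotientGroup.mk k := by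
  have : NeZero p := ⟨hp.ne_zero⟩
  have : Fact p.Prime := ⟨hp⟩
  obtain ⟨c₁, hc₁⟩ := Gamma0_mem_iff_dvd.mp k.2
  set a := (k : SL(2, ℤ)) 0 0
  have ha' : (a : ZMod p) ≠ 0 := by
    rwa [Ne, ZMod.intCast_zmod_eq_zero_iff_dvd]
  refine ⟨(c₁ : ZMod p) * (a : ZMod p)⁻¹, ?_⟩
  rw [mk_eq_mk_iff']
  simp only [LN, L_00, L_10]
  rw [hc₁]
  have h2 : (p : ℤ) ∣ c₁ - (((c₁ : ZMod p) * (a : ZMod p)⁻¹).val : ℤ) * a := by
    rw [← ZMod.intCast_zmod_eq_zero_iff_dvd]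
    push_cast
    rw [ZMod.natCast_zmod_val]
    field_simp
    ring
  obtain ⟨m, hm⟩ := h2
  refine ⟨m, ?_⟩
  push_cast
  linear_combination (N : ℤ) * hm

lemma relIndex_of_dvd (hp : p.Prime) (hN : N ≠ 0) (h : p ∣ N) :
    (Gamma0 (p * N)).relIndex (Gamma0 N) = p := by
  have : NeZero p := ⟨hp.ne_zero⟩
  rw [Subgroup.relIndex, Subgroup.index]
  have hb : Function.Bijective (fun c : ZMod p => (QuotientGroup.mk (LN N (c.val : ℤ)) :
      Gamma0 N ⧸ (Gamma0 (p * N)).subgroupOf (Gamma0 N))) := by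
    refine ⟨fun c c' hcc => LN_inj hN c c' hcc, fun x => ?_⟩
    induction x using QuotientGroup.induction_on with
    | H k =>
    apply exists_LN hp k
    intro ha
    have hc : (p : ℤ) ∣ (k : SL(2, ℤ)) 1 0 :=
      (Int.natCast_dvd_natCast.mpr h).trans (Gamma0_mem_iff_dvd.mp k.2)
    exact (Nat.prime_iff_prime_int.mp hp).not_isUnit ((isCoprime_col _).isUnit_of_dvd' ha hc)
  rw [← Nat.card_eq_of_bijective _ hb, Nat.card_zmod]

lemma relIndex_of_not_dvd (hp : p.Prime) (hN : N ≠ 0) (h : ¬ p ∣ N) :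
    (Gamma0 (p * N)).relIndex (Gamma0 N) = p + 1 := by
  have : NeZero p := ⟨hp.ne_zero⟩
  rw [Subgroup.relIndex, Subgroup.index]
  have hcop : IsCoprime (p : ℤ) (N : ℤ) :=
    Nat.isCoprime_iff_coprime.mpr ((Nat.Prime.coprime_iff_not_dvd hp).mpr h)
  obtain ⟨x, y, hxy⟩ := hcop
  let E : Gamma0 N := ⟨⟨!![(p : ℤ), -y; (N : ℤ), x], by
    rw [Matrix.det_fin_two_of]; linear_combination hxy⟩, by
    rw [Gamma0_mem_iff_dvd]; exact dvd_refl _⟩
  have E00 : (E : SL(2, ℤ)) 0 0 = p := rfl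
  have E10 : (E : SL(2, ℤ)) 1 0 = N := rfl
  have hN' : (N : ℤ) ≠ 0 := by exact_mod_cast hN
  have hb : Function.Bijective (fun c : Option (ZMod p) =>
      (match c with
        | none => QuotientGroup.mk E
        | some c => QuotientGroup.mk (LN N (c.val : ℤ)) :
      Gamma0 N ⧸ (Gamma0 (p * N)).subgroupOf (Gamma0 N))) := by
    have hne : ∀ c : ZMod p, (QuotientGroup.mk E :
        Gamma0 N ⧸ (Gamma0 (p * N)).subgroupOf (Gamma0 N)) ≠ QuotientGroup.mk (LN N (c.val : ℤ)) := by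
      intro c hc
      rw [mk_eq_mk_iff', E00, E10] at hc
      simp only [LN, L_00, L_10] at hc
      have h1 : ((p * N : ℕ) : ℤ) ∣ (N : ℤ) * ((p : ℤ) * c.val - 1) := by
        convert hc using 1; ring
      rw [Nat.cast_mul, mul_comm (p : ℤ)] at h1
      have h2 := (mul_dvd_mul_iff_left hN').mp h1
      have h3 : (p : ℤ) ∣ 1 := by
        have := dvd_sub (Dvd.intro (c.val : ℤ) rfl : (p : ℤ) ∣ (p : ℤ) * c.val) h2
        simpa using this
      exact (Nat.prime_iff_prime_int.mp hp).not_isUnit (isUnit_of_dvd_one h3)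
    constructor
    · rintro (_ | c) (_ | c') hcc
      · rfl
      · exact absurd hcc (hne c')
      · exact absurd hcc.symm (hne c)
      · exact congrArg some (LN_inj hN c c' hcc)
    · intro x
      induction x using QuotientGroup.induction_on with
      | H k =>
      by_cases ha : (p : ℤ) ∣ (k : SL(2, ℤ)) 0 0
      · refine ⟨none, ?_⟩
        show (QuotientGroup.mk E : Gamma0 N ⧸ (Gamma0 (p * N)).subgroupOf (Gamma0 N)) = _
        rw [mk_eq_mk_iff', E00, E10]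
        obtain ⟨c₁, hc₁⟩ := Gamma0_mem_iff_dvd.mp k.2
        obtain ⟨a₁, ha₁⟩ := ha
        rw [hc₁, ha₁]
        exact ⟨c₁ - a₁, by push_cast; ring⟩
      · obtain ⟨c, hc⟩ := exists_LN hp k ha
        exact ⟨some c, hc⟩
  rw [← Nat.card_eq_of_bijective _ hb]
  simp [Nat.card_eq_fintype_card, ZMod.card]

lemma index_Gamma0 (N : ℕ) : N ≠ 0 → (Gamma0 N).index = dedekindPsi N := by
  induction N using induction_on_primes with
  | zero => intro h; exact absurd rfl h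
  | one =>
    intro _
    have : Gamma0 1 = ⊤ := by
      ext g
      simp only [Subgroup.mem_top, iff_true]
      rw [Gamma0_mem_iff_dvd]
      simp
    rw [this, Subgroup.index_top, dedekindPsi_one]
  | prime_mul p N hp ih =>
    intro hpN
    have hN : N ≠ 0 := right_ne_zero_of_mul hpN
    rw [← Subgroup.relIndex_mul_index (Gamma0_le (p := p) (N := N)), ih hN]
    by_cases h : p ∣ N
    · rw [relIndex_of_dvd hp hN h, psi_mul_of_dvd hp hN h]
    · rw [relIndex_of_not_dvd hp hN h, psi_mul_of_not_dvd hp hN h]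

end relIndex


/-- For coprime `a, c` some `a + k c` is coprime to `N`. -/
lemma exists_coprime_add_mul (a c : ℤ) (h : IsCoprime a c) (N : ℕ) (hN : N ≠ 0) :
    ∃ k : ℤ, IsCoprime (a + k * c) (N : ℤ) := by
  classical
  let ps : Finset ℕ := N.primeFactors.filter (fun p => ¬ (p : ℤ) ∣ a)
  refine ⟨∏ p ∈ ps, (p : ℤ), ?_⟩
  rw [Int.isCoprime_iff_gcd_eq_one]
  by_contra hne
  obtain ⟨p, pp, hp⟩ := Nat.exists_prime_and_dvd hne
  have hp1 : (p : ℤ) ∣ a + (∏ p ∈ ps, (p : ℤ)) * c :=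
    (Int.natCast_dvd_natCast.mpr hp).trans (Int.gcd_dvd_left ..)
  have hp2 : (p : ℤ) ∣ (N : ℤ) := (Int.natCast_dvd_natCast.mpr hp).trans (Int.gcd_dvd_right ..)
  have hpN : p ∣ N := Int.natCast_dvd_natCast.mp hp2
  have hpp : Prime (p : ℤ) := Nat.prime_iff_prime_int.mp pp
  by_cases hpa : (p : ℤ) ∣ a
  · have h1 : (p : ℤ) ∣ (∏ p ∈ ps, (p : ℤ)) * c := (dvd_add_right hpa).mp hp1
    rcases hpp.dvd_or_dvd h1 with h2 | h2
    · obtain ⟨q, hq, hq'⟩ := (hpp.dvd_finsetProd_iff _).mp h2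
      have hq1 := Finset.mem_filter.mp hq
      have hqp : q.Prime := (Nat.mem_primeFactors.mp hq1.1).1
      have : p = q := (Nat.prime_dvd_prime_iff_eq pp hqp).mp (Int.natCast_dvd_natCast.mp hq')
      exact hq1.2 (this ▸ hpa)
    · exact hpp.not_isUnit (h.isUnit_of_dvd' hpa h2)
  · have pps : p ∈ ps := Finset.mem_filter.mpr ⟨Nat.mem_primeFactors.mpr ⟨pp, hpN, hN⟩, hpa⟩
    have h1 : (p : ℤ) ∣ (∏ p ∈ ps, (p : ℤ)) * c :=
      (Finset.dvd_prod_of_mem (fun p : ℕ => (p : ℤ)) pps).mul_right c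
    exact hpa ((dvd_add_left h1).mp hp1)

/-- the relation implies equal gcd's with `N`. -/
lemma gcd_eq_of_rel {N : ℕ} {c c' n : ℤ} (h : (N : ℤ) ∣ (1 + n * c) * c' - c) :
    Int.gcd c N = Int.gcd c' N := by
  obtain ⟨k, hk⟩ := h
  apply Nat.dvd_antisymm
  · apply Int.dvd_gcd
    · have : c' = c - n * c * c' + N * k := by linear_combination hk
      rw [this]
      exact dvd_add (dvd_sub (Int.gcd_dvd_left ..) (((Int.gcd_dvd_left ..).mul_left n).mul_right c'))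
        ((Int.gcd_dvd_right ..).mul_right k)
    · exact Int.gcd_dvd_right ..
  · apply Int.dvd_gcd
    · have : c = (1 + n * c) * c' - N * k := by linear_combination -hk
      rw [this]
      exact dvd_sub ((Int.gcd_dvd_left ..).mul_left _) ((Int.gcd_dvd_right ..).mul_right k)
    · exact Int.gcd_dvd_right ..

lemma rel_forward {δ M : ℕ} (hδ : δ ≠ 0) {v v' n : ℤ}
    (h : ((δ * M : ℕ) : ℤ) ∣ (1 + n * (δ * v)) * (δ * v') - δ * v) :
    ((Nat.gcd δ M : ℕ) : ℤ) ∣ v - v' := by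
  obtain ⟨k, hk⟩ := h
  have hδ' : (δ : ℤ) ≠ 0 := by exact_mod_cast hδ
  have h1 : v - v' = n * δ * v * v' - M * k := by
    apply mul_left_cancel₀ hδ'
    push_cast at hk
    linear_combination -hk
  rw [h1]
  have g1 : ((Nat.gcd δ M : ℕ) : ℤ) ∣ (δ : ℤ) := Int.natCast_dvd_natCast.mpr (Nat.gcd_dvd_left ..)
  have g2 : ((Nat.gcd δ M : ℕ) : ℤ) ∣ (M : ℤ) := Int.natCast_dvd_natCast.mpr (Nat.gcd_dvd_right ..)
  exact dvd_sub (((g1.mul_left n).mul_right v).mul_right v') (g2.mul_right k)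

lemma rel_backward {δ M : ℕ} {v v' : ℤ} (hv : IsCoprime v M) (hv' : IsCoprime v' M)
    (h : ((Nat.gcd δ M : ℕ) : ℤ) ∣ v - v') :
    ∃ n : ℤ, ((δ * M : ℕ) : ℤ) ∣ (1 + n * (δ * v)) * (δ * v') - δ * v := by
  obtain ⟨k, hk⟩ := h
  obtain ⟨w, z, hwz⟩ := hv.mul_left hv'
  have hb := Nat.gcd_eq_gcd_ab δ M
  set x := Nat.gcdA δ M
  set y := Nat.gcdB δ M
  refine ⟨k * x * w, -(δ : ℤ) * 0 + (-(k * y + k * x * δ * z)), ?_⟩
  push_cast
  have e1 : v = v' + (δ * x + M * y) * k := by rw [← hb]; linear_combination hk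
  have e2 : w * (v * v') = 1 - z * M := by linear_combination hwz
  have : (1 + k * x * w * (δ * v)) * (δ * v') - δ * v
      = δ * (v' - v + k * x * δ * (w * (v * v'))) := by ring
  rw [this, e2]
  linear_combination (-(δ : ℤ)) * e1

section cusps
variable (N : ℕ)

lemma mem_orbit_iff (g g' : SL(2, ℤ)) :
    (QuotientGroup.mk g : SL(2, ℤ) ⧸ Gamma0 N) ∈ MulAction.orbit (Subgroup.zpowers ModularGroup.T)
        (QuotientGroup.mk g' : SL(2, ℤ) ⧸ Gamma0 N) ↔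
      ∃ n : ℤ, (N : ℤ) ∣ (g' 0 0 + n * g' 1 0) * g 1 0 - g' 1 0 * g 0 0 := by
  rw [MulAction.mem_orbit_iff]
  constructor
  · rintro ⟨⟨t, ht⟩, h⟩
    obtain ⟨n, rfl⟩ := Subgroup.mem_zpowers_iff.mp ht
    refine ⟨n, ?_⟩
    have h' : (QuotientGroup.mk (ModularGroup.T ^ n * g') : SL(2, ℤ) ⧸ Gamma0 N) = QuotientGroup.mk g := h
    rw [mk_eq_mk_iff] at h'
    have e1 : (ModularGroup.T ^ n * g') 0 0 = g' 0 0 + n * g' 1 0 := by
      rw [Matrix.SpecialLinearGroup.coe_mul, ModularGroup.coe_T_zpow]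
      simp [Matrix.mul_apply, Fin.sum_univ_two]
    have e2 : (ModularGroup.T ^ n * g') 1 0 = g' 1 0 := by
      rw [Matrix.SpecialLinearGroup.coe_mul, ModularGroup.coe_T_zpow]
      simp [Matrix.mul_apply, Fin.sum_univ_two]
    rwa [e1, e2] at h'
  · rintro ⟨n, hn⟩
    refine ⟨⟨ModularGroup.T ^ n, Subgroup.zpow_mem_zpowers _ n⟩, ?_⟩
    show (QuotientGroup.mk (ModularGroup.T ^ n * g') : SL(2, ℤ) ⧸ Gamma0 N) = QuotientGroup.mk g
    rw [mk_eq_mk_iff]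
    have e1 : (ModularGroup.T ^ n * g') 0 0 = g' 0 0 + n * g' 1 0 := by
      rw [Matrix.SpecialLinearGroup.coe_mul, ModularGroup.coe_T_zpow]
      simp [Matrix.mul_apply, Fin.sum_univ_two]
    have e2 : (ModularGroup.T ^ n * g') 1 0 = g' 1 0 := by
      rw [Matrix.SpecialLinearGroup.coe_mul, ModularGroup.coe_T_zpow]
      simp [Matrix.mul_apply, Fin.sum_univ_two]
    rwa [e1, e2]

lemma L_mem_orbit_iff (c c' : ℤ) :
    (QuotientGroup.mk (L c') : SL(2, ℤ) ⧸ Gamma0 N) ∈ MulAction.orbit (Subgroup.zpowers ModularGroup.T)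
        (QuotientGroup.mk (L c) : SL(2, ℤ) ⧸ Gamma0 N) ↔
      ∃ n : ℤ, (N : ℤ) ∣ (1 + n * c) * c' - c := by
  rw [mem_orbit_iff]
  simp


lemma exists_L [NeZero N] (g : SL(2, ℤ)) :
    ∃ c : ℤ, (QuotientGroup.mk (L c) : SL(2, ℤ) ⧸ Gamma0 N) ∈ MulAction.orbit (Subgroup.zpowers ModularGroup.T)
        (QuotientGroup.mk g : SL(2, ℤ) ⧸ Gamma0 N) := by
  have hcop : IsCoprime (g 0 0) (g 1 0) := isCoprime_col g
  obtain ⟨k, u, w, huw⟩ := exists_coprime_add_mul _ _ hcop N (NeZero.ne N)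
  refine ⟨u * g 1 0, ?_⟩
  rw [mem_orbit_iff]
  refine ⟨k, -(g 1 0 * w), ?_⟩
  simp only [L_00, L_10]
  linear_combination (g 1 0) * huw

/-- `gcd(δ, N/δ)` -/
def gg (δ : ℕ) : ℕ := Nat.gcd δ (N / δ)

/-- the index set for the cusps -/
def idx : Finset (Σ _ : ℕ, ℕ) :=
  N.divisors.sigma (fun δ => (Finset.range (gg N δ)).filter (fun r => (gg N δ).Coprime r))

lemma card_idx : (idx N).card = cuspCount N := by
  rw [idx, Finset.card_sigma, cuspCount]
  rfl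

lemma exists_lift [NeZero N] (p : Σ _ : ℕ, ℕ) (hp : p ∈ idx N) :
    ∃ z : ℤ, ((gg N p.1 : ℕ) : ℤ) ∣ z - p.2 ∧ IsCoprime z ((N / p.1 : ℕ) : ℤ) := by
  obtain ⟨h1, h2⟩ := Finset.mem_sigma.mp hp
  have h3 := (Finset.mem_filter.mp h2).2
  have hd : p.1 ∣ N := Nat.dvd_of_mem_divisors h1
  have hne : N / p.1 ≠ 0 := by
    have := Nat.div_pos (Nat.le_of_dvd (Nat.pos_of_ne_zero (NeZero.ne N)) hd)
      (Nat.pos_of_dvd_of_pos hd (Nat.pos_of_ne_zero (NeZero.ne N)))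
    omega
  have hc : IsCoprime (p.2 : ℤ) ((gg N p.1 : ℕ) : ℤ) :=
    Nat.isCoprime_iff_coprime.mpr h3.symm
  obtain ⟨k, hk⟩ := exists_coprime_add_mul _ _ hc (N / p.1) hne
  exact ⟨_, ⟨k, by ring⟩, hk⟩

open Classical in
/-- a chosen lift -/
noncomputable def lift [NeZero N] (p : Σ _ : ℕ, ℕ) : ℤ :=
  if hp : p ∈ idx N then (exists_lift N p hp).choose else 0

lemma lift_spec [NeZero N] (p : Σ _ : ℕ, ℕ) (hp : p ∈ idx N) :
    ((gg N p.1 : ℕ) : ℤ) ∣ lift N p - p.2 ∧ IsCoprime (lift N p) ((N / p.1 : ℕ) : ℤ) := by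
  rw [lift, dif_pos hp]
  exact (exists_lift N p hp).choose_spec

/-- the parametrisation of the cusps -/
noncomputable def param [NeZero N] (p : idx N) :
    MulAction.orbitRel.Quotient (Subgroup.zpowers ModularGroup.T) (SL(2, ℤ) ⧸ Gamma0 N) :=
  Quotient.mk'' (QuotientGroup.mk (L (p.1.1 * lift N p.1)) : SL(2, ℤ) ⧸ Gamma0 N)

lemma gcd_mul_lift {δ M : ℕ} {z : ℤ} (hz : IsCoprime z (M : ℤ)) :
    Int.gcd ((δ : ℤ) * z) ((δ * M : ℕ) : ℤ) = δ := by
  push_cast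
  rw [Int.gcd_mul_left, Int.isCoprime_iff_gcd_eq_one.mp hz]
  simp

lemma param_injective [NeZero N] : Function.Injective (param N) := by
  rintro ⟨⟨δ, r⟩, hp⟩ ⟨⟨δ', r'⟩, hp'⟩ h
  have h1 : (QuotientGroup.mk (L (δ * lift N ⟨δ, r⟩)) : SL(2, ℤ) ⧸ Gamma0 N) ∈
      MulAction.orbit (Subgroup.zpowers ModularGroup.T)
        (QuotientGroup.mk (L (δ' * lift N ⟨δ', r'⟩)) : SL(2, ℤ) ⧸ Gamma0 N) := by
    have := Quotient.eq''.mp h
    exact this
  rw [L_mem_orbit_iff] at h1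
  obtain ⟨n, hn⟩ := h1
  obtain ⟨s1, s2⟩ := lift_spec N _ hp
  obtain ⟨s1', s2'⟩ := lift_spec N _ hp'
  obtain ⟨m1, m2⟩ := Finset.mem_sigma.mp hp
  obtain ⟨m1', m2'⟩ := Finset.mem_sigma.mp hp'
  have hd : δ ∣ N := Nat.dvd_of_mem_divisors m1
  have hd' : δ' ∣ N := Nat.dvd_of_mem_divisors m1'
  have hN : δ * (N / δ) = N := Nat.mul_div_cancel' hd
  have hN' : δ' * (N / δ') = N := Nat.mul_div_cancel' hd'
  have hgcd := gcd_eq_of_rel hn
  generalize lift N ⟨δ, r⟩ = z at hn s1 s2 hgcd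
  generalize lift N ⟨δ', r'⟩ = z' at hn s1' s2' hgcd
  have e1 : Int.gcd ((δ : ℤ) * z) (N : ℤ) = δ := by
    have := gcd_mul_lift (δ := δ) s2
    rwa [hN] at this
  have e2 : Int.gcd ((δ' : ℤ) * z') (N : ℤ) = δ' := by
    have := gcd_mul_lift (δ := δ') s2'
    rwa [hN'] at this
  have hδ : δ' = δ := by rw [← e1, ← e2]; exact hgcd
  subst hδ
  have hδ0 : δ' ≠ 0 := by
    rintro rfl
    simp at hd
    exact NeZero.ne N hd
  rw [← hN] at hn
  have h2 := rel_forward hδ0 hn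
  have h3 : ((gg N δ' : ℕ) : ℤ) ∣ (r' : ℤ) - r := by
    have : (r' : ℤ) - r = (z' - z) - (z' - r') + (z - r) := by ring
    rw [this]
    exact dvd_add (dvd_sub h2 s1') s1
  have b1 : r < gg N δ' := Finset.mem_range.mp (Finset.mem_filter.mp m2).1
  have b2 : r' < gg N δ' := Finset.mem_range.mp (Finset.mem_filter.mp m2').1
  have : r' = r := by
    have h4 : (r' : ℤ) ≡ r [ZMOD (gg N δ' : ℕ)] := (Int.modEq_iff_dvd.mpr (by
      have := h3
      rwa [← dvd_neg, neg_sub] at this))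
    have h5 : r' ≡ r [MOD gg N δ'] := (Int.natCast_modEq_iff).mp h4
    exact Nat.ModEq.eq_of_lt_of_lt h5 b2 b1
  subst this
  rfl

lemma param_surjective [NeZero N] : Function.Surjective (param N) := by
  intro q
  induction q using Quotient.inductionOn' with
  | h x =>
  induction x using QuotientGroup.induction_on with
  | H g =>
  obtain ⟨c, hc⟩ := exists_L N g
  have hN0 : N ≠ 0 := NeZero.ne N
  set δ := Int.gcd c N with hδ
  have hδN : δ ∣ N := Int.natCast_dvd_natCast.mp (Int.gcd_dvd_right c N)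
  have hδ0 : δ ≠ 0 := fun h => hN0 (by rw [h] at hδN; simpa using hδN)
  obtain ⟨v, hv⟩ : (δ : ℤ) ∣ c := Int.gcd_dvd_left c N
  have hN : δ * (N / δ) = N := Nat.mul_div_cancel' hδN
  have hvM : IsCoprime v ((N / δ : ℕ) : ℤ) := by
    rw [Int.isCoprime_iff_gcd_eq_one]
    have h1 : Int.gcd ((δ : ℤ) * v) ((δ * (N / δ) : ℕ) : ℤ) = δ := by rw [hN, ← hv]
    rw [Nat.cast_mul, Int.gcd_mul_left, Int.natAbs_natCast] at h1
    exact Nat.eq_of_mul_eq_mul_left (Nat.pos_of_ne_zero hδ0) (by rw [h1, mul_one])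
  have hg0 : gg N δ ≠ 0 := Nat.gcd_ne_zero_left hδ0
  have hgpos : (0 : ℤ) < (gg N δ : ℕ) := by exact_mod_cast Nat.pos_of_ne_zero hg0
  set r : ℕ := (v % (gg N δ : ℕ)).toNat with hr
  have hr' : (r : ℤ) = v % (gg N δ : ℕ) := Int.toNat_of_nonneg (Int.emod_nonneg _ hgpos.ne')
  have hrv : ((gg N δ : ℕ) : ℤ) ∣ v - r := by
    rw [hr']; exact Int.dvd_self_sub_emod
  have hp : (⟨δ, r⟩ : Σ _ : ℕ, ℕ) ∈ idx N := by
    refine Finset.mem_sigma.mpr ⟨Nat.mem_divisors.mpr ⟨hδN, hN0⟩, Finset.mem_filter.mpr ⟨?_, ?_⟩⟩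
    · rw [Finset.mem_range]
      have : (r : ℤ) < (gg N δ : ℕ) := by rw [hr']; exact Int.emod_lt_of_pos _ hgpos
      exact_mod_cast this
    · have hgM : ((gg N δ : ℕ) : ℤ) ∣ ((N / δ : ℕ) : ℤ) :=
        Int.natCast_dvd_natCast.mpr (Nat.gcd_dvd_right ..)
      have h1 : IsCoprime v ((gg N δ : ℕ) : ℤ) := hvM.of_isCoprime_of_dvd_right hgM
      obtain ⟨k, hk⟩ := hrv
      have h2 : IsCoprime (r : ℤ) ((gg N δ : ℕ) : ℤ) := by
        have : (r : ℤ) = v + (gg N δ : ℕ) * (-k) := by linear_combination -hk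
        rw [this]
        exact (IsCoprime.add_mul_left_left_iff).mpr h1
      exact (Nat.isCoprime_iff_coprime.mp h2).symm
  refine ⟨⟨⟨δ, r⟩, hp⟩, ?_⟩
  obtain ⟨s1, s2⟩ := lift_spec N _ hp
  have h3 : ((Nat.gcd δ (N / δ) : ℕ) : ℤ) ∣ lift N ⟨δ, r⟩ - v := by
    have : lift N ⟨δ, r⟩ - v = (lift N ⟨δ, r⟩ - r) - (v - r) := by ring
    rw [this]
    exact dvd_sub s1 hrv
  obtain ⟨n, hn⟩ := rel_backward s2 hvM h3
  rw [hN, ← hv] at hn
  have h4 := (L_mem_orbit_iff N _ _).mpr ⟨n, hn⟩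
  -- `[L c] ∈ orbit [L (δ z)]` and `[L c] ∈ orbit [g]`
  apply Quotient.sound'
  show (MulAction.orbitRel _ _) _ _
  rw [MulAction.orbitRel_apply]
  have h5 : MulAction.orbit (Subgroup.zpowers ModularGroup.T)
      (QuotientGroup.mk (L c) : SL(2, ℤ) ⧸ Gamma0 N) = MulAction.orbit _ (QuotientGroup.mk g : SL(2, ℤ) ⧸ Gamma0 N) :=
    MulAction.orbit_eq_iff.mpr hc
  have h6 : MulAction.orbit (Subgroup.zpowers ModularGroup.T)
      (QuotientGroup.mk (L c) : SL(2, ℤ) ⧸ Gamma0 N) = MulAction.orbit _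
        (QuotientGroup.mk (L (δ * lift N ⟨δ, r⟩)) : SL(2, ℤ) ⧸ Gamma0 N) :=
    MulAction.orbit_eq_iff.mpr h4
  rw [← h5, h6]
  exact MulAction.mem_orbit_self _

end cusps

end Count

variable (N : ℕ) [NeZero N]

theorem card_fix_S : Nat.card {x : SL(2, ℤ) ⧸ Gamma0 N // ModularGroup.S • x = x} = nuTwo N := by
  rw [Count.card_fix_aux N 0 ModularGroup.S, nuTwo]
  · simp
  · intro g
    rw [Matrix.SpecialLinearGroup.coe_mul, ModularGroup.coe_S]
    simp [Matrix.mul_apply, Fin.sum_univ_two]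
    ring

theorem card_fix_ST : Nat.card {x : SL(2, ℤ) ⧸ Gamma0 N // (ModularGroup.S * ModularGroup.T) • x = x}
    = nuThree N := by
  rw [Count.card_fix_aux N 1 (ModularGroup.S * ModularGroup.T), nuThree]
  · simp
  · intro g
    rw [Matrix.SpecialLinearGroup.coe_mul, Matrix.SpecialLinearGroup.coe_mul, ModularGroup.coe_S,
      ModularGroup.coe_T]
    simp [Matrix.mul_apply, Fin.sum_univ_two]
    ring

theorem card_X : Nat.card (SL(2, ℤ) ⧸ Gamma0 N) = dedekindPsi N :=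
  Count.index_Gamma0 N (NeZero.ne N)

theorem card_orbits_T :
    Nat.card (MulAction.orbitRel.Quotient (Subgroup.zpowers ModularGroup.T)
      (SL(2, ℤ) ⧸ Gamma0 N)) = cuspCount N := by
  have h := Nat.card_eq_of_bijective _ ⟨Count.param_injective N, Count.param_surjective N⟩
  rw [← Count.card_idx N]
  exact h.symm.trans (by simp)

/-- variants with `MulAction.fixedBy` -/
theorem card_fixedBy_S :
    Nat.card (MulAction.fixedBy (SL(2, ℤ) ⧸ Gamma0 N) ModularGroup.S) = nuTwo N :=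
  card_fix_S N

theorem card_fixedBy_ST :
    Nat.card (MulAction.fixedBy (SL(2, ℤ) ⧸ Gamma0 N) (ModularGroup.S * ModularGroup.T))
      = nuThree N :=
  card_fix_ST N

theorem finite_X : Finite (SL(2, ℤ) ⧸ Gamma0 N) := inferInstance

theorem neg_one_smul_X (x : SL(2, ℤ) ⧸ Gamma0 N) : (-1 : SL(2, ℤ)) • x = x := by
  induction x using QuotientGroup.induction_on with
  | H g =>
  show (QuotientGroup.mk ((-1 : SL(2, ℤ)) * g) : SL(2, ℤ) ⧸ Gamma0 N) = QuotientGroup.mk g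
  rw [Count.mk_eq_mk_iff]
  simp [mul_comm]

end Fermat.Agent.DimAux
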