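import Mathlib

/-!
# Linear algebra of permutation representations
-/

namespace Fermat.Agent.DimAux

noncomputable section

open Module

section perm

variable {X : Type*} [Fintype X] [DecidableEq X]

/-- number of orbits of a permutation -/
def orb (σ : Equiv.Perm X) : ℕ := Nat.card (MulAction.orbitRel.Quotient (Subgroup.zpowers σ) X)

/-- the operator `v ↦ v ∘ σ`. -/
abbrev permOp (σ : Equiv.Perm X) : Module.End ℂ (X → ℂ) := LinearMap.funLeft ℂ ℂ σ

lemma comp_zpow_eq {v : X → ℂ} {σ : Equiv.Perm X} (h : ∀ x, v (σ x) = v x) (n : ℤ) (x : X) :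
    v ((σ ^ n) x) = v x := by
  have hinv : ∀ x, v (σ⁻¹ x) = v x := fun x => by
    have := h (σ⁻¹ x)
    simpa using this.symm
  induction n using Int.induction_on generalizing x with
  | zero => simp
  | succ n ih => rw [zpow_add_one, Equiv.Perm.mul_apply, ih, h]
  | pred n ih => rw [zpow_sub_one, Equiv.Perm.mul_apply, ih, hinv]

/-- invariant vectors = functions on the orbit space. -/
theorem finrank_invariants (σ : Equiv.Perm X) :
    finrank ℂ (Module.End.eigenspace (permOp σ) 1) = orb σ := by
  classical
  let Q := MulAction.orbitRel.Quotient (Subgroup.zpowers σ) X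
  let mk : X → Q := Quotient.mk _
  have hmk : Function.Surjective mk := Quotient.mk_surjective
  let Φ : (Q → ℂ) →ₗ[ℂ] (X → ℂ) := LinearMap.funLeft ℂ ℂ mk
  have hΦinj : Function.Injective Φ := LinearMap.funLeft_injective_of_surjective ℂ ℂ mk hmk
  have hrange : LinearMap.range Φ = Module.End.eigenspace (permOp σ) 1 := by
    ext v
    rw [Module.End.mem_eigenspace_iff, one_smul]
    constructor
    · rintro ⟨w, rfl⟩
      ext x
      change w (mk (σ x)) = w (mk x)
      congr 1
      apply Quotient.sound
      exact ⟨⟨σ, Subgroup.mem_zpowers σ⟩, rfl⟩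
    · intro hv
      have hv' : ∀ x, v (σ x) = v x := fun x => congrFun hv x
      refine ⟨Quotient.lift v ?_, ?_⟩
      · rintro a b ⟨⟨_, n, rfl⟩, rfl⟩
        exact comp_zpow_eq hv' n b
      · ext x
        rfl
  rw [← hrange, LinearMap.finrank_range_of_inj hΦinj]
  haveI : Fintype Q := Fintype.ofFinite Q
  rw [Module.finrank_fintype_fun_eq_card, orb, Nat.card_eq_fintype_card]

/-- Burnside for a permutation of prime order. -/
theorem orb_of_pow_prime (σ : Equiv.Perm X) (p : ℕ) (hp : p.Prime) (hσ : σ ^ p = 1) :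
    p * orb σ = Fintype.card X + (p - 1) * Fintype.card {x // σ x = x} := by
  classical
  haveI : Fintype (MulAction.orbitRel.Quotient (Subgroup.zpowers σ) X) := Fintype.ofFinite _
  have hB := MulAction.sum_card_fixedBy_eq_card_orbits_mul_card_group (Subgroup.zpowers σ) X
  rw [orb, Nat.card_eq_fintype_card]
  have hfix1 : ∀ g : Subgroup.zpowers σ, g = 1 →
      Fintype.card (MulAction.fixedBy X g) = Fintype.card X := by
    rintro g rfl
    exact Fintype.card_congr ⟨fun x => x.1, fun x => ⟨x, by simp [MulAction.mem_fixedBy]⟩,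
      fun _ => rfl, fun _ => rfl⟩
  by_cases h1 : σ = 1
  · subst h1
    have hcard : Fintype.card (Subgroup.zpowers (1 : Equiv.Perm X)) = 1 := by
      rw [Fintype.card_eq_one_iff]
      refine ⟨1, ?_⟩
      rintro ⟨_, n, rfl⟩
      simp
    have hs : ∀ g : Subgroup.zpowers (1 : Equiv.Perm X), g = 1 := by
      rintro ⟨_, n, rfl⟩
      simp
    rw [hcard, mul_one, Finset.sum_congr rfl (fun g _ => hfix1 g (hs g)), Finset.sum_const,
      Finset.card_univ, hcard, one_smul] at hB
    have hfx : Fintype.card {x : X // (1 : Equiv.Perm X) x = x} = Fintype.card X :=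
      Fintype.card_congr ⟨fun x => x.1, fun x => ⟨x, rfl⟩, fun _ => rfl, fun _ => rfl⟩
    rw [← hB, hfx]
    have := hp.one_lt
    obtain ⟨q, rfl⟩ : ∃ q, p = q + 1 := ⟨p - 1, by omega⟩
    simp; ring
  · haveI : Fact p.Prime := ⟨hp⟩
    have hord : orderOf σ = p := orderOf_eq_prime hσ h1
    have hcard : Fintype.card (Subgroup.zpowers σ) = p := by
      rw [Fintype.card_zpowers, hord]
    have hfixne : ∀ g : Subgroup.zpowers σ, g ≠ 1 →
        Fintype.card (MulAction.fixedBy X g) = Fintype.card {x // σ x = x} := by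
      rintro ⟨_, n, rfl⟩ hg
      have hn : ¬ (p : ℤ) ∣ n := by
        intro hdvd
        apply hg
        apply Subtype.ext
        change σ ^ n = 1
        rw [← hord] at hdvd
        exact (orderOf_dvd_iff_zpow_eq_one).mp hdvd
      have hcop : IsCoprime n (p : ℤ) := by
        have := (Nat.prime_iff_prime_int.mp hp)
        exact (Prime.coprime_iff_not_dvd this).mpr hn |>.symm
      obtain ⟨a, b, hab⟩ := hcop
      have hσn : (σ ^ n) ^ a = σ := by
        have h2 : σ ^ (a * n + b * p) = σ := by rw [hab, zpow_one]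
        rw [zpow_add, mul_comm b, zpow_mul σ (p : ℤ), zpow_natCast, hσ, one_zpow, mul_one, mul_comm,
          zpow_mul] at h2
        exact h2
      refine Fintype.card_congr ⟨fun x => ⟨x.1, ?_⟩, fun x => ⟨x.1, ?_⟩, fun _ => rfl, fun _ => rfl⟩
      · have hx : (σ ^ n) x.1 = x.1 := x.2
        have : ((σ ^ n) ^ a) x.1 = x.1 := Equiv.Perm.zpow_apply_eq_self_of_apply_eq_self hx a
        rwa [hσn] at this
      · have hx : σ x.1 = x.1 := x.2
        exact Equiv.Perm.zpow_apply_eq_self_of_apply_eq_self hx n
    rw [hcard] at hB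
    rw [mul_comm, ← hB, ← Finset.add_sum_erase _ _ (Finset.mem_univ (1 : Subgroup.zpowers σ)),
      hfix1 1 rfl, Finset.sum_congr rfl (fun g hg => hfixne g (Finset.ne_of_mem_erase hg)),
      Finset.sum_const, Finset.card_erase_of_mem (Finset.mem_univ _), Finset.card_univ, hcard,
      smul_eq_mul]

end perm

/-- counting a basis of eigenvectors -/
theorem finrank_eigenspace_of_basis {V ι : Type*} [AddCommGroup V] [Module ℂ V] [Fintype ι]
    [DecidableEq ι] (b : Basis ι ℂ V) (P : Module.End ℂ V) (lam : ι → ℂ)
    (h : ∀ i, P (b i) = lam i • b i) (c : ℂ) :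
    finrank ℂ (Module.End.eigenspace P c) = Fintype.card {i // lam i = c} := by
  classical
  have hspan : Module.End.eigenspace P c =
      Submodule.span ℂ (Set.range fun i : {i // lam i = c} => b i) := by
    apply le_antisymm
    · intro v hv
      rw [Module.End.mem_eigenspace_iff] at hv
      have hv1 : v = ∑ i, b.repr v i • b i := (b.sum_repr v).symm
      have h2 : ∀ i, (lam i - c) * b.repr v i = 0 := by
        intro i
        have e1 : b.repr (P v) i = lam i * b.repr v i := by
          conv_lhs => rw [hv1, map_sum]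
          simp only [map_smul, h, map_sum, Finsupp.coe_finset_sum, Finset.sum_apply,
            Finsupp.smul_apply, Basis.repr_self, smul_eq_mul]
          rw [Finset.sum_eq_single i]
          · simp; ring
          · intro j _ hj
            simp [Finsupp.single_apply, hj]
          · simp
        rw [hv] at e1
        simp only [map_smul, Finsupp.smul_apply, smul_eq_mul] at e1
        linear_combination -e1
      rw [hv1]
      refine Submodule.sum_mem _ fun i _ => ?_
      by_cases hi : lam i = c
      · exact Submodule.smul_mem _ _ (Submodule.subset_span ⟨⟨i, hi⟩, rfl⟩)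
      · have := (mul_eq_zero.mp (h2 i)).resolve_left (sub_ne_zero.mpr hi)
        rw [this, zero_smul]
        exact Submodule.zero_mem _
    · rw [Submodule.span_le]
      rintro _ ⟨⟨i, hi⟩, rfl⟩
      rw [SetLike.mem_coe, Module.End.mem_eigenspace_iff, h i, hi]
  rw [hspan]
  exact finrank_span_eq_card (b.linearIndependent.comp _ Subtype.val_injective)

/-- a unital subalgebra of `X → ℂ` separating points is everything. -/
theorem subalgebra_eq_top_of_separates {X : Type*} [Fintype X] [DecidableEq X]
    (W : Subalgebra ℂ (X → ℂ)) (h : ∀ x y, x ≠ y → ∃ w ∈ W, w x ≠ w y) : W = ⊤ := by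
  classical
  have hind : ∀ x, Pi.single x (1 : ℂ) ∈ W := by
    intro x
    choose! w hw hne using h x
    have hprod : (∏ y ∈ Finset.univ.erase x,
        ((w y x - w y y)⁻¹ • (w y - algebraMap ℂ (X → ℂ) (w y y)))) ∈ W := by
      refine Subalgebra.prod_mem _ fun y hy => ?_
      exact Subalgebra.smul_mem _ (Subalgebra.sub_mem _ (hw y (Finset.ne_of_mem_erase hy).symm)
        (Subalgebra.algebraMap_mem _ _)) _
    convert hprod using 1
    ext z
    rw [Finset.prod_apply]
    by_cases hz : z = x
    · subst hz
      rw [Pi.single_eq_same]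
      symm
      apply Finset.prod_eq_one
      intro y hy
      have := hne y (Finset.ne_of_mem_erase hy).symm
      simp only [Pi.smul_apply, Pi.sub_apply, Pi.algebraMap_apply, Algebra.algebraMap_self,
        RingHom.id_apply, smul_eq_mul]
      exact inv_mul_cancel₀ (sub_ne_zero.mpr this)
    · rw [Pi.single_eq_of_ne hz]
      symm
      apply Finset.prod_eq_zero (Finset.mem_erase.mpr ⟨hz, Finset.mem_univ z⟩)
      simp
  rw [eq_top_iff]
  intro v _
  have : v = ∑ x, v x • Pi.single x (1 : ℂ) := by
    ext z
    simp [Finset.sum_apply, Pi.single_apply]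
  rw [this]
  exact Subalgebra.sum_mem _ fun x _ => Subalgebra.smul_mem _ (hind x) _

/-- eigenvectors for distinct eigenvalues -/
theorem eq_zero_of_sum_eigen {V : Type*} [AddCommGroup V] [Module ℂ V] (P : Module.End ℂ V)
    (N : ℕ) (mu : ℕ → ℂ) (hmu : ∀ i < N, ∀ j < N, mu i = mu j → i = j) (b : ℕ → V)
    (hb : ∀ n < N, P (b n) = mu n • b n) (hs : ∑ n ∈ Finset.range N, b n = 0) :
    ∀ n < N, b n = 0 := by
  classical
  by_contra hcon
  push Not at hcon
  obtain ⟨n0, hn0, hbn0⟩ := hcon
  let s := {n : Fin N // b n ≠ 0}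
  have hli : LinearIndependent ℂ (fun i : s => b i.1) := by
    apply Module.End.eigenvectors_linearIndependent' P (fun i : s => mu i.1)
    · intro i j hij
      apply Subtype.ext
      apply Fin.ext
      exact hmu _ i.1.2 _ j.1.2 hij
    · intro i
      exact ⟨Module.End.mem_eigenspace_iff.mpr (hb _ i.1.2), i.2⟩
  have hsum : ∑ i : s, (1 : ℂ) • b i.1 = 0 := by
    simp only [one_smul]
    have h1 : ∑ i : Fin N, b i = ∑ i ∈ Finset.univ.filter (fun i : Fin N => b i ≠ 0), b i := by
      rw [Finset.sum_filter]
      refine Finset.sum_congr rfl fun i _ => ?_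
      by_cases hi : b i = 0 <;> simp [hi]
    have h2 : ∑ i : s, b i.1 = ∑ i ∈ Finset.univ.filter (fun i : Fin N => b i ≠ 0), b i :=
      (Finset.sum_subtype (p := fun i : Fin N => b i ≠ 0)
      (Finset.univ.filter (fun i : Fin N => b i ≠ 0)) (by simp)
      (fun i : Fin N => b i)).symm
    rw [Finset.sum_range] at hs
    exact h2.trans (h1.symm.trans hs)
  have := (Fintype.linearIndependent_iff.mp hli) (fun _ => 1) hsum ⟨⟨n0, hn0⟩, hbn0⟩
  exact one_ne_zero this

end

end Fermat.Agent.DimAux
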