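import Fermat.Agent.Lib.Dim_Level1
import Fermat.Agent.Lib.Dim_LinAlg

/-!
# Common definitions for the dimension formula: the evaluation matrix
-/

open UpperHalfPlane ModularForm Filter Topology
open scoped Manifold MatrixGroups

namespace Fermat.Agent.DimAux

noncomputable section

/-- evaluation matrix: rows = cosets `x`, columns = generators `y`. -/
def Umat (Γ : Subgroup SL(2, ℤ)) (d : SL(2, ℤ) ⧸ Γ → ℤ) (r : SL(2, ℤ) ⧸ Γ → ℍ → ℂ) (τ : ℍ) :
    Matrix (SL(2, ℤ) ⧸ Γ) (SL(2, ℤ) ⧸ Γ) ℂ :=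
  Matrix.of fun x y => cj Γ (d y) (r y) x τ

@[simp] lemma Umat_apply (Γ : Subgroup SL(2, ℤ)) (d : SL(2, ℤ) ⧸ Γ → ℤ)
    (r : SL(2, ℤ) ⧸ Γ → ℍ → ℂ) (τ : ℍ) (x y : SL(2, ℤ) ⧸ Γ) :
    Umat Γ d r τ x y = cj Γ (d y) (r y) x τ := rfl

instance finiteDimensional_RFun (w : ℤ) : FiniteDimensional ℂ (RFun w) := by
  rcases lt_or_ge w 0 with hneg | hnn
  · rw [RFun_eq_bot_of_neg hneg]; infer_instance
  rcases Int.even_or_odd w with hev | hodd
  · obtain ⟨n, rfl⟩ := Int.eq_ofNat_of_zero_le hnn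
    have hn : Even n := by exact_mod_cast hev
    have : FiniteDimensional ℂ (ModularForm 𝒮ℒ (n : ℤ)) := by
      rw [FiniteDimensional, ← Module.rank_lt_aleph0_iff, dimension_level_one n hn]
      split_ifs <;> exact_mod_cast Cardinal.natCast_lt_aleph0
    exact (equivMF1 (w := (n : ℤ))).finiteDimensional
  · rw [RFun_eq_bot_of_odd hodd]; infer_instance

end

end Fermat.Agent.DimAux
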