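import Fermat.Agent.Lib.Dim_Defs

/-!
# (D) The dual frame: rows of `Δ • U⁻¹` are conjugates of cusp forms
-/

open UpperHalfPlane ModularForm Filter Topology
open scoped Manifold MatrixGroups

namespace Fermat.Agent.DimAux

noncomputable section

lemma mdiff_det_of {X : Type} [Fintype X] [DecidableEq X] (M : X → X → ℍ → ℂ)
    (hM : ∀ x i, MDiff (M x i)) :
    MDiff (fun τ => (Matrix.of fun x i => M x i τ).det) := by
  have : (fun τ => (Matrix.of fun x i => M x i τ).det) =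
      ∑ σ : Equiv.Perm X, ((Equiv.Perm.sign σ : ℤ) : ℂ) • ∏ i, M (σ i) i := by
    ext τ
    simp [Matrix.det_apply, Finset.sum_apply, Finset.prod_apply, Units.smul_def]
  rw [this]
  exact MDifferentiable.sum fun σ _ => (MDifferentiable.prod fun i _ => hM _ _).const_smul _

variable (Γ : Subgroup SL(2, ℤ)) [Γ.FiniteIndex] [Fintype (SL(2, ℤ) ⧸ Γ)]
  [DecidableEq (SL(2, ℤ) ⧸ Γ)] (d : SL(2, ℤ) ⧸ Γ → ℤ) (r : SL(2, ℤ) ⧸ Γ → ℍ → ℂ)

omit [Γ.FiniteIndex] in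
lemma mdiff_Umat_det (hr : ∀ y, r y ∈ MFun Γ (d y)) : MDiff (fun τ => (Umat Γ d r τ).det) :=
  mdiff_det_of (fun x y => cj Γ (d y) (r y) x) fun x y => cj_mdiff (hr y) x

omit [Γ.FiniteIndex] in
lemma mdiff_Umat_adjugate (hr : ∀ y, r y ∈ MFun Γ (d y)) (x y : SL(2, ℤ) ⧸ Γ) :
    MDiff (fun τ => (Umat Γ d r τ).adjugate y x) := by
  have : (fun τ => (Umat Γ d r τ).adjugate y x) = fun τ =>
      (Matrix.of fun a b => (if a = x then (fun _ => if b = y then 1 else 0 : ℍ → ℂ)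
        else cj Γ (d b) (r b) a) τ).det := by
    ext τ
    rw [Matrix.adjugate_apply]
    congr 1
    ext a b
    by_cases ha : a = x
    · subst ha
      simp [Pi.single_apply]
    · simp [ha, Matrix.updateRow_apply]
  rw [this]
  refine mdiff_det_of _ fun a b => ?_
  by_cases ha : a = x
  · simp only [ha, if_true]; exact mdifferentiable_const
  · simp only [ha, if_false]; exact cj_mdiff (hr b) a

omit [Γ.FiniteIndex] in
lemma mdiff_Umat_inv (hr : ∀ y, r y ∈ MFun Γ (d y)) (hU : ∀ τ, IsUnit (Umat Γ d r τ).det)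
    (x y : SL(2, ℤ) ⧸ Γ) : MDiff (fun τ => (Umat Γ d r τ)⁻¹ y x) := by
  have : (fun τ => (Umat Γ d r τ)⁻¹ y x) =
      fun τ => ((Umat Γ d r τ).det)⁻¹ * (Umat Γ d r τ).adjugate y x := by
    ext τ
    rw [Matrix.inv_def, Matrix.smul_apply, Ring.inverse_eq_inv', smul_eq_mul]
  rw [this]
  refine MDifferentiable.mul ?_ (mdiff_Umat_adjugate Γ d r hr x y)
  have h1 := mdiff_Umat_det Γ d r hr
  rw [UpperHalfPlane.mdifferentiable_iff] at h1 ⊢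
  have : ((fun τ => ((Umat Γ d r τ).det)⁻¹) ∘ ofComplex) =
      fun z => (((fun τ => (Umat Γ d r τ).det) ∘ ofComplex) z)⁻¹ := rfl
  rw [this]
  exact h1.inv fun z _ => (hU _).ne_zero

omit [Γ.FiniteIndex] in
/-- equivariance of the inverse matrix -/
lemma Umat_inv_smul (hr : ∀ y, r y ∈ MFun Γ (d y)) (hU : ∀ τ, IsUnit (Umat Γ d r τ).det)
    (γ : SL(2, ℤ)) (τ : ℍ) (x y : SL(2, ℤ) ⧸ Γ) :
    (Umat Γ d r (γ • τ))⁻¹ y x = denom γ τ ^ (-d y) * (Umat Γ d r τ)⁻¹ y (γ⁻¹ • x) := by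
  have key : (Umat Γ d r (γ • τ))⁻¹ =
      Matrix.of fun y x => denom γ τ ^ (-d y) * (Umat Γ d r τ)⁻¹ y (γ⁻¹ • x) := by
    apply Matrix.inv_eq_left_inv
    ext a b
    rw [Matrix.mul_apply]
    have h1 : ∀ x, (Matrix.of fun y x => denom γ τ ^ (-d y) * (Umat Γ d r τ)⁻¹ y (γ⁻¹ • x)) a x *
        Umat Γ d r (γ • τ) x b =
        denom γ τ ^ (-d a) * denom γ τ ^ (d b) *
          ((Umat Γ d r τ)⁻¹ a (γ⁻¹ • x) * Umat Γ d r τ (γ⁻¹ • x) b) := by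
      intro x
      rw [Matrix.of_apply, Umat_apply, Umat_apply, cj_smul_apply (hr b).2.1]
      ring
    rw [Finset.sum_congr rfl fun x _ => h1 x, ← Finset.mul_sum]
    have h2 : ∑ x, (Umat Γ d r τ)⁻¹ a (γ⁻¹ • x) * Umat Γ d r τ (γ⁻¹ • x) b =
        ∑ x, (Umat Γ d r τ)⁻¹ a x * Umat Γ d r τ x b :=
      Equiv.sum_comp (MulAction.toPerm γ⁻¹) fun x => (Umat Γ d r τ)⁻¹ a x * Umat Γ d r τ x b
    rw [h2, ← Matrix.mul_apply, Matrix.nonsing_inv_mul _ (hU τ)]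
    by_cases hab : a = b
    · subst hab
      rw [Matrix.one_apply_eq, mul_one, ← zpow_add₀ (denom_ne_zero γ τ)]
      simp
    · rw [Matrix.one_apply_ne hab, mul_zero]
  rw [key, Matrix.of_apply]

omit [Γ.FiniteIndex] in
lemma dual_slash (hr : ∀ y, r y ∈ MFun Γ (d y)) (hU : ∀ τ, IsUnit (Umat Γ d r τ).det)
    (γ : SL(2, ℤ)) (x y : SL(2, ℤ) ⧸ Γ) :
    (fun τ => discriminant τ * (Umat Γ d r τ)⁻¹ y x) ∣[12 - d y] γ =
      fun τ => discriminant τ * (Umat Γ d r τ)⁻¹ y (γ⁻¹ • x) := by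
  ext τ
  rw [SL_slash_apply, Umat_inv_smul Γ d r hr hU, slash_apply' (k := 12) discriminant γ τ,
    Delta_mem.2.1 γ (Subgroup.mem_top _)]
  have h0 := denom_ne_zero γ τ
  have : denom γ τ ^ (12 : ℤ) * denom γ τ ^ (-d y) * denom γ τ ^ (-(12 - d y)) = 1 := by
    rw [← zpow_add₀ h0, ← zpow_add₀ h0]
    have : (12 : ℤ) + -d y + -(12 - d y) = 0 := by ring
    rw [this, zpow_zero]
  linear_combination (discriminant τ * (Umat Γ d r τ)⁻¹ y (γ⁻¹ • x)) * this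

omit [Γ.FiniteIndex] in
theorem exists_dual (hr : ∀ y, r y ∈ MFun Γ (d y)) (hU : ∀ τ, IsUnit (Umat Γ d r τ).det)
    (hinf : ∀ x y, Tendsto (fun τ => discriminant τ * (Umat Γ d r τ)⁻¹ y x) atImInfty (𝓝 0))
    (y : SL(2, ℤ) ⧸ Γ) :
    ∃ s ∈ SFun Γ (12 - d y), ∀ x τ,
      cj Γ (12 - d y) s x τ = discriminant τ * (Umat Γ d r τ)⁻¹ y x := by
  refine ⟨fun τ => discriminant τ * (Umat Γ d r τ)⁻¹ y ((1 : SL(2, ℤ)) : SL(2, ℤ) ⧸ Γ),
    ⟨?_, ?_, ?_⟩, ?_⟩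
  · exact Delta_mem.1.mul (mdiff_Umat_inv Γ d r hr hU _ y)
  · intro g hg
    rw [dual_slash Γ d r hr hU]
    have : g⁻¹ • ((1 : SL(2, ℤ)) : SL(2, ℤ) ⧸ Γ) = ((1 : SL(2, ℤ)) : SL(2, ℤ) ⧸ Γ) := by
      rw [MulAction.Quotient.smul_coe, QuotientGroup.eq]
      simpa using hg
    rw [this]
  · intro γ
    rw [dual_slash Γ d r hr hU]
    exact hinf _ y
  · intro x τ
    unfold cj
    rw [dual_slash Γ d r hr hU, inv_inv, MulAction.Quotient.smul_coe, smul_eq_mul, mul_one]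
    show discriminant τ * (Umat Γ d r τ)⁻¹ y ((Quotient.out x : SL(2, ℤ)) : SL(2, ℤ) ⧸ Γ) = _
    rw [QuotientGroup.out_eq']

end

end Fermat.Agent.DimAux
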