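import Fermat.Agent.Lib.Dim_Defs

/-!
# (M2) evaluation of the frame at the elliptic points `i` and `ρ`
-/

open UpperHalfPlane ModularForm Filter Topology
open scoped Manifold MatrixGroups

namespace Fermat.Agent.DimAux

noncomputable section

variable (Γ : Subgroup SL(2, ℤ)) [Γ.FiniteIndex] [Fintype (SL(2, ℤ) ⧸ Γ)]
  [DecidableEq (SL(2, ℤ) ⧸ Γ)] (d : SL(2, ℤ) ⧸ Γ → ℤ) (r : SL(2, ℤ) ⧸ Γ → ℍ → ℂ)

omit [Γ.FiniteIndex] in
/-- General statement: `γ` fixes `τ` and `denom γ τ` is a primitive `n`-th root of unity. -/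
theorem card_dvd_of_fixed (hr : ∀ y, r y ∈ MFun Γ (d y)) (hU : ∀ τ, IsUnit (Umat Γ d r τ).det)
    (γ : SL(2, ℤ)) (τ : ℍ) (hfix : γ • τ = τ) (n : ℕ) (hprim : IsPrimitiveRoot (denom γ τ) n) :
    Fintype.card {y // (n : ℤ) ∣ d y}
      = orb (MulAction.toPerm γ : Equiv.Perm (SL(2, ℤ) ⧸ Γ)) := by
  classical
  have hunit : IsUnit (Umat Γ d r τ) := (Matrix.isUnit_iff_isUnit_det _).mpr (hU τ)
  have hli : LinearIndependent ℂ (Umat Γ d r τ).col :=
    Matrix.linearIndependent_cols_iff_isUnit.mpr hunit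
  let b := basisOfLinearIndependentOfCardEqFinrank hli
    (by rw [Module.finrank_fintype_fun_eq_card])
  have hb : ∀ y, b y = (Umat Γ d r τ).col y := fun y => by
    simp [b]
  have heig : ∀ y, permOp (MulAction.toPerm γ : Equiv.Perm (SL(2, ℤ) ⧸ Γ)) (b y)
      = (denom γ τ ^ d y) • b y := by
    intro y
    rw [hb]
    ext x
    have h1 := cj_smul_apply (hr y).2.1 (γ • x) γ τ
    rw [hfix, inv_smul_smul] at h1
    simpa [Matrix.col, LinearMap.funLeft_apply] using h1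
  rw [← finrank_invariants, finrank_eigenspace_of_basis b _ _ heig 1]
  refine Fintype.card_congr (Equiv.subtypeEquivRight fun y => ?_)
  exact (hprim.zpow_eq_one_iff_dvd (d y)).symm

theorem card_four_dvd (hr : ∀ y, r y ∈ MFun Γ (d y)) (hU : ∀ τ, IsUnit (Umat Γ d r τ).det) :
    Fintype.card {y // (4 : ℤ) ∣ d y} = orb (MulAction.toPerm (ModularGroup.S : SL(2, ℤ)) :
      Equiv.Perm (SL(2, ℤ) ⧸ Γ)) := by
  have hfix : (ModularGroup.S : SL(2, ℤ)) • (I : ℍ) = I := ModularGroup.stabilizer_I.mpr (by simp)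
  have hden : denom (ModularGroup.S : SL(2, ℤ)) (I : ℍ) = Complex.I := by
    rw [ModularGroup.denom_S]; rfl
  have hprim : IsPrimitiveRoot (denom (ModularGroup.S : SL(2, ℤ)) (I : ℍ)) 4 := by
    rw [hden]
    exact Complex.isPrimitiveRoot_I
  exact card_dvd_of_fixed Γ d r hr hU _ _ hfix 4 hprim

omit [Γ.FiniteIndex] [Fintype (SL(2, ℤ) ⧸ Γ)] [DecidableEq (SL(2, ℤ) ⧸ Γ)] in
lemma isPrimitiveRoot_rho_add_one : IsPrimitiveRoot ((ρ : ℂ) + 1) 6 := by
  have hsq := ρ_sq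
  have hne : ∀ c : ℝ, (ρ : ℂ) ≠ c := by
    intro c h
    have := congrArg Complex.im h
    simp only [coe_im, Complex.ofReal_im] at this
    exact ρ.im_ne_zero this
  have h2 : ((ρ : ℂ) + 1) ^ 2 = ρ := by linear_combination hsq
  have h3 : ((ρ : ℂ) + 1) ^ 3 = -1 := by linear_combination ((ρ : ℂ) + 2) * hsq
  refine IsPrimitiveRoot.mk_of_lt _ (by norm_num) ?_ ?_
  · calc ((ρ : ℂ) + 1) ^ 6 = (((ρ : ℂ) + 1) ^ 3) ^ 2 := by ring
      _ = 1 := by rw [h3]; norm_num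
  · intro l hl hl6 h
    interval_cases l
    · exact hne 0 (by push_cast; linear_combination h)
    · exact hne 1 (by push_cast; linear_combination h - h2)
    · rw [h3] at h; norm_num at h
    · have : ((ρ : ℂ) + 1) ^ 4 = -((ρ : ℂ) + 1) := by
        calc ((ρ : ℂ) + 1) ^ 4 = ((ρ : ℂ) + 1) ^ 3 * ((ρ : ℂ) + 1) := by ring
          _ = _ := by rw [h3]; ring
      exact hne (-2) (by push_cast; linear_combination this - h)
    · have : ((ρ : ℂ) + 1) ^ 5 = -(ρ : ℂ) := by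
        calc ((ρ : ℂ) + 1) ^ 5 = ((ρ : ℂ) + 1) ^ 3 * ((ρ : ℂ) + 1) ^ 2 := by ring
          _ = _ := by rw [h3, h2]; ring
      exact hne (-1) (by push_cast; linear_combination this - h)

theorem card_six_dvd (hr : ∀ y, r y ∈ MFun Γ (d y)) (hU : ∀ τ, IsUnit (Umat Γ d r τ).det) :
    Fintype.card {y // (6 : ℤ) ∣ d y} = orb (MulAction.toPerm
      (ModularGroup.S * ModularGroup.T : SL(2, ℤ)) : Equiv.Perm (SL(2, ℤ) ⧸ Γ)) := by
  have hfix : (ModularGroup.S * ModularGroup.T : SL(2, ℤ)) • (ρ : ℍ) = ρ :=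
    ModularGroup.stabilizer_ρ.mpr (by simp)
  have hden : denom (ModularGroup.S * ModularGroup.T : SL(2, ℤ)) (ρ : ℍ) = (ρ : ℂ) + 1 := by
    rw [ModularGroup.denom_apply, Matrix.SpecialLinearGroup.coe_mul, ModularGroup.coe_S,
      ModularGroup.coe_T]
    simp [Matrix.mul_apply, Fin.sum_univ_two]
  have hprim : IsPrimitiveRoot (denom (ModularGroup.S * ModularGroup.T : SL(2, ℤ)) (ρ : ℍ)) 6 := by
    rw [hden]
    exact isPrimitiveRoot_rho_add_one
  exact card_dvd_of_fixed Γ d r hr hU _ _ hfix 6 hprim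

end

end Fermat.Agent.DimAux
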