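import Mathlib

/-!
# Abstract freeness of a graded module over `ℂ[e4, e6]` from the regular sequence property
-/

namespace Fermat.Agent.DimAux

section

variable {A : Type} [CommRing A] [Algebra ℂ A] {I : Type}

/-- `f` is a combination of the `r i` with coefficients in `R (k - d i)`. -/
def Rep (R : ℤ → Submodule ℂ A) (d : I → ℤ) (r : I → A) (k : ℤ) (f : A) : Prop :=
  ∃ a : I →₀ A, (∀ i, a i ∈ R (k - d i)) ∧ f = a.sum fun i c => c * r i

variable {R : ℤ → Submodule ℂ A} {d : I → ℤ} {r : I → A}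

lemma Rep.zero (k : ℤ) : Rep R d r k 0 := ⟨0, fun i => by simp, by simp⟩

lemma Rep.add {k : ℤ} {f g : A} (hf : Rep R d r k f) (hg : Rep R d r k g) : Rep R d r k (f + g) := by
  obtain ⟨a, ha, rfl⟩ := hf
  obtain ⟨b, hb, rfl⟩ := hg
  refine ⟨a + b, fun i => (R _).add_mem (ha i) (hb i), ?_⟩
  rw [Finsupp.sum_add_index' (fun i => by simp) (fun i c c' => by ring)]

lemma Rep.mul (hRR : ∀ w w', ∀ a ∈ R w, ∀ b ∈ R w', a * b ∈ R (w + w')) {w k K : ℤ} (hK : K = w + k)
    {e f : A} (he : e ∈ R w) (hf : Rep R d r k f) : Rep R d r K (e * f) := by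
  obtain ⟨a, ha, rfl⟩ := hf
  refine ⟨a.mapRange (e * ·) (mul_zero e), fun i => ?_, ?_⟩
  · have := hRR w (k - d i) e he (a i) (ha i)
    rw [show w + (k - d i) = K - d i by rw [hK]; ring] at this
    simpa using this
  · rw [Finsupp.sum_mapRange_index (fun i => by simp), Finsupp.mul_sum]
    refine Finsupp.sum_congr fun i _ => by ring

lemma Rep.single [DecidableEq I] {k : ℤ} (i : I) {c : A} (hc : c ∈ R (k - d i)) :
    Rep R d r k (c * r i) := by
  classical
  refine ⟨Finsupp.single i c, fun j => ?_, ?_⟩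
  · by_cases hj : j = i
    · subst hj; simpa using hc
    · rw [Finsupp.single_apply, if_neg (Ne.symm hj)]; exact (R _).zero_mem
  · rw [Finsupp.sum_single_index (by simp)]

end

section

variable {A : Type} [CommRing A] [Algebra ℂ A]

/-- Index set: pairs (weight, basis vector of the chosen complement in that weight). -/
abbrev Idx (C : ℤ → Submodule ℂ A) : Type := Σ k : ℤ, Module.Basis.ofVectorSpaceIndex ℂ (C k)

/-- The weight of a generator. -/
def dI (C : ℤ → Submodule ℂ A) : Idx C → ℤ := fun i => i.1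

/-- The generator. -/
noncomputable def rI (C : ℤ → Submodule ℂ A) : Idx C → A :=
  fun i => (Module.Basis.ofVectorSpace ℂ (C i.1) i.2 : A)

variable {R M C : ℤ → Submodule ℂ A} {e4 e6 : A}

lemma rI_mem (C : ℤ → Submodule ℂ A) (i : Idx C) : rI C i ∈ C (dI C i) :=
  (Module.Basis.ofVectorSpace ℂ (C i.1) i.2).2

lemma rep_of_mem_C (hR0' : ∀ c : ℂ, algebraMap ℂ A c ∈ R 0) (k : ℤ) {c : A} (hc : c ∈ C k) :
    Rep R (dI C) (rI C) k c := by
  classical
  have key : ∀ l : Module.Basis.ofVectorSpaceIndex ℂ (C k) →₀ ℂ, Rep R (dI C) (rI C) k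
      (Finsupp.linearCombination ℂ (fun b => (Module.Basis.ofVectorSpace ℂ (C k) b : A)) l) := by
    intro l
    induction l using Finsupp.induction_linear with
    | zero => simpa using Rep.zero k
    | add f g hf hg => rw [map_add]; exact hf.add hg
    | single b t =>
      rw [Finsupp.linearCombination_single, Algebra.smul_def]
      refine Rep.single (⟨k, b⟩ : Idx C) ?_
      have : k - dI C ⟨k, b⟩ = 0 := sub_self k
      rw [this]
      exact hR0' t
  have h1 := Module.Basis.linearCombination_repr (Module.Basis.ofVectorSpace ℂ (C k)) ⟨c, hc⟩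
  have h2 := congrArg (C k).subtype h1
  rw [Finsupp.apply_linearCombination] at h2
  have h3 := key ((Module.Basis.ofVectorSpace ℂ (C k)).repr ⟨c, hc⟩)
  have h4 : (Finsupp.linearCombination ℂ (fun b => (Module.Basis.ofVectorSpace ℂ (C k) b : A)))
      ((Module.Basis.ofVectorSpace ℂ (C k)).repr ⟨c, hc⟩) = c := h2
  rwa [h4] at h3

/-- Generation. -/
lemma rep_of_mem_M (he4 : e4 ∈ R 4) (he6 : e6 ∈ R 6)
    (hRR : ∀ w w', ∀ a ∈ R w, ∀ b ∈ R w', a * b ∈ R (w + w'))
    (hM : ∀ k < 0, M k = ⊥) (hR0' : ∀ c : ℂ, algebraMap ℂ A c ∈ R 0)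
    (hdec : ∀ k, ∀ f ∈ M k, ∃ c ∈ C k, ∃ x ∈ M (k - 4), ∃ y ∈ M (k - 6), f = c + (e4 * x + e6 * y))
    (n : ℕ) : ∀ k : ℤ, k < n → ∀ f ∈ M k, Rep R (dI C) (rI C) k f := by
  induction n with
  | zero =>
    intro k hk f hf
    rw [hM k (by simpa using hk)] at hf
    rw [(Submodule.mem_bot ℂ).mp hf]
    exact Rep.zero k
  | succ n ih =>
    intro k hk f hf
    obtain ⟨c, hc, x, hx, y, hy, rfl⟩ := hdec k f hf
    have hk' : k < n + 1 := by exact_mod_cast hk
    refine (rep_of_mem_C hR0' k hc).add (Rep.add ?_ ?_)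
    · exact Rep.mul hRR (by ring) he4 (ih (k - 4) (by omega) x hx)
    · exact Rep.mul hRR (by ring) he6 (ih (k - 6) (by omega) y hy)


lemma dI_nonneg (hM : ∀ k < 0, M k = ⊥) (hCle : ∀ k, C k ≤ M k) (i : Idx C) : 0 ≤ dI C i := by
  by_contra h
  have h1 : rI C i ∈ M (dI C i) := hCle _ (rI_mem C i)
  rw [hM _ (not_le.mp h), Submodule.mem_bot] at h1
  have h2 := (Module.Basis.ofVectorSpace ℂ (C i.1)).ne_zero i.2
  exact h2 (Subtype.ext h1)

/-- Linear independence of the generators of a given weight. -/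
lemma const_part_eq_zero (K : ℤ) (cF : Idx C →₀ ℂ) (hsupp : ∀ i, cF i ≠ 0 → dI C i = K)
    (hsum : (cF.sum fun i t => algebraMap ℂ A t * rI C i) = 0) : cF = 0 := by
  classical
  have hsplit : ∀ k, k ≠ K → Finsupp.split cF k = 0 := by
    intro k hk
    ext b
    rw [Finsupp.split_apply]
    by_contra h
    exact hk (hsupp ⟨k, b⟩ h)
  rw [Finsupp.sigma_sum] at hsum
  rw [Finset.sum_eq_single K (fun k _ hk => by rw [hsplit k hk]; simp)
    (fun hK => by
      rw [Finsupp.mem_splitSupport_iff_nonzero, not_not] at hK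
      rw [hK]; simp)] at hsum
  have h1 : ((Finsupp.linearCombination ℂ (Module.Basis.ofVectorSpace ℂ (C K))
      (Finsupp.split cF K) : C K) : A) = 0 := by
    rw [← hsum, Finsupp.linearCombination_apply]
    rw [← Submodule.subtype_apply, map_finsuppSum]
    refine Finsupp.sum_congr fun b _ => ?_
    rw [map_smul, Algebra.smul_def]
    rfl
  have h2 : Finsupp.linearCombination ℂ (Module.Basis.ofVectorSpace ℂ (C K))
      (Finsupp.split cF K) = 0 := Subtype.ext h1
  have h3 := linearIndependent_iff.mp (Module.Basis.ofVectorSpace ℂ (C K)).linearIndependent _ h2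
  ext ⟨k, b⟩
  by_cases hk : k = K
  · subst hk
    have := DFunLike.congr_fun h3 b
    rwa [Finsupp.split_apply] at this
  · have := DFunLike.congr_fun (hsplit k hk) b
    rwa [Finsupp.split_apply] at this


/-- Uniqueness. -/
lemma unique_rep (he4 : e4 ∈ R 4) (he6 : e6 ∈ R 6)
    (hRR : ∀ w w', ∀ a ∈ R w, ∀ b ∈ R w', a * b ∈ R (w + w'))
    (hRM : ∀ w k, ∀ a ∈ R w, ∀ f ∈ M k, a * f ∈ M (w + k))
    (hM : ∀ k < 0, M k = ⊥) (hRneg : ∀ w < 0, R w = ⊥)
    (hR0 : ∀ a ∈ R 0, ∃ c : ℂ, a = algebraMap ℂ A c) (hR0' : ∀ c : ℂ, algebraMap ℂ A c ∈ R 0)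
    (hR : ∀ w, w ≠ 0 → ∀ a ∈ R w, ∃ b ∈ R (w - 4), ∃ b' ∈ R (w - 6), a = e4 * b + e6 * b')
    (hreg : ∀ k, ∀ x ∈ M (k - 4), ∀ y ∈ M (k - 6), e4 * x + e6 * y = 0 →
      ∃ z ∈ M (k - 10), x = - e6 * z ∧ y = e4 * z)
    (hCle : ∀ k, C k ≤ M k)
    (hCdisj : ∀ k, ∀ c ∈ C k, ∀ x ∈ M (k - 4), ∀ y ∈ M (k - 6), c + (e4 * x + e6 * y) = 0 → c = 0)
    (hdec : ∀ k, ∀ f ∈ M k, ∃ c ∈ C k, ∃ x ∈ M (k - 4), ∃ y ∈ M (k - 6), f = c + (e4 * x + e6 * y))
    (n : ℕ) : ∀ K : ℤ, K < n → ∀ a : Idx C →₀ A, (∀ i, a i ∈ R (K - dI C i)) →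
      (a.sum fun i c => c * rI C i) = 0 → a = 0 := by
  classical
  induction n with
  | zero =>
    intro K hK a ha _
    ext i
    have h1 := ha i
    have h2 := dI_nonneg hM hCle i
    rw [hRneg _ (by have : K < 0 := by simpa using hK
                    omega), Submodule.mem_bot] at h1
    simpa using h1
  | succ n ih =>
    intro K hK a ha hsum
    have hK' : K < n + 1 := by exact_mod_cast hK
    have hex : ∀ i, ∃ (c : ℂ) (b b' : A), b ∈ R (K - 4 - dI C i) ∧ b' ∈ R (K - 6 - dI C i) ∧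
        a i = algebraMap ℂ A c + (e4 * b + e6 * b') ∧ (dI C i ≠ K → c = 0) ∧
        (a i = 0 → c = 0 ∧ b = 0 ∧ b' = 0) := by
      intro i
      by_cases h0 : a i = 0
      · exact ⟨0, 0, 0, (R _).zero_mem, (R _).zero_mem, by simp [h0], fun _ => rfl,
          fun _ => ⟨rfl, rfl, rfl⟩⟩
      by_cases hd : dI C i = K
      · have h1 := ha i
        rw [hd, sub_self] at h1
        obtain ⟨c, hc⟩ := hR0 _ h1
        exact ⟨c, 0, 0, (R _).zero_mem, (R _).zero_mem, by simp [hc], fun h => absurd hd h,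
          fun h => absurd h h0⟩
      · obtain ⟨b, hb, b', hb', hab⟩ := hR (K - dI C i) (sub_ne_zero.mpr (Ne.symm hd)) _ (ha i)
        refine ⟨0, b, b', ?_, ?_, by simp [hab], fun _ => rfl, fun h => absurd h h0⟩
        · rwa [show K - 4 - dI C i = K - dI C i - 4 by ring]
        · rwa [show K - 6 - dI C i = K - dI C i - 6 by ring]
    choose c b b' hb hb' hab hc0 hzero using hex
    let cF : Idx C →₀ ℂ := Finsupp.onFinset a.support c (fun i hi => by
      rw [Finsupp.mem_support_iff]; intro h; exact hi (hzero i h).1)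
    let bF : Idx C →₀ A := Finsupp.onFinset a.support b (fun i hi => by
      rw [Finsupp.mem_support_iff]; intro h; exact hi (hzero i h).2.1)
    let bF' : Idx C →₀ A := Finsupp.onFinset a.support b' (fun i hi => by
      rw [Finsupp.mem_support_iff]; intro h; exact hi (hzero i h).2.2)
    have hcF : (cF.sum fun i t => algebraMap ℂ A t * rI C i) =
        ∑ i ∈ a.support, algebraMap ℂ A (c i) * rI C i :=
      Finsupp.onFinset_sum _ (fun i => by simp)
    have hbF : (bF.sum fun i t => t * rI C i) = ∑ i ∈ a.support, b i * rI C i :=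
      Finsupp.onFinset_sum _ (fun i => by simp)
    have hbF' : (bF'.sum fun i t => t * rI C i) = ∑ i ∈ a.support, b' i * rI C i :=
      Finsupp.onFinset_sum _ (fun i => by simp)
    have hX : (bF.sum fun i t => t * rI C i) ∈ M (K - 4) := by
      rw [hbF]
      refine Submodule.sum_mem _ fun i _ => ?_
      have := hRM _ _ _ (hb i) _ (hCle _ (rI_mem C i))
      rwa [show K - 4 - dI C i + dI C i = K - 4 by ring] at this
    have hY : (bF'.sum fun i t => t * rI C i) ∈ M (K - 6) := by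
      rw [hbF']
      refine Submodule.sum_mem _ fun i _ => ?_
      have := hRM _ _ _ (hb' i) _ (hCle _ (rI_mem C i))
      rwa [show K - 6 - dI C i + dI C i = K - 6 by ring] at this
    have hcC : (cF.sum fun i t => algebraMap ℂ A t * rI C i) ∈ C K := by
      rw [hcF]
      refine Submodule.sum_mem _ fun i _ => ?_
      by_cases hd : dI C i = K
      · rw [← Algebra.smul_def]
        exact (C K).smul_mem _ (hd ▸ rI_mem C i)
      · rw [hc0 i hd]; simp
    have htot : (cF.sum fun i t => algebraMap ℂ A t * rI C i) +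
        (e4 * (bF.sum fun i t => t * rI C i) + e6 * (bF'.sum fun i t => t * rI C i)) = 0 := by
      rw [← hsum, hcF, hbF, hbF', Finsupp.sum, Finset.mul_sum, Finset.mul_sum,
        ← Finset.sum_add_distrib, ← Finset.sum_add_distrib]
      refine Finset.sum_congr rfl fun i _ => ?_
      rw [hab i]; ring
    have hc_zero := hCdisj K _ hcC _ hX _ hY htot
    have hcF0 : cF = 0 := const_part_eq_zero K cF (fun i hi => by
      by_contra hd
      exact hi (hc0 i hd)) hc_zero
    rw [hc_zero, zero_add] at htot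
    obtain ⟨z, hz, hXz, hYz⟩ := hreg K _ hX _ hY htot
    obtain ⟨zF, hzF, hzsum⟩ := rep_of_mem_M (C := C) he4 he6 hRR hM hR0' hdec (K - 10 + 1).toNat
      (K - 10) (by omega) z hz
    have h1 : bF + zF.mapRange (e6 * ·) (mul_zero e6) = 0 := by
      refine ih (K - 4) (by omega) _ (fun i => ?_) ?_
      · refine (R _).add_mem (hb i) ?_
        have := hRR 6 _ e6 he6 _ (hzF i)
        rw [show 6 + (K - 10 - dI C i) = K - 4 - dI C i by ring] at this
        simpa using this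
      · rw [Finsupp.sum_add_index' (fun i => by simp) (fun i c c' => by ring), hXz,
          Finsupp.sum_mapRange_index (fun i => by simp), hzsum, Finsupp.mul_sum,
          ← Finsupp.sum_add]
        refine Finset.sum_eq_zero fun i _ => by ring
    have h2 : bF' - zF.mapRange (e4 * ·) (mul_zero e4) = 0 := by
      refine ih (K - 6) (by omega) _ (fun i => ?_) ?_
      · refine (R _).sub_mem (hb' i) ?_
        have := hRR 4 _ e4 he4 _ (hzF i)
        rw [show 4 + (K - 10 - dI C i) = K - 6 - dI C i by ring] at this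
        simpa using this
      · rw [Finsupp.sum_sub_index (fun i c c' => by ring), hYz,
          Finsupp.sum_mapRange_index (fun i => by simp), hzsum, Finsupp.mul_sum, sub_eq_zero]
        refine Finsupp.sum_congr fun i _ => by ring
    ext i
    have e1 : b i + e6 * zF i = 0 := by simpa [bF] using DFunLike.congr_fun h1 i
    have e2 : b' i - e4 * zF i = 0 := by simpa [bF'] using DFunLike.congr_fun h2 i
    have e3 : c i = 0 := by simpa [cF] using DFunLike.congr_fun hcF0 i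
    rw [hab i, e3, map_zero, Finsupp.coe_zero, Pi.zero_apply]
    linear_combination e4 * e1 + e6 * e2

/-- (A) Abstract freeness. -/
theorem exists_free_basis (R M : ℤ → Submodule ℂ A) (e4 e6 : A)
    (he4 : e4 ∈ R 4) (he6 : e6 ∈ R 6)
    (hRR : ∀ w w', ∀ a ∈ R w, ∀ b ∈ R w', a * b ∈ R (w + w'))
    (hRM : ∀ w k, ∀ a ∈ R w, ∀ f ∈ M k, a * f ∈ M (w + k))
    (hM : ∀ k < 0, M k = ⊥) (hRneg : ∀ w < 0, R w = ⊥)
    (hR0 : ∀ a ∈ R 0, ∃ c : ℂ, a = algebraMap ℂ A c) (hR0' : ∀ c : ℂ, algebraMap ℂ A c ∈ R 0)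
    (hR : ∀ w, w ≠ 0 → ∀ a ∈ R w, ∃ b ∈ R (w - 4), ∃ b' ∈ R (w - 6), a = e4 * b + e6 * b')
    (hreg : ∀ k, ∀ x ∈ M (k - 4), ∀ y ∈ M (k - 6), e4 * x + e6 * y = 0 →
      ∃ z ∈ M (k - 10), x = - e6 * z ∧ y = e4 * z) :
    ∃ (I : Type) (d : I → ℤ) (r : I → A), (∀ i, r i ∈ M (d i)) ∧
      (∀ k, ∀ f ∈ M k, ∃ a : I →₀ A, (∀ i, a i ∈ R (k - d i)) ∧ f = a.sum fun i c => c * r i) ∧
      (∀ K, ∀ a : I →₀ A, (∀ i, a i ∈ R (K - d i)) → (a.sum fun i c => c * r i) = 0 → a = 0) := by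
  classical
  -- the decomposable part
  let Nn : ℤ → Submodule ℂ A := fun k =>
    (M (k - 4)).map (LinearMap.mulLeft ℂ e4) ⊔ (M (k - 6)).map (LinearMap.mulLeft ℂ e6)
  have hmemN : ∀ k f, f ∈ Nn k ↔ ∃ x ∈ M (k - 4), ∃ y ∈ M (k - 6), f = e4 * x + e6 * y := by
    intro k f
    simp only [Nn, Submodule.mem_sup, Submodule.mem_map, LinearMap.mulLeft_apply]
    constructor
    · rintro ⟨_, ⟨x, hx, rfl⟩, _, ⟨y, hy, rfl⟩, rfl⟩
      exact ⟨x, hx, y, hy, rfl⟩
    · rintro ⟨x, hx, y, hy, rfl⟩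
      exact ⟨_, ⟨x, hx, rfl⟩, _, ⟨y, hy, rfl⟩, rfl⟩
  have hNle : ∀ k, Nn k ≤ M k := by
    intro k f hf
    obtain ⟨x, hx, y, hy, rfl⟩ := (hmemN k f).mp hf
    refine (M k).add_mem ?_ ?_
    · have := hRM 4 _ e4 he4 x hx
      rwa [show 4 + (k - 4) = k by ring] at this
    · have := hRM 6 _ e6 he6 y hy
      rwa [show 6 + (k - 6) = k by ring] at this
  have hC : ∀ k, ∃ Ck : Submodule ℂ A, Ck ≤ M k ∧ Disjoint Ck (Nn k) ∧ Ck ⊔ Nn k = M k := by
    intro k
    obtain ⟨q, hq⟩ := Submodule.exists_isCompl (Nn k)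
    refine ⟨q ⊓ M k, inf_le_right, ?_, ?_⟩
    · exact (hq.disjoint.symm).mono_left inf_le_left
    · rw [sup_comm, ← sup_inf_assoc_of_le q (hNle k), hq.sup_eq_top, top_inf_eq]
  choose C hCle hCdisj hCsup using hC
  have hdec : ∀ k, ∀ f ∈ M k, ∃ c ∈ C k, ∃ x ∈ M (k - 4), ∃ y ∈ M (k - 6),
      f = c + (e4 * x + e6 * y) := by
    intro k f hf
    rw [← hCsup k, Submodule.mem_sup] at hf
    obtain ⟨c, hc, g, hg, rfl⟩ := hf
    obtain ⟨x, hx, y, hy, rfl⟩ := (hmemN k g).mp hg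
    exact ⟨c, hc, x, hx, y, hy, rfl⟩
  have hdisj : ∀ k, ∀ c ∈ C k, ∀ x ∈ M (k - 4), ∀ y ∈ M (k - 6),
      c + (e4 * x + e6 * y) = 0 → c = 0 := by
    intro k c hc x hx y hy h
    have h1 : c ∈ Nn k := by
      rw [eq_neg_of_add_eq_zero_left h]
      exact (Nn k).neg_mem ((hmemN k _).mpr ⟨x, hx, y, hy, rfl⟩)
    exact (Submodule.disjoint_def.mp (hCdisj k)) c hc h1
  refine ⟨Idx C, dI C, rI C, fun i => hCle _ (rI_mem C i), fun k f hf => ?_, fun K a ha hsum => ?_⟩
  · exact rep_of_mem_M he4 he6 hRR hM hR0' hdec (k + 1).toNat k (by omega) f hf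
  · exact unique_rep he4 he6 hRR hRM hM hRneg hR0 hR0' hR hreg hCle hdisj hdec (K + 1).toNat K
      (by omega) a ha hsum

end

end Fermat.Agent.DimAux
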