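import Fermat.Agent.Lib.Dim_Defs

/-!
# (M1) Dimensions of `MFun Γ k` and `SFun Γ k` from a free frame
-/

open UpperHalfPlane ModularForm Filter Topology
open scoped Manifold MatrixGroups

namespace Fermat.Agent.DimAux

noncomputable section

variable (Γ : Subgroup SL(2, ℤ)) [Γ.FiniteIndex] [Fintype (SL(2, ℤ) ⧸ Γ)]
  [DecidableEq (SL(2, ℤ) ⧸ Γ)] (d : SL(2, ℤ) ⧸ Γ → ℤ) (r : SL(2, ℤ) ⧸ Γ → ℍ → ℂ)

omit [Γ.FiniteIndex] [Fintype (SL(2, ℤ) ⧸ Γ)] [DecidableEq (SL(2, ℤ) ⧸ Γ)] in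
lemma cj_sum {ι : Type*} (k : ℤ) (t : Finset ι) (F : ι → ℍ → ℂ) (x : SL(2, ℤ) ⧸ Γ) :
    cj Γ k (∑ i ∈ t, F i) x = ∑ i ∈ t, cj Γ k (F i) x := by
  classical
  induction t using Finset.induction_on with
  | empty => simp [cj_zero]
  | insert a t ha ih => rw [Finset.sum_insert ha, Finset.sum_insert ha, cj_add, ih]

omit [Γ.FiniteIndex] [Fintype (SL(2, ℤ) ⧸ Γ)] [DecidableEq (SL(2, ℤ) ⧸ Γ)] in
lemma cj_levelOne_mul {k l m : ℤ} (h : k + l = m) {a : ℍ → ℂ} (ha : a ∈ RFun k) (g : ℍ → ℂ)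
    (x : SL(2, ℤ) ⧸ Γ) : cj Γ m (a * g) x = a * cj Γ l g x := by
  subst h
  rw [cj_mul, cj_levelOne ha]

/-- the combination map `a ↦ Σ a y * g y` into `MFun`. -/
def combM (k : ℤ) (hr : ∀ y, r y ∈ MFun Γ (d y)) :
    (∀ y, RFun (k - d y)) →ₗ[ℂ] MFun Γ k where
  toFun a := ⟨∑ y, (a y : ℍ → ℂ) * r y, Submodule.sum_mem _ fun y _ =>
    MFun_cast (sub_add_cancel k (d y)) (mul_mem_MFun (RFun_le_MFun (a y).2) (hr y))⟩
  map_add' a b := by
    apply Subtype.ext
    simp [add_mul, Finset.sum_add_distrib]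
  map_smul' c a := by
    apply Subtype.ext
    simp [Finset.smul_sum]

theorem finrank_MFun_eq (hr : ∀ y, r y ∈ MFun Γ (d y)) (hU : ∀ τ, IsUnit (Umat Γ d r τ).det)
    (hgen : ∀ k, ∀ f ∈ MFun Γ k, ∃ a : SL(2, ℤ) ⧸ Γ → ℍ → ℂ, (∀ y, a y ∈ RFun (k - d y)) ∧ f = ∑ y, a y * r y) (k : ℤ) :
    FiniteDimensional ℂ (MFun Γ k) ∧ Module.finrank ℂ (MFun Γ k) = ∑ y, Module.finrank ℂ (RFun (k - d y)) := by
  have hinj : Function.Injective (combM Γ d r k hr) := by
    rw [← LinearMap.ker_eq_bot, LinearMap.ker_eq_bot']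
    intro a ha
    have h0 : ∑ y, (a y : ℍ → ℂ) * r y = 0 := congrArg Subtype.val ha
    funext y
    apply Subtype.ext
    funext τ
    have h1 : (Umat Γ d r τ).mulVec (fun y => (a y : ℍ → ℂ) τ) = 0 := by
      funext x
      have h2 := congrFun (congrArg (fun F => cj Γ k F x) h0) τ
      simp only [cj_sum, cj_zero] at h2
      rw [Finset.sum_apply, Pi.zero_apply] at h2
      simp only [Matrix.mulVec, dotProduct, Umat_apply, Pi.zero_apply]
      rw [← h2]
      refine Finset.sum_congr rfl fun y _ => ?_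
      rw [cj_levelOne_mul Γ (sub_add_cancel k (d y)) (a y).2, Pi.mul_apply, mul_comm]
    have h3 := Matrix.eq_zero_of_mulVec_eq_zero (hU τ).ne_zero h1
    exact congrFun h3 y
  have hsurj : Function.Surjective (combM Γ d r k hr) := by
    rintro ⟨f, hf⟩
    obtain ⟨a, ha, rfl⟩ := hgen k f hf
    exact ⟨fun y => ⟨a y, ha y⟩, rfl⟩
  let e := LinearEquiv.ofBijective (combM Γ d r k hr) ⟨hinj, hsurj⟩
  refine ⟨e.finiteDimensional, ?_⟩
  rw [← e.finrank_eq, Module.finrank_pi_fintype]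

/-- the combination map `a ↦ Σ a y * s y` into `SFun`. -/
def combS (k : ℤ) (s : SL(2, ℤ) ⧸ Γ → ℍ → ℂ) (hs : ∀ y, s y ∈ SFun Γ (12 - d y)) :
    (∀ y, RFun (k - 12 + d y)) →ₗ[ℂ] SFun Γ k where
  toFun a := ⟨∑ y, (a y : ℍ → ℂ) * s y, Submodule.sum_mem _ fun y _ =>
    SFun_cast (by ring) (mul_mem_SFun (RFun_le_MFun (a y).2) (hs y))⟩
  map_add' a b := by
    apply Subtype.ext
    simp [add_mul, Finset.sum_add_distrib]
  map_smul' c a := by
    apply Subtype.ext
    simp [Finset.smul_sum]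

omit [Γ.FiniteIndex] [DecidableEq (SL(2, ℤ) ⧸ Γ)] in
/-- the trace of a cusp form is a level one cusp form -/
lemma trace_mem_SFun {k : ℤ} {f : ℍ → ℂ} (hf : f ∈ SFun Γ k) :
    ∑ x, cj Γ k f x ∈ SFun ⊤ k := by
  have hinv : ∀ γ : SL(2, ℤ), (∑ x, cj Γ k f x) ∣[k] γ = ∑ x, cj Γ k f x := by
    intro γ
    have h1 : (∑ x, cj Γ k f x) ∣[k] γ = ∑ x, (cj Γ k f x ∣[k] γ) := by
      classical
      generalize (Finset.univ : Finset (SL(2, ℤ) ⧸ Γ)) = t
      induction t using Finset.induction_on with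
      | empty => simp [SlashAction.zero_slash]
      | insert a t ha ih =>
        rw [Finset.sum_insert ha, Finset.sum_insert ha, SlashAction.add_slash, ih]
    rw [h1]
    simp only [cj_slash hf.2.1]
    exact Equiv.sum_comp (MulAction.toPerm γ⁻¹) (fun x => cj Γ k f x)
  refine ⟨?_, fun γ _ => hinv γ, fun γ => ?_⟩
  · have : ∀ t : Finset (SL(2, ℤ) ⧸ Γ), MDiff (∑ x ∈ t, cj Γ k f x) := by
      classical
      intro t
      induction t using Finset.induction_on with
      | empty =>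
        rw [Finset.sum_empty]
        exact (mdifferentiable_const : MDiff (fun _ : ℍ => (0 : ℂ)))
      | insert a t ha ih =>
        rw [Finset.sum_insert ha]
        exact (cj_mdiff (SFun_le_MFun hf) a).add ih
    exact this _
  · rw [hinv γ]
    have : ∀ t : Finset (SL(2, ℤ) ⧸ Γ), IsZeroAtImInfty (∑ x ∈ t, cj Γ k f x) := by
      classical
      intro t
      induction t using Finset.induction_on with
      | empty =>
        rw [Finset.sum_empty]
        exact Filter.zero_zeroAtFilter atImInfty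
      | insert a t ha ih =>
        rw [Finset.sum_insert ha]
        exact (cj_zeroAt hf a).add ih
    exact this _

theorem finrank_SFun_eq (hr : ∀ y, r y ∈ MFun Γ (d y)) (hU : ∀ τ, IsUnit (Umat Γ d r τ).det)
    (s : SL(2, ℤ) ⧸ Γ → ℍ → ℂ) (hs : ∀ y, s y ∈ SFun Γ (12 - d y))
    (hs' : ∀ y x τ, cj Γ (12 - d y) (s y) x τ = discriminant τ * (Umat Γ d r τ)⁻¹ y x) (k : ℤ) :
    Module.finrank ℂ (SFun Γ k) = ∑ y, Module.finrank ℂ (RFun (k - 12 + d y)) := by
  have hinj : Function.Injective (combS Γ d k s hs) := by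
    rw [← LinearMap.ker_eq_bot, LinearMap.ker_eq_bot']
    intro a ha
    have h0 : ∑ y, (a y : ℍ → ℂ) * s y = 0 := congrArg Subtype.val ha
    funext y
    apply Subtype.ext
    funext τ
    have h1 : Matrix.vecMul (fun y => (a y : ℍ → ℂ) τ) (Umat Γ d r τ)⁻¹ = 0 := by
      funext x
      have h2 := congrFun (congrArg (fun F => cj Γ k F x) h0) τ
      simp only [cj_sum, cj_zero] at h2
      rw [Finset.sum_apply, Pi.zero_apply] at h2
      simp only [Matrix.vecMul, dotProduct, Pi.zero_apply]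
      apply mul_left_cancel₀ (discriminant_ne_zero τ)
      rw [mul_zero, ← h2, Finset.mul_sum]
      refine Finset.sum_congr rfl fun y _ => ?_
      rw [cj_levelOne_mul Γ (show k - 12 + d y + (12 - d y) = k by ring) (a y).2, Pi.mul_apply,
        hs']
      ring
    have hdet : ((Umat Γ d r τ)⁻¹).det ≠ 0 := by
      have h4 : IsUnit ((Umat Γ d r τ)⁻¹).det :=
        (Matrix.isUnit_nonsing_inv_det_iff).2 (hU τ)
      exact h4.ne_zero
    have h3 := Matrix.eq_zero_of_vecMul_eq_zero hdet h1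
    exact congrFun h3 y
  have hsurj : Function.Surjective (combS Γ d k s hs) := by
    rintro ⟨f, hf⟩
    have ht : ∀ y, (∑ x, cj Γ (d y + k) (r y * f) x) / discriminant ∈ RFun (k - 12 + d y) :=
      fun y => MFun_cast (by ring)
        (levelOne_div_Delta (trace_mem_SFun Γ (mul_mem_SFun (hr y) hf)))
    refine ⟨fun y => ⟨_, ht y⟩, ?_⟩
    apply Subtype.ext
    change ∑ y, ((∑ x, cj Γ (d y + k) (r y * f) x) / discriminant) * s y = f
    funext τ
    have hs1 : ∀ y, s y τ = discriminant τ *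
        (Umat Γ d r τ)⁻¹ y ((1 : SL(2, ℤ)) : SL(2, ℤ) ⧸ Γ) := by
      intro y
      rw [← hs', cj_one (hs y).2.1]
    rw [Finset.sum_apply]
    have hΔ := discriminant_ne_zero τ
    calc ∑ y, (((∑ x, cj Γ (d y + k) (r y * f) x) / discriminant) * s y) τ
        = ∑ y, ∑ x, cj Γ k f x τ * (Umat Γ d r τ x y *
            (Umat Γ d r τ)⁻¹ y ((1 : SL(2, ℤ)) : SL(2, ℤ) ⧸ Γ)) := by
          refine Finset.sum_congr rfl fun y _ => ?_
          rw [Pi.mul_apply, Pi.div_apply, Finset.sum_apply, hs1 y, Finset.sum_div,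
            Finset.sum_mul]
          refine Finset.sum_congr rfl fun x _ => ?_
          rw [cj_mul, Pi.mul_apply, Umat_apply]
          field_simp
      _ = ∑ x, cj Γ k f x τ * ((Umat Γ d r τ * (Umat Γ d r τ)⁻¹) x
            ((1 : SL(2, ℤ)) : SL(2, ℤ) ⧸ Γ)) := by
          rw [Finset.sum_comm]
          refine Finset.sum_congr rfl fun x _ => ?_
          rw [Matrix.mul_apply, Finset.mul_sum]
      _ = f τ := by
          rw [Matrix.mul_nonsing_inv _ (hU τ)]
          simp only [Matrix.one_apply, mul_ite, mul_one, mul_zero, Finset.sum_ite_eq',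
            Finset.mem_univ, if_true]
          rw [cj_one hf.2.1]
  let e := LinearEquiv.ofBijective (combS Γ d k s hs) ⟨hinj, hsurj⟩
  rw [← e.finrank_eq, Module.finrank_pi_fintype]

end

end Fermat.Agent.DimAux
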