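import Mathlib

/-!
# A lattice in `ℂ` is determined by its Eisenstein sums `G_k`, `k ≥ 3`
-/

open Filter Topology
open scoped PeriodPair

namespace Fermat.Agent.DimAux

lemma weierstrassPExcept_eventuallyEq (L₁ L₂ : PeriodPair) (h : ∀ k, 3 ≤ k → L₁.G k = L₂.G k) :
    L₁.weierstrassPExcept 0 =ᶠ[𝓝 0] L₂.weierstrassPExcept 0 := by
  have h1 := L₁.hasFPowerSeriesAt_weierstrassPExcept 0
  have h2 := L₂.hasFPowerSeriesAt_weierstrassPExcept 0
  have hs : (fun i : ℕ => if i = 0 then L₁.weierstrassPExcept 0 0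
        else ((i : ℂ) + 1) * L₁.sumInvPow 0 (i + 2)) =
      fun i : ℕ => if i = 0 then L₂.weierstrassPExcept 0 0
        else ((i : ℂ) + 1) * L₂.sumInvPow 0 (i + 2) := by
    ext i
    by_cases hi : i = 0
    · simp [hi]
    · simp only [hi, if_false, PeriodPair.sumInvPow_zero]
      rw [h (i + 2) (by omega)]
  rw [hs] at h1
  filter_upwards [h1.eventually_hasSum_sub, h2.eventually_hasSum_sub] with z hz1 hz2
  exact hz1.unique hz2

lemma weierstrassP_eventuallyEq (L₁ L₂ : PeriodPair) (h : ∀ k, 3 ≤ k → L₁.G k = L₂.G k) :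
    L₁.weierstrassP =ᶠ[𝓝 0] L₂.weierstrassP := by
  filter_upwards [weierstrassPExcept_eventuallyEq L₁ L₂ h] with z hz
  have h1 := L₁.weierstrassPExcept_add 0 z
  have h2 := L₂.weierstrassPExcept_add 0 z
  simp only [ZeroMemClass.coe_zero] at h1 h2
  rw [← h1, ← h2, hz]

lemma countable_lattice (L : PeriodPair) : (L.lattice : Set ℂ).Countable := by
  have : Countable L.lattice := L.latticeEquivProd.toEquiv.injective.countable
  exact Set.countable_coe_iff.mp this

lemma weierstrassP_eqOn (L₁ L₂ : PeriodPair) (h : ∀ k, 3 ≤ k → L₁.G k = L₂.G k) :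
    Set.EqOn L₁.weierstrassP L₂.weierstrassP ((L₁.lattice : Set ℂ) ∪ L₂.lattice)ᶜ := by
  set U : Set ℂ := ((L₁.lattice : Set ℂ) ∪ L₂.lattice)ᶜ with hU
  have hcount : ((L₁.lattice : Set ℂ) ∪ L₂.lattice).Countable :=
    (countable_lattice L₁).union (countable_lattice L₂)
  have hconn : IsPreconnected U :=
    (hcount.isPathConnected_compl_of_one_lt_rank (by simp)).isConnected.isPreconnected
  have ha1 : AnalyticOnNhd ℂ L₁.weierstrassP U :=
    L₁.analyticOnNhd_weierstrassP.mono (by intro z hz; simp [hU] at hz ⊢; exact hz.1)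
  have ha2 : AnalyticOnNhd ℂ L₂.weierstrassP U :=
    L₂.analyticOnNhd_weierstrassP.mono (by intro z hz; simp [hU] at hz ⊢; exact hz.2)
  have hev := weierstrassP_eventuallyEq L₁ L₂ h
  -- a point of `U` close to `0`
  have hdense : Dense U := hcount.dense_compl ℝ
  obtain ⟨W, hW, hWo, h0W⟩ := eventually_nhds_iff.mp hev
  obtain ⟨z₀, hz₀W, hz₀U⟩ := hdense.inter_open_nonempty W hWo ⟨0, h0W⟩
  refine ha1.eqOn_of_preconnected_of_eventuallyEq ha2 hconn hz₀U ?_
  filter_upwards [hWo.mem_nhds hz₀W] with z hz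
  exact hW z hz

lemma lattice_le_of_G_eq (L₁ L₂ : PeriodPair) (h : ∀ k, 3 ≤ k → L₁.G k = L₂.G k) :
    L₁.lattice ≤ L₂.lattice := by
  intro l hl
  by_contra hl2
  have hord := L₁.order_weierstrassP l hl
  have han : AnalyticAt ℂ L₂.weierstrassP l := L₂.analyticOnNhd_weierstrassP l hl2
  have hcongr : L₁.weierstrassP =ᶠ[𝓝[≠] l] L₂.weierstrassP := by
    rw [Filter.EventuallyEq, eventually_nhdsWithin_iff]
    filter_upwards [L₁.compl_lattice_sdiff_singleton_mem_nhds l,
      L₂.compl_lattice_sdiff_singleton_mem_nhds l] with z hz1 hz2 hzl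
    apply weierstrassP_eqOn L₁ L₂ h
    simp only [Set.mem_compl_iff, Set.mem_union, Set.mem_sdiff, Set.mem_singleton_iff, not_and,
      not_not, SetLike.mem_coe] at hz1 hz2 hzl ⊢
    rintro (h1 | h1)
    · exact hzl (hz1 h1)
    · exact hzl (hz2 h1)
  rw [meromorphicOrderAt_congr hcongr] at hord
  have := han.meromorphicOrderAt_nonneg
  rw [hord] at this
  exact absurd this (by decide)

/-- (W1) A lattice is determined by its Eisenstein sums. -/
theorem lattice_eq_of_G_eq (L₁ L₂ : PeriodPair) (h : ∀ k, 3 ≤ k → L₁.G k = L₂.G k) :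
    L₁.lattice = L₂.lattice :=
  le_antisymm (lattice_le_of_G_eq L₁ L₂ h) (lattice_le_of_G_eq L₂ L₁ fun k hk => (h k hk).symm)

end Fermat.Agent.DimAux
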