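import Mathlib

set_option autoImplicit false

/-!
# Functions on `ℍ` given by convergent `q`-expansions
-/

open UpperHalfPlane Function Complex
open scoped Manifold Real

namespace Fermat.Agent.S23Aux

local notation "𝕢" => Function.Periodic.qParam

/-- `φ` is holomorphic on `ℍ` and given by the convergent series `∑ P_m q_h^m`. -/
structure HasQExp (h : ℝ) (φ : ℍ → ℂ) (P : PowerSeries ℂ) : Prop where
  mdiff : MDiff φ
  hasSum : ∀ τ : ℍ, HasSum (fun m : ℕ => P.coeff m • 𝕢 h τ ^ m) (φ τ)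

namespace HasQExp

variable {h : ℝ} {φ ψ : ℍ → ℂ} {P Q : PowerSeries ℂ}

theorem periodic (H : HasQExp h φ P) : Periodic (φ ∘ ofComplex) h := by
  intro z
  by_cases hz : 0 < z.im
  · have hz' : 0 < (z + h).im := by simpa using hz
    simp only [Function.comp, ofComplex_apply_of_im_pos hz, ofComplex_apply_of_im_pos hz']
    refine (H.hasSum _).unique ?_
    have hq : 𝕢 h ((⟨z + h, hz'⟩ : ℍ) : ℂ) = 𝕢 h ((⟨z, hz⟩ : ℍ) : ℂ) := by
      show 𝕢 h (z + h) = 𝕢 h z
      by_cases hh0 : h = 0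
      · simp [hh0]
      · have hh0' : (h : ℂ) ≠ 0 := by exact_mod_cast hh0
        simp only [Function.Periodic.qParam]
        have : 2 * (π : ℂ) * Complex.I * (z + h) / h =
            2 * π * Complex.I * z / h + 2 * π * Complex.I := by
          field_simp
        rw [this, Complex.exp_add, Complex.exp_two_pi_mul_I, mul_one]
    rw [hq]
    exact H.hasSum _
  · have hz1 : z.im ≤ 0 := not_lt.mp hz
    have hz' : (z + h).im ≤ 0 := by simpa using hz1
    simp only [Function.comp]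
    rw [ofComplex_apply_eq_of_im_nonpos hz' hz1]

theorem bdd (H : HasQExp h φ P) (hh : 0 < h) : IsBoundedAtImInfty φ :=
  isBoundedAtImInfty_of_hasSum_qExpansion hh H.hasSum

theorem analyticAt (H : HasQExp h φ P) (hh : 0 < h) : AnalyticAt ℂ (cuspFunction h φ) 0 :=
  analyticAt_cuspFunction_zero hh H.periodic H.mdiff (H.bdd hh)

theorem qExpansion_eq (H : HasQExp h φ P) (hh : 0 < h) : qExpansion h φ = P := by
  ext m
  have h1 := (hasFPowerSeriesOnBall_cuspFunction hh (H.analyticAt hh) H.hasSum).hasFPowerSeriesAt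
  have h2 := (H.analyticAt hh).hasFPowerSeriesAt
  have h3 := congr_arg (FormalMultilinearSeries.coeff · m) (h1.eq_formalMultilinearSeries h2)
  simp only [FormalMultilinearSeries.coeff_ofScalars] at h3
  rw [h3, qExpansion_coeff, div_eq_inv_mul]

/-- A holomorphic, periodic, bounded function has a `q`-expansion. -/
theorem of_periodic (hh : 0 < h) (hper : Periodic (φ ∘ ofComplex) h) (hhol : MDiff φ)
    (hbdd : IsBoundedAtImInfty φ) : HasQExp h φ (qExpansion h φ) :=
  ⟨hhol, fun τ => hasSum_qExpansion hh hper hhol hbdd τ⟩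

theorem mul (H : HasQExp h φ P) (H' : HasQExp h ψ Q) (hh : 0 < h) : HasQExp h (φ * ψ) (P * Q) := by
  have h1 : HasQExp h (φ * ψ) (qExpansion h (φ * ψ)) :=
    of_periodic hh (H.periodic.mul H'.periodic) (H.mdiff.mul H'.mdiff) ((H.bdd hh).mul (H'.bdd hh))
  rwa [qExpansion_mul (H.analyticAt hh) (H'.analyticAt hh), H.qExpansion_eq hh,
    H'.qExpansion_eq hh] at h1

theorem sub (H : HasQExp h φ P) (H' : HasQExp h ψ Q) : HasQExp h (φ - ψ) (P - Q) :=
  ⟨H.mdiff.sub H'.mdiff, fun τ => by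
    simpa [sub_smul, sub_mul] using (H.hasSum τ).sub (H'.hasSum τ)⟩

theorem add (H : HasQExp h φ P) (H' : HasQExp h ψ Q) : HasQExp h (φ + ψ) (P + Q) :=
  ⟨H.mdiff.add H'.mdiff, fun τ => by
    simpa [add_smul, add_mul] using (H.hasSum τ).add (H'.hasSum τ)⟩

theorem smul (H : HasQExp h φ P) (c : ℂ) : HasQExp h (c • φ) (c • P) :=
  ⟨H.mdiff.const_smul c, fun τ => by
    simpa [mul_assoc] using (H.hasSum τ).mul_left c⟩

theorem pow (H : HasQExp h φ P) (hh : 0 < h) (n : ℕ) : HasQExp h (φ ^ n) (P ^ n) := by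
  induction n with
  | zero =>
    refine ⟨(mdifferentiable_const : MDiff (fun _ : ℍ => (1 : ℂ))), fun τ => ?_⟩
    simp only [pow_zero, Pi.one_apply, PowerSeries.coeff_one]
    convert hasSum_ite_eq (0 : ℕ) (1 : ℂ) using 2 with m
    by_cases hm : m = 0 <;> simp [hm]
  | succ n ih =>
    rw [pow_succ, pow_succ]
    exact ih.mul H hh

end HasQExp

/-- The power series `∑ P_n ζ^n X^(e n)`. -/
noncomputable def twist (P : PowerSeries ℂ) (e : ℕ) (ζ : ℂ) : PowerSeries ℂ :=
  PowerSeries.mk fun m => if e ∣ m then P.coeff (m / e) * ζ ^ (m / e) else 0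

theorem coeff_twist (P : PowerSeries ℂ) (e : ℕ) (ζ : ℂ) (m : ℕ) :
    (twist P e ζ).coeff m = if e ∣ m then P.coeff (m / e) * ζ ^ (m / e) else 0 := by
  simp [twist]

theorem coeff_twist_mul (P : PowerSeries ℂ) {e : ℕ} (he : 0 < e) (ζ : ℂ) (n : ℕ) :
    (twist P e ζ).coeff (e * n) = P.coeff n * ζ ^ n := by
  rw [coeff_twist, if_pos (dvd_mul_right e n), Nat.mul_div_cancel_left n he]

theorem hasSum_twist {P : PowerSeries ℂ} {e : ℕ} (he : 0 < e) {ζ w s : ℂ}
    (H : HasSum (fun n : ℕ => P.coeff n • (ζ * w ^ e) ^ n) s) :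
    HasSum (fun m : ℕ => (twist P e ζ).coeff m • w ^ m) s := by
  have hinj : Function.Injective (fun n : ℕ => e * n) := fun x y hxy =>
    Nat.eq_of_mul_eq_mul_left he hxy
  rw [← hinj.hasSum_iff]
  · convert H using 2 with n
    simp only [Function.comp, coeff_twist_mul P he, smul_eq_mul, mul_pow, ← pow_mul]
    ring
  · intro m hm
    have : ¬ e ∣ m := fun ⟨n, hn⟩ => hm ⟨n, hn.symm⟩
    simp [coeff_twist, this]

open scoped MatrixGroups ModularForm

/-- The upper triangular matrix `[[a, b], [0, d]]` in `GL₂(ℝ)`. -/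
noncomputable def upperT (a d : ℕ) (b : ℤ) (h : a * d ≠ 0) : GL (Fin 2) ℝ :=
  Matrix.GeneralLinearGroup.mkOfDetNeZero !![(a : ℝ), (b : ℝ); 0, (d : ℝ)] (by
    simp only [Matrix.det_fin_two_of, mul_zero, sub_zero]
    exact_mod_cast h)

theorem upperT_det (a d : ℕ) (b : ℤ) (h : a * d ≠ 0) :
    (upperT a d b h).det.val = (a : ℝ) * d := by
  simp [upperT, Matrix.GeneralLinearGroup.mkOfDetNeZero, Matrix.det_fin_two_of]

theorem upperT_det_pos (a d : ℕ) (b : ℤ) (h : a * d ≠ 0) : 0 < (upperT a d b h).det.val := by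
  rw [upperT_det]
  have : 0 < a * d := Nat.pos_of_ne_zero h
  exact_mod_cast this

theorem upperT_denom (a d : ℕ) (b : ℤ) (h : a * d ≠ 0) (z : ℂ) :
    denom (upperT a d b h) z = d := by
  simp [denom, upperT, Matrix.GeneralLinearGroup.mkOfDetNeZero]

theorem upperT_num (a d : ℕ) (b : ℤ) (h : a * d ≠ 0) (z : ℂ) :
    num (upperT a d b h) z = a * z + b := by
  simp [num, upperT, Matrix.GeneralLinearGroup.mkOfDetNeZero]

theorem coe_upperT_smul (a d : ℕ) (b : ℤ) (h : a * d ≠ 0) (τ : ℍ) :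
    ((upperT a d b h • τ : ℍ) : ℂ) = (a * τ + b) / d := by
  rw [coe_smul_of_det_pos (upperT_det_pos a d b h), upperT_num, upperT_denom]

theorem slash_upperT_apply (G : ℍ → ℂ) (k : ℤ) (a d : ℕ) (b : ℤ) (h : a * d ≠ 0) (τ : ℍ) :
    (G ∣[k] upperT a d b h) τ =
      ((a * d : ℂ) ^ (k - 1) * (d : ℂ) ^ (-k)) * G (upperT a d b h • τ) := by
  rw [ModularForm.slash_apply, upperT_denom, upperT_det]
  have hpos : (0 : ℝ) < (a : ℝ) * d := by
    have := upperT_det_pos a d b h
    rwa [upperT_det] at this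
  have hσ : σ (upperT a d b h) = ContinuousAlgEquiv.refl ℝ ℂ := by
    unfold σ
    rw [if_pos (upperT_det_pos a d b h)]
  rw [hσ, abs_of_pos hpos]
  push_cast
  simp only [ContinuousAlgEquiv.refl_apply]
  ring

/-- `q`-expansion of `G ∣[k] [[a, b], [0, d]]`. -/
theorem HasQExp.slash_upperT {G : ℍ → ℂ} {P : PowerSeries ℂ} (H : HasQExp 1 G P) (k : ℤ)
    (a d : ℕ) (b : ℤ) (h : a * d ≠ 0) (p e : ℕ) (hp : 0 < p) (he : e * d = a * p) :
    HasQExp p (G ∣[k] upperT a d b h)
      (((a * d : ℂ) ^ (k - 1) * (d : ℂ) ^ (-k)) •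
        twist P e (Complex.exp (2 * π * Complex.I * b / d))) := by
  have ha : 0 < a := Nat.pos_of_ne_zero fun h0 => h (by simp [h0])
  have hd : 0 < d := Nat.pos_of_ne_zero fun h0 => h (by simp [h0])
  have he0 : 0 < e := by
    rcases Nat.eq_zero_or_pos e with h0 | h0
    · rw [h0, zero_mul] at he
      exact absurd he.symm (Nat.mul_ne_zero ha.ne' hp.ne')
    · exact h0
  refine ⟨H.mdiff.slash k _, fun τ => ?_⟩
  rw [slash_upperT_apply]
  have h1 := H.hasSum (upperT a d b h • τ)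
  have hq : 𝕢 1 ((upperT a d b h • τ : ℍ) : ℂ) =
      Complex.exp (2 * π * Complex.I * b / d) * 𝕢 p τ ^ e := by
    rw [coe_upperT_smul]
    simp only [Function.Periodic.qParam, ← Complex.exp_nat_mul, ← Complex.exp_add]
    congr 1
    have hd' : (d : ℂ) ≠ 0 := by exact_mod_cast hd.ne'
    have hp' : (p : ℂ) ≠ 0 := by exact_mod_cast hp.ne'
    have he' : (e : ℂ) * d = a * p := by exact_mod_cast he
    push_cast
    field_simp
    linear_combination (-(τ : ℂ)) * he'
  rw [hq] at h1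
  have h2 := (hasSum_twist he0 h1).mul_left ((a * d : ℂ) ^ (k - 1) * (d : ℂ) ^ (-k))
  simpa [mul_assoc] using h2

end Fermat.Agent.S23Aux
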