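import Mathlib
import Fermat.Agent.Lib.S23_QExp

set_option autoImplicit false

/-!
# Hermite normal form of `diag(N,1) * γ`
-/

open UpperHalfPlane
open scoped MatrixGroups ModularForm

namespace Fermat.Agent.S23Aux

/-- Integer version of the decomposition `diag(N,1) γ = γ' [[a,b],[0,d]]`. -/
theorem exists_decomp_int (N : ℕ) (hN : 0 < N) (γ : SL(2, ℤ)) :
    ∃ (γ' : SL(2, ℤ)) (a d : ℕ) (b : ℤ), a * d = N ∧
      (N : ℤ) * γ 0 0 = γ' 0 0 * a ∧ (N : ℤ) * γ 0 1 = γ' 0 0 * b + γ' 0 1 * d ∧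
      γ 1 0 = γ' 1 0 * a ∧ γ 1 1 = γ' 1 0 * b + γ' 1 1 * d ∧
      (d = 1 → (N : ℤ) ∣ γ 1 0) := by
  have hdet : γ 0 0 * γ 1 1 - γ 0 1 * γ 1 0 = 1 := by
    have := γ.det_coe
    rwa [Matrix.det_fin_two] at this
  set x : ℤ := N * γ 0 0 with hx
  set y : ℤ := γ 1 0 with hy
  have hg : 0 < Int.gcd x y := by
    rw [Int.gcd_pos_iff]
    by_contra hcon
    push Not at hcon
    obtain ⟨h1, h2⟩ := hcon
    have hN' : (N : ℤ) ≠ 0 := by exact_mod_cast hN.ne'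
    have h3 : γ 0 0 = 0 := by
      rcases mul_eq_zero.mp h1 with h | h
      · exact absurd h hN'
      · exact h
    rw [h3, h2] at hdet
    simp at hdet
  obtain ⟨u, v, huv, hxu, hyv⟩ := Int.exists_gcd_one hg
  have hcop : IsCoprime u v := Int.isCoprime_iff_gcd_eq_one.mpr huv
  obtain ⟨γ', h00, h10⟩ := hcop.exists_SL2_col 0
  have hdet' : γ' 0 0 * γ' 1 1 - γ' 0 1 * γ' 1 0 = 1 := by
    have := γ'.det_coe
    rwa [Matrix.det_fin_two] at this
  set g : ℤ := (Int.gcd x y : ℤ) with hgdef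
  have hgpos : 0 < g := by rw [hgdef]; exact_mod_cast hg
  set d' : ℤ := u * γ 1 1 - v * (N * γ 0 1) with hd'
  have hgd : g * d' = N := by
    have : g * d' = (u * g) * γ 1 1 - (v * g) * (N * γ 0 1) := by rw [hd']; ring
    rw [this, ← hxu, ← hyv, hx, hy]
    linear_combination (N : ℤ) * hdet
  have hd'pos : 0 < d' := by
    have hNpos : (0 : ℤ) < N := by exact_mod_cast hN
    rw [← hgd] at hNpos
    exact (pos_iff_pos_of_mul_pos hNpos).mp hgpos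
  refine ⟨γ', Int.gcd x y, d'.toNat, γ' 1 1 * (N * γ 0 1) - γ' 0 1 * γ 1 1, ?_, ?_, ?_, ?_, ?_, ?_⟩
  · have : ((Int.gcd x y * d'.toNat : ℕ) : ℤ) = N := by
      push_cast
      rw [Int.toNat_of_nonneg hd'pos.le]
      exact hgd
    exact_mod_cast this
  · rw [h00]; exact hxu
  · rw [Int.toNat_of_nonneg hd'pos.le, hd', ← h00, ← h10]
    linear_combination (-(N : ℤ) * γ 0 1) * hdet'
  · rw [h10]; exact hyv
  · rw [Int.toNat_of_nonneg hd'pos.le, hd', ← h00, ← h10]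
    linear_combination (-γ 1 1) * hdet'
  · intro hd1
    have hd1' : d' = 1 := by
      have := Int.toNat_of_nonneg hd'pos.le
      rw [hd1] at this
      exact_mod_cast this.symm
    rw [hd1', mul_one] at hgd
    rw [← hgd]
    exact Int.gcd_dvd_right x y

/-- The decomposition `diag(N,1) γ = γ' [[a,b],[0,d]]` in `GL₂(ℝ)`. -/
theorem exists_decomp (N : ℕ) (hN : N * 1 ≠ 0) (γ : SL(2, ℤ)) :
    ∃ (γ' : SL(2, ℤ)) (a d : ℕ) (b : ℤ) (had : a * d ≠ 0), a * d = N ∧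
      upperT N 1 0 hN * (γ : GL (Fin 2) ℝ) = (γ' : GL (Fin 2) ℝ) * upperT a d b had ∧
      (d = 1 → (N : ℤ) ∣ γ 1 0) := by
  have hN' : 0 < N := Nat.pos_of_ne_zero (by simpa using hN)
  obtain ⟨γ', a, d, b, had, h00, h01, h10, h11, hd⟩ := exists_decomp_int N hN' γ
  refine ⟨γ', a, d, b, by rw [had]; exact hN'.ne', had, ?_, hd⟩
  apply Matrix.GeneralLinearGroup.ext
  intro i j
  have e00 : ((N : ℝ)) * (γ 0 0 : ℝ) = (γ' 0 0 : ℝ) * a := by exact_mod_cast h00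
  have e01 : ((N : ℝ)) * (γ 0 1 : ℝ) = (γ' 0 0 : ℝ) * b + (γ' 0 1 : ℝ) * d := by exact_mod_cast h01
  have e10 : (γ 1 0 : ℝ) = (γ' 1 0 : ℝ) * a := by exact_mod_cast h10
  have e11 : (γ 1 1 : ℝ) = (γ' 1 0 : ℝ) * b + (γ' 1 1 : ℝ) * d := by exact_mod_cast h11
  fin_cases i <;> fin_cases j <;>
    simp [upperT, Matrix.GeneralLinearGroup.mkOfDetNeZero, Matrix.mul_apply, Fin.sum_univ_two,
      e00, e01, e10, e11]

end Fermat.Agent.S23Aux
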