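import Mathlib
import Fermat.Agent.Lib.S23_Mat

set_option autoImplicit false

/-!
# Level raising `G(z) ↦ G(Nz)` and the expansions of its `SL₂(ℤ)`-translates
-/

open UpperHalfPlane ModularForm
open scoped Manifold MatrixGroups Real

namespace Fermat.Agent.S23Aux

noncomputable section

theorem hasQExp_levelOne {k : ℤ} (G : ModularForm 𝒮ℒ k) : HasQExp 1 G (qExpansion 1 G) :=
  HasQExp.of_periodic one_pos
    (SlashInvariantFormClass.periodic_comp_ofComplex G one_mem_strictPeriods_SL)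
    (ModularFormClass.holo G) (ModularFormClass.bdd_at_infty G)

theorem levelOne_slash {k : ℤ} (G : ModularForm 𝒮ℒ k) (γ : SL(2, ℤ)) :
    (G : ℍ → ℂ) ∣[k] (γ : GL (Fin 2) ℝ) = G :=
  SlashInvariantFormClass.slash_action_eq G _ ⟨γ, rfl⟩

variable (N : ℕ) [NeZero N]

theorem N_mul_one_ne_zero : N * 1 ≠ 0 := by simpa using NeZero.ne N

/-- `diag(N, 1)`. -/
def gN : GL (Fin 2) ℝ := upperT N 1 0 (N_mul_one_ne_zero N)

/-- The function `z ↦ G(Nz)`. -/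
def raiseFun {k : ℤ} (G : ModularForm 𝒮ℒ k) : ℍ → ℂ := ((N : ℂ) ^ (1 - k)) • ((G : ℍ → ℂ) ∣[k] gN N)

theorem raiseFun_slash {k : ℤ} (G : ModularForm 𝒮ℒ k) (γ γ' : SL(2, ℤ)) (a d : ℕ) (b : ℤ)
    (had : a * d ≠ 0)
    (h : gN N * (γ : GL (Fin 2) ℝ) = (γ' : GL (Fin 2) ℝ) * upperT a d b had) :
    raiseFun N G ∣[k] γ = ((N : ℂ) ^ (1 - k)) • ((G : ℍ → ℂ) ∣[k] upperT a d b had) := by
  unfold raiseFun
  rw [SL_smul_slash, SL_slash, ← SlashAction.slash_mul, h, SlashAction.slash_mul, levelOne_slash]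

theorem const_simp {k : ℤ} (a d : ℕ) (had : a * d = N) :
    ((N : ℂ) ^ (1 - k)) * ((a * d : ℂ) ^ (k - 1) * (d : ℂ) ^ (-k)) = (d : ℂ) ^ (-k) := by
  have hN : (N : ℂ) ≠ 0 := by exact_mod_cast NeZero.ne N
  have : (a * d : ℂ) = N := by exact_mod_cast had
  rw [this, ← mul_assoc, ← zpow_add₀ hN]
  simp

/-- Expansion of a translate of `G(Nz)`. -/
theorem hasQExp_raiseFun_slash {k : ℤ} (G : ModularForm 𝒮ℒ k) (γ γ' : SL(2, ℤ)) (a d : ℕ) (b : ℤ)
    (had : a * d ≠ 0) (hadN : a * d = N)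
    (h : gN N * (γ : GL (Fin 2) ℝ) = (γ' : GL (Fin 2) ℝ) * upperT a d b had) :
    HasQExp N (raiseFun N G ∣[k] γ) (((d : ℂ) ^ (-k)) •
      twist (qExpansion 1 G) (a ^ 2) (Complex.exp (2 * π * Complex.I * b / d))) := by
  rw [raiseFun_slash N G γ γ' a d b had h]
  have h1 := ((hasQExp_levelOne G).slash_upperT k a d b had N (a ^ 2)
    (Nat.pos_of_ne_zero (NeZero.ne N)) (by rw [← hadN]; ring)).smul ((N : ℂ) ^ (1 - k))
  rwa [smul_smul, const_simp N a d hadN] at h1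

/-- Expansion of `G(Nz)` itself. -/
theorem hasQExp_raiseFun {k : ℤ} (G : ModularForm 𝒮ℒ k) (p e : ℕ) (hp : 0 < p) (he : e = N * p) :
    HasQExp p (raiseFun N G) (twist (qExpansion 1 G) e 1) := by
  have h1 := ((hasQExp_levelOne G).slash_upperT k N 1 0 (N_mul_one_ne_zero N) p e hp
    (by rw [he]; ring)).smul ((N : ℂ) ^ (1 - k))
  rw [smul_smul] at h1
  have h2 := const_simp N (k := k) N 1 (by ring)
  push_cast at h1 h2
  rw [h2] at h1
  simpa [raiseFun, gN] using h1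

theorem raiseFun_apply {k : ℤ} (G : ModularForm 𝒮ℒ k) (τ : ℍ) :
    raiseFun N G τ = G (gN N • τ) := by
  unfold raiseFun gN
  rw [Pi.smul_apply, slash_upperT_apply, smul_eq_mul, ← mul_assoc]
  have h2 := const_simp N (k := k) N 1 (by ring)
  rw [h2]
  simp

/-- For `γ ∈ Γ₀(N)`, `diag(N,1) γ diag(N,1)⁻¹ ∈ SL₂(ℤ)`. -/
theorem exists_conj_of_mem_Gamma0 (γ : SL(2, ℤ)) (hγ : γ ∈ CongruenceSubgroup.Gamma0 N) :
    ∃ γ' : SL(2, ℤ), gN N * (γ : GL (Fin 2) ℝ) = (γ' : GL (Fin 2) ℝ) * gN N := by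
  rw [CongruenceSubgroup.Gamma0_mem, ZMod.intCast_zmod_eq_zero_iff_dvd] at hγ
  obtain ⟨c, hc⟩ := hγ
  have hdet : γ 0 0 * γ 1 1 - γ 0 1 * γ 1 0 = 1 := by
    have := γ.det_coe
    rwa [Matrix.det_fin_two] at this
  refine ⟨⟨!![γ 0 0, N * γ 0 1; c, γ 1 1], ?_⟩, ?_⟩
  · rw [Matrix.det_fin_two_of]
    rw [hc] at hdet
    linear_combination hdet
  · apply Matrix.GeneralLinearGroup.ext
    intro i j
    have e10 : (γ 1 0 : ℝ) = (N : ℝ) * c := by exact_mod_cast hc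
    fin_cases i <;> fin_cases j <;>
      simp [gN, upperT, Matrix.GeneralLinearGroup.mkOfDetNeZero, Matrix.mul_apply,
        Fin.sum_univ_two, e10, mul_comm]

/-- `z ↦ G(Nz)` as a modular form on `Γ₀(N)`. -/
def levelRaise {k : ℤ} (G : ModularForm 𝒮ℒ k) : ModularForm (CongruenceSubgroup.Gamma0 N) k where
  toFun := raiseFun N G
  slash_action_eq' := by
    rintro _ ⟨γ, hγ, rfl⟩
    obtain ⟨γ', h⟩ := exists_conj_of_mem_Gamma0 N γ hγ
    exact raiseFun_slash N G γ γ' N 1 0 (N_mul_one_ne_zero N) h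
  holo' := ((ModularFormClass.holo G).slash k _).const_smul _
  bdd_at_cusps' {c} hc := by
    have hc' : IsCusp c 𝒮ℒ := hc.mono (by
      rintro _ ⟨γ, -, rfl⟩
      exact ⟨γ, rfl⟩)
    rw [OnePoint.isBoundedAt_iff_forall_SL2Z hc']
    intro γ _
    obtain ⟨γ', a, d, b, had, hadN, h, -⟩ := exists_decomp N (N_mul_one_ne_zero N) γ
    exact (hasQExp_raiseFun_slash N G γ γ' a d b had hadN h).bdd
      (by exact_mod_cast Nat.pos_of_ne_zero (NeZero.ne N))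

@[simp] theorem coe_levelRaise {k : ℤ} (G : ModularForm 𝒮ℒ k) :
    (levelRaise N G : ℍ → ℂ) = raiseFun N G := rfl

end

end Fermat.Agent.S23Aux
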