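import Mathlib
import Fermat.Agent.Lib.Dim_Lattice
import Fermat.Agent.Lib.S23_Raise

/-!
# Modular forms on `Γ₀(N)` separate the cosets of `Γ₀(N)` at every point of `ℍ`
-/

open UpperHalfPlane ModularForm EisensteinSeries
open scoped MatrixGroups Manifold

namespace Fermat.Agent.DimAux

noncomputable section

/-- The period pair `(u z, u)`. -/
def pairOf (z : ℍ) (u : ℂ) (hu : u ≠ 0) : PeriodPair where
  ω₁ := u * z
  ω₂ := u
  indep := by
    rw [LinearIndependent.pair_iff]
    intro s t h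
    have h1 : u * ((s : ℂ) * z + t) = 0 := by
      simp only [Complex.real_smul] at h
      linear_combination h
    have h2 : (s : ℂ) * z + t = 0 := (mul_eq_zero.mp h1).resolve_left hu
    have him := congrArg Complex.im h2
    simp only [Complex.add_im, Complex.mul_im, Complex.ofReal_re, Complex.ofReal_im, zero_mul,
      add_zero, Complex.zero_im] at him
    have hs : s = 0 := (mul_eq_zero.mp him).resolve_right z.im_pos.ne'
    subst hs
    have : (t : ℂ) = 0 := by simpa using h2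
    exact ⟨rfl, by exact_mod_cast this⟩

lemma G_pairOf (z : ℍ) (u : ℂ) (hu : u ≠ 0) {k : ℕ} (hk : 3 ≤ k) :
    (pairOf z u hu).G k = u ^ (-(k : ℤ)) * (2 * riemannZeta k * E hk z) := by
  have h1 := tsum_eisSummand_eq_riemannZeta_mul_eisensteinSeries hk z
  have h2 : E hk z = (1 / 2 : ℂ) * eisensteinSeries (N := 1) 0 k z := rfl
  rw [h2, show 2 * riemannZeta k * (1 / 2 * eisensteinSeries (N := 1) 0 k z) =
    riemannZeta k * eisensteinSeries (N := 1) 0 k z by ring, ← h1, ← tsum_mul_left]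
  unfold PeriodPair.G
  rw [← (pairOf z u hu).latticeEquivProd.symm.toEquiv.tsum_eq,
    ← (LinearEquiv.finTwoArrow ℤ ℤ).symm.toEquiv.tsum_eq (fun v => u ^ (-(k : ℤ)) * eisSummand k v z)]
  refine tsum_congr fun p => ?_
  have h3 := (pairOf z u hu).latticeEquiv_symm_apply p
  simp only [LinearEquiv.coe_toEquiv]
  rw [h3]
  simp only [pairOf, eisSummand, LinearEquiv.finTwoArrow_symm_apply, Matrix.cons_val_zero,
    Matrix.cons_val_one, zpow_neg, zpow_natCast]
  rw [← mul_inv, ← mul_pow]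
  congr 2
  ring

/-- (W2) Forms on `Γ₀(N)` separate the nontrivial cosets from the trivial one at every point. -/
theorem exists_form_separating (N : ℕ) [NeZero N] (γ : SL(2, ℤ))
    (hγ : γ ∉ CongruenceSubgroup.Gamma0 N) (τ : ℍ) :
    ∃ (k : ℤ) (f : ModularForm (CongruenceSubgroup.Gamma0 N) k),
      ((f : ℍ → ℂ) ∣[k] γ) τ ≠ f τ := by
  by_contra hcon
  push Not at hcon
  apply hγ
  have hd : denom γ τ ≠ 0 := denom_ne_zero γ τ
  set L₁ := pairOf (S23Aux.gN N • τ) 1 one_ne_zero with hL₁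
  set L₂ := pairOf (S23Aux.gN N • (γ • τ)) (denom γ τ) hd with hL₂
  have hG : ∀ k, 3 ≤ k → L₁.G k = L₂.G k := by
    intro k hk
    have h := hcon k (S23Aux.levelRaise N (E hk))
    rw [SL_slash_apply, S23Aux.coe_levelRaise, S23Aux.raiseFun_apply, S23Aux.raiseFun_apply] at h
    rw [hL₁, hL₂, G_pairOf _ _ _ hk, G_pairOf _ _ _ hk, ← h]
    simp only [one_zpow, one_mul]
    ring
  have hlat := lattice_eq_of_G_eq L₁ L₂ hG
  have hmem : L₂.ω₂ ∈ L₁.lattice := hlat ▸ L₂.ω₂_mem_lattice
  obtain ⟨m, n, hmn⟩ := PeriodPair.mem_lattice.mp hmem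
  have h1 : ((S23Aux.gN N • τ : ℍ) : ℂ) = N * τ := by
    unfold S23Aux.gN
    rw [S23Aux.coe_upperT_smul]
    simp
  simp only [hL₁, hL₂, pairOf, one_mul, mul_one, h1] at hmn
  have hden : denom γ τ = (γ 1 0 : ℂ) * τ + γ 1 1 := by
    simp [denom]
  rw [hden] at hmn
  have him := congrArg Complex.im hmn
  simp only [Complex.add_im, Complex.mul_im, Complex.intCast_re, Complex.intCast_im, zero_mul,
    add_zero, Complex.natCast_re, Complex.natCast_im, coe_im, Complex.mul_re, sub_zero] at him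
  have h2 : ((m * N : ℤ) : ℝ) = (γ 1 0 : ℤ) := by
    have h5 : ((m : ℝ) * N) * τ.im = ((γ 1 0 : ℤ) : ℝ) * τ.im := by linear_combination him
    have := mul_right_cancel₀ τ.im_pos.ne' h5
    push_cast
    exact this
  have h3 : (m * N : ℤ) = γ 1 0 := by exact_mod_cast h2
  rw [CongruenceSubgroup.Gamma0_mem, ← h3]
  simp

end

end Fermat.Agent.DimAux
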