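import Fermat.Agent.Lib.Dim_Defs
import Fermat.Agent.Lib.Dim_Sep

/-!
# (S3) The evaluation vectors of modular forms on `Γ₀(N)` span `X → ℂ` at every point
-/

open UpperHalfPlane ModularForm Filter Topology
open scoped Manifold MatrixGroups

namespace Fermat.Agent.DimAux

variable (N : ℕ) [NeZero N] [Fintype (SL(2, ℤ) ⧸ CongruenceSubgroup.Gamma0 N)]
  [DecidableEq (SL(2, ℤ) ⧸ CongruenceSubgroup.Gamma0 N)]

/-- the multiplicative monoid of evaluation vectors -/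
def evMonoid (τ : ℍ) : Submonoid (SL(2, ℤ) ⧸ CongruenceSubgroup.Gamma0 N → ℂ) where
  carrier := {v | ∃ k : ℤ, ∃ f ∈ MFun (CongruenceSubgroup.Gamma0 N) k,
    v = fun x => cj (CongruenceSubgroup.Gamma0 N) k f x τ}
  mul_mem' := by
    rintro _ _ ⟨k, f, hf, rfl⟩ ⟨l, g, hg, rfl⟩
    refine ⟨k + l, f * g, mul_mem_MFun hf hg, ?_⟩
    funext x
    rw [cj_mul]
    rfl
  one_mem' := by
    refine ⟨0, fun _ => 1, const_mem_MFun 1, ?_⟩
    funext x
    have h : cj (CongruenceSubgroup.Gamma0 N) 0 (fun _ => (1 : ℂ)) x = fun _ => 1 :=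
      is_invariant_const _ 1
    rw [h]
    rfl

theorem span_ev_eq_top (τ : ℍ) : Submodule.span ℂ {v : SL(2, ℤ) ⧸ CongruenceSubgroup.Gamma0 N → ℂ | ∃ k : ℤ, ∃ f ∈ MFun (CongruenceSubgroup.Gamma0 N) k, v = fun x => cj (CongruenceSubgroup.Gamma0 N) k f x τ} = ⊤ := by
  have hW : Algebra.adjoin ℂ (evMonoid N τ : Set (SL(2, ℤ) ⧸ CongruenceSubgroup.Gamma0 N → ℂ)) = ⊤ := by
    apply subalgebra_eq_top_of_separates
    intro x y hxy
    induction x using QuotientGroup.induction_on with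
    | H g =>
    induction y using QuotientGroup.induction_on with
    | H g' =>
    have hγ : g⁻¹ * g' ∉ CongruenceSubgroup.Gamma0 N := fun h => hxy (QuotientGroup.eq.2 h)
    obtain ⟨k, f, hf⟩ := exists_form_separating N (g⁻¹ * g') hγ (g'⁻¹ • τ)
    have hfm := coe_mem_MFun f
    refine ⟨fun x => cj (CongruenceSubgroup.Gamma0 N) k f x τ,
      Algebra.subset_adjoin ⟨k, f, hfm, rfl⟩, ?_⟩
    simp only
    rw [cj_mk hfm.2.1, cj_mk hfm.2.1]
    have h1 : g⁻¹ = (g⁻¹ * g') * g'⁻¹ := by group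
    rw [h1, SlashAction.slash_mul, SL_slash_apply (⇑f ∣[k] (g⁻¹ * g')) g'⁻¹ τ,
      SL_slash_apply (⇑f) g'⁻¹ τ]
    intro h
    apply hf
    exact mul_right_cancel₀ (zpow_ne_zero _ (denom_ne_zero _ _)) h
  have h2 := Algebra.adjoin_eq_span ℂ
    (evMonoid N τ : Set (SL(2, ℤ) ⧸ CongruenceSubgroup.Gamma0 N → ℂ))
  rw [hW, Submonoid.closure_eq] at h2
  exact h2.symm

end Fermat.Agent.DimAux
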