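import Fermat.Agent.Lib.Dim_Defs
import Fermat.Agent.Lib.Dim_FreeAbs
import Fermat.Agent.Lib.Dim_Span
import Fermat.Agent.Lib.Dim_Dual
import Fermat.Agent.Lib.Dim_Iso

/-!
# (ST1) Existence of a frame indexed by the cosets
-/

open UpperHalfPlane ModularForm Filter Topology
open scoped Manifold MatrixGroups

namespace Fermat.Agent.DimAux

noncomputable section

lemma bdd_det_of {X : Type} [Fintype X] [DecidableEq X] (M : X → X → ℍ → ℂ)
    (hM : ∀ x i, IsBoundedAtImInfty (M x i)) :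
    IsBoundedAtImInfty (fun τ => (Matrix.of fun x i => M x i τ).det) := by
  have : (fun τ => (Matrix.of fun x i => M x i τ).det) =
      ∑ σ : Equiv.Perm X, ((Equiv.Perm.sign σ : ℤ) : ℂ) • ∏ i, M (σ i) i := by
    ext τ
    simp [Matrix.det_apply, Finset.sum_apply, Finset.prod_apply, Units.smul_def]
  rw [this]
  show _ ∈ Filter.boundedFilterSubalgebra ℂ atImInfty
  exact Subalgebra.sum_mem _ fun σ _ => Subalgebra.smul_mem _
    (Subalgebra.prod_mem _ fun i _ => hM _ _) _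

lemma prod_zpow_eq {X : Type} [Fintype X] (z : ℂ) (hz : z ≠ 0) (d : X → ℤ) :
    ∏ y, z ^ d y = z ^ ∑ y, d y := by
  classical
  induction (Finset.univ : Finset X) using Finset.induction_on with
  | empty => simp
  | insert a t ha ih => rw [Finset.prod_insert ha, Finset.sum_insert ha, ih, zpow_add₀ hz]

variable (Γ : Subgroup SL(2, ℤ)) [Fintype (SL(2, ℤ) ⧸ Γ)]
  [DecidableEq (SL(2, ℤ) ⧸ Γ)] (d : SL(2, ℤ) ⧸ Γ → ℤ) (r : SL(2, ℤ) ⧸ Γ → ℍ → ℂ)

lemma Umat_det_smul (hr : ∀ y, r y ∈ MFun Γ (d y)) (γ : SL(2, ℤ)) (τ : ℍ) :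
    (Umat Γ d r (γ • τ)).det = denom γ τ ^ (∑ y, d y) *
      (((Equiv.Perm.sign (MulAction.toPerm γ⁻¹ : Equiv.Perm (SL(2, ℤ) ⧸ Γ)) : ℤˣ) : ℤ) : ℂ) *
        (Umat Γ d r τ).det := by
  have h : Umat Γ d r (γ • τ) = Matrix.of fun x y => denom γ τ ^ d y *
      ((Umat Γ d r τ).submatrix (MulAction.toPerm γ⁻¹ : Equiv.Perm (SL(2, ℤ) ⧸ Γ)) id) x y := by
    ext x y
    rw [Umat_apply, cj_smul_apply (hr y).2.1]
    rfl
  rw [h, Matrix.det_mul_row, Matrix.det_permute, prod_zpow_eq _ (denom_ne_zero γ τ)]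
  ring

lemma bdd_Umat_det (hr : ∀ y, r y ∈ MFun Γ (d y)) :
    IsBoundedAtImInfty (fun τ => (Umat Γ d r τ).det) :=
  bdd_det_of (fun x y => cj Γ (d y) (r y) x) fun x y => cj_bdd (hr y) x

lemma det_mul_det_mem (d₁ d₂ : SL(2, ℤ) ⧸ Γ → ℤ) (r₁ r₂ : SL(2, ℤ) ⧸ Γ → ℍ → ℂ)
    (h₁ : ∀ y, r₁ y ∈ MFun Γ (d₁ y)) (h₂ : ∀ y, r₂ y ∈ MFun Γ (d₂ y)) :
    (fun τ => (Umat Γ d₁ r₁ τ).det * (Umat Γ d₂ r₂ τ).det) ∈ RFun (∑ y, d₁ y + ∑ y, d₂ y) := by
  have hinv : ∀ γ : SL(2, ℤ), (fun τ => (Umat Γ d₁ r₁ τ).det * (Umat Γ d₂ r₂ τ).det)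
      ∣[∑ y, d₁ y + ∑ y, d₂ y] γ = fun τ => (Umat Γ d₁ r₁ τ).det * (Umat Γ d₂ r₂ τ).det := by
    intro γ
    ext τ
    rw [SL_slash_apply, Umat_det_smul Γ d₁ r₁ h₁, Umat_det_smul Γ d₂ r₂ h₂]
    have h0 := denom_ne_zero γ τ
    have hs : (((Equiv.Perm.sign (MulAction.toPerm γ⁻¹ : Equiv.Perm (SL(2, ℤ) ⧸ Γ)) : ℤˣ) : ℤ) : ℂ) *
        (((Equiv.Perm.sign (MulAction.toPerm γ⁻¹ : Equiv.Perm (SL(2, ℤ) ⧸ Γ)) : ℤˣ) : ℤ) : ℂ) = 1 := by
      rcases Int.units_eq_one_or (Equiv.Perm.sign (MulAction.toPerm γ⁻¹ : Equiv.Perm (SL(2, ℤ) ⧸ Γ)))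
        with h | h <;> simp [h]
    have hz : denom γ τ ^ (∑ y, d₁ y) * denom γ τ ^ (∑ y, d₂ y) *
        denom γ τ ^ (-(∑ y, d₁ y + ∑ y, d₂ y)) = 1 := by
      rw [← zpow_add₀ h0, ← zpow_add₀ h0]
      simp
    generalize (((Equiv.Perm.sign (MulAction.toPerm γ⁻¹ : Equiv.Perm (SL(2, ℤ) ⧸ Γ)) : ℤˣ) : ℤ) : ℂ)
      = s at hs ⊢
    generalize denom γ τ ^ (∑ y, d₁ y) = z1 at hz ⊢
    generalize denom γ τ ^ (∑ y, d₂ y) = z2 at hz ⊢
    generalize denom γ τ ^ (-(∑ y, d₁ y + ∑ y, d₂ y)) = z3 at hz ⊢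
    generalize (Umat Γ d₁ r₁ τ).det = D1
    generalize (Umat Γ d₂ r₂ τ).det = D2
    calc z1 * s * D1 * (z2 * s * D2) * z3 = (z1 * z2 * z3) * (s * s) * (D1 * D2) := by ring
      _ = D1 * D2 := by rw [hz, hs]; ring
  refine ⟨(mdiff_Umat_det Γ d₁ r₁ h₁).mul (mdiff_Umat_det Γ d₂ r₂ h₂), fun g _ => hinv g,
    fun γ => ?_⟩
  rw [hinv γ]
  exact (bdd_Umat_det Γ d₁ r₁ h₁).mul (bdd_Umat_det Γ d₂ r₂ h₂)

omit [Fintype (SL(2, ℤ) ⧸ Γ)] in
lemma Umat_update (y : SL(2, ℤ) ⧸ Γ) (k : ℤ) (f : ℍ → ℂ) (τ : ℍ) :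
    Umat Γ (Function.update d y k) (Function.update r y f) τ =
      (Umat Γ d r τ).updateCol y (fun x => cj Γ k f x τ) := by
  ext x y'
  by_cases h : y' = y
  · subst h
    simp
  · simp [h]

lemma sum_update_eq (y : SL(2, ℤ) ⧸ Γ) (k : ℤ) :
    ∑ y', Function.update d y k y' = ∑ y', d y' - d y + k := by
  rw [Finset.sum_update_of_mem (Finset.mem_univ y), ← Finset.sum_erase_eq_sub (Finset.mem_univ y),
    Finset.sdiff_singleton_eq_erase]
  ring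

lemma isUnit_det_of_span (A : Matrix (SL(2, ℤ) ⧸ Γ) (SL(2, ℤ) ⧸ Γ) ℂ)
    (h : Submodule.span ℂ (Set.range fun y => fun x => A x y) = ⊤) : IsUnit A.det := by
  rw [← Matrix.isUnit_iff_isUnit_det, ← Matrix.mulVec_surjective_iff_isUnit]
  have h1 : LinearMap.range A.mulVecLin = ⊤ := by
    rw [Matrix.range_mulVecLin]
    exact h
  exact LinearMap.range_eq_top.mp h1

/-- a sub-frame with nonvanishing determinant at one point exhausts a free system -/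
lemma surjective_of_det_ne_zero {I : Type} (dI : I → ℤ) (rI : I → ℍ → ℂ)
    (hmem : ∀ i, rI i ∈ MFun Γ (dI i))
    (huniq : ∀ K, ∀ a : I →₀ (ℍ → ℂ), (∀ i, a i ∈ RFun (K - dI i)) →
      (a.sum fun i c => c * rI i) = 0 → a = 0)
    (e : SL(2, ℤ) ⧸ Γ → I) (τ0 : ℍ) (h0 : (Umat Γ (dI ∘ e) (rI ∘ e) τ0).det ≠ 0) :
    Function.Surjective e := by
  classical
  by_contra hsurj
  simp only [Function.Surjective, not_forall, not_exists] at hsurj
  obtain ⟨i, hi⟩ := hsurj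
  set d := dI ∘ e with hd
  set r := rI ∘ e with hr
  have hrm : ∀ y, r y ∈ MFun Γ (d y) := fun y => hmem (e y)
  have hrm' : ∀ y y', Function.update r y (rI i) y' ∈ MFun Γ (Function.update d y (dI i) y') := by
    intro y y'
    by_cases h : y' = y
    · subst h; simpa using hmem i
    · simpa [h] using hrm y'
  set D : ℍ → ℂ := fun τ => (Umat Γ d r τ).det with hD
  set Dy : SL(2, ℤ) ⧸ Γ → ℍ → ℂ := fun y τ =>
    (Umat Γ (Function.update d y (dI i)) (Function.update r y (rI i)) τ).det with hDy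
  set K : ℤ := ∑ y, d y + ∑ y, d y + dI i with hK
  have hDD : D * D ∈ RFun (K - dI i) :=
    MFun_cast (by rw [hK]; ring) (det_mul_det_mem Γ d d r r hrm hrm)
  have hDDy : ∀ y, D * Dy y ∈ RFun (K - dI (e y)) := fun y =>
    MFun_cast (by rw [hK, sum_update_eq]; simp only [hd, Function.comp]; ring)
      (det_mul_det_mem Γ d _ r _ hrm (hrm' y))
  set a : I →₀ (ℍ → ℂ) := Finsupp.single i (D * D) - ∑ y, Finsupp.single (e y) (D * Dy y) with ha
  have ha_mem : ∀ j, a j ∈ RFun (K - dI j) := by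
    intro j
    rw [ha, Finsupp.sub_apply, Finsupp.finsetSum_apply]
    refine Submodule.sub_mem _ ?_ (Submodule.sum_mem _ fun y _ => ?_)
    · rw [Finsupp.single_apply]
      split_ifs with h
      · subst h; exact hDD
      · exact Submodule.zero_mem _
    · rw [Finsupp.single_apply]
      split_ifs with h
      · subst h; exact hDDy y
      · exact Submodule.zero_mem _
  have hcramer : ∀ τ, ∑ y, r y τ * Dy y τ = D τ * rI i τ := by
    intro τ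
    have h1 := congrFun (Matrix.mulVec_cramer (Umat Γ d r τ) (fun x => cj Γ (dI i) (rI i) x τ))
      ((1 : SL(2, ℤ)) : SL(2, ℤ) ⧸ Γ)
    simp only [Matrix.mulVec, dotProduct, Pi.smul_apply, smul_eq_mul, Matrix.cramer_apply,
      Umat_apply] at h1
    rw [cj_one (hmem i).2.1] at h1
    rw [← h1]
    refine Finset.sum_congr rfl fun y _ => ?_
    rw [cj_one (hrm y).2.1, hDy]
    simp only [Umat_update]
  have ha_sum : (a.sum fun i c => c * rI i) = 0 := by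
    have h1 : (a.sum fun i c => c * rI i) = Finsupp.linearCombination (ℍ → ℂ) rI a := by
      simp [Finsupp.linearCombination_apply]
    rw [h1, ha, map_sub, map_sum, Finsupp.linearCombination_single]
    simp only [Finsupp.linearCombination_single, smul_eq_mul]
    funext τ
    simp only [Pi.sub_apply, Pi.mul_apply, Finset.sum_apply, Pi.zero_apply]
    have h2 := hcramer τ
    have h3 : ∑ y, D τ * Dy y τ * rI (e y) τ = D τ * ∑ y, r y τ * Dy y τ := by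
      rw [Finset.mul_sum]
      refine Finset.sum_congr rfl fun y _ => ?_
      simp only [hr, Function.comp]
      ring
    rw [h3, h2]
    ring
  have h1 := huniq K a ha_mem ha_sum
  have h2 : a i = D * D := by
    rw [ha, Finsupp.sub_apply, Finsupp.finsetSum_apply, Finsupp.single_eq_same]
    rw [Finset.sum_eq_zero fun y _ => by rw [Finsupp.single_apply, if_neg (hi y)], sub_zero]
  rw [h1] at h2
  have h3 := congrFun h2 τ0
  simp only [Finsupp.coe_zero, Pi.zero_apply, Pi.mul_apply] at h3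
  exact h0 (mul_self_eq_zero.mp h3.symm)

theorem exists_frame_of_span [Γ.FiniteIndex]
    (hsp : ∀ τ : ℍ, Submodule.span ℂ {v : SL(2, ℤ) ⧸ Γ → ℂ | ∃ k : ℤ, ∃ f ∈ MFun Γ k,
      v = fun x => cj Γ k f x τ} = ⊤) :
    ∃ (d : SL(2, ℤ) ⧸ Γ → ℤ) (r : SL(2, ℤ) ⧸ Γ → ℍ → ℂ),
    (∀ y, r y ∈ MFun Γ (d y)) ∧ (∀ τ, IsUnit (Umat Γ d r τ).det) ∧
    (∀ k, ∀ f ∈ MFun Γ k, ∃ a : SL(2, ℤ) ⧸ Γ → ℍ → ℂ,
        (∀ y, a y ∈ RFun (k - d y)) ∧ f = ∑ y, a y * r y) := by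
  classical
  obtain ⟨I, dI, rI, hmem, hgen, huniq⟩ := exists_free_basis (A := ℍ → ℂ) RFun (MFun Γ)
    (E₄ : ℍ → ℂ) (E₆ : ℍ → ℂ) E4_mem E6_mem
    (fun w w' a ha b hb => mul_mem_MFun ha hb)
    (fun w k a ha f hf => mul_mem_MFun (RFun_le_MFun ha) hf)
    (fun k hk => MFun_eq_bot_of_neg hk) (fun w hw => RFun_eq_bot_of_neg hw)
    (fun a ha => RFun_zero_const ha) (fun c => const_mem_MFun c)
    (fun w hw a ha => levelOne_decomp w hw a ha)
    (fun k x hx y hy h => regular_sequence k x hx y hy h)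
  -- evaluation vectors
  set ev : ℍ → I → (SL(2, ℤ) ⧸ Γ → ℂ) := fun τ i x => cj Γ (dI i) (rI i) x τ with hev
  have hspan : ∀ τ, Submodule.span ℂ (Set.range (ev τ)) = ⊤ := by
    intro τ
    rw [eq_top_iff, ← hsp τ, Submodule.span_le]
    rintro _ ⟨k, f, hf, rfl⟩
    obtain ⟨a, ha, rfl⟩ := hgen k f hf
    have h1 : (fun x => cj Γ k (a.sum fun i c => c * rI i) x τ) =
        ∑ i ∈ a.support, (a i τ) • ev τ i := by
      funext x
      rw [Finsupp.sum, cj_sum, Finset.sum_apply, Finset.sum_apply]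
      refine Finset.sum_congr rfl fun i _ => ?_
      rw [cj_levelOne_mul Γ (sub_add_cancel k (dI i)) (ha i)]
      rfl
    rw [SetLike.mem_coe, h1]
    exact Submodule.sum_mem _ fun i _ => Submodule.smul_mem _ _
      (Submodule.subset_span (Set.mem_range_self i))
  obtain ⟨κ, a, ha_inj, ha_span, ha_li⟩ := exists_linearIndependent' ℂ (ev UpperHalfPlane.I)
  let B : Module.Basis κ ℂ (SL(2, ℤ) ⧸ Γ → ℂ) := Module.Basis.mk ha_li (by
    rw [ha_span, hspan])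
  let eq0 : SL(2, ℤ) ⧸ Γ ≃ κ := (Pi.basisFun ℂ (SL(2, ℤ) ⧸ Γ)).indexEquiv B
  set e : SL(2, ℤ) ⧸ Γ → I := a ∘ eq0 with he
  have he_inj : Function.Injective e := ha_inj.comp eq0.injective
  have hcol : ∀ τ, (fun y => fun x => Umat Γ (dI ∘ e) (rI ∘ e) τ x y) = ev τ ∘ e := by
    intro τ; rfl
  have h0 : IsUnit (Umat Γ (dI ∘ e) (rI ∘ e) UpperHalfPlane.I).det := by
    apply isUnit_det_of_span
    rw [hcol, he, ← Function.comp_assoc, Set.range_comp, eq0.surjective.range_eq, Set.image_univ,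
      ha_span, hspan]
  have he_surj := surjective_of_det_ne_zero Γ dI rI hmem huniq e UpperHalfPlane.I h0.ne_zero
  refine ⟨dI ∘ e, rI ∘ e, fun y => hmem (e y), fun τ => ?_, fun k f hf => ?_⟩
  · apply isUnit_det_of_span
    rw [hcol, Set.range_comp, he_surj.range_eq, Set.image_univ, hspan]
  · obtain ⟨c, hc, rfl⟩ := hgen k f hf
    refine ⟨fun y => c (e y), fun y => hc (e y), ?_⟩
    let E : SL(2, ℤ) ⧸ Γ ≃ I := Equiv.ofBijective e ⟨he_inj, he_surj⟩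
    let _ : Fintype I := Fintype.ofEquiv _ E
    rw [Finsupp.sum_fintype _ _ (fun i => by simp)]
    exact (Equiv.sum_comp E fun i => c i * rI i).symm

section main

variable (N : ℕ) [NeZero N] [Fintype (SL(2, ℤ) ⧸ CongruenceSubgroup.Gamma0 N)]
  [DecidableEq (SL(2, ℤ) ⧸ CongruenceSubgroup.Gamma0 N)]

theorem exists_frame : ∃ (d : SL(2, ℤ) ⧸ CongruenceSubgroup.Gamma0 N → ℤ)
    (r : SL(2, ℤ) ⧸ CongruenceSubgroup.Gamma0 N → ℍ → ℂ),
    (∀ y, r y ∈ MFun (CongruenceSubgroup.Gamma0 N) (d y)) ∧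
    (∀ τ, IsUnit (Umat (CongruenceSubgroup.Gamma0 N) d r τ).det) ∧
    (∀ k, ∀ f ∈ MFun (CongruenceSubgroup.Gamma0 N) k,
      ∃ a : SL(2, ℤ) ⧸ CongruenceSubgroup.Gamma0 N → ℍ → ℂ,
        (∀ y, a y ∈ RFun (k - d y)) ∧ f = ∑ y, a y * r y) :=
  exists_frame_of_span _ (span_ev_eq_top N)

end main

end

end Fermat.Agent.DimAux
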