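import Fermat.Agent.Lib.Dim_Defs
import Fermat.Agent.Lib.Dim_Count

/-!
# (M3) the numerical part of the dimension formula
-/

open UpperHalfPlane ModularForm Filter Topology
open scoped Manifold MatrixGroups

namespace Fermat.Agent.DimAux

noncomputable section

namespace NumAux

lemma fr (w : ℤ) (n : ℕ) (h : w = n) (hn : Even n) :
    Module.finrank ℂ (RFun w) = if n ≡ 2 [MOD 12] then n / 12 else n / 12 + 1 := by
  subst h; exact finrank_RFun n hn

/-- abbreviation -/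
def dimR (w : ℤ) : ℕ := Module.finrank ℂ (RFun w)

lemma dimR_neg {w : ℤ} (hw : w < 0) : dimR w = 0 := finrank_RFun_neg hw
lemma fr0 : dimR 0 = 1 := by
  rw [dimR, fr 0 0 (by norm_num) (by decide)]; decide
lemma fr12 : dimR 12 = 2 := by
  rw [dimR, fr 12 12 (by norm_num) (by decide)]; decide
lemma fr14 : dimR 14 = 1 := by
  rw [dimR, fr 14 14 (by norm_num) (by decide)]; decide
lemma fr16 : dimR 16 = 2 := by
  rw [dimR, fr 16 16 (by norm_num) (by decide)]; decide
lemma fr18 : dimR 18 = 2 := by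
  rw [dimR, fr 18 18 (by norm_num) (by decide)]; decide
lemma fr20 : dimR 20 = 2 := by
  rw [dimR, fr 20 20 (by norm_num) (by decide)]; decide
lemma fr22 : dimR 22 = 2 := by
  rw [dimR, fr 22 22 (by norm_num) (by decide)]; decide
lemma fr24 : dimR 24 = 3 := by
  rw [dimR, fr 24 24 (by norm_num) (by decide)]; decide

/-- the pointwise identity -/
lemma pointwise (d : ℤ) (hd : 0 ≤ d ∧ d ≤ 10 ∧ Even d) :
    2 * dimR (2 - 12 + d) + (if (4 : ℤ) ∣ d then 1 else 0)
      + (if (6 : ℤ) ∣ d then 1 else 0) + dimR (24 - d)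
    = 1 + 2 * (if d = 0 then 1 else 0) + dimR (24 - 12 + d) := by
  obtain ⟨h0, h10, k, rfl⟩ := hd
  have hk0 : 0 ≤ k := by omega
  have hk5 : k ≤ 5 := by omega
  interval_cases k
  · norm_num [fr24, fr12, dimR_neg]
  · norm_num [fr22, fr14, dimR_neg]
  · norm_num [fr20, fr16, dimR_neg]
  · norm_num [fr18, dimR_neg]
  · norm_num [fr16, fr20, dimR_neg]
  · norm_num [fr14, fr22, fr0]

lemma S_mul_S : (ModularGroup.S * ModularGroup.S : SL(2, ℤ)) = -1 := by decide

lemma ST_cube : ((ModularGroup.S * ModularGroup.T) ^ 3 : SL(2, ℤ)) = -1 := by decide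

lemma toPerm_zpow {X : Type*} [MulAction SL(2, ℤ) X] (γ : SL(2, ℤ)) (n : ℤ) :
    (MulAction.toPerm γ : Equiv.Perm X) ^ n = MulAction.toPerm (γ ^ n) :=
  (map_zpow (MulAction.toPermHom SL(2, ℤ) X) γ n).symm

lemma toPerm_pow {X : Type*} [MulAction SL(2, ℤ) X] (γ : SL(2, ℤ)) (n : ℕ) :
    (MulAction.toPerm γ : Equiv.Perm X) ^ n = MulAction.toPerm (γ ^ n) :=
  (map_pow (MulAction.toPermHom SL(2, ℤ) X) γ n).symm

lemma orb_toPerm {X : Type*} [Fintype X] [DecidableEq X] [MulAction SL(2, ℤ) X] (γ : SL(2, ℤ)) :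
    orb (MulAction.toPerm γ : Equiv.Perm X)
      = Nat.card (MulAction.orbitRel.Quotient (Subgroup.zpowers γ) X) := by
  unfold orb
  apply Nat.card_congr
  apply Quotient.congrRight
  intro a b
  rw [MulAction.orbitRel_apply, MulAction.orbitRel_apply, MulAction.mem_orbit_iff,
    MulAction.mem_orbit_iff]
  constructor
  · rintro ⟨⟨_, n, rfl⟩, h⟩
    refine ⟨⟨γ ^ n, n, rfl⟩, ?_⟩
    have h' : ((MulAction.toPerm γ : Equiv.Perm X) ^ n) b = a := h
    rw [toPerm_zpow] at h'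
    exact h'
  · rintro ⟨⟨_, n, rfl⟩, h⟩
    refine ⟨⟨(MulAction.toPerm γ : Equiv.Perm X) ^ n, n, rfl⟩, ?_⟩
    change ((MulAction.toPerm γ : Equiv.Perm X) ^ n) b = a
    rw [toPerm_zpow]
    exact h

end NumAux

variable (N : ℕ) [NeZero N] [Fintype (SL(2, ℤ) ⧸ CongruenceSubgroup.Gamma0 N)]
  [DecidableEq (SL(2, ℤ) ⧸ CongruenceSubgroup.Gamma0 N)]

open NumAux in
theorem genus_of_counts (d : SL(2, ℤ) ⧸ CongruenceSubgroup.Gamma0 N → ℤ)
    (hd : ∀ y, 0 ≤ d y ∧ d y ≤ 10 ∧ Even (d y))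
    (h0 : Fintype.card {y // d y = 0} = 1)
    (h4 : Fintype.card {y // (4 : ℤ) ∣ d y} = orb (MulAction.toPerm (ModularGroup.S : SL(2, ℤ)) :
      Equiv.Perm (SL(2, ℤ) ⧸ CongruenceSubgroup.Gamma0 N)))
    (h6 : Fintype.card {y // (6 : ℤ) ∣ d y} = orb (MulAction.toPerm
      (ModularGroup.S * ModularGroup.T : SL(2, ℤ)) :
      Equiv.Perm (SL(2, ℤ) ⧸ CongruenceSubgroup.Gamma0 N)))
    (hT : ∑ y, Module.finrank ℂ (RFun (24 - d y)) = ∑ y, Module.finrank ℂ (RFun (24 - 12 + d y))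
      + orb (MulAction.toPerm (ModularGroup.T : SL(2, ℤ)) :
      Equiv.Perm (SL(2, ℤ) ⧸ CongruenceSubgroup.Gamma0 N))) :
    (∑ y, Module.finrank ℂ (RFun (2 - 12 + d y)) : ℚ) = ModularCurve.genusFormula N := by
  classical
  -- sum of the pointwise identities
  have hsum : 2 * ∑ y, dimR (2 - 12 + d y) + Fintype.card {y // (4 : ℤ) ∣ d y}
      + Fintype.card {y // (6 : ℤ) ∣ d y} + ∑ y, dimR (24 - d y)
      = Fintype.card (SL(2, ℤ) ⧸ CongruenceSubgroup.Gamma0 N) + 2 * Fintype.card {y // d y = 0}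
        + ∑ y, dimR (24 - 12 + d y) := by
    have := Finset.sum_congr (rfl : (Finset.univ : Finset (SL(2, ℤ) ⧸ CongruenceSubgroup.Gamma0 N))
      = Finset.univ) (fun y _ => pointwise (d y) (hd y))
    simp only [Finset.sum_add_distrib, ← Finset.mul_sum, Finset.sum_boole, Finset.sum_const,
      Finset.card_univ, smul_eq_mul, mul_one, Nat.cast_id] at this
    simp only [Fintype.card_subtype]
    exact this
  -- the orbit counts
  have hS2 : (MulAction.toPerm (ModularGroup.S : SL(2, ℤ)) :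
      Equiv.Perm (SL(2, ℤ) ⧸ CongruenceSubgroup.Gamma0 N)) ^ 2 = 1 := by
    rw [toPerm_pow, pow_two, S_mul_S]
    ext x
    exact neg_one_smul_X N x
  have hST3 : (MulAction.toPerm (ModularGroup.S * ModularGroup.T : SL(2, ℤ)) :
      Equiv.Perm (SL(2, ℤ) ⧸ CongruenceSubgroup.Gamma0 N)) ^ 3 = 1 := by
    rw [toPerm_pow, ST_cube]
    ext x
    exact neg_one_smul_X N x
  have o2 := orb_of_pow_prime _ 2 Nat.prime_two hS2
  have o3 := orb_of_pow_prime _ 3 Nat.prime_three hST3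
  have cX : Fintype.card (SL(2, ℤ) ⧸ CongruenceSubgroup.Gamma0 N) = ModularCurve.dedekindPsi N := by
    rw [← Nat.card_eq_fintype_card, card_X]
  have c2 : Fintype.card {x : SL(2, ℤ) ⧸ CongruenceSubgroup.Gamma0 N //
      (MulAction.toPerm (ModularGroup.S : SL(2, ℤ)) : Equiv.Perm _) x = x}
      = ModularCurve.nuTwo N := by
    rw [← Nat.card_eq_fintype_card]; exact card_fix_S N
  have c3 : Fintype.card {x : SL(2, ℤ) ⧸ CongruenceSubgroup.Gamma0 N //
      (MulAction.toPerm (ModularGroup.S * ModularGroup.T : SL(2, ℤ)) : Equiv.Perm _) x = x}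
      = ModularCurve.nuThree N := by
    rw [← Nat.card_eq_fintype_card]; exact card_fix_ST N
  have cT : orb (MulAction.toPerm (ModularGroup.T : SL(2, ℤ)) :
      Equiv.Perm (SL(2, ℤ) ⧸ CongruenceSubgroup.Gamma0 N)) = ModularCurve.cuspCount N := by
    rw [orb_toPerm]; exact card_orbits_T N
  rw [cX, c2] at o2
  rw [cX, c3] at o3
  rw [cT] at hT
  rw [h4, h6, h0, cX] at hsum
  have hT' : ∑ y, dimR (24 - d y) = ∑ y, dimR (24 - 12 + d y) + ModularCurve.cuspCount N := hT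
  rw [hT'] at hsum
  set g : ℕ := ∑ y, dimR (2 - 12 + d y) with hg
  have hgoal : (∑ y, Module.finrank ℂ (RFun (2 - 12 + d y)) : ℚ) = (g : ℚ) := by
    rw [hg]; push_cast; rfl
  rw [hgoal, ModularCurve.genusFormula]
  have q1 : (2 * (g : ℚ) + orb (MulAction.toPerm (ModularGroup.S : SL(2, ℤ)) :
      Equiv.Perm (SL(2, ℤ) ⧸ CongruenceSubgroup.Gamma0 N)) + orb (MulAction.toPerm
      (ModularGroup.S * ModularGroup.T : SL(2, ℤ)) :
      Equiv.Perm (SL(2, ℤ) ⧸ CongruenceSubgroup.Gamma0 N)) + ModularCurve.cuspCount N : ℚ)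
      = ModularCurve.dedekindPsi N + 2 := by
    have : 2 * g + orb (MulAction.toPerm (ModularGroup.S : SL(2, ℤ)) :
      Equiv.Perm (SL(2, ℤ) ⧸ CongruenceSubgroup.Gamma0 N)) + orb (MulAction.toPerm
      (ModularGroup.S * ModularGroup.T : SL(2, ℤ)) :
      Equiv.Perm (SL(2, ℤ) ⧸ CongruenceSubgroup.Gamma0 N)) + ModularCurve.cuspCount N
      = ModularCurve.dedekindPsi N + 2 := by omega
    exact_mod_cast this
  have q2 : (2 * (orb (MulAction.toPerm (ModularGroup.S : SL(2, ℤ)) :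
      Equiv.Perm (SL(2, ℤ) ⧸ CongruenceSubgroup.Gamma0 N)) : ℚ))
      = ModularCurve.dedekindPsi N + ModularCurve.nuTwo N := by
    have : 2 * orb (MulAction.toPerm (ModularGroup.S : SL(2, ℤ)) :
      Equiv.Perm (SL(2, ℤ) ⧸ CongruenceSubgroup.Gamma0 N))
      = ModularCurve.dedekindPsi N + ModularCurve.nuTwo N := by omega
    exact_mod_cast this
  have q3 : (3 * (orb (MulAction.toPerm (ModularGroup.S * ModularGroup.T : SL(2, ℤ)) :
      Equiv.Perm (SL(2, ℤ) ⧸ CongruenceSubgroup.Gamma0 N)) : ℚ))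
      = ModularCurve.dedekindPsi N + 2 * ModularCurve.nuThree N := by
    have : 3 * orb (MulAction.toPerm (ModularGroup.S * ModularGroup.T : SL(2, ℤ)) :
      Equiv.Perm (SL(2, ℤ) ⧸ CongruenceSubgroup.Gamma0 N))
      = ModularCurve.dedekindPsi N + 2 * ModularCurve.nuThree N := by omega
    exact_mod_cast this
  linear_combination (1 / 2 : ℚ) * q1 - (1 / 4 : ℚ) * q2 - (1 / 6 : ℚ) * q3

end

end Fermat.Agent.DimAux
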