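import Fermat.Agent.Lib.Dim_Lead
import Fermat.Agent.Lib.Dim_Frame
import Fermat.Agent.Lib.Dim_Ell
import Fermat.Agent.Lib.Dim_Num

/-!
# The dimension formula for `S₂(Γ₀(N))`: final assembly
-/

open UpperHalfPlane ModularForm Filter Topology
open scoped Manifold MatrixGroups

namespace Fermat.Agent.DimAux

noncomputable section

section general

variable (Γ : Subgroup SL(2, ℤ)) [Γ.FiniteIndex] [Fintype (SL(2, ℤ) ⧸ Γ)]
  [DecidableEq (SL(2, ℤ) ⧸ Γ)] (d : SL(2, ℤ) ⧸ Γ → ℤ) (r : SL(2, ℤ) ⧸ Γ → ℍ → ℂ)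

omit [Γ.FiniteIndex] in
lemma frame_ne_zero (hU : ∀ τ, IsUnit (Umat Γ d r τ).det) (y : SL(2, ℤ) ⧸ Γ) : r y ≠ 0 := by
  intro h
  apply (hU UpperHalfPlane.I).ne_zero
  apply Matrix.det_eq_zero_of_column_eq_zero y
  intro x
  rw [Umat_apply, h, cj_zero]
  rfl

lemma frame_nonneg (hr : ∀ y, r y ∈ MFun Γ (d y)) (hU : ∀ τ, IsUnit (Umat Γ d r τ).det)
    (y : SL(2, ℤ) ⧸ Γ) : 0 ≤ d y := by
  by_contra h
  have h1 := hr y
  rw [MFun_eq_bot_of_neg (not_le.mp h)] at h1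
  exact frame_ne_zero Γ d r hU y (by simpa using h1)

omit [Γ.FiniteIndex] [Fintype (SL(2, ℤ) ⧸ Γ)] [DecidableEq (SL(2, ℤ) ⧸ Γ)] in
lemma MFun_eq_bot_of_odd' (hneg : (-1 : SL(2, ℤ)) ∈ Γ) {k : ℤ} (hk : Odd k) : MFun Γ k = ⊥ := by
  rw [eq_bot_iff]
  intro f hf
  rw [Submodule.mem_bot]
  funext τ
  have h := congrFun (hf.2.1 _ hneg) τ
  rw [SL_slash_apply] at h
  have h1 : ((-1 : SL(2, ℤ)) • τ) = τ := by simp
  have h2 : denom ((-1 : SL(2, ℤ))) τ = -1 := by simp [denom]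
  rw [h1, h2, (Odd.neg hk).neg_one_zpow] at h
  have : (2 : ℂ) * f τ = 0 := by linear_combination -h
  simpa using this

omit [Γ.FiniteIndex] in
lemma frame_even (hneg : (-1 : SL(2, ℤ)) ∈ Γ) (hr : ∀ y, r y ∈ MFun Γ (d y))
    (hU : ∀ τ, IsUnit (Umat Γ d r τ).det) (y : SL(2, ℤ) ⧸ Γ) : Even (d y) := by
  by_contra h
  have h1 := hr y
  rw [MFun_eq_bot_of_odd' Γ hneg (Int.not_even_iff_odd.mp h)] at h1
  exact frame_ne_zero Γ d r hU y (by simpa using h1)

omit [Fintype (SL(2, ℤ) ⧸ Γ)] [DecidableEq (SL(2, ℤ) ⧸ Γ)] in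
lemma finrank_MFun_zero : Module.finrank ℂ (MFun Γ 0) = 1 := by
  refine finrank_eq_one (⟨fun _ => 1, const_mem_MFun 1⟩ : MFun Γ 0) ?_ ?_
  · intro h
    have := congrFun (congrArg Subtype.val h) UpperHalfPlane.I
    simp at this
  · rintro ⟨f, hf⟩
    obtain ⟨c, rfl⟩ := MFun_zero_const hf
    refine ⟨c, ?_⟩
    apply Subtype.ext
    funext τ
    simp

lemma frame_card_zero (hr : ∀ y, r y ∈ MFun Γ (d y)) (hU : ∀ τ, IsUnit (Umat Γ d r τ).det)
    (hgen : ∀ k, ∀ f ∈ MFun Γ k, ∃ a : SL(2, ℤ) ⧸ Γ → ℍ → ℂ,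
      (∀ y, a y ∈ RFun (k - d y)) ∧ f = ∑ y, a y * r y) :
    Fintype.card {y // d y = 0} = 1 := by
  have h1 := (finrank_MFun_eq Γ d r hr hU hgen 0).2
  rw [finrank_MFun_zero] at h1
  have h2 : ∀ y, Module.finrank ℂ (RFun (0 - d y)) = if d y = 0 then 1 else 0 := by
    intro y
    split_ifs with h
    · rw [h, sub_zero]; exact finrank_MFun_zero ⊤
    · have := frame_nonneg Γ d r hr hU y
      exact finrank_RFun_neg (by omega)
  rw [Finset.sum_congr rfl fun y _ => h2 y, Finset.sum_boole] at h1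
  rw [Fintype.card_subtype]
  exact_mod_cast h1.symm

omit [Fintype (SL(2, ℤ) ⧸ Γ)] [DecidableEq (SL(2, ℤ) ⧸ Γ)] in
lemma SFun_eq_bot_of_nonpos {k : ℤ} (hk : k ≤ 0) : SFun Γ k = ⊥ := by
  rw [eq_bot_iff]
  intro f hf
  rw [Submodule.mem_bot]
  rcases hk.lt_or_eq with h | rfl
  · have h1 := SFun_le_MFun hf
    rw [MFun_eq_bot_of_neg h] at h1
    simpa using h1
  · obtain ⟨c, rfl⟩ := MFun_zero_const (SFun_le_MFun hf)
    have h1 : Tendsto (fun _ : ℍ => c) atImInfty (𝓝 0) := zeroAt_of_mem hf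
    have h2 := tendsto_nhds_unique h1 tendsto_const_nhds
    funext τ
    simp [h2]

lemma frame_le_ten (hev : ∀ y, Even (d y)) (hU : ∀ τ, IsUnit (Umat Γ d r τ).det)
    (y : SL(2, ℤ) ⧸ Γ) (s : ℍ → ℂ) (hs : s ∈ SFun Γ (12 - d y))
    (hs' : ∀ x τ, cj Γ (12 - d y) s x τ = discriminant τ * (Umat Γ d r τ)⁻¹ y x) :
    d y ≤ 10 := by
  by_contra h
  obtain ⟨m, hm⟩ := hev y
  have h1 : 12 - d y ≤ 0 := by omega
  rw [SFun_eq_bot_of_nonpos Γ h1, Submodule.mem_bot] at hs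
  have h2 : IsUnit ((Umat Γ d r UpperHalfPlane.I)⁻¹).det :=
    Matrix.isUnit_nonsing_inv_det _ (hU _)
  apply h2.ne_zero
  apply Matrix.det_eq_zero_of_row_eq_zero y
  intro x
  have h3 := hs' x UpperHalfPlane.I
  rw [hs, cj_zero] at h3
  have h4 := discriminant_ne_zero UpperHalfPlane.I
  have h5 : discriminant UpperHalfPlane.I * (Umat Γ d r UpperHalfPlane.I)⁻¹ y x = 0 := h3.symm
  exact (mul_eq_zero.mp h5).resolve_left h4

end general

section main

variable (N : ℕ) [NeZero N]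

lemma T_pow_smul_X (x : SL(2, ℤ) ⧸ CongruenceSubgroup.Gamma0 N) : (ModularGroup.T ^ N) • x = x := by
  induction x using QuotientGroup.induction_on with
  | H g =>
  rw [MulAction.Quotient.smul_coe, smul_eq_mul, eq_comm, QuotientGroup.eq,
    CongruenceSubgroup.Gamma0_mem, Matrix.SpecialLinearGroup.SL2_inv_expl]
  have hT : ((ModularGroup.T ^ N : SL(2, ℤ)) : Matrix (Fin 2) (Fin 2) ℤ) = !![1, (N : ℤ); 0, 1] := by
    have := ModularGroup.coe_T_zpow (N : ℤ)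
    rwa [zpow_natCast] at this
  simp only [Matrix.SpecialLinearGroup.coe_mul, Matrix.mul_apply, Fin.sum_univ_two,
    Matrix.cons_val_zero, Matrix.cons_val_one, Matrix.cons_val', hT, Matrix.of_apply]
  push_cast
  simp
  ring

lemma neg_one_mem_Gamma0 : (-1 : SL(2, ℤ)) ∈ CongruenceSubgroup.Gamma0 N := by
  rw [CongruenceSubgroup.Gamma0_mem]
  simp

theorem finrank_SFun_two : (Module.finrank ℂ (SFun (CongruenceSubgroup.Gamma0 N) 2) : ℚ) =
    ModularCurve.genusFormula N := by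
  classical
  haveI : Fintype (SL(2, ℤ) ⧸ CongruenceSubgroup.Gamma0 N) := Fintype.ofFinite _
  obtain ⟨d, r, hr, hU, hgen⟩ := exists_frame N
  have hT := T_pow_smul_X N
  have hev := frame_even _ d r (neg_one_mem_Gamma0 N) hr hU
  have hinf := fun x y => tendsto_Delta_inv _ d r N hT hr hU hgen hev x y
  choose s hs hs' using exists_dual _ d r hr hU hinf
  have h0 := frame_nonneg _ d r hr hU
  have h10 := fun y => frame_le_ten _ d r hev hU y (s y) (hs y) (hs' y)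
  have hM := finrank_MFun_eq _ d r hr hU hgen 24
  haveI := hM.1
  have hS := finrank_SFun_eq _ d r hr hU s hs hs'
  have horb := finrank_MFun_eq_add_orb (k := 24) N hT
    (exists_form_constTerm _ d r N hT hr hU hgen hev 24 (fun y =>
      ⟨by have := h10 y; omega, Even.sub (by decide) (hev y)⟩))
  rw [hM.2, hS 24] at horb
  have := genus_of_counts N d (fun y => ⟨h0 y, h10 y, hev y⟩)
    (frame_card_zero _ d r hr hU hgen) (card_four_dvd _ d r hr hU) (card_six_dvd _ d r hr hU) horb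
  rw [hS 2]
  exact_mod_cast this

theorem finrank_cuspForm_two :
    (Module.finrank ℂ (CuspForm (CongruenceSubgroup.Gamma0 N) 2) : ℚ) =
      ModularCurve.genusFormula N := by
  rw [← finrank_SFun_two N]
  exact_mod_cast (equivCF (Γ := CongruenceSubgroup.Gamma0 N) (k := 2)).finrank_eq

end main

end

end Fermat.Agent.DimAux
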