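import Mathlib

/-!
# Modular forms as functions (no bundled weights), conjugates indexed by `SL(2,ℤ) ⧸ Γ`
-/

open UpperHalfPlane ModularForm Filter Topology
open scoped Manifold MatrixGroups

namespace Fermat.Agent.DimAux

noncomputable section

/-- Modular forms of weight `k` on `Γ`, as a space of functions. -/
def MFun (Γ : Subgroup SL(2, ℤ)) (k : ℤ) : Submodule ℂ (ℍ → ℂ) where
  carrier := {f | MDiff f ∧ (∀ g ∈ Γ, f ∣[k] g = f) ∧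
    ∀ γ : SL(2, ℤ), IsBoundedAtImInfty (f ∣[k] γ)}
  add_mem' {a b} ha hb := ⟨ha.1.add hb.1, fun g hg => by
      rw [SlashAction.add_slash, ha.2.1 g hg, hb.2.1 g hg], fun γ => by
      rw [SlashAction.add_slash]; exact (ha.2.2 γ).add (hb.2.2 γ)⟩
  zero_mem' := ⟨mdifferentiable_const, fun g _ => SlashAction.zero_slash _ _, fun γ => by
      rw [SlashAction.zero_slash]; exact Filter.const_boundedAtFilter _ 0⟩
  smul_mem' c {a} ha := ⟨ha.1.const_smul c, fun g hg => by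
      rw [SL_smul_slash, ha.2.1 g hg], fun γ => by
      rw [SL_smul_slash]; exact (ha.2.2 γ).const_smul_left c⟩

/-- Cusp forms of weight `k` on `Γ`, as a space of functions. -/
def SFun (Γ : Subgroup SL(2, ℤ)) (k : ℤ) : Submodule ℂ (ℍ → ℂ) where
  carrier := {f | MDiff f ∧ (∀ g ∈ Γ, f ∣[k] g = f) ∧
    ∀ γ : SL(2, ℤ), IsZeroAtImInfty (f ∣[k] γ)}
  add_mem' {a b} ha hb := ⟨ha.1.add hb.1, fun g hg => by
      rw [SlashAction.add_slash, ha.2.1 g hg, hb.2.1 g hg], fun γ => by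
      rw [SlashAction.add_slash]; exact (ha.2.2 γ).add (hb.2.2 γ)⟩
  zero_mem' := ⟨mdifferentiable_const, fun g _ => SlashAction.zero_slash _ _, fun γ => by
      rw [SlashAction.zero_slash]; exact Filter.zero_zeroAtFilter _⟩
  smul_mem' c {a} ha := ⟨ha.1.const_smul c, fun g hg => by
      rw [SL_smul_slash, ha.2.1 g hg], fun γ => by
      rw [SL_smul_slash]; exact (ha.2.2 γ).smul c⟩

variable {Γ : Subgroup SL(2, ℤ)} {k l : ℤ}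

lemma mem_MFun {f : ℍ → ℂ} : f ∈ MFun Γ k ↔ MDiff f ∧ (∀ g ∈ Γ, f ∣[k] g = f) ∧
    ∀ γ : SL(2, ℤ), IsBoundedAtImInfty (f ∣[k] γ) := Iff.rfl

lemma mem_SFun {f : ℍ → ℂ} : f ∈ SFun Γ k ↔ MDiff f ∧ (∀ g ∈ Γ, f ∣[k] g = f) ∧
    ∀ γ : SL(2, ℤ), IsZeroAtImInfty (f ∣[k] γ) := Iff.rfl

lemma SFun_le_MFun : SFun Γ k ≤ MFun Γ k := fun _ hf =>
  ⟨hf.1, hf.2.1, fun γ => (hf.2.2 γ).boundedAtFilter⟩

lemma MFun_mono {Γ' : Subgroup SL(2, ℤ)} (h : Γ ≤ Γ') : MFun Γ' k ≤ MFun Γ k := fun _ hf =>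
  ⟨hf.1, fun g hg => hf.2.1 g (h hg), hf.2.2⟩

lemma mul_mem_MFun {f g : ℍ → ℂ} (hf : f ∈ MFun Γ k) (hg : g ∈ MFun Γ l) :
    f * g ∈ MFun Γ (k + l) :=
  ⟨hf.1.mul hg.1, fun γ hγ => by rw [mul_slash_SL2, hf.2.1 γ hγ, hg.2.1 γ hγ], fun γ => by
    rw [mul_slash_SL2]; exact (hf.2.2 γ).mul (hg.2.2 γ)⟩

lemma mul_mem_SFun {f g : ℍ → ℂ} (hf : f ∈ MFun Γ k) (hg : g ∈ SFun Γ l) :
    f * g ∈ SFun Γ (k + l) :=
  ⟨hf.1.mul hg.1, fun γ hγ => by rw [mul_slash_SL2, hf.2.1 γ hγ, hg.2.1 γ hγ], fun γ => by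
    rw [mul_slash_SL2, mul_comm]; exact (hg.2.2 γ).mul_boundedAtFilter (hf.2.2 γ)⟩

lemma const_mem_MFun (c : ℂ) : (fun _ => c : ℍ → ℂ) ∈ MFun Γ 0 :=
  ⟨mdifferentiable_const, fun g _ => is_invariant_const g c, fun γ => by
    have : (fun _ => c : ℍ → ℂ) ∣[(0 : ℤ)] γ = fun _ => c := is_invariant_const γ c
    rw [this]; exact Filter.const_boundedAtFilter _ c⟩

/-- slash of an element of `MFun` is holomorphic. -/
lemma mdiff_slash {f : ℍ → ℂ} (hf : MDiff f) (γ : SL(2, ℤ)) : MDiff (f ∣[k] γ) := by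
  rw [SL_slash]; exact hf.slash k _

lemma slash_apply' (f : ℍ → ℂ) (γ : SL(2, ℤ)) (z : ℍ) :
    f (γ • z) = denom γ z ^ k * (f ∣[k] γ) z := by
  have h : (f ∣[k] γ) z = f (γ • z) * denom γ z ^ (-k) := SL_slash_apply f γ z
  rw [h, mul_comm, mul_assoc, ← zpow_add₀ (denom_ne_zero γ z)]
  simp

/-! ### Conjugates -/

/-- The conjugate `f ∣[k] γ⁻¹` for `x = γ Γ`. -/
def cj (Γ : Subgroup SL(2, ℤ)) (k : ℤ) (f : ℍ → ℂ) (x : SL(2, ℤ) ⧸ Γ) : ℍ → ℂ :=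
  f ∣[k] (Quotient.out x : SL(2, ℤ))⁻¹

lemma cj_mk {f : ℍ → ℂ} (hf : ∀ g ∈ Γ, f ∣[k] g = f) (γ : SL(2, ℤ)) :
    cj Γ k f (γ : SL(2, ℤ) ⧸ Γ) = f ∣[k] γ⁻¹ := by
  unfold cj
  have h : γ⁻¹ * (Quotient.out (γ : SL(2, ℤ) ⧸ Γ) : SL(2, ℤ)) ∈ Γ :=
    QuotientGroup.eq.mp (QuotientGroup.out_eq' (γ : SL(2, ℤ) ⧸ Γ)).symm
  have h2 : (Quotient.out (γ : SL(2, ℤ) ⧸ Γ) : SL(2, ℤ))⁻¹ =
      (γ⁻¹ * (Quotient.out (γ : SL(2, ℤ) ⧸ Γ) : SL(2, ℤ)))⁻¹ * γ⁻¹ := by group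
  rw [h2, SlashAction.slash_mul, hf _ (Γ.inv_mem h)]

lemma cj_one {f : ℍ → ℂ} (hf : ∀ g ∈ Γ, f ∣[k] g = f) :
    cj Γ k f ((1 : SL(2, ℤ)) : SL(2, ℤ) ⧸ Γ) = f := by
  rw [cj_mk hf]; simp

lemma cj_slash {f : ℍ → ℂ} (hf : ∀ g ∈ Γ, f ∣[k] g = f) (x : SL(2, ℤ) ⧸ Γ) (γ : SL(2, ℤ)) :
    cj Γ k f x ∣[k] γ = cj Γ k f (γ⁻¹ • x) := by
  induction x using QuotientGroup.induction_on with
  | H δ =>
    rw [MulAction.Quotient.smul_coe, cj_mk hf, cj_mk hf, ← SlashAction.slash_mul]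
    congr 1
    simp

lemma cj_smul_apply {f : ℍ → ℂ} (hf : ∀ g ∈ Γ, f ∣[k] g = f) (x : SL(2, ℤ) ⧸ Γ) (γ : SL(2, ℤ))
    (z : ℍ) : cj Γ k f x (γ • z) = denom γ z ^ k * cj Γ k f (γ⁻¹ • x) z := by
  rw [slash_apply' (k := k) (cj Γ k f x) γ z, cj_slash hf]

lemma cj_add (f g : ℍ → ℂ) (x : SL(2, ℤ) ⧸ Γ) : cj Γ k (f + g) x = cj Γ k f x + cj Γ k g x :=
  SlashAction.add_slash _ _ _ _

lemma cj_smul (c : ℂ) (f : ℍ → ℂ) (x : SL(2, ℤ) ⧸ Γ) : cj Γ k (c • f) x = c • cj Γ k f x :=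
  SL_smul_slash _ _ _ _

lemma cj_zero (x : SL(2, ℤ) ⧸ Γ) : cj Γ k 0 x = 0 := SlashAction.zero_slash _ _

lemma cj_mul (f g : ℍ → ℂ) (x : SL(2, ℤ) ⧸ Γ) :
    cj Γ (k + l) (f * g) x = cj Γ k f x * cj Γ l g x := mul_slash_SL2 _ _ _ _ _

lemma cj_levelOne {a : ℍ → ℂ} (ha : a ∈ MFun ⊤ k) (x : SL(2, ℤ) ⧸ Γ) : cj Γ k a x = a :=
  ha.2.1 _ (Subgroup.mem_top _)

lemma cj_mdiff {f : ℍ → ℂ} (hf : f ∈ MFun Γ k) (x : SL(2, ℤ) ⧸ Γ) : MDiff (cj Γ k f x) :=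
  mdiff_slash hf.1 _

lemma cj_bdd {f : ℍ → ℂ} (hf : f ∈ MFun Γ k) (x : SL(2, ℤ) ⧸ Γ) :
    IsBoundedAtImInfty (cj Γ k f x) := hf.2.2 _

lemma cj_zeroAt {f : ℍ → ℂ} (hf : f ∈ SFun Γ k) (x : SL(2, ℤ) ⧸ Γ) :
    IsZeroAtImInfty (cj Γ k f x) := hf.2.2 _

/-- a form all of whose conjugates vanish at `i∞` is a cusp form -/
lemma mem_SFun_of_cj {f : ℍ → ℂ} (hf : f ∈ MFun Γ k)
    (h : ∀ x : SL(2, ℤ) ⧸ Γ, IsZeroAtImInfty (cj Γ k f x)) : f ∈ SFun Γ k :=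
  ⟨hf.1, hf.2.1, fun γ => by
    have := h ((γ⁻¹ : SL(2, ℤ)) : SL(2, ℤ) ⧸ Γ)
    rwa [cj_mk hf.2.1, inv_inv] at this⟩

lemma cj_eq_zero_iff {f : ℍ → ℂ} (hf : ∀ g ∈ Γ, f ∣[k] g = f) :
    (∀ x : SL(2, ℤ) ⧸ Γ, cj Γ k f x = 0) ↔ f = 0 := by
  constructor
  · intro h
    have := h ((1 : SL(2, ℤ)) : SL(2, ℤ) ⧸ Γ)
    rwa [cj_one hf] at this
  · rintro rfl x
    exact cj_zero x

/-! ### Bridges to Mathlib's bundled forms -/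

section bridge

variable [Γ.FiniteIndex]

lemma coe_mem_MFun (F : ModularForm (Γ : Subgroup (GL (Fin 2) ℝ)) k) : (F : ℍ → ℂ) ∈ MFun Γ k :=
  ⟨F.holo', fun g hg => by
    rw [SL_slash]
    exact SlashInvariantFormClass.slash_action_eq F _ ⟨g, hg, rfl⟩,
    fun γ => ModularFormClass.bdd_at_infty_slash F γ⟩

lemma coe_mem_SFun (F : CuspForm (Γ : Subgroup (GL (Fin 2) ℝ)) k) : (F : ℍ → ℂ) ∈ SFun Γ k :=
  ⟨F.holo', fun g hg => by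
    rw [SL_slash]
    exact SlashInvariantFormClass.slash_action_eq F _ ⟨g, hg, rfl⟩,
    fun γ => CuspFormClass.zero_at_infty_slash F γ⟩

/-- bundle a function -/
def toMF {f : ℍ → ℂ} (hf : f ∈ MFun Γ k) : ModularForm (Γ : Subgroup (GL (Fin 2) ℝ)) k where
  toFun := f
  slash_action_eq' := by
    rintro _ ⟨γ, hγ, rfl⟩
    exact hf.2.1 γ hγ
  holo' := hf.1
  bdd_at_cusps' {c} hc := by
    rw [Subgroup.IsArithmetic.isCusp_iff_isCusp_SL2Z] at hc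
    rw [OnePoint.isBoundedAt_iff_forall_SL2Z hc]
    exact fun γ _ => hf.2.2 γ

/-- bundle a function -/
def toCF {f : ℍ → ℂ} (hf : f ∈ SFun Γ k) : CuspForm (Γ : Subgroup (GL (Fin 2) ℝ)) k where
  toFun := f
  slash_action_eq' := by
    rintro _ ⟨γ, hγ, rfl⟩
    exact hf.2.1 γ hγ
  holo' := hf.1
  zero_at_cusps' {c} hc := by
    rw [Subgroup.IsArithmetic.isCusp_iff_isCusp_SL2Z] at hc
    rw [OnePoint.isZeroAt_iff_forall_SL2Z hc]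
    exact fun γ _ => hf.2.2 γ

@[simp] lemma coe_toMF {f : ℍ → ℂ} (hf : f ∈ MFun Γ k) : (toMF hf : ℍ → ℂ) = f := rfl
@[simp] lemma coe_toCF {f : ℍ → ℂ} (hf : f ∈ SFun Γ k) : (toCF hf : ℍ → ℂ) = f := rfl

/-- `MFun` is linearly equivalent to Mathlib's space. -/
def equivMF : ModularForm (Γ : Subgroup (GL (Fin 2) ℝ)) k ≃ₗ[ℂ] MFun Γ k where
  toFun F := ⟨F, coe_mem_MFun F⟩
  map_add' _ _ := rfl
  map_smul' _ _ := rfl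
  invFun f := toMF f.2
  left_inv _ := rfl
  right_inv _ := rfl

/-- `SFun` is linearly equivalent to Mathlib's space. -/
def equivCF : CuspForm (Γ : Subgroup (GL (Fin 2) ℝ)) k ≃ₗ[ℂ] SFun Γ k where
  toFun F := ⟨F, coe_mem_SFun F⟩
  map_add' _ _ := rfl
  map_smul' _ _ := rfl
  invFun f := toCF f.2
  left_inv _ := rfl
  right_inv _ := rfl

lemma MFun_eq_bot_of_neg (hk : k < 0) : MFun Γ k = ⊥ := by
  rw [eq_bot_iff]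
  intro f hf
  have := ModularForm.isZero_of_neg_weight hk (toMF hf)
  have h2 := congrArg (fun F : ModularForm (Γ : Subgroup (GL (Fin 2) ℝ)) k => (F : ℍ → ℂ)) this
  simpa using h2

lemma MFun_zero_const {f : ℍ → ℂ} (hf : f ∈ MFun Γ 0) : ∃ c : ℂ, f = fun _ => c := by
  obtain ⟨c, hc⟩ := ModularForm.eq_const_of_weight_zero (toMF hf)
  exact ⟨c, hc⟩

end bridge

end

end Fermat.Agent.DimAux
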