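import Fermat.Agent.Lib.Dim_Defs

/-!
# Behaviour at `i∞` of the conjugates of a modular form
-/

open UpperHalfPlane ModularForm Filter Topology Complex
open scoped Manifold MatrixGroups Real

namespace Fermat.Agent.DimAux

noncomputable section

local notation "𝕢" => Function.Periodic.qParam

variable {Γ : Subgroup SL(2, ℤ)} {k l w : ℤ}

/-- the root of unity `exp (2πi/N)` -/
def zetaN (N : ℕ) : ℂ := Complex.exp (2 * π * Complex.I / N)

lemma zetaN_prim (N : ℕ) [NeZero N] : IsPrimitiveRoot (zetaN N) N :=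
  Complex.isPrimitiveRoot_exp N (NeZero.ne N)

lemma zetaN_ne_zero (N : ℕ) : zetaN N ≠ 0 := Complex.exp_ne_zero _

lemma qParam_vadd_one (N : ℕ) (z : ℍ) :
    𝕢 (N : ℝ) (((1 : ℝ) +ᵥ z : ℍ) : ℂ) = zetaN N * 𝕢 (N : ℝ) (z : ℂ) := by
  rw [zetaN, Function.Periodic.qParam, Function.Periodic.qParam, ← Complex.exp_add, coe_vadd]
  congr 1
  push_cast
  ring

lemma cj_vadd_int {f : ℍ → ℂ} (hf : ∀ g ∈ Γ, f ∣[k] g = f) (x : SL(2, ℤ) ⧸ Γ) (n : ℤ) (z : ℍ) :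
    cj Γ k f x ((n : ℝ) +ᵥ z) = cj Γ k f ((ModularGroup.T ^ n)⁻¹ • x) z := by
  rw [← modular_T_zpow_smul, cj_smul_apply hf, denom_T_zpow, one_zpow, one_mul]

lemma cj_vadd_one {f : ℍ → ℂ} (hf : ∀ g ∈ Γ, f ∣[k] g = f) (x : SL(2, ℤ) ⧸ Γ) (z : ℍ) :
    cj Γ k f x ((1 : ℝ) +ᵥ z) = cj Γ k f (ModularGroup.T⁻¹ • x) z := by
  have := cj_vadd_int hf x 1 z
  simpa using this

section period

variable (N : ℕ) [NeZero N] (hT : ∀ x : SL(2, ℤ) ⧸ Γ, (ModularGroup.T ^ N) • x = x)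

include hT

lemma cj_periodic {f : ℍ → ℂ} (hf : ∀ g ∈ Γ, f ∣[k] g = f) (x : SL(2, ℤ) ⧸ Γ) :
    Function.Periodic (cj Γ k f x ∘ ofComplex) (N : ℝ) := by
  apply periodic_of_vadd
  intro z
  have := cj_vadd_int hf x (N : ℤ) z
  rw [zpow_natCast] at this
  have h2 : (ModularGroup.T ^ N)⁻¹ • x = x := by
    rw [inv_smul_eq_iff, hT]
  rw [h2] at this
  simpa using this

omit hT in
lemma N_pos : (0 : ℝ) < (N : ℝ) := by exact_mod_cast Nat.pos_of_ne_zero (NeZero.ne N)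

lemma cj_analyticAt {f : ℍ → ℂ} (hf : f ∈ MFun Γ k) (x : SL(2, ℤ) ⧸ Γ) :
    AnalyticAt ℂ (cuspFunction (N : ℝ) (cj Γ k f x)) 0 :=
  analyticAt_cuspFunction_zero (N_pos N) (cj_periodic N hT hf.2.1 x) (cj_mdiff hf x) (cj_bdd hf x)

end period

/-- `n`-th coefficient of the expansion in `q_N` of the conjugate at `x`. -/
def cf (Γ : Subgroup SL(2, ℤ)) (N : ℕ) (k : ℤ) (f : ℍ → ℂ) (x : SL(2, ℤ) ⧸ Γ) (n : ℕ) : ℂ :=
  (qExpansion (N : ℝ) (cj Γ k f x)).coeff n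

/-- the sum of the first `N` coefficients -/
def Lead (Γ : Subgroup SL(2, ℤ)) (N : ℕ) (k : ℤ) (f : ℍ → ℂ) (x : SL(2, ℤ) ⧸ Γ) : ℂ :=
  ∑ n ∈ Finset.range N, cf Γ N k f x n

section period

variable (N : ℕ) [NeZero N] (hT : ∀ x : SL(2, ℤ) ⧸ Γ, (ModularGroup.T ^ N) • x = x)

include hT

lemma hasSum_cf {f : ℍ → ℂ} (hf : f ∈ MFun Γ k) (x : SL(2, ℤ) ⧸ Γ) (z : ℍ) :
    HasSum (fun m : ℕ => cf Γ N k f x m • 𝕢 (N : ℝ) (z : ℂ) ^ m) (cj Γ k f x z) :=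
  hasSum_qExpansion (N_pos N) (cj_periodic N hT hf.2.1 x) (cj_mdiff hf x) (cj_bdd hf x) z

lemma cf_unique {f : ℍ → ℂ} (hf : f ∈ MFun Γ k) (x : SL(2, ℤ) ⧸ Γ) {c : ℕ → ℂ}
    (hc : ∀ z : ℍ, HasSum (fun m : ℕ => c m • 𝕢 (N : ℝ) (z : ℂ) ^ m) (cj Γ k f x z)) (m : ℕ) :
    c m = cf Γ N k f x m := by
  have h1 := (hasFPowerSeriesOnBall_cuspFunction (N_pos N) (cj_analyticAt N hT hf x)
    hc).hasFPowerSeriesAt
  have h2 := (hasFPowerSeriesOnBall_cuspFunction (N_pos N) (cj_analyticAt N hT hf x)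
    (hasSum_cf N hT hf x)).hasFPowerSeriesAt
  simpa [FormalMultilinearSeries.coeff_ofScalars] using
    congr_arg (FormalMultilinearSeries.coeff · m) (h1.eq_formalMultilinearSeries h2)

lemma cf_T_inv {f : ℍ → ℂ} (hf : f ∈ MFun Γ k) (x : SL(2, ℤ) ⧸ Γ) (n : ℕ) :
    cf Γ N k f (ModularGroup.T⁻¹ • x) n = zetaN N ^ n * cf Γ N k f x n := by
  symm
  apply cf_unique N hT hf (ModularGroup.T⁻¹ • x) (c := fun n => zetaN N ^ n * cf Γ N k f x n)
  intro z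
  have := hasSum_cf N hT hf x ((1 : ℝ) +ᵥ z)
  rw [cj_vadd_one hf.2.1, qParam_vadd_one] at this
  convert this using 2 with m
  simp only [smul_eq_mul, mul_pow]
  ring

lemma cf_add {f g : ℍ → ℂ} (hf : f ∈ MFun Γ k) (hg : g ∈ MFun Γ k) (x : SL(2, ℤ) ⧸ Γ) (n : ℕ) :
    cf Γ N k (f + g) x n = cf Γ N k f x n + cf Γ N k g x n := by
  unfold cf
  rw [cj_add, qExpansion_add (cj_analyticAt N hT hf x) (cj_analyticAt N hT hg x)]
  simp

lemma cf_smul {f : ℍ → ℂ} (c : ℂ) (hf : f ∈ MFun Γ k) (x : SL(2, ℤ) ⧸ Γ) (n : ℕ) :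
    cf Γ N k (c • f) x n = c * cf Γ N k f x n := by
  unfold cf
  rw [cj_smul, qExpansion_smul (cj_analyticAt N hT hf x)]
  simp

lemma tendsto_cf_zero {f : ℍ → ℂ} (hf : f ∈ MFun Γ k) (x : SL(2, ℤ) ⧸ Γ) :
    Tendsto (cj Γ k f x) atImInfty (𝓝 (cf Γ N k f x 0)) :=
  tendsto_coeff_zero (N_pos N) (cj_periodic N hT hf.2.1 x) (cj_mdiff hf x) (cj_bdd hf x)

/-- truncation estimate -/
lemma isBigO_sub_partial {f : ℍ → ℂ} (hf : f ∈ MFun Γ k) (x : SL(2, ℤ) ⧸ Γ) (M : ℕ) :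
    (fun z : ℍ => cj Γ k f x z - ∑ l ∈ Finset.range M, cf Γ N k f x l * 𝕢 (N : ℝ) (z : ℂ) ^ l)
      =O[atImInfty] fun z : ℍ => ‖𝕢 (N : ℝ) (z : ℂ)‖ ^ M := by
  have h1 := (hasFPowerSeriesOnBall_cuspFunction (N_pos N) (cj_analyticAt N hT hf x)
    (hasSum_cf N hT hf x)).hasFPowerSeriesAt.isBigO_sub_partialSum_pow M
  have h2 := h1.comp_tendsto (qParam_tendsto_atImInfty (N_pos N))
  refine h2.congr_left ?_
  intro z
  simp only [Function.comp_apply, zero_add]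
  rw [eq_cuspFunction z (N_pos N).ne' (cj_periodic N hT hf.2.1 x)]
  congr 1
  rw [FormalMultilinearSeries.partialSum]
  apply Finset.sum_congr rfl
  intro l _
  simp [FormalMultilinearSeries.ofScalars, mul_comm]


lemma cf_T_pow_inv {f : ℍ → ℂ} (hf : f ∈ MFun Γ k) (x : SL(2, ℤ) ⧸ Γ) (n m : ℕ) :
    cf Γ N k f ((ModularGroup.T ^ m)⁻¹ • x) n = (zetaN N ^ n) ^ m * cf Γ N k f x n := by
  induction m with
  | zero => simp
  | succ m ih =>
    have : (ModularGroup.T ^ (m + 1))⁻¹ • x = ModularGroup.T⁻¹ • ((ModularGroup.T ^ m)⁻¹ • x) := by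
      rw [smul_smul, pow_succ, mul_inv_rev]
    rw [this, cf_T_inv N hT hf, ih, pow_succ]
    ring

/-- If the leading vector is `T`-invariant then it is the vector of constant terms and the
other low coefficients vanish. -/
lemma cf_of_Lead_invariant {f : ℍ → ℂ} (hf : f ∈ MFun Γ k) (v : SL(2, ℤ) ⧸ Γ → ℂ)
    (hv : ∀ x, v (ModularGroup.T⁻¹ • x) = v x) (h : ∀ x, Lead Γ N k f x = v x) :
    (∀ x, cf Γ N k f x 0 = v x) ∧ ∀ n, 0 < n → n < N → ∀ x, cf Γ N k f x n = 0 := by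
  classical
  let P : Module.End ℂ (SL(2, ℤ) ⧸ Γ → ℂ) :=
    LinearMap.funLeft ℂ ℂ (fun x : SL(2, ℤ) ⧸ Γ => ModularGroup.T⁻¹ • x)
  let b : ℕ → (SL(2, ℤ) ⧸ Γ → ℂ) := fun n =>
    if n = 0 then (fun x => cf Γ N k f x 0 - v x) else fun x => cf Γ N k f x n
  have hN : 0 < N := Nat.pos_of_ne_zero (NeZero.ne N)
  have key := eq_zero_of_sum_eigen P N (fun n => zetaN N ^ n)
    (fun i hi j hj hij => (zetaN_prim N).pow_inj hi hj hij) b
    (by
      intro n _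
      ext x
      by_cases hn : n = 0
      · subst hn
        simp only [b, P, if_true, LinearMap.funLeft_apply, pow_zero, one_smul]
        rw [cf_T_inv N hT hf, hv]; simp
      · simp only [b, P, if_neg hn, LinearMap.funLeft_apply, Pi.smul_apply, smul_eq_mul]
        rw [cf_T_inv N hT hf])
    (by
      ext x
      rw [Finset.sum_apply]
      have h1 : ∑ n ∈ Finset.range N, b n x = ∑ n ∈ Finset.range N,
          (cf Γ N k f x n - if n = 0 then v x else 0) := by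
        apply Finset.sum_congr rfl
        intro n _
        by_cases hn : n = 0
        · subst hn; simp [b]
        · simp [b, hn]
      rw [h1, Finset.sum_sub_distrib, Finset.sum_ite_eq' (Finset.range N) 0 (fun _ => v x)]
      have := h x
      unfold Lead at this
      simp [this, hN])
  constructor
  · intro x
    have := congr_fun (key 0 hN) x
    simp only [b, if_true, Pi.zero_apply] at this
    exact sub_eq_zero.mp this
  · intro n hn0 hn x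
    have := congr_fun (key n hn) x
    simpa [b, hn0.ne'] using this

lemma cf_eq_zero_of_Lead {f : ℍ → ℂ} (hf : f ∈ MFun Γ k) (h : ∀ x, Lead Γ N k f x = 0)
    (x : SL(2, ℤ) ⧸ Γ) (n : ℕ) (hn : n < N) : cf Γ N k f x n = 0 := by
  obtain ⟨h0, h1⟩ := cf_of_Lead_invariant N hT hf (fun _ => 0) (fun _ => rfl) h
  rcases Nat.eq_zero_or_pos n with rfl | hpos
  · exact h0 x
  · exact h1 n hpos hn x

omit hT in
lemma norm_qParam_pow (z : ℍ) : ‖𝕢 (N : ℝ) (z : ℂ)‖ ^ N = Real.exp (-2 * π * z.im) := by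
  rw [Function.Periodic.norm_qParam, ← Real.exp_nat_mul]
  congr 1
  have : (N : ℝ) ≠ 0 := (N_pos N).ne'
  rw [coe_im]
  field_simp

/-- (I1) a form with vanishing leading vector is divisible by `Δ`. -/
theorem div_Delta_mem_of_Lead {f : ℍ → ℂ} (hf : f ∈ MFun Γ k) (h : ∀ x, Lead Γ N k f x = 0) :
    f / discriminant ∈ MFun Γ (k - 12) := by
  refine div_Delta_mem hf fun γ => ?_
  apply bdd_div_Delta
  have h1 := isBigO_sub_partial N hT hf ((γ⁻¹ : SL(2, ℤ)) : SL(2, ℤ) ⧸ Γ) N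
  rw [cj_mk hf.2.1, inv_inv] at h1
  refine (h1.congr_left fun z => ?_).congr_right fun z => norm_qParam_pow N z
  rw [Finset.sum_eq_zero, sub_zero]
  intro l hl
  rw [cf_eq_zero_of_Lead N hT hf h _ l (Finset.mem_range.mp hl), zero_mul]


omit hT in
lemma geom_orth {l n : ℕ} (hl : l < N) (hn : n < N) :
    ∑ m ∈ Finset.range N, (zetaN N ^ l) ^ m * ((zetaN N ^ n) ^ m)⁻¹ = if l = n then (N : ℂ) else 0 := by
  have h0 : zetaN N ^ n ≠ 0 := pow_ne_zero _ (zetaN_ne_zero N)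
  split_ifs with h
  · subst h
    rw [Finset.sum_congr rfl (fun m _ => mul_inv_cancel₀ (pow_ne_zero m h0))]
    simp
  · have hx : zetaN N ^ l * (zetaN N ^ n)⁻¹ ≠ 1 := by
      intro hx
      apply h
      apply (zetaN_prim N).pow_inj hl hn
      field_simp at hx
      exact hx
    have h1 : ∀ m ∈ Finset.range N, (zetaN N ^ l) ^ m * ((zetaN N ^ n) ^ m)⁻¹ =
        (zetaN N ^ l * (zetaN N ^ n)⁻¹) ^ m := by
      intro m _
      rw [mul_pow, inv_pow]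
    rw [Finset.sum_congr rfl h1, geom_sum_eq hx]
    have h2 : (zetaN N ^ l * (zetaN N ^ n)⁻¹) ^ N = 1 := by
      rw [mul_pow, inv_pow, ← pow_mul, ← pow_mul, mul_comm l, mul_comm n, pow_mul, pow_mul,
        (zetaN_prim N).pow_eq_one]
      simp
    rw [h2]; simp

omit hT in
lemma tendsto_inv_pow_mul {E : ℍ → ℂ}
    (hE : E =O[atImInfty] fun z : ℍ => ‖𝕢 (N : ℝ) (z : ℂ)‖ ^ N) {n : ℕ} (hn : n < N) :
    Tendsto (fun z : ℍ => (𝕢 (N : ℝ) (z : ℂ) ^ n)⁻¹ * E z) atImInfty (𝓝 0) := by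
  obtain ⟨C, hC⟩ := hE.bound
  have hq : Tendsto (fun z : ℍ => ‖𝕢 (N : ℝ) (z : ℂ)‖) atImInfty (𝓝 0) := by
    simpa using (qParam_tendsto_atImInfty (N_pos N)).norm
  have hlim : Tendsto (fun z : ℍ => C * ‖𝕢 (N : ℝ) (z : ℂ)‖ ^ (N - n)) atImInfty (𝓝 0) := by
    have := (hq.pow (N - n)).const_mul C
    rwa [zero_pow (by omega), mul_zero] at this
  refine squeeze_zero_norm' ?_ hlim
  filter_upwards [hC] with z hz
  have hpos : 0 < ‖𝕢 (N : ℝ) (z : ℂ)‖ := norm_pos_iff.mpr (Function.Periodic.qParam_ne_zero _)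
  rw [norm_mul, norm_inv, norm_pow]
  rw [norm_pow, norm_norm] at hz
  have h3 : ‖𝕢 (N : ℝ) (z : ℂ)‖ ^ N = ‖𝕢 (N : ℝ) (z : ℂ)‖ ^ n * ‖𝕢 (N : ℝ) (z : ℂ)‖ ^ (N - n) := by
    rw [← pow_add]; congr 1; omega
  calc (‖𝕢 (N : ℝ) (z : ℂ)‖ ^ n)⁻¹ * ‖E z‖
      ≤ (‖𝕢 (N : ℝ) (z : ℂ)‖ ^ n)⁻¹ * (C * ‖𝕢 (N : ℝ) (z : ℂ)‖ ^ N) := by gcongr
    _ = C * ‖𝕢 (N : ℝ) (z : ℂ)‖ ^ (N - n) := by
      rw [h3]; field_simp

/-- the twisted averages converge to the coefficients -/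
theorem tendsto_twist {f : ℍ → ℂ} (hf : f ∈ MFun Γ k) (x : SL(2, ℤ) ⧸ Γ) {n : ℕ} (hn : n < N) :
    Tendsto (fun z : ℍ => ∑ m ∈ Finset.range N, ((𝕢 (N : ℝ) (z : ℂ) ^ n)⁻¹ * (N : ℂ)⁻¹ *
      ((zetaN N ^ n) ^ m)⁻¹) * cj Γ k f ((ModularGroup.T ^ m)⁻¹ • x) z) atImInfty
      (𝓝 (cf Γ N k f x n)) := by
  have hN0 : (N : ℂ) ≠ 0 := by exact_mod_cast NeZero.ne N
  -- error terms
  let E : ℕ → ℍ → ℂ := fun m z => cj Γ k f ((ModularGroup.T ^ m)⁻¹ • x) z -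
    ∑ l ∈ Finset.range N, cf Γ N k f ((ModularGroup.T ^ m)⁻¹ • x) l * 𝕢 (N : ℝ) (z : ℂ) ^ l
  have hE : ∀ m, Tendsto (fun z : ℍ => (𝕢 (N : ℝ) (z : ℂ) ^ n)⁻¹ * E m z) atImInfty (𝓝 0) :=
    fun m => tendsto_inv_pow_mul N (isBigO_sub_partial N hT hf _ N) hn
  have hsum : Tendsto (fun z : ℍ => cf Γ N k f x n + ∑ m ∈ Finset.range N,
      ((N : ℂ)⁻¹ * ((zetaN N ^ n) ^ m)⁻¹) * ((𝕢 (N : ℝ) (z : ℂ) ^ n)⁻¹ * E m z)) atImInfty
      (𝓝 (cf Γ N k f x n + ∑ m ∈ Finset.range N, ((N : ℂ)⁻¹ * ((zetaN N ^ n) ^ m)⁻¹) * 0)) :=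
    tendsto_const_nhds.add (tendsto_finsetSum _ fun m _ => (hE m).const_mul _)
  simp only [mul_zero, Finset.sum_const_zero, add_zero] at hsum
  refine hsum.congr fun z => ?_
  set Y := 𝕢 (N : ℝ) (z : ℂ) with hY
  have hY0 : Y ≠ 0 := Function.Periodic.qParam_ne_zero _
  have hcj : ∀ m, cj Γ k f ((ModularGroup.T ^ m)⁻¹ • x) z =
      E m z + ∑ l ∈ Finset.range N, (zetaN N ^ l) ^ m * cf Γ N k f x l * Y ^ l := by
    intro m
    simp only [E]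
    rw [sub_add_eq_add_sub, eq_sub_iff_add_eq]
    congr 1
    apply Finset.sum_congr rfl
    intro l _
    rw [cf_T_pow_inv N hT hf]
  have hmain : ∑ m ∈ Finset.range N, ((Y ^ n)⁻¹ * (N : ℂ)⁻¹ * ((zetaN N ^ n) ^ m)⁻¹) *
      ∑ l ∈ Finset.range N, (zetaN N ^ l) ^ m * cf Γ N k f x l * Y ^ l = cf Γ N k f x n := by
    simp_rw [Finset.mul_sum]
    rw [Finset.sum_comm]
    have : ∀ l ∈ Finset.range N, ∑ m ∈ Finset.range N, (Y ^ n)⁻¹ * (N : ℂ)⁻¹ *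
        ((zetaN N ^ n) ^ m)⁻¹ * ((zetaN N ^ l) ^ m * cf Γ N k f x l * Y ^ l) =
        (Y ^ n)⁻¹ * (N : ℂ)⁻¹ * cf Γ N k f x l * Y ^ l * (if l = n then (N : ℂ) else 0) := by
      intro l hl
      rw [← geom_orth N (Finset.mem_range.mp hl) hn, Finset.mul_sum]
      apply Finset.sum_congr rfl
      intro m _
      ring
    rw [Finset.sum_congr rfl this]
    simp only [mul_ite, mul_zero]
    rw [Finset.sum_ite_eq' (Finset.range N) n, if_pos (Finset.mem_range.mpr hn)]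
    field_simp
  simp_rw [hcj, mul_add, Finset.sum_add_distrib]
  rw [hmain, add_comm]
  congr 1
  apply Finset.sum_congr rfl
  intro m _
  ring


/-- multiplication by a level one form multiplies the low coefficients by its value at `i∞`. -/
theorem cf_mul_levelOne {a f : ℍ → ℂ} (ha : a ∈ RFun w) (hf : f ∈ MFun Γ k) (x : SL(2, ℤ) ⧸ Γ)
    {n : ℕ} (hn : n < N) : cf Γ N (w + k) (a * f) x n = vInf a * cf Γ N k f x n := by
  refine tendsto_nhds_unique (tendsto_twist N hT (mul_mem_MFun (RFun_le_MFun ha) hf) x hn) ?_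
  refine ((tendsto_vInf ha).mul (tendsto_twist N hT hf x hn)).congr fun z => ?_
  rw [Finset.mul_sum]
  apply Finset.sum_congr rfl
  intro m _
  rw [cj_mul, cj_levelOne ha, Pi.mul_apply]
  ring

theorem Lead_mul_levelOne {a f : ℍ → ℂ} (ha : a ∈ RFun w) (hf : f ∈ MFun Γ k)
    (x : SL(2, ℤ) ⧸ Γ) : Lead Γ N (w + k) (a * f) x = vInf a * Lead Γ N k f x := by
  unfold Lead
  rw [Finset.mul_sum]
  exact Finset.sum_congr rfl fun n hn => cf_mul_levelOne N hT ha hf x (Finset.mem_range.mp hn)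

theorem Lead_add {f g : ℍ → ℂ} (hf : f ∈ MFun Γ k) (hg : g ∈ MFun Γ k) (x : SL(2, ℤ) ⧸ Γ) :
    Lead Γ N k (f + g) x = Lead Γ N k f x + Lead Γ N k g x := by
  unfold Lead
  rw [← Finset.sum_add_distrib]
  exact Finset.sum_congr rfl fun n _ => cf_add N hT hf hg x n

theorem Lead_smul (c : ℂ) {f : ℍ → ℂ} (hf : f ∈ MFun Γ k) (x : SL(2, ℤ) ⧸ Γ) :
    Lead Γ N k (c • f) x = c * Lead Γ N k f x := by
  unfold Lead
  rw [Finset.mul_sum]
  exact Finset.sum_congr rfl fun n _ => cf_smul N hT c hf x n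

omit hT in
theorem Lead_zero (x : SL(2, ℤ) ⧸ Γ) : Lead Γ N k 0 x = 0 := by
  unfold Lead cf
  simp [cj_zero, qExpansion_zero]

theorem Lead_sum {ι : Type*} (s : Finset ι) (f : ι → ℍ → ℂ) (hf : ∀ i ∈ s, f i ∈ MFun Γ k)
    (x : SL(2, ℤ) ⧸ Γ) : Lead Γ N k (∑ i ∈ s, f i) x = ∑ i ∈ s, Lead Γ N k (f i) x := by
  classical
  induction s using Finset.induction_on with
  | empty => simp [Lead_zero]
  | insert i s hi ih =>
    rw [Finset.sum_insert hi, Finset.sum_insert hi,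
      Lead_add N hT (hf i (Finset.mem_insert_self i s))
        (Submodule.sum_mem _ fun j hj => hf j (Finset.mem_insert_of_mem hj)),
      ih fun j hj => hf j (Finset.mem_insert_of_mem hj)]

end period

/-! ### The twisting matrix -/

section theta

variable [DecidableEq (SL(2, ℤ) ⧸ Γ)]

/-- the twisting matrix `Θ(z) = ∑ₙ q_N^{-n} πₙ`. -/
def Theta (Γ : Subgroup SL(2, ℤ)) [DecidableEq (SL(2, ℤ) ⧸ Γ)] (N : ℕ) (z : ℍ) :
    Matrix (SL(2, ℤ) ⧸ Γ) (SL(2, ℤ) ⧸ Γ) ℂ :=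
  Matrix.of fun x x' => ∑ n ∈ Finset.range N, ∑ m ∈ Finset.range N,
    if (ModularGroup.T ^ m)⁻¹ • x = x' then
      ((𝕢 (N : ℝ) (z : ℂ) ^ n)⁻¹ * (N : ℂ)⁻¹ * ((zetaN N ^ n) ^ m)⁻¹) else 0

lemma Theta_mul_apply [Fintype (SL(2, ℤ) ⧸ Γ)] (N : ℕ) (z : ℍ)
    (A : Matrix (SL(2, ℤ) ⧸ Γ) (SL(2, ℤ) ⧸ Γ) ℂ) (x y : SL(2, ℤ) ⧸ Γ) :
    (Theta Γ N z * A) x y = ∑ n ∈ Finset.range N, ∑ m ∈ Finset.range N,
      ((𝕢 (N : ℝ) (z : ℂ) ^ n)⁻¹ * (N : ℂ)⁻¹ * ((zetaN N ^ n) ^ m)⁻¹) *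
        A ((ModularGroup.T ^ m)⁻¹ • x) y := by
  rw [Matrix.mul_apply]
  simp only [Theta, Matrix.of_apply, Finset.sum_mul]
  rw [Finset.sum_comm]
  apply Finset.sum_congr rfl
  intro n _
  rw [Finset.sum_comm]
  apply Finset.sum_congr rfl
  intro m _
  simp only [ite_mul, zero_mul]
  rw [Finset.sum_ite_eq]
  simp

variable (N : ℕ) [NeZero N] (hT : ∀ x : SL(2, ℤ) ⧸ Γ, (ModularGroup.T ^ N) • x = x)

include hT in
theorem tendsto_Theta_mul [Fintype (SL(2, ℤ) ⧸ Γ)] (d : SL(2, ℤ) ⧸ Γ → ℤ)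
    (r : SL(2, ℤ) ⧸ Γ → ℍ → ℂ) (hr : ∀ y, r y ∈ MFun Γ (d y)) (x y : SL(2, ℤ) ⧸ Γ) :
    Tendsto (fun z => (Theta Γ N z * Umat Γ d r z) x y) atImInfty
      (𝓝 (Lead Γ N (d y) (r y) x)) := by
  simp_rw [Theta_mul_apply]
  exact tendsto_finsetSum _ fun n hn => tendsto_twist N hT (hr y) x (Finset.mem_range.mp hn)

lemma Delta_isBigO : (discriminant : ℍ → ℂ) =O[atImInfty] fun z : ℍ => ‖𝕢 (N : ℝ) (z : ℂ)‖ ^ N := by
  have := (zeroAt_of_mem Delta_mem).exp_decay_atImInfty one_pos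
    (RFun_periodic (SFun_le_MFun Delta_mem)) Delta_mem.1 (bdd_of_mem (SFun_le_MFun Delta_mem))
  refine this.congr_right fun z => ?_
  rw [norm_qParam_pow]; simp

theorem tendsto_Delta_Theta (x x' : SL(2, ℤ) ⧸ Γ) :
    Tendsto (fun z => discriminant z * Theta Γ N z x x') atImInfty (𝓝 0) := by
  simp only [Theta, Matrix.of_apply, Finset.mul_sum]
  rw [show (0 : ℂ) = ∑ n ∈ Finset.range N, ∑ m ∈ Finset.range N, (0 : ℂ) by simp]
  refine tendsto_finsetSum _ fun n hn => tendsto_finsetSum _ fun m _ => ?_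
  split_ifs with h
  · have := (tendsto_inv_pow_mul N (Delta_isBigO N) (Finset.mem_range.mp hn)).const_mul
      ((N : ℂ)⁻¹ * ((zetaN N ^ n) ^ m)⁻¹)
    rw [mul_zero] at this
    refine this.congr fun z => ?_
    ring
  · simp

end theta

/-! ### Constant terms -/

section const

variable (N : ℕ) [NeZero N] (hT : ∀ x : SL(2, ℤ) ⧸ Γ, (ModularGroup.T ^ N) • x = x)

/-- the vector of constant terms -/
def constTerm (k : ℤ) : MFun Γ k →ₗ[ℂ] (SL(2, ℤ) ⧸ Γ → ℂ) where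
  toFun f x := cf Γ N k f x 0
  map_add' f g := by ext x; exact cf_add N hT f.2 g.2 x 0
  map_smul' c f := by ext x; exact cf_smul N hT c f.2 x 0

include hT in
lemma mem_SFun_iff_cf {f : ℍ → ℂ} (hf : f ∈ MFun Γ k) :
    f ∈ SFun Γ k ↔ ∀ x, cf Γ N k f x 0 = 0 := by
  constructor
  · intro h x
    exact tendsto_nhds_unique (tendsto_cf_zero N hT hf x) (cj_zeroAt h x)
  · intro h
    refine mem_SFun_of_cj hf fun x => ?_
    have := tendsto_cf_zero N hT hf x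
    rwa [h x] at this

include hT in
theorem finrank_MFun_eq_add_orb [Fintype (SL(2, ℤ) ⧸ Γ)] [DecidableEq (SL(2, ℤ) ⧸ Γ)]
    [FiniteDimensional ℂ (MFun Γ k)]
    (hsurj : ∀ v : SL(2, ℤ) ⧸ Γ → ℂ, (∀ x, v (ModularGroup.T⁻¹ • x) = v x) →
      ∃ f ∈ MFun Γ k, ∀ x, cf Γ N k f x 0 = v x) :
    Module.finrank ℂ (MFun Γ k) = Module.finrank ℂ (SFun Γ k) +
      orb (MulAction.toPerm (ModularGroup.T : SL(2, ℤ)) : Equiv.Perm (SL(2, ℤ) ⧸ Γ)) := by
  have h1 := LinearMap.finrank_range_add_finrank_ker (constTerm N hT k)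
  have hker : LinearMap.ker (constTerm N hT k) = (SFun Γ k).comap (MFun Γ k).subtype := by
    ext f
    rw [LinearMap.mem_ker, Submodule.mem_comap, Submodule.subtype_apply, mem_SFun_iff_cf N hT f.2]
    exact funext_iff
  have hrange : LinearMap.range (constTerm N hT k) = Module.End.eigenspace
      (permOp (MulAction.toPerm (ModularGroup.T : SL(2, ℤ)) : Equiv.Perm (SL(2, ℤ) ⧸ Γ))) 1 := by
    ext v
    rw [Module.End.mem_eigenspace_iff, one_smul]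
    constructor
    · rintro ⟨f, rfl⟩
      ext x
      simp only [LinearMap.funLeft_apply, MulAction.toPerm_apply]
      have := cf_T_inv N hT f.2 (ModularGroup.T • x) 0
      rw [inv_smul_smul] at this
      simpa [constTerm] using this.symm
    · intro hv
      have hv' : ∀ x, v (ModularGroup.T⁻¹ • x) = v x := by
        intro x
        have := congr_fun hv (ModularGroup.T⁻¹ • x)
        simp only [LinearMap.funLeft_apply, MulAction.toPerm_apply, smul_inv_smul] at this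
        exact this.symm
      obtain ⟨f, hf, hfv⟩ := hsurj v hv'
      exact ⟨⟨f, hf⟩, funext hfv⟩
  rw [hker, hrange, finrank_invariants,
    (Submodule.comapSubtypeEquivOfLe (SFun_le_MFun (Γ := Γ) (k := k))).finrank_eq] at h1
  omega

end const

end

end Fermat.Agent.DimAux
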