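import Mathlib

/-!
# (A1) limit of `δ • U⁻¹` from a twist `Θ U → L`
-/

set_option autoImplicit false

namespace Fermat.Agent.DimAux

theorem tendsto_mul_inv_of_twist {X α : Type*} [Fintype X] [DecidableEq X] {l : Filter α}
    (U Θ : α → Matrix X X ℂ) (L : Matrix X X ℂ) (hL : IsUnit L.det) (δ : α → ℂ)
    (hU : ∀ a, IsUnit (U a).det)
    (hΘU : ∀ x y, Filter.Tendsto (fun a => (Θ a * U a) x y) l (nhds (L x y)))
    (hδ : ∀ x y, Filter.Tendsto (fun a => δ a * Θ a x y) l (nhds 0)) :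
    ∀ x y, Filter.Tendsto (fun a => δ a * (U a)⁻¹ y x) l (nhds 0) := by
  intro x y
  -- `Θ U → L` as matrices
  have h1 : Filter.Tendsto (fun a => Θ a * U a) l (nhds L) := by
    refine tendsto_pi_nhds.2 fun i => ?_
    refine tendsto_pi_nhds.2 fun j => ?_
    exact hΘU i j
  have hdet : Filter.Tendsto (fun a => (Θ a * U a).det) l (nhds L.det) :=
    ((continuous_id.matrix_det).tendsto L).comp h1
  have hadj : Filter.Tendsto (fun a => (Θ a * U a).adjugate) l (nhds L.adjugate) :=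
    ((continuous_id.matrix_adjugate).tendsto L).comp h1
  have hL0 : L.det ≠ 0 := hL.ne_zero
  have hinv : Filter.Tendsto (fun a => (Θ a * U a)⁻¹) l (nhds L⁻¹) := by
    have : (fun a => (Θ a * U a)⁻¹) = fun a => ((Θ a * U a).det)⁻¹ • (Θ a * U a).adjugate := by
      funext a
      rw [Matrix.inv_def, Ring.inverse_eq_inv']
    rw [this, Matrix.inv_def, Ring.inverse_eq_inv']
    exact (hdet.inv₀ hL0).smul hadj
  have hev : ∀ᶠ a in l, (Θ a * U a).det ≠ 0 := hdet.eventually_ne hL0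
  -- eventually `U⁻¹ = (Θ U)⁻¹ * Θ`
  have heq : ∀ᶠ a in l, δ a * (U a)⁻¹ y x = ∑ z, (Θ a * U a)⁻¹ y z * (δ a * Θ a z x) := by
    filter_upwards [hev] with a ha
    have hUa : IsUnit (U a).det := hU a
    have hΘUa : IsUnit (Θ a * U a).det := isUnit_iff_ne_zero.2 ha
    have h2 : (U a)⁻¹ = (Θ a * U a)⁻¹ * Θ a := by
      have h3 : (Θ a * U a)⁻¹ * Θ a * U a = 1 := by
        rw [Matrix.mul_assoc, Matrix.nonsing_inv_mul _ hΘUa]
      exact Matrix.inv_eq_left_inv h3
    rw [h2, Matrix.mul_apply, Finset.mul_sum]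
    refine Finset.sum_congr rfl fun z _ => ?_
    ring
  have hlim : Filter.Tendsto (fun a => ∑ z, (Θ a * U a)⁻¹ y z * (δ a * Θ a z x)) l (nhds 0) := by
    have : (0 : ℂ) = ∑ z : X, L⁻¹ y z * 0 := by simp
    rw [this]
    refine tendsto_finsetSum _ fun z _ => ?_
    have h4 : Filter.Tendsto (fun a => (Θ a * U a)⁻¹ y z) l (nhds (L⁻¹ y z)) := by
      have := (tendsto_pi_nhds.1 hinv y)
      exact tendsto_pi_nhds.1 this z
    exact h4.mul (hδ z x)
  exact hlim.congr' (heq.mono fun a ha => ha.symm)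

end Fermat.Agent.DimAux
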