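import Fermat.Agent.Lib.Dim_Infty
import Fermat.Agent.Lib.Dim_InvLim
import Fermat.Agent.Lib.Dim_Iso
import Fermat.Agent.Lib.Dim_Dual

/-!
# The matrix of leading vectors of a frame is invertible; consequences
-/

open UpperHalfPlane ModularForm Filter Topology
open scoped Manifold MatrixGroups

namespace Fermat.Agent.DimAux

noncomputable section

variable (Γ : Subgroup SL(2, ℤ)) [Fintype (SL(2, ℤ) ⧸ Γ)]
  [DecidableEq (SL(2, ℤ) ⧸ Γ)] (d : SL(2, ℤ) ⧸ Γ → ℤ) (r : SL(2, ℤ) ⧸ Γ → ℍ → ℂ)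

/-- uniqueness of coefficients w.r.t. a frame -/
lemma comb_eq_zero (hU : ∀ τ, IsUnit (Umat Γ d r τ).det) (k : ℤ)
    (b : SL(2, ℤ) ⧸ Γ → ℍ → ℂ) (hb : ∀ y, b y ∈ RFun (k - d y)) (h0 : ∑ y, b y * r y = 0)
    (y : SL(2, ℤ) ⧸ Γ) : b y = 0 := by
  funext τ
  have h1 : (Umat Γ d r τ).mulVec (fun y => b y τ) = 0 := by
    funext x
    have h2 := congrFun (congrArg (fun F => cj Γ k F x) h0) τ
    simp only [cj_sum, cj_zero] at h2
    rw [Finset.sum_apply, Pi.zero_apply] at h2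
    simp only [Matrix.mulVec, dotProduct, Umat_apply, Pi.zero_apply]
    rw [← h2]
    refine Finset.sum_congr rfl fun y _ => ?_
    rw [cj_levelOne_mul Γ (sub_add_cancel k (d y)) (hb y), Pi.mul_apply, mul_comm]
  have h3 := Matrix.eq_zero_of_mulVec_eq_zero (hU τ).ne_zero h1
  exact congrFun h3 y

/-- the matrix of leading vectors -/
def LeadMat (N : ℕ) : Matrix (SL(2, ℤ) ⧸ Γ) (SL(2, ℤ) ⧸ Γ) ℂ :=
  Matrix.of fun x y => Lead Γ N (d y) (r y) x

variable (N : ℕ) [NeZero N] (hT : ∀ x : SL(2, ℤ) ⧸ Γ, (ModularGroup.T ^ N) • x = x)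

include hT in
omit [Fintype (SL(2, ℤ) ⧸ Γ)] [DecidableEq (SL(2, ℤ) ⧸ Γ)] in
lemma Lead_mul_levelOne' {w k' k : ℤ} (h : w + k' = k) {a f : ℍ → ℂ} (ha : a ∈ RFun w)
    (hf : f ∈ MFun Γ k') (x : SL(2, ℤ) ⧸ Γ) :
    Lead Γ N k (a * f) x = vInf a * Lead Γ N k' f x := by
  subst h
  exact Lead_mul_levelOne N hT ha hf x

include hT in
omit [DecidableEq (SL(2, ℤ) ⧸ Γ)] in
/-- forms of weight `k` with prescribed combination of leading vectors -/
lemma exists_form_Lead (hr : ∀ y, r y ∈ MFun Γ (d y)) (k : ℤ)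
    (hk : ∀ y, 4 ≤ k - d y ∧ Even (k - d y)) (c : SL(2, ℤ) ⧸ Γ → ℂ) :
    ∃ u : SL(2, ℤ) ⧸ Γ → ℍ → ℂ, (∀ y, u y ∈ RFun (k - d y)) ∧
      (∀ y, Tendsto (u y) atImInfty (𝓝 1)) ∧ (∑ y, (c y • u y) * r y) ∈ MFun Γ k ∧
      ∀ x, Lead Γ N k (∑ y, (c y • u y) * r y) x = (LeadMat Γ d r N).mulVec c x := by
  have hex : ∀ y, ∃ u ∈ RFun (k - d y), Tendsto u atImInfty (𝓝 1) := fun y =>
    exists_unit_form (k - d y) (by have := (hk y).1; omega) (hk y).2
      (by have := (hk y).1; omega)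
  choose u hu hu1 using hex
  have hmem : ∀ y, (c y • u y) * r y ∈ MFun Γ k := fun y =>
    MFun_cast (sub_add_cancel k (d y))
      (mul_mem_MFun (RFun_le_MFun (Submodule.smul_mem _ _ (hu y))) (hr y))
  refine ⟨u, hu, hu1, Submodule.sum_mem _ fun y _ => hmem y, fun x => ?_⟩
  rw [Lead_sum N hT _ _ (fun y _ => hmem y)]
  simp only [Matrix.mulVec, dotProduct, LeadMat, Matrix.of_apply]
  refine Finset.sum_congr rfl fun y _ => ?_
  rw [Lead_mul_levelOne' Γ N hT (sub_add_cancel k (d y)) (Submodule.smul_mem _ _ (hu y)) (hr y)]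
  have h1 : vInf (c y • u y) = c y := by
    have h2 := tendsto_vInf (Submodule.smul_mem _ (c y) (hu y))
    have h3 : Tendsto (c y • u y) atImInfty (𝓝 (c y • 1)) := (hu1 y).const_smul (c y)
    have := tendsto_nhds_unique h2 h3
    simpa using this
  rw [h1, mul_comm]

include hT in
/-- (L1) the matrix of leading vectors of a frame is invertible -/
theorem isUnit_LeadMat_det (hr : ∀ y, r y ∈ MFun Γ (d y)) (hU : ∀ τ, IsUnit (Umat Γ d r τ).det)
    (hgen : ∀ k, ∀ f ∈ MFun Γ k, ∃ a : SL(2, ℤ) ⧸ Γ → ℍ → ℂ,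
      (∀ y, a y ∈ RFun (k - d y)) ∧ f = ∑ y, a y * r y)
    (hev : ∀ y, Even (d y)) : IsUnit (LeadMat Γ d r N).det := by
  rw [← Matrix.isUnit_iff_isUnit_det, ← Matrix.mulVec_injective_iff_isUnit]
  have key : ∀ c, (LeadMat Γ d r N).mulVec c = 0 → c = 0 := by
    intro c hc
    -- a suitable weight
    set k : ℤ := 2 * ∑ y, |d y| + 4 with hk
    have hk' : ∀ y, 4 ≤ k - d y ∧ Even (k - d y) := by
      intro y
      have h1 : |d y| ≤ ∑ y, |d y| :=
        Finset.single_le_sum (f := fun y => |d y|) (fun i _ => abs_nonneg _) (Finset.mem_univ y)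
      have h2 : d y ≤ |d y| := le_abs_self _
      have h3 : 0 ≤ |d y| := abs_nonneg _
      refine ⟨by rw [hk]; linarith, ?_⟩
      apply Even.sub _ (hev y)
      rw [hk]
      exact Even.add (even_two_mul _) (by decide)
    obtain ⟨u, hu, hu1, hf, hLead⟩ := exists_form_Lead Γ d r N hT hr k hk' c
    have hdiv := div_Delta_mem_of_Lead N hT hf (fun x => by rw [hLead x, hc]; rfl)
    obtain ⟨a, ha, hfa⟩ := hgen _ _ hdiv
    have hΔa : ∀ y, discriminant * a y ∈ RFun (k - d y) := fun y =>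
      MFun_cast (by ring) (mul_mem_MFun (SFun_le_MFun Delta_mem) (ha y))
    have h0 : ∑ y, (c y • u y - discriminant * a y) * r y = 0 := by
      have h1 : ∑ y, (c y • u y) * r y = discriminant * ∑ y, a y * r y := by
        rw [← hfa, mul_div_Delta]
      simp only [sub_mul, Finset.sum_sub_distrib]
      rw [h1, Finset.mul_sum, sub_eq_zero]
      exact Finset.sum_congr rfl fun y _ => (mul_assoc _ _ _).symm
    funext y
    have h1 := comb_eq_zero Γ d r hU k _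
      (fun y => Submodule.sub_mem _ (Submodule.smul_mem _ _ (hu y)) (hΔa y)) h0 y
    have h2 : Tendsto (c y • u y - discriminant * a y) atImInfty (𝓝 (c y • 1 - 0 * vInf (a y))) :=
      ((hu1 y).const_smul (c y)).sub ((zeroAt_of_mem Delta_mem).mul (tendsto_vInf (ha y)))
    rw [h1] at h2
    have h3 := tendsto_nhds_unique h2 (tendsto_const_nhds (x := (0 : ℂ)))
    simpa using h3
  intro c c' hcc
  have := key (c - c') (by rw [Matrix.mulVec_sub, hcc, sub_self])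
  exact sub_eq_zero.mp this

include hT in
/-- (L2) -/
theorem tendsto_Delta_inv (hr : ∀ y, r y ∈ MFun Γ (d y)) (hU : ∀ τ, IsUnit (Umat Γ d r τ).det)
    (hgen : ∀ k, ∀ f ∈ MFun Γ k, ∃ a : SL(2, ℤ) ⧸ Γ → ℍ → ℂ,
      (∀ y, a y ∈ RFun (k - d y)) ∧ f = ∑ y, a y * r y)
    (hev : ∀ y, Even (d y)) (x y : SL(2, ℤ) ⧸ Γ) :
    Tendsto (fun τ => discriminant τ * (Umat Γ d r τ)⁻¹ y x) atImInfty (𝓝 0) :=
  tendsto_mul_inv_of_twist (Umat Γ d r) (Theta Γ N) (LeadMat Γ d r N)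
    (isUnit_LeadMat_det Γ d r N hT hr hU hgen hev) discriminant hU
    (fun x y => tendsto_Theta_mul N hT d r hr x y) (fun x y => tendsto_Delta_Theta N x y) x y

include hT in
/-- (L3) surjectivity of the constant term map -/
theorem exists_form_constTerm (hr : ∀ y, r y ∈ MFun Γ (d y))
    (hU : ∀ τ, IsUnit (Umat Γ d r τ).det)
    (hgen : ∀ k, ∀ f ∈ MFun Γ k, ∃ a : SL(2, ℤ) ⧸ Γ → ℍ → ℂ,
      (∀ y, a y ∈ RFun (k - d y)) ∧ f = ∑ y, a y * r y)
    (hev : ∀ y, Even (d y)) (k : ℤ) (hk : ∀ y, 4 ≤ k - d y ∧ Even (k - d y))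
    (v : SL(2, ℤ) ⧸ Γ → ℂ) (hv : ∀ x, v (ModularGroup.T⁻¹ • x) = v x) :
    ∃ f ∈ MFun Γ k, ∀ x, cf Γ N k f x 0 = v x := by
  have hL := isUnit_LeadMat_det Γ d r N hT hr hU hgen hev
  obtain ⟨u, -, -, hf, hLead⟩ := exists_form_Lead Γ d r N hT hr k hk ((LeadMat Γ d r N)⁻¹.mulVec v)
  refine ⟨_, hf, (cf_of_Lead_invariant N hT hf v hv fun x => ?_).1⟩
  rw [hLead x, Matrix.mulVec_mulVec, Matrix.mul_nonsing_inv _ hL, Matrix.one_mulVec]

end

end Fermat.Agent.DimAux
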