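import Mathlib
import Fermat.Agent.Lib.Dim_Fun

/-!
# Level one facts, division by `Δ`, the regular sequence `(E₄, E₆)`
-/

open UpperHalfPlane ModularForm Filter Topology EisensteinSeries
open scoped Manifold MatrixGroups Real

namespace Fermat.Agent.DimAux

noncomputable section

/-- level one forms as functions -/
abbrev RFun (w : ℤ) : Submodule ℂ (ℍ → ℂ) := MFun ⊤ w

variable {Γ : Subgroup SL(2, ℤ)} {k l w : ℤ}

lemma coe_mem_RFun (F : ModularForm 𝒮ℒ w) : (F : ℍ → ℂ) ∈ RFun w :=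
  ⟨F.holo', fun g _ => by
    rw [SL_slash]
    exact SlashInvariantFormClass.slash_action_eq F _ ⟨g, rfl⟩,
    fun γ => ModularFormClass.bdd_at_infty_slash F γ⟩

lemma coe_mem_SFun_top (F : CuspForm 𝒮ℒ w) : (F : ℍ → ℂ) ∈ SFun ⊤ w :=
  ⟨F.holo', fun g _ => by
    rw [SL_slash]
    exact SlashInvariantFormClass.slash_action_eq F _ ⟨g, rfl⟩,
    fun γ => CuspFormClass.zero_at_infty_slash F γ⟩

/-- bundle a level one function -/
def toMF1 {f : ℍ → ℂ} (hf : f ∈ RFun w) : ModularForm 𝒮ℒ w where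
  toFun := f
  slash_action_eq' := by
    rintro _ ⟨γ, rfl⟩
    exact hf.2.1 γ (Subgroup.mem_top _)
  holo' := hf.1
  bdd_at_cusps' {c} hc := by
    rw [OnePoint.isBoundedAt_iff_forall_SL2Z hc]
    exact fun γ _ => hf.2.2 γ

@[simp] lemma coe_toMF1 {f : ℍ → ℂ} (hf : f ∈ RFun w) : (toMF1 hf : ℍ → ℂ) = f := rfl

/-- `RFun` is linearly equivalent to Mathlib's space. -/
def equivMF1 : ModularForm 𝒮ℒ w ≃ₗ[ℂ] RFun w where
  toFun F := ⟨F, coe_mem_RFun F⟩
  map_add' _ _ := rfl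
  map_smul' _ _ := rfl
  invFun f := toMF1 f.2
  left_inv _ := rfl
  right_inv _ := rfl

lemma RFun_le_MFun : RFun w ≤ MFun Γ w := MFun_mono le_top

lemma E4_mem : (E₄ : ℍ → ℂ) ∈ RFun 4 := coe_mem_RFun E₄
lemma E6_mem : (E₆ : ℍ → ℂ) ∈ RFun 6 := coe_mem_RFun E₆
lemma Delta_mem : (discriminant : ℍ → ℂ) ∈ SFun ⊤ 12 := coe_mem_SFun_top CuspForm.discriminant

lemma RFun_eq_bot_of_neg (hw : w < 0) : RFun w = ⊥ := by
  rw [eq_bot_iff]
  intro f hf
  have := rank_zero_iff_forall_zero.mp (levelOne_neg_weight_rank_zero hw) (toMF1 hf)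
  have h2 := congrArg (fun F : ModularForm 𝒮ℒ w => (F : ℍ → ℂ)) this
  simpa using h2

lemma RFun_eq_bot_of_odd (hw : Odd w) : RFun w = ⊥ := by
  rw [eq_bot_iff]
  intro f hf
  have := levelOne_odd_weight_eq_zero hw (toMF1 hf)
  have h2 := congrArg (fun F : ModularForm 𝒮ℒ w => (F : ℍ → ℂ)) this
  simpa using h2

lemma RFun_two_eq_bot : RFun 2 = ⊥ := by
  rw [eq_bot_iff]
  intro f hf
  have := rank_zero_iff_forall_zero.mp levelOne_weight_two_rank_zero (toMF1 hf)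
  have h2 := congrArg (fun F : ModularForm 𝒮ℒ 2 => (F : ℍ → ℂ)) this
  simpa using h2

lemma RFun_zero_const {f : ℍ → ℂ} (hf : f ∈ RFun 0) : ∃ c : ℂ, f = fun _ => c := by
  obtain ⟨c, hc⟩ := ModularForm.eq_const_of_weight_zero (toMF1 hf)
  exact ⟨c, hc⟩

/-- finrank of level one spaces -/
lemma finrank_RFun (n : ℕ) (hn : Even n) :
    Module.finrank ℂ (RFun (n : ℤ)) = if n ≡ 2 [MOD 12] then n / 12 else n / 12 + 1 := by
  rw [← (equivMF1 (w := (n : ℤ))).finrank_eq, Module.finrank, dimension_level_one n hn]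
  split_ifs <;> simp

lemma finrank_RFun_neg (hw : w < 0) : Module.finrank ℂ (RFun w) = 0 := by
  rw [RFun_eq_bot_of_neg hw]; simp

/-! ### periodicity and limits -/

lemma denom_T_zpow (n : ℤ) (z : ℍ) : denom (ModularGroup.T ^ n : SL(2, ℤ)) z = 1 := by
  rw [ModularGroup.denom_apply, ModularGroup.coe_T_zpow]
  simp

lemma periodic_of_vadd {g : ℍ → ℂ} {h : ℝ} (hg : ∀ z : ℍ, g (h +ᵥ z) = g z) :
    Function.Periodic (g ∘ ofComplex) h := by
  intro w
  by_cases hw : 0 < Complex.im w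
  · have : 0 < Complex.im (w + h) := by simp [hw]
    simp only [Function.comp_apply, ofComplex_apply_of_im_pos this, ofComplex_apply_of_im_pos hw]
    rw [← hg ⟨w, hw⟩]
    congr 1
    ext
    simp [add_comm]
  · have hw' : Complex.im w ≤ 0 := not_lt.mp hw
    have : Complex.im (w + h) ≤ 0 := by simpa using hw'
    simp [ofComplex_apply_of_im_nonpos this, ofComplex_apply_of_im_nonpos hw']

lemma RFun_periodic {f : ℍ → ℂ} (hf : f ∈ RFun w) : Function.Periodic (f ∘ ofComplex) (1 : ℝ) := by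
  apply periodic_of_vadd
  intro z
  have h1 := slash_apply' (k := w) f ModularGroup.T z
  rw [hf.2.1 _ (Subgroup.mem_top _), modular_T_smul] at h1
  have h2 := denom_T_zpow 1 z
  rw [zpow_one] at h2
  rw [h1, h2]; simp

lemma bdd_of_mem {f : ℍ → ℂ} (hf : f ∈ MFun Γ k) : IsBoundedAtImInfty f := by
  have := hf.2.2 1
  rwa [SlashAction.slash_one] at this

lemma zeroAt_of_mem {f : ℍ → ℂ} (hf : f ∈ SFun Γ k) : IsZeroAtImInfty f := by
  have := hf.2.2 1
  rwa [SlashAction.slash_one] at this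

/-- a periodic holomorphic bounded function has a limit at `i∞`. -/
lemma tendsto_coeff_zero {g : ℍ → ℂ} {h : ℝ} (hh : 0 < h) (hper : Function.Periodic (g ∘ ofComplex) h)
    (hhol : MDiff g) (hbdd : IsBoundedAtImInfty g) :
    Tendsto g atImInfty (𝓝 ((qExpansion h g).coeff 0)) := by
  have han := analyticAt_cuspFunction_zero hh hper hhol hbdd
  have h0 : (qExpansion h g).coeff 0 = cuspFunction h g 0 := by
    simp [qExpansion_coeff]
  rw [h0]
  have : (cuspFunction h g ∘ fun τ : ℍ ↦ Function.Periodic.qParam h τ : ℍ → ℂ) = g := by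
    funext τ
    simpa using eq_cuspFunction τ hh.ne' hper
  simpa [this] using han.continuousAt.tendsto.comp (qParam_tendsto_atImInfty hh)

/-- the value at infinity of a level one form -/
def vInf (f : ℍ → ℂ) : ℂ := (qExpansion 1 f).coeff 0

lemma tendsto_vInf {f : ℍ → ℂ} (hf : f ∈ RFun w) : Tendsto f atImInfty (𝓝 (vInf f)) :=
  tendsto_coeff_zero one_pos (RFun_periodic hf) hf.1 (bdd_of_mem hf)

lemma tendsto_E4 : Tendsto (E₄ : ℍ → ℂ) atImInfty (𝓝 1) := by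
  have := tendsto_vInf E4_mem
  rwa [vInf, E_qExpansion_coeff_zero (k := 4) (by norm_num) ⟨2, rfl⟩] at this

lemma tendsto_E6 : Tendsto (E₆ : ℍ → ℂ) atImInfty (𝓝 1) := by
  have := tendsto_vInf E6_mem
  rwa [vInf, E_qExpansion_coeff_zero (k := 6) (by norm_num) ⟨3, rfl⟩] at this

/-! ### division by `Δ` -/

lemma bdd_div_Delta {g : ℍ → ℂ} (hg : g =O[atImInfty] fun τ => Real.exp (-2 * π * τ.im)) :
    IsBoundedAtImInfty (g / discriminant) := by
  have h1 : g =O[atImInfty] discriminant := hg.trans exp_isBigO_discriminant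
  have h2 := h1.mul (Asymptotics.isBigO_refl (fun z => (discriminant z)⁻¹) atImInfty)
  have h3 : (g / discriminant) =O[atImInfty] (1 : ℍ → ℝ) := by
    refine (h2.congr (fun z => ?_) (fun z => ?_)).trans (Asymptotics.isBigO_of_le _ (g := (1 : ℍ → ℝ))
      (f := (1 : ℍ → ℂ)) fun z => by simp)
    · simp [div_eq_mul_inv]
    · simp [discriminant_ne_zero z]
  exact h3

/-- division by `Δ`. -/
lemma div_Delta_mem {f : ℍ → ℂ} (hf : f ∈ MFun Γ k)
    (hb : ∀ γ : SL(2, ℤ), IsBoundedAtImInfty ((f ∣[k] γ) / discriminant)) :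
    f / discriminant ∈ MFun Γ (k - 12) := by
  have hΔ := Delta_mem
  have hmul : f = discriminant * (f / discriminant) := by
    ext z
    simp only [Pi.mul_apply, Pi.div_apply]
    field_simp [discriminant_ne_zero z]
  have hsl : ∀ γ : SL(2, ℤ), (f / discriminant) ∣[k - 12] γ = (f ∣[k] γ) / discriminant := by
    intro γ
    have h1 : f ∣[k] γ = discriminant * ((f / discriminant) ∣[k - 12] γ) := by
      conv_lhs => rw [hmul, show k = 12 + (k - 12) by ring, mul_slash_SL2,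
        hΔ.2.1 γ (Subgroup.mem_top _)]
    ext z
    rw [h1]
    simp only [Pi.mul_apply, Pi.div_apply]
    field_simp [discriminant_ne_zero z]
  refine ⟨hf.1.div hΔ.1 discriminant_ne_zero, fun g hg => ?_, fun γ => ?_⟩
  · rw [hsl, hf.2.1 g hg]
  · rw [hsl]; exact hb γ

lemma mul_div_Delta (f : ℍ → ℂ) : discriminant * (f / discriminant) = f := by
  ext z
  simp only [Pi.mul_apply, Pi.div_apply]
  field_simp [discriminant_ne_zero z]

/-- level one cusp forms are divisible by `Δ`. -/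
lemma levelOne_div_Delta {f : ℍ → ℂ} (hf : f ∈ SFun ⊤ w) : f / discriminant ∈ RFun (w - 12) := by
  refine div_Delta_mem (SFun_le_MFun hf) fun γ => ?_
  rw [hf.2.1 γ (Subgroup.mem_top _)]
  apply bdd_div_Delta
  have := (zeroAt_of_mem hf).exp_decay_atImInfty one_pos (RFun_periodic (SFun_le_MFun hf)) hf.1
    (bdd_of_mem (SFun_le_MFun hf))
  simpa using this

/-- a level one form with vanishing value at infinity is a cusp form -/
lemma mem_SFun_top_of_vInf {f : ℍ → ℂ} (hf : f ∈ RFun w) (h0 : vInf f = 0) : f ∈ SFun ⊤ w :=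
  ⟨hf.1, hf.2.1, fun γ => by
    rw [hf.2.1 γ (Subgroup.mem_top _)]
    have := tendsto_vInf hf
    rwa [h0] at this⟩

lemma Delta_eq : (discriminant : ℍ → ℂ) = (1 / 1728 : ℂ) • ((E₄ : ℍ → ℂ) ^ 3 - (E₆ : ℍ → ℂ) ^ 2) := by
  ext z
  simp only [Pi.smul_apply, Pi.sub_apply, Pi.pow_apply, smul_eq_mul]
  rw [discriminant_eq_E₄_cube_sub_E₆_sq z]; ring


lemma MFun_cast {f : ℍ → ℂ} (h : k = l) (hf : f ∈ MFun Γ k) : f ∈ MFun Γ l := h ▸ hf

lemma SFun_cast {f : ℍ → ℂ} (h : k = l) (hf : f ∈ SFun Γ k) : f ∈ SFun Γ l := h ▸ hf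

lemma one_mem_MFun : (1 : ℍ → ℂ) ∈ MFun Γ 0 := const_mem_MFun 1

lemma pow_mem_MFun {f : ℍ → ℂ} (hf : f ∈ MFun Γ k) (n : ℕ) : f ^ n ∈ MFun Γ (n * k) := by
  induction n with
  | zero => simpa using one_mem_MFun
  | succ n ih =>
    rw [pow_succ]
    exact MFun_cast (by push_cast; ring) (mul_mem_MFun ih hf)

lemma monomial_mem (a b : ℕ) : (E₄ : ℍ → ℂ) ^ a * (E₆ : ℍ → ℂ) ^ b ∈ RFun ((a : ℤ) * 4 + (b : ℤ) * 6) :=
  mul_mem_MFun (pow_mem_MFun E4_mem a) (pow_mem_MFun E6_mem b)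

lemma tendsto_monomial (a b : ℕ) :
    Tendsto ((E₄ : ℍ → ℂ) ^ a * (E₆ : ℍ → ℂ) ^ b) atImInfty (𝓝 1) := by
  have := (tendsto_E4.pow a).mul (tendsto_E6.pow b)
  simp only [one_pow, mul_one] at this
  exact this

lemma exists_weight_decomp' (k : ℤ) (h0 : 0 ≤ k) (hev : Even k) (h2 : k ≠ 2) :
    ∃ a b : ℕ, (a : ℤ) * 4 + (b : ℤ) * 6 = k := by
  obtain ⟨m, rfl⟩ := hev
  rcases Int.even_or_odd' m with ⟨j, rfl | rfl⟩
  · exact ⟨j.toNat, 0, by omega⟩
  · exact ⟨(j - 1).toNat, 1, by omega⟩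

/-- level one forms with value `1` at infinity -/
lemma exists_unit_form (w : ℤ) (h0 : 0 ≤ w) (hev : Even w) (h2 : w ≠ 2) :
    ∃ u ∈ RFun w, Tendsto u atImInfty (𝓝 1) := by
  obtain ⟨a, b, hab⟩ := exists_weight_decomp' w h0 hev h2
  exact ⟨_, MFun_cast hab (monomial_mem a b), tendsto_monomial a b⟩

/-- `R₊ = (E₄, E₆)`. -/
theorem levelOne_decomp (w : ℤ) (hw : w ≠ 0) (a : ℍ → ℂ) (ha : a ∈ RFun w) :
    ∃ b ∈ RFun (w - 4), ∃ b' ∈ RFun (w - 6), a = (E₄ : ℍ → ℂ) * b + (E₆ : ℍ → ℂ) * b' := by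
  have hzero : a = 0 → ∃ b ∈ RFun (w - 4), ∃ b' ∈ RFun (w - 6),
      a = (E₄ : ℍ → ℂ) * b + (E₆ : ℍ → ℂ) * b' := by
    rintro rfl
    exact ⟨0, Submodule.zero_mem _, 0, Submodule.zero_mem _, by simp⟩
  rcases lt_or_ge w 0 with hneg | hnn
  · apply hzero
    rw [RFun_eq_bot_of_neg hneg] at ha
    simpa using ha
  rcases Int.even_or_odd w with hev | hodd
  swap
  · apply hzero
    rw [RFun_eq_bot_of_odd hodd] at ha
    simpa using ha
  by_cases h2 : w = 2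
  · subst h2
    apply hzero
    rw [RFun_two_eq_bot] at ha
    simpa using ha
  obtain ⟨p, q, hpq⟩ := exists_weight_decomp' w hnn hev h2
  set u : ℍ → ℂ := (E₄ : ℍ → ℂ) ^ p * (E₆ : ℍ → ℂ) ^ q with hu
  have hum : u ∈ RFun w := MFun_cast hpq (monomial_mem p q)
  set c := vInf a with hc
  have ha' : a - c • u ∈ RFun w := Submodule.sub_mem _ ha (Submodule.smul_mem _ _ hum)
  have h0 : vInf (a - c • u) = 0 := by
    have h1 := tendsto_vInf ha'
    have h3 : Tendsto (a - c • u) atImInfty (𝓝 (c - c • 1)) :=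
      (tendsto_vInf ha).sub ((tendsto_monomial p q).const_smul c)
    have := tendsto_nhds_unique h1 h3
    simpa using this
  have hg := levelOne_div_Delta (mem_SFun_top_of_vInf ha' h0)
  set g : ℍ → ℂ := (a - c • u) / discriminant with hgdef
  have hag : a = c • u + discriminant * g := by
    rw [hgdef, mul_div_Delta]; abel
  have hb1 : (E₄ : ℍ → ℂ) ^ 2 * g ∈ RFun (w - 4) :=
    MFun_cast (by push_cast; ring) (mul_mem_MFun (pow_mem_MFun E4_mem 2) hg)
  have hb2 : (E₆ : ℍ → ℂ) * g ∈ RFun (w - 6) :=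
    MFun_cast (by ring) (mul_mem_MFun E6_mem hg)
  rcases Nat.eq_zero_or_pos p with hp | hp
  · have hq : 0 < q := by
      rcases Nat.eq_zero_or_pos q with hq | hq
      · subst hp hq; simp at hpq; exact absurd hpq.symm hw
      · exact hq
    obtain ⟨q', rfl⟩ : ∃ q', q = q' + 1 := ⟨q - 1, by omega⟩
    subst hp
    refine ⟨(1 / 1728 : ℂ) • ((E₄ : ℍ → ℂ) ^ 2 * g), Submodule.smul_mem _ _ hb1,
      c • ((E₄ : ℍ → ℂ) ^ 0 * (E₆ : ℍ → ℂ) ^ q') - (1 / 1728 : ℂ) • ((E₆ : ℍ → ℂ) * g),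
      Submodule.sub_mem _ (Submodule.smul_mem _ _
        (MFun_cast (by push_cast at hpq ⊢; linarith) (monomial_mem 0 q')))
        (Submodule.smul_mem _ _ hb2), ?_⟩
    rw [hag, Delta_eq, hu]
    ext z
    simp only [Pi.add_apply, Pi.smul_apply, Pi.mul_apply, Pi.sub_apply, Pi.pow_apply, smul_eq_mul]
    ring
  · obtain ⟨p', rfl⟩ : ∃ p', p = p' + 1 := ⟨p - 1, by omega⟩
    refine ⟨c • ((E₄ : ℍ → ℂ) ^ p' * (E₆ : ℍ → ℂ) ^ q) + (1 / 1728 : ℂ) • ((E₄ : ℍ → ℂ) ^ 2 * g),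
      Submodule.add_mem _ (Submodule.smul_mem _ _
        (MFun_cast (by push_cast at hpq ⊢; linarith) (monomial_mem p' q)))
        (Submodule.smul_mem _ _ hb1),
      - ((1 / 1728 : ℂ) • ((E₆ : ℍ → ℂ) * g)), Submodule.neg_mem _ (Submodule.smul_mem _ _ hb2), ?_⟩
    rw [hag, Delta_eq, hu]
    ext z
    simp only [Pi.add_apply, Pi.smul_apply, Pi.mul_apply, Pi.sub_apply, Pi.pow_apply, smul_eq_mul,
      Pi.neg_apply]
    ring

/-- if `F * E = G` with `G` bounded and `E → 1`, then `F` is bounded. -/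
lemma bdd_of_mul_tendsto_one {F E G : ℍ → ℂ} (h : F * E = G) (hG : IsBoundedAtImInfty G)
    (hE : Tendsto E atImInfty (𝓝 1)) : IsBoundedAtImInfty F := by
  have hE' : Tendsto (fun z => (E z)⁻¹) atImInfty (𝓝 1) := by
    have := hE.inv₀ one_ne_zero
    simpa using this
  have h1 : (fun z => (E z)⁻¹) =O[atImInfty] (1 : ℍ → ℝ) := hE'.isBigO_one ℝ
  have h2 : (fun z => G z * (E z)⁻¹) =O[atImInfty] (fun z => (1 : ℍ → ℝ) z * (1 : ℍ → ℝ) z) :=
    Asymptotics.IsBigO.mul hG h1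
  have hne : ∀ᶠ z in atImInfty, E z ≠ 0 := hE.eventually_ne one_ne_zero
  have h3 : F =ᶠ[atImInfty] fun z => G z * (E z)⁻¹ := by
    filter_upwards [hne] with z hz
    rw [← h]
    simp [hz]
  have h4 := h3.trans_isBigO h2
  refine h4.trans (Asymptotics.isBigO_of_le _ fun z => by simp)

/-- `(E₄, E₆)` is a regular sequence on the module of modular forms. -/
theorem regular_sequence (k : ℤ) (x : ℍ → ℂ) (hx : x ∈ MFun Γ (k - 4)) (y : ℍ → ℂ)
    (hy : y ∈ MFun Γ (k - 6)) (h : (E₄ : ℍ → ℂ) * x + (E₆ : ℍ → ℂ) * y = 0) :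
    ∃ z ∈ MFun Γ (k - 10), x = - (E₆ : ℍ → ℂ) * z ∧ y = (E₄ : ℍ → ℂ) * z := by
  have hE4 : (E₄ : ℍ → ℂ) ∈ MFun Γ 4 := RFun_le_MFun E4_mem
  have hE6 : (E₆ : ℍ → ℂ) ∈ MFun Γ 6 := RFun_le_MFun E6_mem
  set num : ℍ → ℂ := (E₄ : ℍ → ℂ) ^ 2 * y + (E₆ : ℍ → ℂ) * x with hnum
  have hnm : num ∈ MFun Γ (k + 2) :=
    Submodule.add_mem _ (MFun_cast (by push_cast; ring) (mul_mem_MFun (pow_mem_MFun hE4 2) hy))
      (MFun_cast (by ring) (mul_mem_MFun hE6 hx))
  have hz : num / discriminant ∈ MFun Γ (k + 2 - 12) := by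
    refine div_Delta_mem hnm fun γ => ?_
    have hs4 : (E₄ : ℍ → ℂ) ∣[(4 : ℤ)] γ = E₄ := E4_mem.2.1 γ (Subgroup.mem_top _)
    have hs6 : (E₆ : ℍ → ℂ) ∣[(6 : ℤ)] γ = E₆ := E6_mem.2.1 γ (Subgroup.mem_top _)
    have hs8 : ((E₄ : ℍ → ℂ) ^ 2) ∣[(8 : ℤ)] γ = (E₄ : ℍ → ℂ) ^ 2 := by
      have := (pow_mem_MFun E4_mem 2).2.1 γ (Subgroup.mem_top _)
      simpa using this
    have hrel : (E₄ : ℍ → ℂ) * (x ∣[k - 4] γ) + (E₆ : ℍ → ℂ) * (y ∣[k - 6] γ) = 0 := by
      have h1 := congrArg (fun f : ℍ → ℂ => f ∣[k] γ) h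
      simp only [SlashAction.add_slash, SlashAction.zero_slash] at h1
      have e1 : ((E₄ : ℍ → ℂ) * x) ∣[k] γ = (E₄ : ℍ → ℂ) * (x ∣[k - 4] γ) := by
        conv_lhs => rw [show k = 4 + (k - 4) by ring, mul_slash_SL2, hs4]
      have e2 : ((E₆ : ℍ → ℂ) * y) ∣[k] γ = (E₆ : ℍ → ℂ) * (y ∣[k - 6] γ) := by
        conv_lhs => rw [show k = 6 + (k - 6) by ring, mul_slash_SL2, hs6]
      rw [e1, e2] at h1
      exact h1
    have hns : num ∣[k + 2] γ = (E₄ : ℍ → ℂ) ^ 2 * (y ∣[k - 6] γ) + (E₆ : ℍ → ℂ) * (x ∣[k - 4] γ) := by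
      rw [hnum, SlashAction.add_slash]
      congr 1
      · conv_lhs => rw [show k + 2 = 8 + (k - 6) by ring, mul_slash_SL2, hs8]
      · conv_lhs => rw [show k + 2 = 6 + (k - 4) by ring, mul_slash_SL2, hs6]
    refine bdd_of_mul_tendsto_one (E := E₄) (G := (1728 : ℂ) • (y ∣[k - 6] γ)) ?_
      ((hy.2.2 γ).const_smul_left _) tendsto_E4
    ext z
    have hr := congrFun hrel z
    simp only [Pi.add_apply, Pi.mul_apply, Pi.zero_apply] at hr
    rw [hns]
    simp only [Pi.mul_apply, Pi.div_apply, Pi.add_apply, Pi.pow_apply, Pi.smul_apply, smul_eq_mul]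
    have hΔ := discriminant_eq_E₄_cube_sub_E₆_sq z
    have hne := discriminant_ne_zero z
    field_simp
    rw [hΔ]
    linear_combination (E₆ z) * hr
  refine ⟨(1 / 1728 : ℂ) • (num / discriminant),
    Submodule.smul_mem _ _ (MFun_cast (by ring) hz), ?_, ?_⟩
  · ext z
    have hr := congrFun h z
    simp only [Pi.add_apply, Pi.mul_apply, Pi.zero_apply] at hr
    simp only [hnum, Pi.mul_apply, Pi.div_apply, Pi.add_apply, Pi.pow_apply, Pi.smul_apply,
      smul_eq_mul, Pi.neg_apply]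
    have hΔ := discriminant_eq_E₄_cube_sub_E₆_sq z
    have hne := discriminant_ne_zero z
    field_simp
    rw [hΔ]
    linear_combination (E₄ z ^ 2) * hr
  · ext z
    have hr := congrFun h z
    simp only [Pi.add_apply, Pi.mul_apply, Pi.zero_apply] at hr
    simp only [hnum, Pi.mul_apply, Pi.div_apply, Pi.add_apply, Pi.pow_apply, Pi.smul_apply,
      smul_eq_mul]
    have hΔ := discriminant_eq_E₄_cube_sub_E₆_sq z
    have hne := discriminant_ne_zero z
    field_simp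
    rw [hΔ]
    linear_combination (- E₆ z) * hr

end

end Fermat.Agent.DimAux
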