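import Mathlib
import Fermat.Prelude.Def_EllipticCurve_FrobeniusTrace

set_option autoImplicit false
set_option linter.style.haveILetI false
set_option linter.unusedSimpArgs false

/-!
# Existence of Frobenius elements in `Gal(ℚ̄/ℚ)`

For every prime `ℓ` there are a valuation subring `A` of `ℚ̄` lying over `ℓ` and
`σ ∈ Gal(ℚ̄/ℚ)` which is a Frobenius element at `A`.
-/

namespace Fermat.Agent.FrobExists

open Polynomial

section Key

variable {L : Type*} [Field L]

/-- Key lemma: if `x` is a root of a polynomial over the integral closure `B` of `ℤ` in `L` that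
does not vanish mod `Q`, then `x = c / b` with `b, c ∈ B` not both in `Q`. -/
theorem exists_mul_eq_of_aeval_eq_zero (Q : Ideal (integralClosure ℤ L)) (x : L) :
    ∀ (n : ℕ) (f : (integralClosure ℤ L)[X]), f.natDegree ≤ n → aeval x f = 0 →
      f.map (Ideal.Quotient.mk Q) ≠ 0 →
      ∃ b c : integralClosure ℤ L, (b ∉ Q ∨ c ∉ Q) ∧ (b : L) * x = c := by
  intro n
  induction n with
  | zero =>
    intro f hdeg hx hf
    exfalso
    rw [Polynomial.eq_C_of_natDegree_le_zero hdeg] at hx hf
    rw [aeval_C] at hx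
    have h0 : f.coeff 0 = 0 := by
      apply Subtype.ext
      simpa using hx
    rw [h0] at hf
    simp at hf
  | succ n ih =>
    intro f hdeg hx hf
    by_cases hdeg' : f.natDegree ≤ n
    · exact ih f hdeg' hx hf
    have hdeg'' : f.natDegree = n + 1 := by omega
    have hint : IsIntegral (integralClosure ℤ L) (f.leadingCoeff • x) :=
      isIntegral_leadingCoeff_smul f x hx
    have hint' : IsIntegral ℤ (f.leadingCoeff • x) := isIntegral_trans _ hint
    set y : integralClosure ℤ L := ⟨f.leadingCoeff • x, hint'⟩ with hy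
    have hyx : (f.leadingCoeff : L) * x = y := rfl
    by_cases ha : f.leadingCoeff ∈ Q
    swap
    · exact ⟨f.leadingCoeff, y, Or.inl ha, hyx⟩
    by_cases hyQ : y ∈ Q
    swap
    · exact ⟨f.leadingCoeff, y, Or.inr hyQ, hyx⟩
    refine ih (f.eraseLead + C y * X ^ n) ?_ ?_ ?_
    · refine (natDegree_add_le _ _).trans (max_le ?_ (natDegree_C_mul_X_pow_le _ _))
      have := eraseLead_natDegree_le f
      omega
    · have h1 : aeval x f = aeval x f.eraseLead + (f.leadingCoeff : L) * x ^ (n + 1) := by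
        conv_lhs => rw [← eraseLead_add_C_mul_X_pow f, hdeg'']
        simp [aeval_C]
      rw [map_add, map_mul, aeval_C, map_pow, aeval_X]
      rw [hx] at h1
      rw [h1]
      congr 1
      show (y : L) * x ^ n = _
      rw [← hyx]; ring
    · have h1 : f.map (Ideal.Quotient.mk Q) = f.eraseLead.map (Ideal.Quotient.mk Q) := by
        conv_lhs => rw [← eraseLead_add_C_mul_X_pow f]
        rw [Polynomial.map_add, Polynomial.map_mul, Polynomial.map_C,
          Ideal.Quotient.eq_zero_iff_mem.mpr ha]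
        simp
      rw [Polynomial.map_add, Polynomial.map_mul, Polynomial.map_C,
        Ideal.Quotient.eq_zero_iff_mem.mpr hyQ, ← h1]
      simpa using hf

/-- Every element of an algebraic extension is a fraction `c / b` of algebraic integers, not both
in a given prime ideal `Q`. -/
theorem exists_mul_eq [CharZero L] (Q : Ideal (integralClosure ℤ L)) [Q.IsPrime] (x : L)
    (hx : IsAlgebraic ℤ x) :
    ∃ b c : integralClosure ℤ L, (b ∉ Q ∨ c ∉ Q) ∧ (b : L) * x = c := by
  obtain ⟨f, hf0, hfx⟩ := hx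
  have hprim : f.primPart.IsPrimitive := f.isPrimitive_primPart
  have hpx : aeval x f.primPart = 0 := aeval_primPart_eq_zero hf0 hfx
  refine exists_mul_eq_of_aeval_eq_zero Q x _
    (f.primPart.map (algebraMap ℤ (integralClosure ℤ L))) le_rfl ?_ ?_
  · rw [aeval_map_algebraMap]; exact hpx
  · intro h0
    rw [Polynomial.map_map] at h0
    set P : Ideal ℤ := Q.comap (algebraMap ℤ (integralClosure ℤ L)) with hP
    have hPprime : P.IsPrime := Ideal.comap_isPrime _ _
    have hmem : ∀ i, f.primPart.coeff i ∈ P := by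
      intro i
      have := congrArg (fun g => g.coeff i) h0
      simp only [coeff_map, coeff_zero, RingHom.comp_apply] at this
      exact Ideal.mem_comap.mpr (Ideal.Quotient.eq_zero_iff_mem.mp this)
    have hdvd : C (Submodule.IsPrincipal.generator P) ∣ f.primPart := by
      rw [C_dvd_iff_dvd_coeff]
      intro i
      exact (Submodule.IsPrincipal.mem_iff_generator_dvd P).mp (hmem i)
    have hunit := hprim _ hdvd
    apply hPprime.ne_top
    rw [← Ideal.span_singleton_generator P]
    exact Ideal.span_singleton_eq_top.mpr hunit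

/-- The localisation of the ring of algebraic integers at a prime `Q`, as a valuation subring. -/
def valuationSubringAt [CharZero L] [Algebra.IsAlgebraic ℤ L] (Q : Ideal (integralClosure ℤ L)) [Q.IsPrime] :
    ValuationSubring L where
  carrier := {x | ∃ b c : integralClosure ℤ L, b ∉ Q ∧ (b : L) * x = c}
  mul_mem' := by
    rintro x y ⟨b, c, hb, h⟩ ⟨b', c', hb', h'⟩
    refine ⟨b * b', c * c', fun hm => ?_, ?_⟩
    · rcases Ideal.IsPrime.mem_or_mem ‹_› hm with h1 | h1
      · exact hb h1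
      · exact hb' h1
    · push_cast
      rw [← h, ← h']; ring
  one_mem' := ⟨1, 1, fun h => Ideal.IsPrime.ne_top ‹_› ((Ideal.eq_top_iff_one Q).mpr h), by simp⟩
  add_mem' := by
    rintro x y ⟨b, c, hb, h⟩ ⟨b', c', hb', h'⟩
    refine ⟨b * b', c * b' + c' * b, fun hm => ?_, ?_⟩
    · rcases Ideal.IsPrime.mem_or_mem ‹_› hm with h1 | h1
      · exact hb h1
      · exact hb' h1
    · push_cast
      rw [← h, ← h']; ring
  zero_mem' := ⟨1, 0, fun h => Ideal.IsPrime.ne_top ‹_› ((Ideal.eq_top_iff_one Q).mpr h), by simp⟩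
  neg_mem' := by
    rintro x ⟨b, c, hb, h⟩
    exact ⟨b, -c, hb, by push_cast; rw [← h]; ring⟩
  mem_or_inv_mem' := by
    intro x
    obtain ⟨b, c, hbc, h⟩ := exists_mul_eq Q x (Algebra.IsAlgebraic.isAlgebraic x)
    rcases hbc with hb | hc
    · exact Or.inl ⟨b, c, hb, h⟩
    · right
      refine ⟨c, b, hc, ?_⟩
      have hc0 : (c : L) ≠ 0 := by
        intro h0
        apply hc
        have : c = 0 := Subtype.ext h0
        rw [this]; exact Q.zero_mem
      have hx0 : x ≠ 0 := by
        rintro rfl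
        rw [mul_zero] at h
        exact hc0 h.symm
      rw [← h]
      field_simp

theorem mem_valuationSubringAt [CharZero L] [Algebra.IsAlgebraic ℤ L] (Q : Ideal (integralClosure ℤ L))
    [Q.IsPrime] (x : L) :
    x ∈ valuationSubringAt Q ↔ ∃ b c : integralClosure ℤ L, b ∉ Q ∧ (b : L) * x = c :=
  Iff.rfl

theorem coe_mem_valuationSubringAt [CharZero L] [Algebra.IsAlgebraic ℤ L] (Q : Ideal (integralClosure ℤ L))
    [Q.IsPrime] (b : integralClosure ℤ L) : (b : L) ∈ valuationSubringAt Q :=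
  ⟨1, b, fun h => Ideal.IsPrime.ne_top ‹_› ((Ideal.eq_top_iff_one Q).mpr h), by simp⟩

theorem coe_mem_nonunits_valuationSubringAt [CharZero L] [Algebra.IsAlgebraic ℤ L]
    (Q : Ideal (integralClosure ℤ L)) [Q.IsPrime] {q : integralClosure ℤ L} (hq : q ∈ Q) :
    (q : L) ∈ (valuationSubringAt Q).nonunits := by
  rw [ValuationSubring.mem_nonunits_iff_exists_mem_maximalIdeal]
  refine ⟨coe_mem_valuationSubringAt Q q, ?_⟩
  rw [IsLocalRing.mem_maximalIdeal, mem_nonunits_iff]
  intro hu
  obtain ⟨⟨z, hz⟩, hz1⟩ := hu.exists_right_inv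
  obtain ⟨b, c, hb, h⟩ := hz
  have h1 : (q : L) * z = 1 := congrArg Subtype.val hz1
  apply hb
  have : b = q * c := by
    apply Subtype.ext
    push_cast
    rw [← h]
    calc (b : L) = b * (q * z) := by rw [h1, mul_one]
      _ = q * (b * z) := by ring
  rw [this]
  exact Q.mul_mem_right _ hq

end Key

section Galois

variable {L : Type*} [Field L] [Algebra ℚ L] [IsAlgClosure ℚ L]

local notation "Qbar" => L
local notation "Γℚ" => (L ≃ₐ[ℚ] L)
local notation "Zbar" => integralClosure ℤ L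

omit [IsAlgClosure ℚ L] in
theorem charZero_of_algebraRat : CharZero L := algebraRat.charZero L

attribute [local instance] charZero_of_algebraRat

theorem isAlgebraicRat : Algebra.IsAlgebraic ℚ L := IsAlgClosure.isAlgebraic

attribute [local instance] isAlgebraicRat

theorem isAlgebraicInt : Algebra.IsAlgebraic ℤ L :=
  (IsFractionRing.comap_isAlgebraic_iff (A := ℤ) (K := ℚ) (C := L)).mpr inferInstance

attribute [local instance] isAlgebraicInt

/-- The Galois action on the ring of all algebraic integers. -/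
@[instance_reducible]
noncomputable def galAction : MulSemiringAction Γℚ Zbar where
  smul g b := ⟨g b.1, map_isIntegral_int g b.2⟩
  one_smul _ := rfl
  mul_smul _ _ _ := rfl
  smul_zero g := Subtype.ext (map_zero g)
  smul_add g _ _ := Subtype.ext (map_add g _ _)
  smul_one g := Subtype.ext (map_one g)
  smul_mul g _ _ := Subtype.ext (map_mul g _ _)

attribute [local instance] galAction

omit [IsAlgClosure ℚ L] in
theorem coe_galAction_smul (g : Γℚ) (b : Zbar) : ((g • b : Zbar) : Qbar) = g (b : Qbar) := rfl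

omit [IsAlgClosure ℚ L] in
theorem smulCommClass_Zbar : SMulCommClass Γℚ ℤ Zbar where
  smul_comm g n b := Subtype.ext (by
    show g ((n • b : Zbar) : Qbar) = ((n • (g • b) : Zbar) : Qbar)
    simp [coe_galAction_smul])

attribute [local instance] smulCommClass_Zbar

theorem isInvariant_Zbar : Algebra.IsInvariant ℤ Zbar Γℚ where
  isInvariant b hb := by
    have h1 : (b : Qbar) ∈ (⊥ : IntermediateField ℚ Qbar) := by
      rw [InfiniteGalois.mem_bot_iff_fixed]
      intro g
      exact congrArg Subtype.val (hb g)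
    obtain ⟨r, hr⟩ := IntermediateField.mem_bot.mp h1
    have hint : IsIntegral ℤ (algebraMap ℚ Qbar r) := hr ▸ b.2
    have hintQ : IsIntegral ℤ r :=
      (isIntegral_algebraMap_iff (algebraMap ℚ Qbar).injective).mp hint
    obtain ⟨m, hm⟩ := IsIntegrallyClosed.isIntegral_iff.mp hintQ
    refine ⟨m, Subtype.ext ?_⟩
    rw [← hr, ← hm]
    simp

attribute [local instance] isInvariant_Zbar

open scoped Pointwise

/-- Frobenius elements on the ring of all algebraic integers. -/
theorem exists_frobenius_Zbar (ℓ : ℕ) (hℓ : ℓ.Prime) :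
    ∃ (Q : Ideal Zbar) (σ : Γℚ), Q.IsMaximal ∧ (ℓ : Zbar) ∈ Q ∧ σ • Q = Q ∧
      ∀ b : Zbar, σ • b - b ^ ℓ ∈ Q := by
  haveI : Fact ℓ.Prime := ⟨hℓ⟩
  set P : Ideal ℤ := Ideal.span {(ℓ : ℤ)} with hP
  haveI hPmax : P.IsMaximal :=
    PrincipalIdealRing.isMaximal_of_irreducible (Nat.prime_iff_prime_int.mp hℓ).irreducible
  haveI : Algebra.IsIntegral ℤ Zbar := inferInstance
  obtain ⟨Q, hQmax, hQP⟩ := Ideal.exists_ideal_over_maximal_of_isIntegral (S := Zbar) P (by
    have : RingHom.ker (algebraMap ℤ Zbar) = ⊥ :=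
      (RingHom.injective_iff_ker_eq_bot _).mp (FaithfulSMul.algebraMap_injective ℤ Zbar)
    rw [this]; exact bot_le)
  haveI := hQmax
  haveI : Q.LiesOver P := ⟨hQP.symm⟩
  have hℓQ : (ℓ : Zbar) ∈ Q := by
    have h1 : (ℓ : ℤ) ∈ Q.comap (algebraMap ℤ Zbar) := by
      rw [hQP]; exact Ideal.subset_span rfl
    simpa using h1
  letI : TopologicalSpace Zbar := ⊥
  haveI : DiscreteTopology Zbar := ⟨rfl⟩
  haveI : ContinuousSMul Γℚ Zbar := by
    rw [continuousSMul_iff_stabilizer_isOpen]
    intro b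
    have h := stabilizer_isOpen_of_isIntegral (K := ℚ) (L := Qbar) (b : Qbar)
    convert h using 1
    ext g
    simp only [SetLike.mem_coe, MulAction.mem_stabilizer_iff]
    exact ⟨fun h => congrArg Subtype.val h, fun h => Subtype.ext h⟩
  have hsurj := Ideal.Quotient.stabilizerHom_surjective_of_profinite (G := Γℚ) P Q
  letI : Field (Zbar ⧸ Q) := Ideal.Quotient.field Q
  letI : Field (ℤ ⧸ P) := Ideal.Quotient.field P
  haveI : CharP (Zbar ⧸ Q) ℓ := by
    rw [CharP.charP_iff_prime_eq_zero hℓ]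
    have := Ideal.Quotient.eq_zero_iff_mem.mpr hℓQ
    simpa using this
  haveI : Finite (ℤ ⧸ P) := by
    exact Finite.of_equiv _ (Int.quotientSpanNatEquivZMod ℓ).symm.toEquiv
  haveI : Algebra.IsAlgebraic (ℤ ⧸ P) (Zbar ⧸ Q) := inferInstance
  haveI : PerfectField (Zbar ⧸ Q) := Algebra.IsAlgebraic.perfectField (ℤ ⧸ P)
  haveI : PerfectRing (Zbar ⧸ Q) ℓ := inferInstance
  let φ : (Zbar ⧸ Q) ≃ₐ[ℤ ⧸ P] (Zbar ⧸ Q) :=
    AlgEquiv.ofRingEquiv (f := frobeniusEquiv (Zbar ⧸ Q) ℓ) (by
      intro a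
      obtain ⟨n, rfl⟩ := Ideal.Quotient.mk_surjective a
      have h1 : algebraMap (ℤ ⧸ P) (Zbar ⧸ Q) (Ideal.Quotient.mk P n) = ((n : ℤ) : Zbar ⧸ Q) := by
        have : Ideal.Quotient.mk P n = ((n : ℤ) : ℤ ⧸ P) := by simp
        rw [this, map_intCast]
      rw [h1, map_intCast])
  obtain ⟨⟨σ, hσ⟩, hσφ⟩ := hsurj φ
  refine ⟨Q, σ, hQmax, hℓQ, hσ, fun b => ?_⟩
  have h2 := congrArg (fun e => e (Ideal.Quotient.mk Q b)) hσφ
  simp only [Ideal.Quotient.stabilizerHom_apply] at h2
  rw [← Ideal.Quotient.eq_zero_iff_mem, map_sub, map_pow, sub_eq_zero]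
  exact h2

theorem smul_mem_valuationSubringAt (Q : Ideal Zbar) [Q.IsPrime] (τ : Γℚ) (hτ : τ • Q = Q)
    {x : Qbar} (hx : x ∈ valuationSubringAt Q) : τ x ∈ valuationSubringAt Q := by
  obtain ⟨b, c, hb, h⟩ := hx
  refine ⟨τ • b, τ • c, fun hm => hb ?_, ?_⟩
  · rw [← hτ] at hm
    exact (Ideal.smul_mem_pointwise_smul_iff).mp hm
  · rw [coe_galAction_smul, coe_galAction_smul, ← h, map_mul]

/-- **Existence of Frobenius elements**: for each prime `ℓ` there are a valuation subring `A` of
`ℚ̄` over `ℓ` and a Frobenius element `σ` at `A`. -/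
theorem exists_isFrobeniusAt_of_isAlgClosure (ℓ : ℕ) (hℓ : ℓ.Prime) :
    ∃ (A : ValuationSubring Qbar) (σ : Γℚ), A.LiesOverPrime ℓ ∧ A.IsFrobeniusAt σ ℓ := by
  obtain ⟨Q, σ, hQmax, hℓQ, hσQ, hfrob⟩ := exists_frobenius_Zbar (L := L) ℓ hℓ
  haveI : Q.IsPrime := hQmax.isPrime
  set A := valuationSubringAt Q with hA
  have hσinv : σ⁻¹ • Q = Q := by
    conv_lhs => rw [← hσQ]
    rw [inv_smul_smul]
  have hσA : σ ∈ A.decompositionSubgroup ℚ := by
    rw [MulAction.mem_stabilizer_iff]
    ext x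
    rw [ValuationSubring.mem_pointwise_smul_iff_inv_smul_mem]
    constructor
    · intro hx
      have := smul_mem_valuationSubringAt Q σ hσQ hx
      simpa using this
    · intro hx
      exact smul_mem_valuationSubringAt Q σ⁻¹ hσinv hx
  refine ⟨A, σ, ?_, hσA, ?_⟩
  · have := coe_mem_nonunits_valuationSubringAt Q hℓQ
    simpa [ValuationSubring.LiesOverPrime] using this
  · -- the inclusion of `Zbar` in `A`
    let ι : Zbar → A := fun b => ⟨(b : Qbar), coe_mem_valuationSubringAt Q b⟩
    have hres0 : ∀ b : Zbar, b ∈ Q → IsLocalRing.residue A (ι b) = 0 := by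
      intro b hb
      rw [IsLocalRing.residue_eq_zero_iff]
      obtain ⟨h1, h2⟩ := (ValuationSubring.mem_nonunits_iff_exists_mem_maximalIdeal).mp
        (coe_mem_nonunits_valuationSubringAt Q hb)
      exact h2
    have hresne : ∀ b : Zbar, b ∉ Q → IsLocalRing.residue A (ι b) ≠ 0 := by
      intro b hb h0
      rw [IsLocalRing.residue_eq_zero_iff, IsLocalRing.mem_maximalIdeal, mem_nonunits_iff] at h0
      apply h0
      have hb0 : (b : Qbar) ≠ 0 := by
        intro h
        apply hb
        have : b = 0 := Subtype.ext h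
        rw [this]; exact Q.zero_mem
      refine IsUnit.of_mul_eq_one (⟨(b : Qbar)⁻¹, ⟨b, 1, hb, by simp [hb0]⟩⟩ : A) ?_
      apply Subtype.ext
      show (b : Qbar) * (b : Qbar)⁻¹ = 1
      exact mul_inv_cancel₀ hb0
    have hF : ∀ b : Zbar, (⟨σ, hσA⟩ : A.decompositionSubgroup ℚ) • IsLocalRing.residue A (ι b) =
        (IsLocalRing.residue A (ι b)) ^ ℓ := by
      intro b
      rw [← IsLocalRing.ResidueField.residue_smul, ← map_pow, ← sub_eq_zero, ← map_sub]
      exact hres0 _ (hfrob b)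
    intro x
    obtain ⟨⟨z, b, c, hb, h⟩, rfl⟩ := IsLocalRing.residue_surjective x
    set a : A := ⟨z, b, c, hb, h⟩ with ha
    have hmul : ι b * a = ι c := Subtype.ext h
    have h1 := hF c
    rw [← hmul, map_mul, smul_mul', hF b, mul_pow] at h1
    exact mul_left_cancel₀ (pow_ne_zero _ (hresne b hb)) h1

end Galois

/-- **Existence of Frobenius elements** in `Gal(ℚ̄/ℚ)`. -/
theorem exists_isFrobeniusAt (ℓ : ℕ) (hℓ : ℓ.Prime) :
    ∃ (A : ValuationSubring (AlgebraicClosure ℚ))
      (σ : AlgebraicClosure ℚ ≃ₐ[ℚ] AlgebraicClosure ℚ),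
      A.LiesOverPrime ℓ ∧ A.IsFrobeniusAt σ ℓ := by
  haveI : Algebra.IsAlgebraic ℚ (AlgebraicClosure ℚ) := AlgebraicClosure.isAlgebraic ℚ
  haveI : IsAlgClosure ℚ (AlgebraicClosure ℚ) := ⟨inferInstance, inferInstance⟩
  exact exists_isFrobeniusAt_of_isAlgClosure ℓ hℓ

end Fermat.Agent.FrobExists
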