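/-
Helper library for S49 (Deligne–Serre lifting lemma): formal Hecke eigensystems, q-coefficients of
Hecke operators on `CuspForm (Gamma0 N) 2`, finiteness of the Hecke algebra given an integral basis,
common eigenvectors.
-/
import Mathlib
import Fermat.Prelude.Def_FLTPrelim_Modularity
import Fermat.Prelude.Def_FormalHecke_Eigensystem
import Fermat.Prelude.Def_CuspForm_HeckeAlgebra
import Fermat.Prelude.Def_CuspForm_IntegralStructure
import Fermat.Prelude.Thm_CuspForm_intLattice_fg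
import Fermat.Prelude.Thm_CuspForm_mem_intLattice_of_mem_heckeAlgebra
import Fermat.Prelude.Thm_ModularFormClass_qCoeff_heckeT
import Fermat.Prelude.Thm_ModularFormClass_qCoeff_heckeU
import Fermat.Prelude.Thm_CongruenceSubgroup_one_mem_strictPeriods_Gamma0
import Fermat.Prelude.Thm_ModularForm_sturm_bound_Gamma0

set_option autoImplicit false

namespace Fermat.Agent.HeckeEigen

open CuspForm ModularFormClass CongruenceSubgroup UpperHalfPlane

/-! ### Formal eigensystems -/

section Formal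

variable {R : Type*} [CommRing R] {e a : ℕ → R}

theorem formal_step (h : FormalHecke.IsEigensystem e a) {ℓ : ℕ} (hℓ : ℓ.Prime) (n : ℕ) :
    a (ℓ * n) = a ℓ * a n - e ℓ * (if ℓ ∣ n then a (n / ℓ) else 0) := by
  have := h.2 ℓ hℓ n
  rw [← this]; ring

theorem formal_mul_of_coprime (h : FormalHecke.IsEigensystem e a) :
    ∀ m n : ℕ, m.Coprime n → a (m * n) = a m * a n := by
  intro m
  induction m using Nat.strong_induction_on with
  | _ m ih =>
    intro n hmn
    rcases Nat.eq_zero_or_pos m with rfl | hm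
    · have hn : n = 1 := by simpa using hmn
      subst hn
      simp [h.1]
    rcases Nat.lt_or_ge 1 m with hm1 | hm1
    · obtain ⟨ℓ, hℓ, m', rfl⟩ := Nat.exists_prime_and_dvd (Nat.ne_of_gt hm1)
      have hm'pos : 0 < m' := Nat.pos_of_mul_pos_left hm |> fun _ => by
        rcases Nat.eq_zero_or_pos m' with h0 | h0
        · subst h0; simp at hm
        · exact h0
      have hm'lt : m' < ℓ * m' := by
        have := hℓ.two_le
        nlinarith
      have hcop' : m'.Coprime n := Nat.Coprime.coprime_mul_left hmn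
      have hℓn : ℓ.Coprime n := Nat.Coprime.coprime_mul_right hmn
      have hℓn' : ¬ ℓ ∣ n := fun hd => by
        have := Nat.Coprime.eq_one_of_dvd hℓn hd
        exact hℓ.one_lt.ne' this
      rw [mul_assoc, formal_step h hℓ (m' * n), formal_step h hℓ m', ih m' hm'lt n hcop']
      by_cases hd : ℓ ∣ m'
      · have hd' : ℓ ∣ m' * n := Dvd.dvd.mul_right hd n
        rw [if_pos hd, if_pos hd']
        obtain ⟨m'', rfl⟩ := hd
        have hm''lt : m'' < ℓ * (ℓ * m'') := by
          have := hℓ.two_le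
          have : 0 < m'' := by
            rcases Nat.eq_zero_or_pos m'' with h0 | h0
            · subst h0; simp at hm'pos
            · exact h0
          nlinarith
        have hcop'' : m''.Coprime n := Nat.Coprime.coprime_mul_left hcop'
        rw [mul_assoc, Nat.mul_div_cancel_left _ hℓ.pos, Nat.mul_div_cancel_left _ hℓ.pos,
          ih m'' hm''lt n hcop'']
        ring
      · have hd' : ¬ ℓ ∣ m' * n := fun hdd => by
          rcases (Nat.Prime.dvd_mul hℓ).1 hdd with h1 | h1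
          · exact hd h1
          · exact hℓn' h1
        rw [if_neg hd, if_neg hd']
        ring
    · have : m = 1 := le_antisymm hm1 hm
      subst this
      simp [h.1]

theorem formal_prime_pow (h : FormalHecke.IsEigensystem e a) {ℓ : ℕ} (hℓ : ℓ.Prime) (r : ℕ) :
    a (ℓ ^ (r + 2)) = a ℓ * a (ℓ ^ (r + 1)) - e ℓ * a (ℓ ^ r) := by
  have h1 : ℓ ^ (r + 2) = ℓ * ℓ ^ (r + 1) := by ring
  have h2 : ℓ ∣ ℓ ^ (r + 1) := dvd_pow_self ℓ (Nat.succ_ne_zero r)
  have h3 : ℓ ^ (r + 1) / ℓ = ℓ ^ r := by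
    rw [pow_succ, Nat.mul_div_cancel _ hℓ.pos]
  rw [h1, formal_step h hℓ, if_pos h2, h3]

/-- If the recursion holds with eigenvalues `lam` and `a 1 = 0`, all positive coefficients vanish. -/
theorem formal_eq_zero_of_one_eq_zero {lam : ℕ → R}
    (h : ∀ ℓ : ℕ, ℓ.Prime → ∀ n : ℕ,
      a (ℓ * n) + e ℓ * (if ℓ ∣ n then a (n / ℓ) else 0) = lam ℓ * a n)
    (h1 : a 1 = 0) : ∀ n : ℕ, 0 < n → a n = 0 := by
  intro n
  induction n using Nat.strong_induction_on with
  | _ n ih =>
    intro hn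
    rcases Nat.lt_or_ge 1 n with hn1 | hn1
    · obtain ⟨ℓ, hℓ, m, rfl⟩ := Nat.exists_prime_and_dvd (Nat.ne_of_gt hn1)
      have hmpos : 0 < m := by
        rcases Nat.eq_zero_or_pos m with h0 | h0
        · subst h0; simp at hn
        · exact h0
      have hmlt : m < ℓ * m := by
        have := hℓ.two_le
        nlinarith
      have key := h ℓ hℓ m
      rw [ih m hmlt hmpos, mul_zero] at key
      by_cases hd : ℓ ∣ m
      · rw [if_pos hd] at key
        have hpos : 0 < m / ℓ := Nat.div_pos (Nat.le_of_dvd hmpos hd) hℓ.pos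
        have hlt : m / ℓ < ℓ * m := lt_of_le_of_lt (Nat.div_le_self m ℓ) hmlt
        rw [ih _ hlt hpos, mul_zero, add_zero] at key
        exact key
      · rw [if_neg hd, mul_zero, add_zero] at key
        exact key
    · have : n = 1 := le_antisymm hn1 hn
      subst this
      exact h1

end Formal

/-! ### q-coefficients -/

section QCoeff

variable {N : ℕ} {k : ℤ}

theorem hΓ0 (N : ℕ) :
    (1 : ℝ) ∈ (Subgroup.map (Matrix.SpecialLinearGroup.mapGL ℝ) (Gamma0 N)).strictPeriods :=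
  CongruenceSubgroup.one_mem_strictPeriods_Gamma0 N

theorem qCoeff_add' (f g : CuspForm (Gamma0 N) k) (n : ℕ) :
    qCoeff ⇑(f + g) n = qCoeff ⇑f n + qCoeff ⇑g n := by
  simp only [qCoeff, FunLike.coe_add]
  rw [ModularForm.qExpansion_add one_pos (hΓ0 N) f g, map_add]

theorem qCoeff_smul' (c : ℂ) (f : CuspForm (Gamma0 N) k) (n : ℕ) :
    qCoeff ⇑(c • f) n = c * qCoeff ⇑f n := by
  have h1 : ⇑(c • f) = c • ⇑f := by
    ext z
    simp
  simp only [qCoeff, h1]
  rw [ModularForm.qExpansion_smul one_pos (hΓ0 N) c f]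
  simp

/-- The `n`-th `q`-coefficient as a linear functional. -/
noncomputable def qCoeffLin (N : ℕ) (k : ℤ) (n : ℕ) : CuspForm (Gamma0 N) k →ₗ[ℂ] ℂ where
  toFun f := qCoeff ⇑f n
  map_add' f g := qCoeff_add' f g n
  map_smul' c f := by simpa using qCoeff_smul' c f n

@[simp] theorem qCoeffLin_apply (n : ℕ) (f : CuspForm (Gamma0 N) k) :
    qCoeffLin N k n f = qCoeff ⇑f n := rfl

theorem qCoeff_zero_eq_zero (f : CuspForm (Gamma0 N) k) : qCoeff ⇑f 0 = 0 := by
  simpa [qCoeff] using CuspFormClass.qExpansion_coeff_zero f one_pos (hΓ0 N)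

theorem eq_zero_of_qCoeff_eq_zero [NeZero N] (f : CuspForm (Gamma0 N) k)
    (h : ∀ n : ℕ, qCoeff ⇑f n = 0) : f = 0 := by
  have hmf : (ModularFormClass.modularForm f : ModularForm (Gamma0 N) k) = 0 := by
    refine ModularForm.sturm_bound_Gamma0 N _ fun n _ ↦ ?_
    simpa [qCoeff] using h n
  have hcoe : (⇑f : ℍ → ℂ) = 0 := by
    have := congrArg (fun F : ModularForm (Gamma0 N) k ↦ (⇑F : ℍ → ℂ)) hmf
    simpa using this
  exact DFunLike.coe_injective (hcoe.trans FunLike.coe_zero.symm)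

/-- truncation to the Sturm bound, as a `ℂ`-linear map -/
noncomputable def truncLin (N : ℕ) (k : ℤ) (B : ℕ) : CuspForm (Gamma0 N) k →ₗ[ℂ] (Fin (B + 1) → ℂ) :=
  LinearMap.pi fun i => qCoeffLin N k i

theorem truncLin_injective (N : ℕ) [NeZero N] (k : ℤ) :
    Function.Injective (truncLin N k ((k * (Gamma0 N).index).toNat / 12)) := by
  refine (injective_iff_map_eq_zero _).mpr fun f hf ↦ ?_
  have hmf : (ModularFormClass.modularForm f : ModularForm (Gamma0 N) k) = 0 := by
    refine ModularForm.sturm_bound_Gamma0 N _ fun n hn ↦ ?_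
    have := congrFun hf ⟨n, Nat.lt_succ_of_le hn⟩
    simpa [truncLin, qCoeff] using this
  have hcoe : (⇑f : ℍ → ℂ) = 0 := by
    have := congrArg (fun F : ModularForm (Gamma0 N) k ↦ (⇑F : ℍ → ℂ)) hmf
    simpa using this
  exact DFunLike.coe_injective (hcoe.trans FunLike.coe_zero.symm)

theorem finiteDimensional_cuspForm (N : ℕ) [NeZero N] (k : ℤ) :
    FiniteDimensional ℂ (CuspForm (Gamma0 N) k) :=
  FiniteDimensional.of_injective _ (truncLin_injective N k)

theorem qCoeff_heckeTLin {p : ℕ} (hp : p.Prime) (hpN : ¬ p ∣ N) (f : CuspForm (Gamma0 N) k) (n : ℕ) :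
    qCoeff ⇑(heckeTLin k hp hpN f) n =
      qCoeff ⇑f (n * p) + if p ∣ n then (p : ℂ) ^ (k - 1) * qCoeff ⇑f (n / p) else 0 := by
  rw [coe_heckeTLin_apply, ModularFormClass.qCoeff_heckeT f (hΓ0 N) hp.ne_zero n]
  rfl

theorem qCoeff_heckeULin [NeZero N] {p : ℕ} (hp : p ≠ 0) (hpN : p ∣ N) (f : CuspForm (Gamma0 N) k) (n : ℕ) :
    qCoeff ⇑(heckeULin k hpN f) n = qCoeff ⇑f (n * p) := by
  rw [coe_heckeULin_apply, ModularFormClass.qCoeff_heckeU f (hΓ0 N) hp n]
  rfl

end QCoeff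

/-! ### Abstract lifting lemma -/

section Abstract

variable {A : Type*} [CommRing A] {V : Type*} [AddCommGroup V] [Module ℂ V] [FiniteDimensional ℂ V]

/-- A commuting family of operators on a nonzero stable subspace has a common eigenvector. -/
theorem exists_common_eigenvector (ι : A →+* Module.End ℂ V) (W : Submodule ℂ V) (hW : W ≠ ⊥)
    (hstab : ∀ t : A, ∀ x ∈ W, ι t x ∈ W) :
    ∃ w ∈ W, w ≠ 0 ∧ ∀ t : A, ∃ μ : ℂ, ι t w = μ • w := by
  classical
  -- choose a minimal nonzero stable subspace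
  let P : Set (Submodule ℂ V) := {U | U ≠ ⊥ ∧ U ≤ W ∧ ∀ t : A, ∀ x ∈ U, ι t x ∈ U}
  have hPne : P.Nonempty := ⟨W, hW, le_rfl, hstab⟩
  have hwf : WellFounded ((· < ·) : Submodule ℂ V → Submodule ℂ V → Prop) := wellFounded_lt
  obtain ⟨U, hUP, hUmin⟩ := hwf.has_min P hPne
  obtain ⟨hUne, hUW, hUstab⟩ := hUP
  obtain ⟨w, hwU, hw0⟩ := (Submodule.ne_bot_iff U).1 hUne
  refine ⟨w, hUW hwU, hw0, fun t => ?_⟩
  -- eigenvalue of `ι t` on `U`
  have : Nontrivial U := (Submodule.nontrivial_iff_ne_bot).2 hUne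
  have hmaps : Set.MapsTo (ι t) U U := fun x hx => hUstab t x hx
  obtain ⟨μ, hμ⟩ := Module.End.exists_eigenvalue ((ι t).restrict hmaps)
  obtain ⟨u, hu⟩ := hμ.exists_hasEigenvector
  have hu1 : ι t (u : V) = μ • (u : V) := by
    have := hu.apply_eq_smul
    have h2 := congrArg Subtype.val this
    exact h2
  have hu0 : (u : V) ≠ 0 := fun h => hu.2 (Subtype.ext h)
  let U' : Submodule ℂ V := U ⊓ LinearMap.ker (ι t - μ • (1 : Module.End ℂ V))
  have hU'P : U' ∈ P := by
    refine ⟨?_, inf_le_left.trans hUW, ?_⟩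
    · intro hbot
      apply hu0
      have : (u : V) ∈ U' := by
        refine ⟨u.2, ?_⟩
        simp [LinearMap.mem_ker, hu1]
      rw [hbot] at this
      simpa using this
    · intro s x hx
      refine ⟨hUstab s x hx.1, ?_⟩
      have hx2 : ι t x = μ • x := by
        have := hx.2
        simpa [LinearMap.mem_ker, sub_eq_zero] using this
      have hcomm : ι t (ι s x) = ι s (ι t x) := by
        rw [← Module.End.mul_apply, ← Module.End.mul_apply, ← map_mul, ← map_mul, mul_comm]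
      simp [LinearMap.mem_ker, hcomm, hx2]
  have hU'eq : U' = U := by
    by_contra hne
    exact hUmin U' hU'P (lt_of_le_of_ne inf_le_left hne)
  have hwU' : w ∈ U' := hU'eq ▸ hwU
  refine ⟨μ, ?_⟩
  have := hwU'.2
  simpa [LinearMap.mem_ker, sub_eq_zero] using this

omit [FiniteDimensional ℂ V] in
/-- The character attached to a common eigenvector. -/
theorem exists_character_of_eigenvector (ι : A →+* Module.End ℂ V) {w : V} (hw : w ≠ 0)
    (h : ∀ t : A, ∃ μ : ℂ, ι t w = μ • w) :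
    ∃ lam : A →+* ℂ, ∀ t : A, ι t w = lam t • w := by
  classical
  choose μ hμ using h
  have hinj : Function.Injective (fun c : ℂ => c • w) := smul_left_injective ℂ hw
  refine ⟨{ toFun := μ, map_one' := ?_, map_mul' := ?_, map_zero' := ?_, map_add' := ?_ }, hμ⟩
  · apply hinj
    simp only
    rw [← hμ 1, map_one, one_smul, Module.End.one_apply]
  · intro s t
    apply hinj
    simp only
    rw [← hμ (s * t), map_mul, Module.End.mul_apply, hμ t, map_smul, hμ s, smul_smul, mul_comm]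
  · apply hinj
    simp only
    rw [← hμ 0, map_zero, zero_smul, LinearMap.zero_apply]
  · intro s t
    apply hinj
    simp only
    rw [← hμ (s + t), map_add, LinearMap.add_apply, hμ s, hμ t, add_smul]

/-- Abstract Deligne–Serre lifting lemma. -/
theorem exists_lift_of_ideal [Module.Finite ℤ A] (ι : A →+* Module.End ℂ V)
    (hι : Function.Injective ι) (𝔪 : Ideal A) (h𝔪 : 𝔪 ≠ ⊤) :
    ∃ (w : V) (lam : A →+* integralClosure ℤ ℂ) (𝔪' : Ideal (integralClosure ℤ ℂ)),
      w ≠ 0 ∧ (∀ t : A, ι t w = (lam t : ℂ) • w) ∧ 𝔪'.IsMaximal ∧ ∀ t ∈ 𝔪, lam t ∈ 𝔪' := by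
  classical
  obtain ⟨𝔪₁, h𝔪₁max, h𝔪₁le⟩ := Ideal.exists_le_maximal 𝔪 h𝔪
  have := h𝔪₁max
  have : 𝔪₁.IsPrime := h𝔪₁max.isPrime
  obtain ⟨𝔭, h𝔭min, h𝔭le⟩ := Ideal.exists_minimalPrimes_le (I := (⊥ : Ideal A)) (J := 𝔪₁) bot_le
  have : IsNoetherian ℤ A := isNoetherian_of_isNoetherianRing_of_finite ℤ A
  have : IsNoetherianRing A := isNoetherian_of_tower ℤ inferInstance
  have hann : Module.annihilator A A = ⊥ := by
    rw [Module.annihilator_eq_bot]
    infer_instance
  have hass : 𝔭 ∈ associatedPrimes A A := by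
    apply Module.associatedPrimes.minimalPrimes_annihilator_subset_associatedPrimes A A
    rw [hann]
    exact h𝔭min
  obtain ⟨h𝔭prime, t₀, ht₀⟩ := (isAssociatedPrime_iff (M := A)).1 hass
  have hmem𝔭 : ∀ t : A, t ∈ 𝔭 ↔ t * t₀ = 0 := by
    intro t
    rw [ht₀, Submodule.mem_colon_singleton]
    simp
  have ht₀ne : t₀ ≠ 0 := by
    intro h0
    apply h𝔭prime.ne_top
    rw [Ideal.eq_top_iff_one, hmem𝔭, h0, mul_zero]
  -- the subspace killed by `𝔭`
  let W : Submodule ℂ V := ⨅ t : 𝔭, LinearMap.ker (ι (t : A))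
  have hmemW : ∀ x : V, x ∈ W ↔ ∀ t ∈ 𝔭, ι t x = 0 := by
    intro x
    simp [W, Submodule.mem_iInf]
  have hWne : W ≠ ⊥ := by
    have hιt₀ : ι t₀ ≠ 0 := fun h0 => ht₀ne (hι (by rw [h0, map_zero]))
    obtain ⟨v, hv⟩ : ∃ v, ι t₀ v ≠ 0 := by
      by_contra hcon
      push Not at hcon
      exact hιt₀ (LinearMap.ext hcon)
    intro hbot
    apply hv
    have : ι t₀ v ∈ W := by
      rw [hmemW]
      intro t ht
      rw [← Module.End.mul_apply, ← map_mul, (hmem𝔭 t).1 ht, map_zero, LinearMap.zero_apply]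
    rw [hbot] at this
    simpa using this
  have hWstab : ∀ t : A, ∀ x ∈ W, ι t x ∈ W := by
    intro s x hx
    rw [hmemW] at hx ⊢
    intro t ht
    rw [← Module.End.mul_apply, ← map_mul, mul_comm, map_mul, Module.End.mul_apply, hx t ht, map_zero]
  obtain ⟨w, hwW, hw0, hweig⟩ := exists_common_eigenvector ι W hWne hWstab
  obtain ⟨lam₀, hlam₀⟩ := exists_character_of_eigenvector ι hw0 hweig
  have hint : ∀ t : A, lam₀ t ∈ integralClosure ℤ ℂ := fun t =>
    map_isIntegral_int lam₀ (Algebra.IsIntegral.isIntegral t)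
  let lam : A →+* integralClosure ℤ ℂ := lam₀.codRestrict (integralClosure ℤ ℂ) hint
  have hlamcoe : ∀ t : A, ((lam t : integralClosure ℤ ℂ) : ℂ) = lam₀ t := fun t => rfl
  have hker : RingHom.ker lam ≤ 𝔪₁ := by
    have h𝔭ker : 𝔭 ≤ RingHom.ker lam := by
      intro t ht
      rw [RingHom.mem_ker]
      apply Subtype.ext
      rw [hlamcoe]
      have h1 : lam₀ t • w = 0 := by rw [← hlam₀ t]; exact (hmemW w).1 hwW t ht
      simpa [hw0] using h1
    have hkerle : RingHom.ker lam ≤ 𝔭 := by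
      intro x hx
      by_contra hx𝔭
      have hlt := Ideal.comap_lt_comap_of_integral_mem_sdiff (R := ℤ) h𝔭ker
        (x := x) ⟨hx, hx𝔭⟩ (Algebra.IsIntegral.isIntegral x)
      have hbot : Ideal.comap (algebraMap ℤ A) (RingHom.ker lam) = ⊥ := by
        rw [eq_bot_iff]
        intro n hn
        rw [Ideal.mem_comap, RingHom.mem_ker] at hn
        have h2 : ((lam (algebraMap ℤ A n) : integralClosure ℤ ℂ) : ℂ) = 0 := by rw [hn]; rfl
        rw [hlamcoe] at h2
        simpa using h2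
      rw [hbot] at hlt
      exact not_lt_bot hlt
    exact hkerle.trans h𝔭le
  let _ : Algebra A (integralClosure ℤ ℂ) := lam.toAlgebra
  have : Algebra.IsIntegral A (integralClosure ℤ ℂ) :=
    ⟨fun z => (Algebra.IsIntegral.isIntegral (R := ℤ) z).tower_top⟩
  obtain ⟨𝔪', h𝔪'max, h𝔪'comap⟩ := Ideal.exists_ideal_over_maximal_of_isIntegral
    (S := integralClosure ℤ ℂ) 𝔪₁ hker
  refine ⟨w, lam, 𝔪', hw0, fun t => by rw [hlamcoe]; exact hlam₀ t, h𝔪'max, fun t ht => ?_⟩
  have : t ∈ Ideal.comap (algebraMap A (integralClosure ℤ ℂ)) 𝔪' := by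
    rw [h𝔪'comap]; exact h𝔪₁le ht
  exact this

end Abstract

/-! ### Finiteness of the Hecke algebra -/

section Finite

variable {N : ℕ} [NeZero N] {k : ℤ} {S : Set ℕ}

omit [NeZero N] in
theorem mem_intLattice_iff' (f : CuspForm (Gamma0 N) k) :
    f ∈ CuspForm.intLattice N k ↔ ∀ n : ℕ, ∃ m : ℤ, qCoeff f n = (m : ℂ) :=
  P2MW.S_CuspForm_intLattice_fg.W3WsD.mem_intLattice_iff f

/-- restriction of a Hecke operator to the integral lattice -/
noncomputable def latticeRestrict (hk : 1 ≤ k) :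
    heckeAlgebra N k S →ₗ[ℤ] (CuspForm.intLattice N k →ₗ[ℤ] CuspForm.intLattice N k) where
  toFun t := ((t : Module.End ℂ (CuspForm (Gamma0 N) k)).restrictScalars ℤ).restrict
    (fun _ hf => CuspForm.mem_intLattice_of_mem_heckeAlgebra hk t.2 hf)
  map_add' s t := by
    ext x
    rfl
  map_smul' c t := by
    ext x
    rfl

theorem latticeRestrict_injective (hk : 1 ≤ k) (h : CuspForm.HasIntegralStructure N k) :
    Function.Injective (latticeRestrict (N := N) (S := S) hk) := by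
  refine (injective_iff_map_eq_zero _).mpr fun t ht ↦ ?_
  apply Subtype.ext
  have h0 : ∀ x ∈ CuspForm.intLattice N k, (t : Module.End ℂ (CuspForm (Gamma0 N) k)) x = 0 := by
    intro x hx
    have := congrArg (fun φ => ((φ ⟨x, hx⟩ : CuspForm.intLattice N k) : CuspForm (Gamma0 N) k)) ht
    exact this
  apply LinearMap.ext_on h
  intro x hx
  exact h0 x hx

theorem heckeAlgebra_finite_of_hasIntegralStructure (hk : 1 ≤ k)
    (h : CuspForm.HasIntegralStructure N k) : Module.Finite ℤ (heckeAlgebra N k S) := by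
  have hfin : Module.Finite ℤ (CuspForm.intLattice N k) :=
    Module.Finite.iff_fg.2 (CuspForm.intLattice_fg N k)
  have htf : Module.IsTorsionFree ℤ (CuspForm (Gamma0 N) k) :=
    Module.IsTorsionFree.trans_faithfulSMul ℤ ℂ _
  have hfree : Module.Free ℤ (CuspForm.intLattice N k) := by
    infer_instance
  have : Module.Finite ℤ (CuspForm.intLattice N k →ₗ[ℤ] CuspForm.intLattice N k) := inferInstance
  exact Module.Finite.of_injective _ (latticeRestrict_injective (S := S) hk h)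

end Finite

/-! ### Normalised eigenforms from eigenvectors -/

section Eigenform

variable {N : ℕ} [NeZero N]

/-- The weight-2 level-`N` Euler coefficient. -/
noncomputable def eulerE (N : ℕ) (ℓ : ℕ) : ℂ := if ℓ ∣ N then 0 else (ℓ : ℂ)

/-- The Hecke generator at a prime `ℓ` (`U_ℓ` if `ℓ ∣ N`, else `T_ℓ`). -/
noncomputable def Tgen (N : ℕ) [NeZero N] (ℓ : ℕ) (hℓ : ℓ.Prime) : heckeAlgebra N 2 ∅ :=
  if h : ℓ ∣ N then heckeAlgebra.U hℓ h (Set.notMem_empty _)
  else heckeAlgebra.T hℓ h (Set.notMem_empty _)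

theorem qCoeff_Tgen {ℓ : ℕ} (hℓ : ℓ.Prime) (f : CuspForm (Gamma0 N) 2) (n : ℕ) :
    qCoeff ⇑((Tgen N ℓ hℓ : Module.End ℂ (CuspForm (Gamma0 N) 2)) f) n =
      qCoeff ⇑f (ℓ * n) + eulerE N ℓ * (if ℓ ∣ n then qCoeff ⇑f (n / ℓ) else 0) := by
  unfold Tgen eulerE
  by_cases h : ℓ ∣ N
  · rw [dif_pos h, if_pos h, heckeAlgebra.coe_U, qCoeff_heckeULin hℓ.ne_zero h, mul_comm]
    simp
  · rw [dif_neg h, if_neg h, heckeAlgebra.coe_T, qCoeff_heckeTLin hℓ h, mul_comm]
    split_ifs <;> simp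

theorem isNormalizedEigenform_of_eigenvector {w : CuspForm (Gamma0 N) 2} (hw : w ≠ 0)
    (lam : ℕ → ℂ)
    (h : ∀ (ℓ : ℕ) (hℓ : ℓ.Prime),
      (Tgen N ℓ hℓ : Module.End ℂ (CuspForm (Gamma0 N) 2)) w = lam ℓ • w) :
    ((qCoeff ⇑w 1)⁻¹ • w).IsNormalizedEigenform ∧
      ∀ ℓ : ℕ, ℓ.Prime → qCoeff ⇑((qCoeff ⇑w 1)⁻¹ • w) ℓ = lam ℓ := by
  have hrec : ∀ ℓ : ℕ, ℓ.Prime → ∀ n : ℕ,
      qCoeff ⇑w (ℓ * n) + eulerE N ℓ * (if ℓ ∣ n then qCoeff ⇑w (n / ℓ) else 0)
        = lam ℓ * qCoeff ⇑w n := by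
    intro ℓ hℓ n
    rw [← qCoeff_Tgen hℓ, h ℓ hℓ, qCoeff_smul']
  have h1 : qCoeff ⇑w 1 ≠ 0 := by
    intro h0
    apply hw
    apply eq_zero_of_qCoeff_eq_zero
    intro n
    rcases Nat.eq_zero_or_pos n with rfl | hn
    · exact qCoeff_zero_eq_zero w
    · exact formal_eq_zero_of_one_eq_zero hrec h0 n hn
  set c := (qCoeff ⇑w 1)⁻¹ with hc
  set g := c • w with hg
  have hgq : ∀ n, qCoeff ⇑g n = c * qCoeff ⇑w n := fun n => qCoeff_smul' c w n
  have hg1 : qCoeff ⇑g 1 = 1 := by rw [hgq, hc, inv_mul_cancel₀ h1]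
  have hrecg : ∀ ℓ : ℕ, ℓ.Prime → ∀ n : ℕ,
      qCoeff ⇑g (ℓ * n) + eulerE N ℓ * (if ℓ ∣ n then qCoeff ⇑g (n / ℓ) else 0)
        = lam ℓ * qCoeff ⇑g n := by
    intro ℓ hℓ n
    have := hrec ℓ hℓ n
    rw [hgq, hgq, hgq]
    split_ifs at this ⊢ with hd
    · linear_combination c * this
    · linear_combination c * this
  have hlam : ∀ ℓ : ℕ, ℓ.Prime → qCoeff ⇑g ℓ = lam ℓ := by
    intro ℓ hℓ
    have := hrecg ℓ hℓ 1
    rw [if_neg (by simpa using hℓ.one_lt.ne'), mul_zero, add_zero, mul_one, hg1, mul_one] at this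
    exact this
  have heig : FormalHecke.IsEigensystem (eulerE N) (fun n => qCoeff ⇑g n) := by
    refine ⟨hg1, fun ℓ hℓ n => ?_⟩
    simp only
    rw [hrecg ℓ hℓ n, hlam ℓ hℓ]
  refine ⟨⟨hg1, formal_mul_of_coprime heig, ?_, ?_⟩, hlam⟩
  · intro p r hp hpN
    have := formal_prime_pow heig hp r
    simp only [eulerE, if_neg hpN] at this
    exact this
  · intro p r hp hpN
    have := formal_prime_pow heig hp r
    simp only [eulerE, if_pos hpN, zero_mul, sub_zero] at this
    exact this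

end Eigenform

end Fermat.Agent.HeckeEigen
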