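import Mathlib

/-!
# Integrality of level one `q`-expansions (P4 of the S23 project)

* `E4_qExpansion_integral`, `E6_qExpansion_integral`, `discriminant_qExpansion_integral`
* `levelOne_span_integral`: the level one modular forms with integral `q`-expansion span.
-/

open UpperHalfPlane ModularForm EisensteinSeries ModularFormClass
open scoped Manifold MatrixGroups ArithmeticFunction.sigma

namespace Fermat.Agent.S23Aux

noncomputable section

/-- The subring of power series over `ℂ` with integer coefficients. -/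
def intSeries : Subring (PowerSeries ℂ) := (PowerSeries.map (Int.castRingHom ℂ)).range

lemma mem_intSeries_iff (p : PowerSeries ℂ) :
    p ∈ intSeries ↔ ∀ n, ∃ m : ℤ, p.coeff n = (m : ℂ) := by
  constructor
  · rintro ⟨P, rfl⟩ n
    exact ⟨P.coeff n, by simp⟩
  · intro h
    choose c hc using h
    refine ⟨PowerSeries.mk c, ?_⟩
    ext n
    simp [hc]

/-- `∑ σ_j(n) q^n` as an integral power series (no constant term). -/
def sigmaSeries (j : ℕ) : PowerSeries ℤ :=
  PowerSeries.mk fun n => if n = 0 then 0 else (σ j n : ℤ)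

lemma E4_qExpansion_eq :
    qExpansion 1 E₄ = PowerSeries.map (Int.castRingHom ℂ) (1 + 240 * sigmaSeries 3) := by
  ext n
  rw [E_qExpansion_coeff _ ⟨2, rfl⟩]
  have h240 : (240 : PowerSeries ℤ) = PowerSeries.C (240 : ℤ) := by simp
  rw [h240]
  simp only [PowerSeries.coeff_map, map_add, PowerSeries.coeff_C_mul,
      sigmaSeries, PowerSeries.coeff_mk, PowerSeries.coeff_one]
  by_cases hn : n = 0
  · simp [hn]
  · simp only [hn, if_false]
    norm_num [show bernoulli 4 = -1 / 30 by decide +kernel]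

lemma E6_qExpansion_eq :
    qExpansion 1 E₆ = PowerSeries.map (Int.castRingHom ℂ) (1 - 504 * sigmaSeries 5) := by
  ext n
  rw [E_qExpansion_coeff _ ⟨3, rfl⟩]
  have h504 : (504 : PowerSeries ℤ) = PowerSeries.C (504 : ℤ) := by simp
  rw [h504]
  simp only [PowerSeries.coeff_map, map_sub, PowerSeries.coeff_C_mul,
      sigmaSeries, PowerSeries.coeff_mk, PowerSeries.coeff_one]
  by_cases hn : n = 0
  · simp [hn]
  · simp only [hn, if_false]
    norm_num [show bernoulli 6 = 1 / 42 by decide +kernel]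

theorem E4_qExpansion_integral (n : ℕ) : ∃ m : ℤ, (qExpansion 1 E₄).coeff n = (m : ℂ) :=
  (mem_intSeries_iff _).1 ⟨_, E4_qExpansion_eq.symm⟩ n

theorem E6_qExpansion_integral (n : ℕ) : ∃ m : ℤ, (qExpansion 1 E₆).coeff n = (m : ℂ) :=
  (mem_intSeries_iff _).1 ⟨_, E6_qExpansion_eq.symm⟩ n

lemma twelve_dvd_aux (d : ℕ) : (12 : ℤ) ∣ 5 * (d : ℤ) ^ 3 + 7 * (d : ℤ) ^ 5 := by
  have := (ZMod.intCast_zmod_eq_zero_iff_dvd (5 * (d : ℤ) ^ 3 + 7 * (d : ℤ) ^ 5) 12)
  refine this.1 ?_
  push_cast
  generalize (d : ZMod 12) = x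
  revert x
  decide

lemma twelve_dvd_sigma (n : ℕ) : (12 : ℤ) ∣ 5 * (σ 3 n : ℤ) + 7 * (σ 5 n : ℤ) := by
  rw [ArithmeticFunction.sigma_apply, ArithmeticFunction.sigma_apply]
  push_cast
  rw [Finset.mul_sum, Finset.mul_sum, ← Finset.sum_add_distrib]
  exact Finset.dvd_sum fun d _ => twelve_dvd_aux d

lemma exists_sigmaSeries_eq :
    ∃ C : PowerSeries ℤ, 5 * sigmaSeries 3 + 7 * sigmaSeries 5 = 12 * C := by
  choose c hc using twelve_dvd_sigma
  refine ⟨PowerSeries.mk fun n => if n = 0 then 0 else c n, ?_⟩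
  have h5 : (5 : PowerSeries ℤ) = PowerSeries.C (5 : ℤ) := by simp
  have h7 : (7 : PowerSeries ℤ) = PowerSeries.C (7 : ℤ) := by simp
  have h12 : (12 : PowerSeries ℤ) = PowerSeries.C (12 : ℤ) := by simp
  rw [h5, h7, h12]
  ext n
  simp only [map_add, PowerSeries.coeff_C_mul, sigmaSeries, PowerSeries.coeff_mk]
  by_cases hn : n = 0
  · simp [hn]
  · simp only [hn, if_false]
    exact hc n

lemma discriminant_qExpansion_smul :
    (1728 : ℂ) • qExpansion 1 ModularForm.discriminant
      = qExpansion 1 E₄ ^ 3 - qExpansion 1 E₆ ^ 2 := by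
  set F : ModularForm 𝒮ℒ 12 :=
    ModularForm.mcast (by decide) (E₄.pow 3) - ModularForm.mcast (by decide) (E₆.pow 2) with hF
  have h1 : qExpansion 1 F = qExpansion 1 E₄ ^ 3 - qExpansion 1 E₆ ^ 2 := by
    simp only [hF, FunLike.coe_sub, coe_mcast,
      ModularForm.qExpansion_sub one_pos one_mem_strictPeriods_SL,
      ModularForm.qExpansion_pow one_pos one_mem_strictPeriods_SL]
  have h2 : ((1728 : ℂ) • CuspForm.discriminant : ℍ → ℂ) = F := by
    funext z
    have := discriminant_eq_E₄_cube_sub_E₆_sq z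
    simp only [hF, coe_mcast, coe_pow, sub_apply, Pi.pow_apply, Pi.smul_apply, smul_eq_mul,
      CuspForm.coe_discriminant, this]
    ring
  have h3 := ModularForm.qExpansion_smul one_pos one_mem_strictPeriods_SL (1728 : ℂ)
    CuspForm.discriminant
  rw [h2, h1] at h3
  exact h3.symm

lemma discriminant_qExpansion_mem : qExpansion 1 ModularForm.discriminant ∈ intSeries := by
  obtain ⟨C, hC⟩ := exists_sigmaSeries_eq
  refine ⟨C + 100 * sigmaSeries 3 ^ 2 + 8000 * sigmaSeries 3 ^ 3 - 147 * sigmaSeries 5 ^ 2, ?_⟩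
  have h := discriminant_qExpansion_smul
  rw [E4_qExpansion_eq, E6_qExpansion_eq, ← map_pow, ← map_pow, ← map_sub] at h
  have h2 : (1 + 240 * sigmaSeries 3) ^ 3 - (1 - 504 * sigmaSeries 5) ^ 2
      = 1728 * (C + 100 * sigmaSeries 3 ^ 2 + 8000 * sigmaSeries 3 ^ 3
          - 147 * sigmaSeries 5 ^ 2) := by
    linear_combination 144 * hC
  rw [h2, map_mul] at h
  have h3 : PowerSeries.map (Int.castRingHom ℂ) (1728 : PowerSeries ℤ)
      = PowerSeries.C (1728 : ℂ) := by
    have : (1728 : PowerSeries ℤ) = PowerSeries.C (1728 : ℤ) := by simp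
    rw [this, PowerSeries.map_C]
    simp
  rw [h3, ← PowerSeries.smul_eq_C_mul] at h
  exact (smul_right_injective _ (by norm_num : (1728 : ℂ) ≠ 0) h).symm

theorem discriminant_qExpansion_integral (n : ℕ) :
    ∃ m : ℤ, (qExpansion 1 ModularForm.discriminant).coeff n = (m : ℂ) :=
  (mem_intSeries_iff _).1 discriminant_qExpansion_mem n

/-- Multiplication by the discriminant, `M_{k-12} → M_k`. -/
def mulDelta (k : ℤ) : ModularForm 𝒮ℒ (k - 12) →ₗ[ℂ] ModularForm 𝒮ℒ k :=
  CuspForm.toModularFormₗ ∘ₗ (CuspForm.discriminantEquiv (k := k)).symm.toLinearMap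

lemma coe_mulDelta (k : ℤ) (h : ModularForm 𝒮ℒ (k - 12)) :
    (mulDelta k h : ℍ → ℂ) = ⇑CuspForm.discriminant * ⇑h := rfl

lemma qExpansion_mulDelta (k : ℤ) (h : ModularForm 𝒮ℒ (k - 12)) :
    qExpansion 1 (mulDelta k h) = qExpansion 1 ModularForm.discriminant * qExpansion 1 h := by
  rw [coe_mulDelta, ModularForm.qExpansion_mul_coe one_pos one_mem_strictPeriods_SL,
    CuspForm.coe_discriminant]

lemma exists_weight_decomp (k : ℤ) (h0 : 0 ≤ k) (hev : Even k) (h2 : k ≠ 2) :
    ∃ a b : ℕ, (a : ℤ) * 4 + (b : ℤ) * 6 = k := by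
  obtain ⟨m, rfl⟩ := hev
  rcases Int.even_or_odd' m with ⟨j, rfl | rfl⟩
  · exact ⟨j.toNat, 0, by omega⟩
  · exact ⟨(j - 1).toNat, 1, by omega⟩

theorem levelOne_span_integral_aux (n : ℕ) : ∀ k : ℤ, k < 12 * n → ∀ f : ModularForm 𝒮ℒ k,
    f ∈ Submodule.span ℂ {g : ModularForm 𝒮ℒ k | qExpansion 1 g ∈ intSeries} := by
  induction n with
  | zero =>
    intro k hk f
    have : f = 0 :=
      rank_zero_iff_forall_zero.mp (levelOne_neg_weight_rank_zero (by simpa using hk)) f
    rw [this]
    exact Submodule.zero_mem _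
  | succ n ih =>
    intro k hk f
    rcases lt_or_ge k 0 with hneg | hnn
    · have : f = 0 := rank_zero_iff_forall_zero.mp (levelOne_neg_weight_rank_zero hneg) f
      rw [this]
      exact Submodule.zero_mem _
    rcases Int.even_or_odd k with hev | hodd
    swap
    · rw [levelOne_odd_weight_eq_zero hodd f]
      exact Submodule.zero_mem _
    by_cases h2 : k = 2
    · subst h2
      have : f = 0 := rank_zero_iff_forall_zero.mp levelOne_weight_two_rank_zero f
      rw [this]
      exact Submodule.zero_mem _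
    obtain ⟨a, b, hab⟩ := exists_weight_decomp k hnn hev h2
    set G : ModularForm 𝒮ℒ k := ModularForm.mcast hab ((E₄.pow a).mul (E₆.pow b)) with hGdef
    have hG : qExpansion 1 G = qExpansion 1 E₄ ^ a * qExpansion 1 E₆ ^ b := by
      rw [hGdef, ModularForm.qExpansion_mcast,
        ModularForm.qExpansion_mul one_pos one_mem_strictPeriods_SL,
        ModularForm.qExpansion_pow one_pos one_mem_strictPeriods_SL,
        ModularForm.qExpansion_pow one_pos one_mem_strictPeriods_SL]
    have hGint : qExpansion 1 G ∈ intSeries := by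
      rw [hG]
      have h4 : qExpansion 1 E₄ ∈ intSeries := ⟨_, E4_qExpansion_eq.symm⟩
      have h6 : qExpansion 1 E₆ ∈ intSeries := ⟨_, E6_qExpansion_eq.symm⟩
      exact mul_mem (pow_mem h4 _) (pow_mem h6 _)
    have hG0 : (qExpansion 1 G).coeff 0 = 1 := by
      have h4 := E_qExpansion_coeff_zero (k := 4) (by norm_num) ⟨2, rfl⟩
      have h6 := E_qExpansion_coeff_zero (k := 6) (by norm_num) ⟨3, rfl⟩
      rw [PowerSeries.coeff_zero_eq_constantCoeff_apply] at h4 h6 ⊢
      rw [hG, map_mul, map_pow, map_pow, h4, h6]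
      simp
    set c := (qExpansion 1 f).coeff 0 with hc
    set f' : ModularForm 𝒮ℒ k := f - c • G with hf'
    have h0 : (qExpansion 1 f').coeff 0 = 0 := by
      rw [hf', FunLike.coe_sub, ModularForm.qExpansion_sub one_pos one_mem_strictPeriods_SL,
        FunLike.coe_smul, ModularForm.qExpansion_smul one_pos one_mem_strictPeriods_SL, map_sub,
        PowerSeries.coeff_smul, hG0, smul_eq_mul, mul_one, sub_self]
    have hfm : f' = mulDelta k (CuspForm.discriminantEquiv (toCuspForm f' h0)) := by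
      ext z
      simp [mulDelta]
    have hf : f = c • G + f' := by
      rw [hf']
      abel
    rw [hf]
    refine Submodule.add_mem _ (Submodule.smul_mem _ _ (Submodule.subset_span hGint)) ?_
    rw [hfm]
    have hih := ih (k - 12) (by push_cast at hk; omega)
      (CuspForm.discriminantEquiv (toCuspForm f' h0))
    have hle : Submodule.span ℂ {g : ModularForm 𝒮ℒ (k - 12) | qExpansion 1 g ∈ intSeries} ≤
        (Submodule.span ℂ {g : ModularForm 𝒮ℒ k | qExpansion 1 g ∈ intSeries}).comap
          (mulDelta k) := by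
      rw [Submodule.span_le]
      intro g hg
      refine Submodule.subset_span ?_
      show qExpansion 1 (mulDelta k g) ∈ intSeries
      rw [qExpansion_mulDelta]
      exact mul_mem discriminant_qExpansion_mem hg
    exact hle hih

theorem levelOne_span_integral (k : ℤ) :
    Submodule.span ℂ {g : ModularForm 𝒮ℒ k |
      ∀ n, ∃ m : ℤ, (qExpansion 1 g).coeff n = (m : ℂ)} = ⊤ := by
  rw [eq_top_iff]
  intro f _
  have h := levelOne_span_integral_aux (k.toNat + 1) k (by push_cast; omega) f
  simpa only [mem_intSeries_iff] using h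

end

end Fermat.Agent.S23Aux
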