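import Mathlib

open UpperHalfPlane ModularForm SlashInvariantForm Polynomial
open scoped Manifold MatrixGroups

namespace Fermat.Agent.S23Aux

noncomputable section

section polyLemmas
variable {ι : Type*} [Fintype ι] [DecidableEq ι]

omit [Fintype ι] in
lemma prod_X_sub_C_scaleRoots (s : Finset ι) (a : ι → ℂ) (r : ℂ) :
    (∏ i ∈ s, (X - C (a i))).scaleRoots r = ∏ i ∈ s, (X - C (a i * r)) := by
  induction s using Finset.induction_on with
  | empty => simp
  | insert i t hi IH =>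
    rw [Finset.prod_insert hi, Finset.prod_insert hi, mul_scaleRoots_of_noZeroDivisors, IH,
      X_sub_C_scaleRoots]

/-- The Lagrange-type polynomial. -/
def lagPoly (f a b : ι → ℂ) : ℂ[X] :=
  ∑ q, C (f q) * ∏ q' ∈ Finset.univ.erase q, (C (b q') * X - C (a q'))

lemma lagPoly_comp_equiv (f a b : ι → ℂ) (e : ι ≃ ι) :
    lagPoly (f ∘ e) (a ∘ e) (b ∘ e) = lagPoly f a b := by
  unfold lagPoly
  refine Fintype.sum_equiv e _ _ fun q => ?_
  congr 1
  refine Finset.prod_equiv e ?_ ?_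
  · intro i; simp
  · intro i _; rfl

lemma lagPoly_smul (f a b : ι → ℂ) (s t : ℂ) :
    lagPoly (fun q => s * f q) (fun q => t * a q) (fun q => t * b q) =
      C (s * t ^ (Fintype.card ι - 1)) * lagPoly f a b := by
  unfold lagPoly
  rw [Finset.mul_sum]
  refine Finset.sum_congr rfl fun q _ => ?_
  have : ∀ q', (C (t * b q') * X - C (t * a q') : ℂ[X]) = C t * (C (b q') * X - C (a q')) := by
    intro q'; simp only [C_mul]; ring
  simp only [this, Finset.prod_mul_distrib, Finset.prod_const, Finset.card_erase_of_mem (Finset.mem_univ q),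
    Finset.card_univ]
  simp only [C_mul, C_pow]; ring

lemma lagPoly_natDegree_lt [Nonempty ι] (f a b : ι → ℂ) :
    (lagPoly f a b).natDegree < Fintype.card ι := by
  have hpos : 0 < Fintype.card ι := Fintype.card_pos
  suffices (lagPoly f a b).natDegree ≤ Fintype.card ι - 1 by omega
  unfold lagPoly
  refine natDegree_sum_le_of_forall_le _ _ fun q _ => ?_
  refine (natDegree_C_mul_le _ _).trans ?_
  refine (natDegree_prod_le _ _).trans ?_
  calc ∑ i ∈ Finset.univ.erase q, (C (b i) * X - C (a i)).natDegree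
      ≤ ∑ i ∈ Finset.univ.erase q, 1 := by
        refine Finset.sum_le_sum fun i _ => ?_
        refine (natDegree_sub_le _ _).trans ?_
        simp only [natDegree_C, max_le_iff, zero_le, and_true]
        exact (natDegree_C_mul_le _ _).trans natDegree_X_le
    _ = Fintype.card ι - 1 := by
        simp [Finset.card_erase_of_mem (Finset.mem_univ q), Finset.card_univ]

lemma lagPoly_eval (f a b : ι → ℂ) (q0 : ι) (hb : b q0 ≠ 0) :
    b q0 ^ (Fintype.card ι - 1) * (lagPoly f a b).eval (a q0 / b q0) =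
      f q0 * ∏ q' ∈ Finset.univ.erase q0, (b q' * a q0 - a q' * b q0) := by
  unfold lagPoly
  rw [eval_finsetSum, Finset.sum_eq_single q0]
  · simp only [eval_mul, eval_C, eval_prod, eval_sub, eval_X]
    have : b q0 ^ (Fintype.card ι - 1) = ∏ _q' ∈ Finset.univ.erase q0, b q0 := by
      simp [Finset.card_erase_of_mem (Finset.mem_univ q0), Finset.card_univ]
    rw [this, mul_left_comm, ← Finset.prod_mul_distrib]
    congr 1
    refine Finset.prod_congr rfl fun q' _ => ?_
    field_simp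
  · intro q _ hq
    simp only [eval_mul, eval_C, eval_prod, eval_sub, eval_X]
    rw [Finset.prod_eq_zero (i := q0) (by simp [Ne.symm hq])]
    · simp
    · field_simp; simp
  · simp

lemma lagPoly_sum [Nonempty ι] (f a b : ι → ℂ) (q0 : ι) (hb : b q0 ≠ 0) :
    ∑ r ∈ Finset.range (Fintype.card ι),
        (lagPoly f a b).coeff r * a q0 ^ r * b q0 ^ (Fintype.card ι - 1 - r) =
      f q0 * ∏ q' ∈ Finset.univ.erase q0, (b q' * a q0 - a q' * b q0) := by
  rw [← lagPoly_eval f a b q0 hb, eval_eq_sum_range' (lagPoly_natDegree_lt f a b), Finset.mul_sum]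
  refine Finset.sum_congr rfl fun r hr => ?_
  have hr' : r ≤ Fintype.card ι - 1 := by
    have := Finset.mem_range.mp hr; omega
  obtain ⟨m, hm⟩ := Nat.exists_eq_add_of_le hr'
  rw [hm, Nat.add_sub_cancel_left, pow_add, div_pow]
  field_simp

lemma coeff_prod_X_sub_C_mem {R : Type*} [CommRing R] (I : Ideal R) {κ : Type*} (s : Finset κ)
    (a : κ → R) (ha : ∀ j ∈ s, a j ∈ I) (i : ℕ) (hi : i < s.card) :
    (∏ j ∈ s, (X - C (a j))).coeff i ∈ I := by
  have h1 : (∏ j ∈ s, (X - C (a j))).map (Ideal.Quotient.mk I) = X ^ s.card := by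
    rw [Polynomial.map_prod]
    rw [Finset.prod_congr rfl (g := fun _ => (X : (R ⧸ I)[X]))]
    · simp
    · intro j hj
      simp [Ideal.Quotient.eq_zero_iff_mem.mpr (ha j hj)]
  have h2 := congrArg (fun p => p.coeff i) h1
  simp only [coeff_map, coeff_X_pow, hi.ne, if_false] at h2
  exact Ideal.Quotient.eq_zero_iff_mem.mp h2

end polyLemmas

/-- The subalgebra of functions on `ℍ` that are holomorphic and bounded at `i∞`. -/
def niceSub : Subalgebra ℂ (ℍ → ℂ) where
  carrier := {g | MDiff g ∧ IsBoundedAtImInfty g}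
  mul_mem' ha hb := ⟨ha.1.mul hb.1, ha.2.mul hb.2⟩
  add_mem' ha hb := ⟨ha.1.add hb.1, ha.2.add hb.2⟩
  algebraMap_mem' c := ⟨mdifferentiable_const, Filter.const_boundedAtFilter _ c⟩

lemma mem_niceSub {g : ℍ → ℂ} : g ∈ niceSub ↔ MDiff g ∧ IsBoundedAtImInfty g := Iff.rfl

/-- evaluation at a point -/
def evAt (z : ℍ) : niceSub →+* ℂ := (Pi.evalRingHom (fun _ : ℍ => ℂ) z).comp niceSub.val.toRingHom

@[simp] lemma evAt_apply (z : ℍ) (g : niceSub) : evAt z g = (g : ℍ → ℂ) z := rfl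

variable {𝒢 : Subgroup (GL (Fin 2) ℝ)} [𝒢.IsArithmetic] {k l : ℤ}

local notation "𝒬" => 𝒮ℒ ⧸ (𝒢.subgroupOf 𝒮ℒ)

lemma quotientFunc_mem_nice (F : ModularForm 𝒢 k) (q : 𝒬) : quotientFunc F q ∈ niceSub := by
  induction q using Quotient.inductionOn with
  | h r =>
    obtain ⟨_, γ, rfl⟩ := r
    rw [quotientFunc_mk]
    refine ⟨(ModularFormClass.holo F).slash k _, ?_⟩
    have := ModularFormClass.bdd_at_infty_slash F γ⁻¹
    rw [SL_slash, map_inv] at this
    exact this

/-- the element of `𝒮ℒ` attached to `γ`. -/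
def toSL (γ : SL(2, ℤ)) : 𝒮ℒ := ⟨Matrix.SpecialLinearGroup.mapGL ℝ γ, γ, rfl⟩

omit [𝒢.IsArithmetic] in
lemma quotientFunc_smul_apply (F : ModularForm 𝒢 k) (q : 𝒬) (γ : SL(2, ℤ)) (z : ℍ) :
    quotientFunc F q (γ • z) = denom γ z ^ k * quotientFunc F ((toSL γ)⁻¹ • q) z := by
  have h := quotientFunc_smul F (toSL γ).2 q
  have h2 := congrFun h z
  have h3 : (quotientFunc F q ∣[k] γ) z = quotientFunc F q (γ • z) * denom γ z ^ (-k) :=
    SL_slash_apply _ γ z
  have h4 : (quotientFunc F q ∣[k] γ) z = quotientFunc F ((toSL γ)⁻¹ • q) z := h2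
  rw [h3] at h4
  rw [← h4, mul_comm, mul_assoc, ← zpow_add₀ (denom_ne_zero γ z)]
  simp


/-- Build a level one modular form from a nice function with the automorphy property. -/
def mkLevelOne (g : ℍ → ℂ) (w : ℤ) (hg : g ∈ niceSub)
    (hinv : ∀ (γ : SL(2, ℤ)) (z : ℍ), g (γ • z) = denom γ z ^ w * g z) : ModularForm 𝒮ℒ w where
  toFun := g
  slash_action_eq' := by
    rintro _ ⟨γ, rfl⟩
    ext z
    have : (g ∣[w] γ) z = g (γ • z) * denom γ z ^ (-w) := SL_slash_apply _ γ z
    change (g ∣[w] γ) z = g z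
    rw [this, hinv, mul_comm, ← mul_assoc, ← zpow_add₀ (denom_ne_zero γ z)]
    simp
  holo' := hg.1
  bdd_at_cusps' {c} hc := by
    rw [OnePoint.isBoundedAt_iff_forall_SL2Z hc]
    intro γ _
    have : g ∣[w] γ = g := by
      ext z
      rw [SL_slash_apply, hinv, mul_comm, ← mul_assoc, ← zpow_add₀ (denom_ne_zero γ z)]
      simp
    rw [this]
    exact hg.2

@[simp] lemma mkLevelOne_apply (g : ℍ → ℂ) (w : ℤ) (hg : g ∈ niceSub)
    (hinv : ∀ (γ : SL(2, ℤ)) (z : ℍ), g (γ • z) = denom γ z ^ w * g z) (z : ℍ) :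
    mkLevelOne g w hg hinv z = g z := rfl

/-- A `Fintype` structure on the coset space. -/
@[instance_reducible]
def fintypeQ (𝒢 : Subgroup (GL (Fin 2) ℝ)) [𝒢.IsArithmetic] : Fintype (𝒮ℒ ⧸ (𝒢.subgroupOf 𝒮ℒ)) :=
  Fintype.ofFinite _

attribute [local instance] fintypeQ
open scoped Classical in
attribute [local instance] Classical.propDecidable

/-- the conjugates, as nice functions -/
def conjNice (F : ModularForm 𝒢 k) (q : 𝒬) : niceSub := ⟨quotientFunc F q, quotientFunc_mem_nice F q⟩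

/-- the base coset -/
def q0 (𝒢 : Subgroup (GL (Fin 2) ℝ)) : 𝒮ℒ ⧸ (𝒢.subgroupOf 𝒮ℒ) := ⟦1⟧

omit [𝒢.IsArithmetic] in
lemma quotientFunc_q0 (F : ModularForm 𝒢 k) : quotientFunc F (q0 𝒢) = F := by
  unfold q0
  rw [quotientFunc_mk]
  simp

/-- the index -/
def idx (𝒢 : Subgroup (GL (Fin 2) ℝ)) [𝒢.IsArithmetic] : ℕ := Fintype.card (𝒮ℒ ⧸ (𝒢.subgroupOf 𝒮ℒ))

/-- the characteristic polynomial of `F` over level one. -/
def charPolyNice (F : ModularForm 𝒢 k) : niceSub[X] := ∏ q : 𝒬, (X - C (conjNice F q))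

lemma charPolyNice_map (F : ModularForm 𝒢 k) (z : ℍ) :
    (charPolyNice F).map (evAt z) = ∏ q : 𝒬, (X - C (quotientFunc F q z)) := by
  simp [charPolyNice, Polynomial.map_prod, conjNice]

lemma charPoly_smul (F : ModularForm 𝒢 k) (γ : SL(2, ℤ)) (z : ℍ) :
    ∏ q : 𝒬, (X - C (quotientFunc F q (γ • z))) =
      (∏ q : 𝒬, (X - C (quotientFunc F q z))).scaleRoots (denom γ z ^ k) := by
  rw [prod_X_sub_C_scaleRoots]
  simp only [quotientFunc_smul_apply]
  refine Fintype.prod_equiv (MulAction.toPerm (toSL γ)⁻¹) _ _ fun q => ?_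
  simp [mul_comm]

lemma charPoly_natDegree (F : ModularForm 𝒢 k) (z : ℍ) :
    (∏ q : 𝒬, (X - C (quotientFunc F q z))).natDegree = idx 𝒢 := by
  rw [natDegree_prod_of_monic _ _ fun q _ => monic_X_sub_C _]
  simp [idx]

lemma charPolyNice_coeff_smul (F : ModularForm 𝒢 k) (i : ℕ) (γ : SL(2, ℤ)) (z : ℍ) :
    ((charPolyNice F).coeff i : ℍ → ℂ) (γ • z) =
      denom γ z ^ (k * ((idx 𝒢 - i : ℕ) : ℤ)) * ((charPolyNice F).coeff i : ℍ → ℂ) z := by
  have h1 : ∀ z, ((charPolyNice F).coeff i : ℍ → ℂ) z =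
      (∏ q : 𝒬, (X - C (quotientFunc F q z))).coeff i := by
    intro z
    rw [← charPolyNice_map, coeff_map, evAt_apply]
  rw [h1, h1, charPoly_smul, coeff_scaleRoots, charPoly_natDegree, mul_comm, zpow_mul, zpow_natCast]

/-- The coefficients of the characteristic polynomial, as level one forms. -/
def charCoeff (F : ModularForm 𝒢 k) (i : ℕ) : ModularForm 𝒮ℒ (k * ((idx 𝒢 - i : ℕ) : ℤ)) :=
  mkLevelOne ((charPolyNice F).coeff i : ℍ → ℂ) _ ((charPolyNice F).coeff i).2
    (charPolyNice_coeff_smul F i)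

theorem charCoeff_eq (F : ModularForm 𝒢 k) (z : ℍ) :
    F z ^ idx 𝒢 + ∑ i ∈ Finset.range (idx 𝒢), charCoeff F i z * F z ^ i = 0 := by
  have h1 : ∀ i, charCoeff F i z = (∏ q : 𝒬, (X - C (quotientFunc F q z))).coeff i := by
    intro i
    rw [← charPolyNice_map, coeff_map, evAt_apply]; rfl
  have h2 : (∏ q : 𝒬, (X - C (quotientFunc F q z))).eval (F z) = 0 := by
    rw [eval_prod]
    refine Finset.prod_eq_zero (Finset.mem_univ (q0 𝒢)) ?_
    simp [quotientFunc_q0]
  rw [eval_eq_sum_range, charPoly_natDegree, Finset.sum_range_succ] at h2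
  have h3 : (∏ q : 𝒬, (X - C (quotientFunc F q z))).coeff (idx 𝒢) = 1 := by
    have hm : (∏ q : 𝒬, (X - C (quotientFunc F q z))).Monic := monic_prod_of_monic _ _ fun q _ => monic_X_sub_C _
    rw [← charPoly_natDegree F z]; exact hm.coeff_natDegree
  rw [h3, one_mul] at h2
  simp only [h1]
  rw [add_comm]; exact h2

/-- The ideal of nice functions vanishing at `i∞`. -/
def zeroIdeal : Ideal niceSub where
  carrier := {g | IsZeroAtImInfty (g : ℍ → ℂ)}
  add_mem' ha hb := Filter.ZeroAtFilter.add ha hb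
  zero_mem' := Filter.zero_zeroAtFilter _
  smul_mem' c g hg := by
    have := Filter.ZeroAtFilter.mul_boundedAtFilter hg c.2.2
    rw [mul_comm] at this
    exact this

lemma mem_zeroIdeal {g : niceSub} : g ∈ zeroIdeal ↔ IsZeroAtImInfty (g : ℍ → ℂ) := Iff.rfl

theorem charCoeff_isZeroAtImInfty (F : ModularForm 𝒢 k)
    (hF : ∀ γ : SL(2, ℤ), IsZeroAtImInfty (F ∣[k] γ)) (i : ℕ) (hi : i < idx 𝒢) :
    IsZeroAtImInfty (charCoeff F i) := by
  have hmem : ∀ q : 𝒬, conjNice F q ∈ zeroIdeal := by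
    intro q
    induction q using Quotient.inductionOn with
    | h r =>
      obtain ⟨_, γ, rfl⟩ := r
      rw [mem_zeroIdeal]
      simp only [conjNice]
      rw [quotientFunc_mk]
      have := hF γ⁻¹
      rw [SL_slash, map_inv] at this
      exact this
  exact coeff_prod_X_sub_C_mem zeroIdeal Finset.univ (conjNice F) (fun q _ => hmem q) i
    (by simpa [idx] using hi)


/-- The Lagrange polynomial over nice functions. -/
def lagNice (F : ModularForm 𝒢 k) (A B : ModularForm 𝒢 l) : niceSub[X] :=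
  ∑ q : 𝒬, C (conjNice F q) *
    ∏ q' ∈ Finset.univ.erase q, (C (conjNice B q') * X - C (conjNice A q'))

lemma lagNice_map (F : ModularForm 𝒢 k) (A B : ModularForm 𝒢 l) (z : ℍ) :
    (lagNice F A B).map (evAt z) = lagPoly (fun q : 𝒬 => quotientFunc F q z)
      (fun q => quotientFunc A q z) (fun q => quotientFunc B q z) := by
  simp [lagNice, lagPoly, Polynomial.map_sum, Polynomial.map_prod, conjNice]

lemma lagNice_coeff_apply (F : ModularForm 𝒢 k) (A B : ModularForm 𝒢 l) (r : ℕ) (z : ℍ) :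
    ((lagNice F A B).coeff r : ℍ → ℂ) z = (lagPoly (fun q : 𝒬 => quotientFunc F q z)
      (fun q => quotientFunc A q z) (fun q => quotientFunc B q z)).coeff r := by
  rw [← lagNice_map, coeff_map, evAt_apply]

lemma lagNice_coeff_smul (F : ModularForm 𝒢 k) (A B : ModularForm 𝒢 l) (r : ℕ) (γ : SL(2, ℤ))
    (z : ℍ) : ((lagNice F A B).coeff r : ℍ → ℂ) (γ • z) =
      denom γ z ^ (k + l * ((idx 𝒢 - 1 : ℕ) : ℤ)) * ((lagNice F A B).coeff r : ℍ → ℂ) z := by
  rw [lagNice_coeff_apply, lagNice_coeff_apply]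
  simp only [quotientFunc_smul_apply]
  rw [lagPoly_smul, coeff_C_mul]
  congr 1
  · rw [zpow_add₀ (denom_ne_zero γ z), zpow_mul, zpow_natCast]; rfl
  · exact congrArg (fun p => p.coeff r) (lagPoly_comp_equiv (fun q : 𝒬 => quotientFunc F q z)
      (fun q => quotientFunc A q z) (fun q => quotientFunc B q z) (MulAction.toPerm (toSL γ)⁻¹))

/-- The coefficients of the Lagrange polynomial, as level one forms. -/
def lagCoeff (F : ModularForm 𝒢 k) (A B : ModularForm 𝒢 l) (r : ℕ) :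
    ModularForm 𝒮ℒ (k + l * ((idx 𝒢 - 1 : ℕ) : ℤ)) :=
  mkLevelOne ((lagNice F A B).coeff r : ℍ → ℂ) _ ((lagNice F A B).coeff r).2
    (lagNice_coeff_smul F A B r)

theorem lagCoeff_sum (F : ModularForm 𝒢 k) (A B : ModularForm 𝒢 l) (z : ℍ) (hB : B z ≠ 0) :
    ∑ r ∈ Finset.range (idx 𝒢), lagCoeff F A B r z * A z ^ r * B z ^ (idx 𝒢 - 1 - r) =
      F z * ∏ q' ∈ Finset.univ.erase (q0 𝒢),
        (quotientFunc B q' z * A z - quotientFunc A q' z * B z) := by
  haveI : Nonempty 𝒬 := ⟨q0 𝒢⟩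
  have h := lagPoly_sum (fun q : 𝒬 => quotientFunc F q z)
      (fun q => quotientFunc A q z) (fun q => quotientFunc B q z) (q0 𝒢)
      (by simpa [quotientFunc_q0] using hB)
  simp only [quotientFunc_q0] at h
  rw [← h]
  refine Finset.sum_congr rfl fun r _ => ?_
  congr 2
  exact lagNice_coeff_apply F A B r z

end

end Fermat.Agent.S23Aux
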