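import Mathlib
import Fermat.Agent.Lib.S23_Sym
import Fermat.Agent.Lib.S23_Raise
import Fermat.Agent.Lib.S23_LevelOne

/-!
# The forms `A = E₄(Nz)^3`, `B = Δ(Nz)` on `Γ₀(N)` and the expansions of their conjugates
-/

open UpperHalfPlane ModularForm SlashInvariantForm
open scoped Manifold MatrixGroups

namespace Fermat.Agent.S23Aux

noncomputable section

section algebra

theorem coeff_mul_of_low (p r : PowerSeries ℂ) (s : ℕ) (hp : ∀ j < s, p.coeff j = 0) :
    (∀ i < s, (p * r).coeff i = 0) ∧ (p * r).coeff s = p.coeff s * r.coeff 0 := by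
  constructor
  · intro i hi
    rw [PowerSeries.coeff_mul]
    refine Finset.sum_eq_zero fun x hx => ?_
    rw [Finset.HasAntidiagonal.mem_antidiagonal] at hx
    rw [hp x.1 (by omega), zero_mul]
  · rw [PowerSeries.coeff_mul]
    rw [Finset.sum_eq_single (s, 0)]
    · intro x hx hne
      rw [Finset.HasAntidiagonal.mem_antidiagonal] at hx
      have : x.1 < s := by
        rcases Nat.lt_or_ge x.1 s with h | h
        · exact h
        · exfalso
          apply hne
          ext <;> simp <;> omega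
      rw [hp x.1 this, zero_mul]
    · intro h
      exact absurd (by simp) h

theorem isIntegral_coeff_mul (p r : PowerSeries ℂ) (hp : ∀ i, IsIntegral ℤ (p.coeff i))
    (hr : ∀ i, IsIntegral ℤ (r.coeff i)) : ∀ i, IsIntegral ℤ ((p * r).coeff i) := by
  intro i
  rw [PowerSeries.coeff_mul]
  exact IsIntegral.sum _ fun x _ => (hp _).mul (hr _)

theorem isIntegral_coeff_twist (P : PowerSeries ℂ) (e : ℕ) (ζ : ℂ)
    (hP : ∀ n, ∃ m : ℤ, P.coeff n = m) (hζ : IsIntegral ℤ ζ) :
    ∀ i, IsIntegral ℤ ((twist P e ζ).coeff i) := by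
  intro i
  rw [coeff_twist]
  split_ifs
  · obtain ⟨m, hm⟩ := hP (i / e)
    rw [hm]
    exact (isIntegral_algebraMap (R := ℤ) (x := m)).mul (hζ.pow _)
  · exact isIntegral_zero

theorem coeff_twist_of_lt (P : PowerSeries ℂ) (e : ℕ) (ζ : ℂ) (h0 : P.coeff 0 = 0) :
    ∀ j < e, (twist P e ζ).coeff j = 0 := by
  intro j hj
  rw [coeff_twist]
  split_ifs with h
  · have : j = 0 := Nat.eq_zero_of_dvd_of_lt h hj
    subst this
    simp [h0]
  · rfl

theorem coeff_twist_self (P : PowerSeries ℂ) (e : ℕ) (he : 0 < e) (ζ : ℂ) :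
    (twist P e ζ).coeff e = P.coeff 1 * ζ := by
  have := coeff_twist_mul P he ζ 1
  simpa using this

theorem coeff_twist_zero (P : PowerSeries ℂ) (e : ℕ) (ζ : ℂ) :
    (twist P e ζ).coeff 0 = P.coeff 0 := by
  rw [coeff_twist]
  simp

end algebra

/-- `E₄³` as a level one form of weight `12`. -/
def GA : ModularForm 𝒮ℒ 12 := ModularForm.mcast (by decide) (E₄.pow 3)

/-- `Δ` as a level one modular form of weight `12`. -/
def GB : ModularForm 𝒮ℒ 12 := (CuspForm.discriminant : ModularForm 𝒮ℒ 12)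

theorem qExpansion_GA : qExpansion 1 GA =
    ((1 + 240 * sigmaSeries 3) ^ 3 : PowerSeries ℤ).map (Int.castRingHom ℂ) := by
  have h4 := (hasQExp_levelOne E₄).pow one_pos 3
  have : (GA : ℍ → ℂ) = (E₄ : ℍ → ℂ) ^ 3 := by
    simp only [GA, coe_mcast]
    exact ModularForm.coe_pow E₄ 3
  rw [this, h4.qExpansion_eq one_pos, E4_qExpansion_eq, map_pow]

theorem GA_integral (n : ℕ) : ∃ m : ℤ, (qExpansion 1 GA).coeff n = (m : ℂ) := by
  rw [qExpansion_GA]
  exact ⟨_, by rw [PowerSeries.coeff_map]; rfl⟩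

theorem GB_integral (n : ℕ) : ∃ m : ℤ, (qExpansion 1 GB).coeff n = (m : ℂ) := by
  exact discriminant_qExpansion_integral n

theorem GA_coeff_zero : (qExpansion 1 GA).coeff 0 = 1 := by
  rw [qExpansion_GA, PowerSeries.coeff_map]
  simp [sigmaSeries]

theorem GB_coeff_zero : (qExpansion 1 GB).coeff 0 = 0 :=
  CuspFormClass.qExpansion_coeff_zero CuspForm.discriminant one_pos one_mem_strictPeriods_SL

theorem GB_coeff_one : (qExpansion 1 GB).coeff 1 = 1 := discriminant_qExpansion_coeff_one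

variable (N : ℕ) [NeZero N]

/-- `A(z) = E₄(Nz)^3` (any nonzero rational multiple is fine). -/
def formA : ModularForm (CongruenceSubgroup.Gamma0 N) 12 := levelRaise N GA

/-- `B(z) = Δ(Nz)` (any nonzero rational multiple making the expansion integral is fine). -/
def formB : ModularForm (CongruenceSubgroup.Gamma0 N) 12 := levelRaise N GB

theorem formB_ne_zero (z : ℍ) : formB N z ≠ 0 := by
  show raiseFun N GB z ≠ 0
  rw [raiseFun_apply]
  exact discriminant_ne_zero _

theorem levelRaise_integral (G : ModularForm 𝒮ℒ 12)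
    (hG : ∀ n, ∃ m : ℤ, (qExpansion 1 G).coeff n = (m : ℂ)) (n : ℕ) :
    ∃ m : ℤ, (qExpansion 1 (levelRaise N G)).coeff n = (m : ℂ) := by
  have h := hasQExp_raiseFun N G 1 N one_pos (by ring)
  have h' := h.qExpansion_eq (by norm_num)
  rw [coe_levelRaise]
  simp only [Nat.cast_one] at h'
  rw [h', coeff_twist]
  split_ifs
  · obtain ⟨m, hm⟩ := hG (n / N)
    exact ⟨m, by simp [hm]⟩
  · exact ⟨0, by simp⟩

theorem formA_integral (n : ℕ) : ∃ m : ℤ, (qExpansion 1 (formA N)).coeff n = (m : ℂ) :=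
  levelRaise_integral N GA GA_integral n

theorem formB_integral (n : ℕ) : ∃ m : ℤ, (qExpansion 1 (formB N)).coeff n = (m : ℂ) :=
  levelRaise_integral N GB GB_integral n

/-- For every nontrivial coset `q`, a nonzero rational multiple `δ` of `B_q A - A_q B` is
`N`-periodic and its expansion in `q^(1/N)` has algebraic integer coefficients and its lowest
coefficient is a unit in the ring of algebraic integers. (Here `A_q = d^(-12) E₄((az+b)/d)^3`,
`B_q = d^(-12) Δ((az+b)/d)`, `ad = N`, `a < N`; take `c = d^12`; lowest term `ζ_d^b q_N^(a^2)`.) -/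
theorem delta_expansion
    (q : 𝒮ℒ ⧸ ((CongruenceSubgroup.Gamma0 N : Subgroup (GL (Fin 2) ℝ)).subgroupOf 𝒮ℒ))
    (hq : q ≠ q0 _) :
    ∃ (c : ℚ) (s : ℕ) (δ : ℍ → ℂ), c ≠ 0 ∧
      δ = (c : ℂ) • (quotientFunc (formB N) q * formA N - quotientFunc (formA N) q * formB N) ∧
      Function.Periodic (δ ∘ ofComplex) N ∧
      (∀ i, IsIntegral ℤ ((qExpansion N δ).coeff i)) ∧
      (∀ i < s, (qExpansion N δ).coeff i = 0) ∧
      (qExpansion N δ).coeff s ≠ 0 ∧ IsIntegral ℤ ((qExpansion N δ).coeff s)⁻¹ := by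
  induction q using Quotient.inductionOn with
  | h r =>
    obtain ⟨_, γ, rfl⟩ := r
    have hNpos : 0 < N := Nat.pos_of_ne_zero (NeZero.ne N)
    have hNpos' : (0 : ℝ) < (N : ℝ) := by exact_mod_cast hNpos
    obtain ⟨γ', a, d, b, had, hadN, hdec, hd1⟩ := exists_decomp N (N_mul_one_ne_zero N) γ⁻¹
    have ha : 0 < a := Nat.pos_of_ne_zero fun h0 => had (by simp [h0])
    have hd : 0 < d := Nat.pos_of_ne_zero fun h0 => had (by simp [h0])
    -- `d ≠ 1` since the coset is nontrivial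
    have hd_ne : d ≠ 1 := by
      intro h1
      apply hq
      have hmem : γ⁻¹ ∈ CongruenceSubgroup.Gamma0 N := by
        rw [CongruenceSubgroup.Gamma0_mem, ZMod.intCast_zmod_eq_zero_iff_dvd]
        exact hd1 h1
      unfold q0
      refine QuotientGroup.eq.mpr ?_
      rw [Subgroup.mem_subgroupOf]
      refine ⟨γ⁻¹, hmem, ?_⟩
      simp
    have haN : a < N := by
      have : 2 ≤ d := by omega
      nlinarith
    have hsq : a ^ 2 < N ^ 2 := Nat.pow_lt_pow_left haN (by norm_num)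
    set ζ : ℂ := Complex.exp (2 * Real.pi * Complex.I * b / d) with hζ
    have hζd : ζ ^ d = 1 := by
      rw [hζ, ← Complex.exp_nat_mul]
      have hd' : (d : ℂ) ≠ 0 := by exact_mod_cast hd.ne'
      have : (d : ℂ) * (2 * Real.pi * Complex.I * b / d) = b * (2 * Real.pi * Complex.I) := by
        field_simp
      rw [this, Complex.exp_int_mul_two_pi_mul_I]
    have hζint : IsIntegral ℤ ζ := IsIntegral.of_pow hd (by rw [hζd]; exact isIntegral_one)
    have hζinv : IsIntegral ℤ ζ⁻¹ :=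
      IsIntegral.of_pow hd (by rw [inv_pow, hζd, inv_one]; exact isIntegral_one)
    have hζ0 : ζ ≠ 0 := Complex.exp_ne_zero _
    -- the four expansions
    have hAq := hasQExp_raiseFun_slash N GA γ⁻¹ γ' a d b had hadN hdec
    have hBq := hasQExp_raiseFun_slash N GB γ⁻¹ γ' a d b had hadN hdec
    have hA := hasQExp_raiseFun N GA N (N ^ 2) hNpos (by ring)
    have hB := hasQExp_raiseFun N GB N (N ^ 2) hNpos (by ring)
    have hqA : quotientFunc (formA N) (⟦⟨_, γ, rfl⟩⟧ :
        𝒮ℒ ⧸ ((CongruenceSubgroup.Gamma0 N : Subgroup (GL (Fin 2) ℝ)).subgroupOf 𝒮ℒ)) =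
        raiseFun N GA ∣[(12 : ℤ)] γ⁻¹ := by
      rw [quotientFunc_mk, SL_slash, map_inv]; rfl
    have hqB : quotientFunc (formB N) (⟦⟨_, γ, rfl⟩⟧ :
        𝒮ℒ ⧸ ((CongruenceSubgroup.Gamma0 N : Subgroup (GL (Fin 2) ℝ)).subgroupOf 𝒮ℒ)) =
        raiseFun N GB ∣[(12 : ℤ)] γ⁻¹ := by
      rw [quotientFunc_mk, SL_slash, map_inv]; rfl
    set tA := twist (qExpansion 1 GA) (a ^ 2) ζ with htA
    set tB := twist (qExpansion 1 GB) (a ^ 2) ζ with htB
    set tA' := twist (qExpansion 1 GA) (N ^ 2) 1 with htA'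
    set tB' := twist (qExpansion 1 GB) (N ^ 2) 1 with htB'
    have hδ := (((hBq.mul hA hNpos').sub (hAq.mul hB hNpos')).smul ((d : ℂ) ^ (12 : ℕ)))
    have hser : ((d : ℂ) ^ (12 : ℕ)) • ((((d : ℂ) ^ (-(12 : ℤ))) • tB) * tA' -
        (((d : ℂ) ^ (-(12 : ℤ))) • tA) * tB') = tB * tA' - tA * tB' := by
      have hd' : (d : ℂ) ≠ 0 := by exact_mod_cast hd.ne'
      rw [smul_mul_assoc, smul_mul_assoc, ← smul_sub, smul_smul]
      have : (d : ℂ) ^ (12 : ℕ) * (d : ℂ) ^ (-(12 : ℤ)) = 1 := by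
        rw [zpow_neg, ← zpow_natCast]
        exact mul_inv_cancel₀ (zpow_ne_zero _ hd')
      rw [this, one_smul]
    rw [hser] at hδ
    refine ⟨(d : ℚ) ^ 12, a ^ 2, _, pow_ne_zero _ (by exact_mod_cast hd.ne'), ?_, hδ.periodic, ?_⟩
    · rw [hqA, hqB]
      push_cast
      rfl
    rw [hδ.qExpansion_eq hNpos']
    have hone : IsIntegral ℤ (1 : ℂ) := isIntegral_one
    have i1 := isIntegral_coeff_twist _ (a ^ 2) ζ GA_integral hζint
    have i2 := isIntegral_coeff_twist _ (a ^ 2) ζ GB_integral hζint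
    have i3 := isIntegral_coeff_twist _ (N ^ 2) 1 GA_integral hone
    have i4 := isIntegral_coeff_twist _ (N ^ 2) 1 GB_integral hone
    have l1 := coeff_mul_of_low tB tA' (a ^ 2) (coeff_twist_of_lt _ _ _ GB_coeff_zero)
    have l2 := coeff_mul_of_low tB' tA (N ^ 2) (coeff_twist_of_lt _ _ _ GB_coeff_zero)
    have hval : (tB * tA' - tA * tB').coeff (a ^ 2) = ζ := by
      rw [map_sub, l1.2, mul_comm tA tB', l2.1 _ hsq, sub_zero, htB,
        coeff_twist_self _ _ (pow_pos ha 2), GB_coeff_one, htA', coeff_twist_zero, GA_coeff_zero]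
      ring
    refine ⟨fun i => ?_, fun i hi => ?_, ?_, ?_⟩
    · rw [map_sub]
      exact (isIntegral_coeff_mul _ _ i2 i3 i).sub (isIntegral_coeff_mul _ _ i1 i4 i)
    · rw [map_sub, l1.1 i hi, mul_comm tA tB', l2.1 i (hi.trans hsq), sub_zero]
    · rw [hval]; exact hζ0
    · rw [hval]; exact hζinv

end

end Fermat.Agent.S23Aux
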