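import Mathlib

set_option autoImplicit false

/-!
# Automorphisms of `ℂ` and descent of finite-dimensional spaces of power series

* `exists_ringEquiv_extending`: every automorphism of a subring `R` of an algebraically closed field
  `K` extends to an automorphism of `K`.
* `exists_ringEquiv_ne` (P1): every irrational complex number is moved by some automorphism of `ℂ`.
* `le_span_rational_of_stable` (P2): an `Aut(ℂ)`-stable finite-dimensional space of power series is
  spanned by its elements with rational coefficients.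
-/

namespace Fermat.Agent.S23Aux

/-- Every automorphism of a domain `R` embedded in an algebraically closed field `K` extends to
an automorphism of `K`. -/
theorem exists_ringEquiv_extending (R K : Type*) [CommRing R] [IsDomain R] [Field K]
    [IsAlgClosed K] [Algebra R K] [FaithfulSMul R K] (g : R ≃+* R) :
    ∃ σ : K ≃+* K, ∀ a : R, σ (algebraMap R K a) = algebraMap R K (g a) := by
  obtain ⟨s, hs⟩ := exists_isTranscendenceBasis R K
  let _ := IsAlgClosed.isAlgClosure_of_transcendence_basis _ hs
  let e : Algebra.adjoin R (Set.range ((↑) : s → K)) ≃+* Algebra.adjoin R (Set.range ((↑) : s → K)) :=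
    (hs.1.aevalEquiv.symm.toRingEquiv.trans (MvPolynomial.mapEquiv s g)).trans
      hs.1.aevalEquiv.toRingEquiv
  refine ⟨IsAlgClosure.equivOfEquiv K K e, fun a => ?_⟩
  have h1 : algebraMap R K a = algebraMap (Algebra.adjoin R (Set.range ((↑) : s → K))) K
      (algebraMap R _ a) := rfl
  have h2 : e (algebraMap R _ a) = algebraMap R _ (g a) := by
    simp only [e, RingEquiv.trans_apply, AlgEquiv.coe_ringEquiv, AlgEquiv.commutes]
    rw [MvPolynomial.algebraMap_eq, MvPolynomial.mapEquiv_apply, MvPolynomial.map_C,
      ← MvPolynomial.algebraMap_eq, AlgEquiv.commutes]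
    rfl
  rw [h1, IsAlgClosure.equivOfEquiv_algebraMap, h2]
  rfl

/-- **P1**: every irrational complex number is moved by some ring automorphism of `ℂ`. -/
theorem exists_ringEquiv_ne (z : ℂ) (hz : ∀ r : ℚ, z ≠ (r : ℂ)) : ∃ σ : ℂ ≃+* ℂ, σ z ≠ z := by
  by_cases halg : IsAlgebraic ℚ z
  · -- algebraic case: use the Galois group of the algebraic closure of `ℚ` in `ℂ`
    let k0 : IntermediateField ℚ ℂ := algebraicClosure ℚ ℂ
    have hzk : z ∈ k0 := (mem_algebraicClosure_iff).mpr halg
    let z' : k0 := ⟨z, hzk⟩
    have : IsAlgClosure ℚ k0 := algebraicClosure.isAlgClosure ℚ ℂ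
    have : IsGalois ℚ k0 := inferInstance
    have hnot : z' ∉ (⊥ : IntermediateField ℚ k0) := by
      intro hmem
      obtain ⟨r, hr⟩ := IntermediateField.mem_bot.mp hmem
      apply hz r
      have := congrArg (fun x : k0 => (x : ℂ)) hr
      simpa [z'] using this.symm
    rw [InfiniteGalois.mem_bot_iff_fixed] at hnot
    push Not at hnot
    obtain ⟨f, hf⟩ := hnot
    obtain ⟨σ, hσ⟩ := exists_ringEquiv_extending k0 ℂ f.toRingEquiv
    refine ⟨σ, fun h => hf ?_⟩
    have h1 := hσ z'
    have h2 : algebraMap k0 ℂ z' = z := rfl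
    rw [h2, h] at h1
    exact Subtype.ext h1.symm
  · -- transcendental case: `ℚ[X] ↪ ℂ`, `X ↦ z`, and the automorphism `X ↦ X + 1`
    have htr : Transcendental ℚ z := halg
    let _ : Algebra (Polynomial ℚ) ℂ := (Polynomial.aeval (R := ℚ) z).toRingHom.toAlgebra
    have hinj : Function.Injective (algebraMap (Polynomial ℚ) ℂ) :=
      transcendental_iff_injective.mp htr
    have : FaithfulSMul (Polynomial ℚ) ℂ := (faithfulSMul_iff_algebraMap_injective _ _).mpr hinj
    obtain ⟨σ, hσ⟩ := exists_ringEquiv_extending (Polynomial ℚ) ℂ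
      (Polynomial.algEquivAevalXAddC (1 : ℚ)).toRingEquiv
    refine ⟨σ, fun h => ?_⟩
    have h1 := hσ Polynomial.X
    have h2 : algebraMap (Polynomial ℚ) ℂ Polynomial.X = z := by
      show Polynomial.aeval z Polynomial.X = z
      simp
    have h3 : algebraMap (Polynomial ℚ) ℂ
        ((Polynomial.algEquivAevalXAddC (1 : ℚ)).toRingEquiv Polynomial.X) = z + 1 := by
      show Polynomial.aeval z ((Polynomial.algEquivAevalXAddC (1 : ℚ)) Polynomial.X) = z + 1
      simp
    rw [h2, h3, h] at h1
    simp at h1

/-- **P2**: a finite-dimensional space of power series stable under `Aut(ℂ)` (acting on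
coefficients) is spanned by its elements with rational coefficients. -/
theorem le_span_rational_of_stable (V : Submodule ℂ (PowerSeries ℂ)) [FiniteDimensional ℂ V]
    (hV : ∀ σ : ℂ ≃+* ℂ, ∀ p ∈ V, p.map (σ : ℂ →+* ℂ) ∈ V) :
    V ≤ Submodule.span ℂ {p | p ∈ V ∧ ∀ n, ∃ r : ℚ, p.coeff n = (r : ℂ)} := by
  classical
  -- the coefficient functionals
  let c : ℕ → Module.Dual ℂ V := fun n => (PowerSeries.coeff (R := ℂ) n).comp V.subtype
  have hc : ∀ (n : ℕ) (x : V), c n x = PowerSeries.coeff n (x : PowerSeries ℂ) := fun _ _ => rfl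
  have hspan : ⊤ ≤ Submodule.span ℂ (Set.range c) := by
    rw [top_le_iff, ← Subspace.dualCoannihilator_dualAnnihilator_eq
      (W := Submodule.span ℂ (Set.range c))]
    have h0 : (Submodule.span ℂ (Set.range c)).dualCoannihilator = ⊥ := by
      rw [eq_bot_iff]
      intro x hx
      rw [Submodule.mem_dualCoannihilator] at hx
      rw [Submodule.mem_bot]
      apply Subtype.ext
      ext n
      have := hx (c n) (Submodule.subset_span ⟨n, rfl⟩)
      simpa [hc] using this
    rw [h0, Submodule.dualAnnihilator_bot]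
  let b := Module.Basis.ofSpan hspan
  have : Finite ((linearIndepOn_empty ℂ id).extend (Set.empty_subset (Set.range c))) :=
    Module.Finite.finite_basis b
  cases nonempty_fintype ((linearIndepOn_empty ℂ id).extend (Set.empty_subset (Set.range c)))
  -- each basis functional is a coefficient functional
  have hbc : ∀ j, ∃ n, b j = c n := by
    intro j
    obtain ⟨n, hn⟩ := Module.Basis.ofSpan_subset hspan ⟨j, rfl⟩
    exact ⟨n, hn.symm⟩
  choose N hN using hbc
  -- separation
  have hsep : ∀ x : V, (∀ j, b j x = 0) → x = 0 := by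
    intro x hx
    rw [← Module.forall_dual_apply_eq_zero_iff ℂ x]
    intro φ
    rw [← b.sum_repr φ, LinearMap.sum_apply]
    refine Finset.sum_eq_zero fun j _ => ?_
    rw [LinearMap.smul_apply, hx j, smul_zero]
  -- the dual basis
  let f := fun i => (Module.evalEquiv ℂ V).symm (b.dualBasis i)
  have hf : ∀ i j, b j (f i) = if j = i then 1 else 0 := by
    intro i j
    simp only [f, Module.apply_evalEquiv_symm_apply]
    exact b.dualBasis_apply_self i j
  -- the `f i` have rational coefficients
  have hrat : ∀ i n, ∃ r : ℚ, PowerSeries.coeff n (f i : PowerSeries ℂ) = (r : ℂ) := by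
    intro i n
    by_contra hcon
    push Not at hcon
    obtain ⟨σ, hσ⟩ := exists_ringEquiv_ne _ hcon
    apply hσ
    let g : V := ⟨(f i : PowerSeries ℂ).map (σ : ℂ →+* ℂ), hV σ _ (f i).2⟩
    have hg : g - f i = 0 := by
      apply hsep
      intro j
      rw [map_sub, hf, hN j, hc]
      have h1 : PowerSeries.coeff (N j) (f i : PowerSeries ℂ) = if j = i then 1 else 0 := by
        rw [← hc, ← hN j, hf]
      simp only [g, PowerSeries.coeff_map, h1]
      split_ifs <;> simp
    have hg' : g = f i := sub_eq_zero.mp hg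
    have := congrArg (fun x : V => PowerSeries.coeff n (x : PowerSeries ℂ)) hg'
    simpa [g] using this
  intro p hp
  have hp' : (⟨p, hp⟩ : V) = ∑ i, (b i ⟨p, hp⟩) • f i := by
    rw [← sub_eq_zero]
    apply hsep
    intro j
    rw [map_sub, map_sum]
    simp [hf]
  have hp'' : p = ∑ i, (b i ⟨p, hp⟩) • (f i : PowerSeries ℂ) := by
    have := congrArg (fun x : V => (x : PowerSeries ℂ)) hp'
    simpa using this
  rw [hp'']
  refine Submodule.sum_mem _ fun i _ => Submodule.smul_mem _ _ (Submodule.subset_span ?_)
  exact ⟨(f i).2, hrat i⟩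

end Fermat.Agent.S23Aux
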