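import Mathlib

/-!
# The `q`-expansion ring homomorphism on periodic holomorphic functions bounded at `i∞`
-/

open UpperHalfPlane ModularForm
open scoped Manifold MatrixGroups

namespace Fermat.Agent.S23Aux

noncomputable section

/-- The subalgebra of functions on `ℍ` that are holomorphic, bounded at `i∞` and `h`-periodic. -/
def perSub (h : ℝ) : Subalgebra ℂ (ℍ → ℂ) where
  carrier := {g | MDiff g ∧ IsBoundedAtImInfty g ∧ Function.Periodic (g ∘ ofComplex) h}
  mul_mem' ha hb := ⟨ha.1.mul hb.1, ha.2.1.mul hb.2.1, ha.2.2.mul hb.2.2⟩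
  add_mem' ha hb := ⟨ha.1.add hb.1, ha.2.1.add hb.2.1, ha.2.2.add hb.2.2⟩
  algebraMap_mem' c := ⟨mdifferentiable_const, Filter.const_boundedAtFilter _ c, fun _ => rfl⟩

lemma mem_perSub {h : ℝ} {g : ℍ → ℂ} : g ∈ perSub h ↔
    MDiff g ∧ IsBoundedAtImInfty g ∧ Function.Periodic (g ∘ ofComplex) h := Iff.rfl

lemma analyticAt_of_mem_perSub {h : ℝ} (hh : 0 < h) {g : ℍ → ℂ} (hg : g ∈ perSub h) :
    AnalyticAt ℂ (cuspFunction h g) 0 :=
  analyticAt_cuspFunction_zero hh hg.2.2 hg.1 hg.2.1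

/-- The `q`-expansion as a ring homomorphism. -/
def qHom (h : ℝ) (hh : 0 < h) : perSub h →+* PowerSeries ℂ where
  toFun g := qExpansion h (g : ℍ → ℂ)
  map_one' := qExpansion_one h
  map_mul' a b := qExpansion_mul (analyticAt_of_mem_perSub hh a.2) (analyticAt_of_mem_perSub hh b.2)
  map_zero' := qExpansion_zero h
  map_add' a b := qExpansion_add (analyticAt_of_mem_perSub hh a.2) (analyticAt_of_mem_perSub hh b.2)

@[simp] lemma qHom_apply (h : ℝ) (hh : 0 < h) (g : perSub h) :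
    qHom h hh g = qExpansion h (g : ℍ → ℂ) := rfl

lemma qHom_injective (h : ℝ) (hh : 0 < h) : Function.Injective (qHom h hh) := by
  rw [injective_iff_map_eq_zero]
  intro g hg
  have := (qExpansion_eq_zero_iff hh g.2.2.2 g.2.1 g.2.2.1).mp hg
  exact Subtype.ext this

lemma qHom_smul (h : ℝ) (hh : 0 < h) (c : ℂ) (g : perSub h) :
    qHom h hh (c • g) = c • qHom h hh g :=
  qExpansion_smul (analyticAt_of_mem_perSub hh g.2) c

/-- A modular form gives an element of `perSub h` for each strict period `h`. -/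
lemma modularForm_mem_perSub {Γ : Subgroup (GL (Fin 2) ℝ)} {k : ℤ} {h : ℝ} (hh : 0 < h)
    (hΓ : h ∈ Γ.strictPeriods) {F : Type*} [FunLike F ℍ ℂ] [ModularFormClass F Γ k] (f : F) :
    (f : ℍ → ℂ) ∈ perSub h :=
  have : Fact (IsCusp OnePoint.infty Γ) := ⟨Γ.isCusp_of_mem_strictPeriods hh hΓ⟩
  ⟨ModularFormClass.holo f, ModularFormClass.bdd_at_infty f,
    SlashInvariantFormClass.periodic_comp_ofComplex f hΓ⟩

end

end Fermat.Agent.S23Aux
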