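import Mathlib

set_option autoImplicit false

/-!
# P3: a quotient of holomorphic functions which is integral over holomorphic functions is holomorphic
-/

namespace Fermat.Agent.S23Aux

open Filter Topology UpperHalfPlane
open scoped Manifold

theorem le_analyticOrderAt_finset_sum {ι : Type*} (s : Finset ι) (T : ι → ℂ → ℂ) (z₀ : ℂ) (K : ℕ∞)
    (h : ∀ i ∈ s, K ≤ analyticOrderAt (T i) z₀) : K ≤ analyticOrderAt (∑ i ∈ s, T i) z₀ := by
  classical
  induction s using Finset.induction_on with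
  | empty =>
    have : analyticOrderAt (∑ i ∈ (∅ : Finset ι), T i) z₀ = ⊤ := by
      rw [analyticOrderAt_eq_top]; simp
    rw [this]; exact le_top
  | insert a s ha ih =>
    rw [Finset.sum_insert ha]
    refine le_trans (le_min (h a (Finset.mem_insert_self _ _)) (ih fun i hi => h i
      (Finset.mem_insert_of_mem hi))) le_analyticOrderAt_add

/-- Order inequality from an integrality relation. -/
theorem analyticOrderAt_le_of_integral {n d : ℂ → ℂ} {z₀ : ℂ} (hn : AnalyticAt ℂ n z₀)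
    (hd : AnalyticAt ℂ d z₀) (μ : ℕ) (c : ℕ → ℂ → ℂ)
    (hc : ∀ i, AnalyticAt ℂ (c i) z₀)
    (h : ∀ᶠ z in 𝓝 z₀, n z ^ μ + ∑ i ∈ Finset.range μ, c i z * n z ^ i * d z ^ (μ - i) = 0) :
    analyticOrderAt d z₀ ≤ analyticOrderAt n z₀ := by
  by_contra hlt
  rw [not_le] at hlt
  obtain ⟨a, ha⟩ := ENat.ne_top_iff_exists.mp (ne_top_of_lt hlt)
  have hab : ((a + 1 : ℕ) : ℕ∞) ≤ analyticOrderAt d z₀ := by
    rw [← ha] at hlt
    have := Order.add_one_le_of_lt hlt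
    simpa using this
  have h1 : analyticOrderAt (n ^ μ) z₀ = ((μ * a : ℕ) : ℕ∞) := by
    rw [analyticOrderAt_pow hn, ← ha]; simp
  have h2 : n ^ μ =ᶠ[𝓝 z₀] -(∑ i ∈ Finset.range μ, c i * n ^ i * d ^ (μ - i)) := by
    filter_upwards [h] with z hz
    simp only [Pi.pow_apply, Pi.neg_apply, Finset.sum_apply, Pi.mul_apply]
    exact eq_neg_of_add_eq_zero_left hz
  have h3 : ((μ * a + 1 : ℕ) : ℕ∞) ≤
      analyticOrderAt (∑ i ∈ Finset.range μ, c i * n ^ i * d ^ (μ - i)) z₀ := by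
    apply le_analyticOrderAt_finset_sum
    intro i hi
    have hi' : i < μ := Finset.mem_range.mp hi
    rw [analyticOrderAt_mul ((hc i).mul (hn.pow i)) (hd.pow _), analyticOrderAt_mul (hc i) (hn.pow i),
      analyticOrderAt_pow hn, analyticOrderAt_pow hd, ← ha]
    have h4 : ((μ - i) * (a + 1) : ℕ) ≤ (μ - i) • analyticOrderAt d z₀ := by
      calc (((μ - i) * (a + 1) : ℕ) : ℕ∞) = (μ - i) • ((a + 1 : ℕ) : ℕ∞) := by
            rw [nsmul_eq_mul, Nat.cast_mul]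
        _ ≤ (μ - i) • analyticOrderAt d z₀ := nsmul_le_nsmul_right hab _
    have h5 : μ * a + 1 ≤ i * a + (μ - i) * (a + 1) := by
      obtain ⟨k, rfl⟩ : ∃ k, μ = i + (k + 1) := ⟨μ - i - 1, by omega⟩
      have : i + (k + 1) - i = k + 1 := by omega
      rw [this]; nlinarith
    calc ((μ * a + 1 : ℕ) : ℕ∞) ≤ ((i * a + (μ - i) * (a + 1) : ℕ) : ℕ∞) := by exact_mod_cast h5
      _ = i • (a : ℕ∞) + (((μ - i) * (a + 1) : ℕ) : ℕ∞) := by
            rw [nsmul_eq_mul, Nat.cast_add, Nat.cast_mul]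
      _ ≤ i • (a : ℕ∞) + (μ - i) • analyticOrderAt d z₀ := by gcongr
      _ ≤ analyticOrderAt (c i) z₀ + i • (a : ℕ∞) + (μ - i) • analyticOrderAt d z₀ := by
        gcongr; exact le_add_self
  rw [analyticOrderAt_congr h2, analyticOrderAt_neg] at h1
  rw [h1] at h3
  have : μ * a + 1 ≤ μ * a := by exact_mod_cast h3
  omega

/-- Local version of P3. -/
theorem exists_analyticAt_quotient {n d : ℂ → ℂ} {z₀ : ℂ} (hn : AnalyticAt ℂ n z₀)
    (hd : AnalyticAt ℂ d z₀) (hd0 : analyticOrderAt d z₀ ≠ ⊤) (μ : ℕ) (c : ℕ → ℂ → ℂ)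
    (hc : ∀ i, AnalyticAt ℂ (c i) z₀)
    (h : ∀ᶠ z in 𝓝 z₀, n z ^ μ + ∑ i ∈ Finset.range μ, c i z * n z ^ i * d z ^ (μ - i) = 0) :
    ∃ g : ℂ → ℂ, AnalyticAt ℂ g z₀ ∧ ∀ᶠ z in 𝓝 z₀, n z = g z * d z := by
  have hle := analyticOrderAt_le_of_integral hn hd μ c hc h
  obtain ⟨b, hb⟩ := ENat.ne_top_iff_exists.mp hd0
  obtain ⟨d1, hd1, hd10, hdd⟩ := (hd.analyticOrderAt_eq_natCast).mp hb.symm
  rw [← hb] at hle
  obtain ⟨n1, hn1, hnn⟩ := (natCast_le_analyticOrderAt hn).mp hle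
  refine ⟨fun z => n1 z / d1 z, hn1.div hd1 hd10, ?_⟩
  filter_upwards [hdd, hnn, hd1.continuousAt.eventually_ne hd10] with z h1 h2 h3
  rw [h1, h2]
  simp only [smul_eq_mul]
  field_simp

/-- **P3**. -/
theorem exists_mdiff_quotient (n d : ℍ → ℂ) (hn : MDiff n) (hd : MDiff d) (hd0 : d ≠ 0) (μ : ℕ)
    (c : ℕ → ℍ → ℂ) (hc : ∀ i, MDiff (c i))
    (h : ∀ z, n z ^ μ + ∑ i ∈ Finset.range μ, c i z * n z ^ i * d z ^ (μ - i) = 0) :
    ∃ F : ℍ → ℂ, MDiff F ∧ ∀ z, F z * d z = n z := by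
  classical
  set U : Set ℂ := {z | 0 < z.im} with hU
  have hUo : IsOpen U := isOpen_upperHalfPlaneSet
  have hUc : IsPreconnected U := (convex_halfSpace_im_gt 0).isPreconnected
  have hn' : AnalyticOnNhd ℂ (n ∘ ofComplex) U :=
    (UpperHalfPlane.mdifferentiable_iff.mp hn).analyticOnNhd hUo
  have hd' : AnalyticOnNhd ℂ (d ∘ ofComplex) U :=
    (UpperHalfPlane.mdifferentiable_iff.mp hd).analyticOnNhd hUo
  have hc' : ∀ i, AnalyticOnNhd ℂ (c i ∘ ofComplex) U := fun i =>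
    (UpperHalfPlane.mdifferentiable_iff.mp (hc i)).analyticOnNhd hUo
  -- `d` has finite order everywhere
  obtain ⟨w, hw⟩ : ∃ w : ℍ, d w ≠ 0 := by
    by_contra hcon
    push Not at hcon
    exact hd0 (funext hcon)
  have hwU : (w : ℂ) ∈ U := w.im_pos
  have hordw : analyticOrderAt (d ∘ ofComplex) (w : ℂ) ≠ ⊤ := by
    have : analyticOrderAt (d ∘ ofComplex) (w : ℂ) = 0 := by
      rw [(hd' _ hwU).analyticOrderAt_eq_zero]
      simpa [ofComplex_apply] using hw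
    rw [this]; simp
  have hord : ∀ z ∈ U, analyticOrderAt (d ∘ ofComplex) z ≠ ⊤ := fun z hz =>
    hd'.analyticOrderAt_ne_top_of_isPreconnected hUc hwU hz hordw
  have hloc : ∀ z ∈ U, ∃ g : ℂ → ℂ, AnalyticAt ℂ g z ∧
      ∀ᶠ x in 𝓝 z, (n ∘ ofComplex) x = g x * (d ∘ ofComplex) x := fun z hz =>
    exists_analyticAt_quotient (hn' z hz) (hd' z hz) (hord z hz) μ (fun i => c i ∘ ofComplex)
      (fun i => hc' i z hz) (Eventually.of_forall fun x => h (ofComplex x))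
  choose! g hg hgn using hloc
  let F' : ℂ → ℂ := fun z => g z z
  have hF' : ∀ z₀ ∈ U, F' =ᶠ[𝓝 z₀] g z₀ := by
    intro z₀ hz₀
    have hne : ∀ᶠ z in 𝓝[≠] z₀, (d ∘ ofComplex) z ≠ 0 := by
      rcases (hd' z₀ hz₀).eventually_eq_zero_or_eventually_ne_zero with h0 | h0
      · exact absurd (analyticOrderAt_eq_top.mpr h0) (hord z₀ hz₀)
      · exact h0
    rw [eventually_nhdsWithin_iff] at hne
    filter_upwards [hne, hgn z₀ hz₀, hUo.mem_nhds hz₀] with z h1 h2 h3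
    by_cases hz : z = z₀
    · rw [hz]
    · have h4 := (hgn z h3).self_of_nhds
      rw [h2] at h4
      exact (mul_right_cancel₀ (h1 hz) h4).symm
  refine ⟨fun τ => F' τ, ?_, fun z => ?_⟩
  · rw [UpperHalfPlane.mdifferentiable_iff]
    intro z hz
    have h1 : AnalyticAt ℂ F' z := (hg z hz).congr (hF' z hz).symm
    refine (h1.differentiableAt.differentiableWithinAt).congr (fun x hx => ?_) ?_
    · simp [Function.comp, ofComplex_apply_of_im_pos hx]
    · simp [Function.comp, ofComplex_apply_of_im_pos hz]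
  · have h1 := (hgn (z : ℂ) z.im_pos).self_of_nhds
    simp only [Function.comp, ofComplex_apply] at h1
    exact h1.symm

end Fermat.Agent.S23Aux
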