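import Mathlib
import Fermat.Agent.Lib.S23_Sym
import Fermat.Agent.Lib.S23_QHom
import Fermat.Agent.Lib.S23_Quotient
import Fermat.Agent.Lib.S23_LevelOne

/-!
# Conjugating cusp forms by field automorphisms of `ℂ`
-/

open UpperHalfPlane ModularForm SlashInvariantForm Filter Topology
open scoped Manifold MatrixGroups

namespace Fermat.Agent.S23Aux

noncomputable section

/-- Roots of monic polynomials whose lower coefficients tend to zero tend to zero. -/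
theorem tendsto_zero_of_monic_eq {ι : Type*} (l : Filter ι) (μ : ℕ) (hμ : 0 < μ) (G : ι → ℂ)
    (c : ℕ → ι → ℂ) (hc : ∀ i < μ, Tendsto (c i) l (𝓝 0))
    (h : ∀ z, G z ^ μ + ∑ i ∈ Finset.range μ, c i z * G z ^ i = 0) : Tendsto G l (𝓝 0) := by
  have hM : Tendsto (fun z => ∑ i ∈ Finset.range μ, ‖c i z‖) l (𝓝 0) := by
    have : Tendsto (fun z => ∑ i ∈ Finset.range μ, ‖c i z‖) l (𝓝 (∑ i ∈ Finset.range μ, (0 : ℝ))) :=
      tendsto_finsetSum _ fun i hi => by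
        simpa using (hc i (Finset.mem_range.mp hi)).norm
    simpa using this
  rw [Metric.tendsto_nhds]
  intro ε hε
  set δ : ℝ := min ε 1 with hδ
  have hδ0 : 0 < δ := lt_min hε one_pos
  have hδ1 : δ ≤ 1 := min_le_right _ _
  have hev := (Metric.tendsto_nhds.mp hM) (δ ^ μ) (pow_pos hδ0 μ)
  filter_upwards [hev] with z hz
  rw [dist_zero_right] at hz ⊢
  have hMnn : 0 ≤ ∑ i ∈ Finset.range μ, ‖c i z‖ := Finset.sum_nonneg fun i _ => norm_nonneg _
  rw [Real.norm_of_nonneg hMnn] at hz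
  have hM1 : ∑ i ∈ Finset.range μ, ‖c i z‖ < 1 := hz.trans_le (pow_le_one₀ hδ0.le hδ1)
  have hkey : ‖G z‖ ^ μ ≤ ∑ i ∈ Finset.range μ, ‖c i z‖ * ‖G z‖ ^ i := by
    have h1 : G z ^ μ = - ∑ i ∈ Finset.range μ, c i z * G z ^ i := eq_neg_of_add_eq_zero_left (h z)
    calc ‖G z‖ ^ μ = ‖G z ^ μ‖ := (norm_pow _ _).symm
      _ = ‖∑ i ∈ Finset.range μ, c i z * G z ^ i‖ := by rw [h1, norm_neg]
      _ ≤ ∑ i ∈ Finset.range μ, ‖c i z * G z ^ i‖ := norm_sum_le _ _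
      _ = ∑ i ∈ Finset.range μ, ‖c i z‖ * ‖G z‖ ^ i := by simp [norm_pow]
  have hle1 : ‖G z‖ ≤ 1 := by
    by_contra hcon
    push Not at hcon
    have h2 : ∑ i ∈ Finset.range μ, ‖c i z‖ * ‖G z‖ ^ i ≤
        (∑ i ∈ Finset.range μ, ‖c i z‖) * ‖G z‖ ^ (μ - 1) := by
      rw [Finset.sum_mul]
      refine Finset.sum_le_sum fun i hi => ?_
      refine mul_le_mul_of_nonneg_left ?_ (norm_nonneg _)
      exact pow_le_pow_right₀ hcon.le (by have := Finset.mem_range.mp hi; omega)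
    have h3 : ‖G z‖ ^ μ = ‖G z‖ * ‖G z‖ ^ (μ - 1) := by
      rw [← pow_succ']; congr 1; omega
    have hpos : 0 < ‖G z‖ ^ (μ - 1) := pow_pos (one_pos.trans hcon) _
    have h4 : ‖G z‖ ≤ ∑ i ∈ Finset.range μ, ‖c i z‖ := by
      have := hkey.trans h2
      rw [h3] at this
      exact le_of_mul_le_mul_right this hpos
    linarith
  have h5 : ‖G z‖ ^ μ ≤ ∑ i ∈ Finset.range μ, ‖c i z‖ := by
    refine hkey.trans (Finset.sum_le_sum fun i _ => ?_)
    exact mul_le_of_le_one_right (norm_nonneg _) (pow_le_one₀ (norm_nonneg _) hle1)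
  have h6 : ‖G z‖ < δ := lt_of_pow_lt_pow_left₀ μ hδ0.le (h5.trans_lt hz)
  exact h6.trans_le (min_le_left _ _)

/-- Level one forms can be conjugated. -/
theorem exists_conj_levelOne (σ : ℂ →+* ℂ) (w : ℤ) (G : ModularForm 𝒮ℒ w) :
    ∃ G' : ModularForm 𝒮ℒ w, qExpansion 1 G' = (qExpansion 1 G).map σ := by
  have hG : G ∈ Submodule.span ℂ
      {g : ModularForm 𝒮ℒ w | ∀ n, ∃ m : ℤ, (qExpansion 1 g).coeff n = (m : ℂ)} := by
    rw [levelOne_span_integral]; trivial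
  induction hG using Submodule.span_induction with
  | mem g hg =>
    refine ⟨g, ?_⟩
    ext n
    obtain ⟨m, hm⟩ := hg n
    simp [hm]
  | zero =>
    refine ⟨0, ?_⟩
    simp [qExpansion_zero]
  | add x y _ _ hx hy =>
    obtain ⟨x', hx'⟩ := hx
    obtain ⟨y', hy'⟩ := hy
    refine ⟨x' + y', ?_⟩
    rw [FunLike.coe_add, FunLike.coe_add, ModularForm.qExpansion_add one_pos one_mem_strictPeriods_SL,
      ModularForm.qExpansion_add one_pos one_mem_strictPeriods_SL, hx', hy', map_add]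
  | smul a x _ hx =>
    obtain ⟨x', hx'⟩ := hx
    refine ⟨σ a • x', ?_⟩
    rw [FunLike.coe_smul, FunLike.coe_smul, ModularForm.qExpansion_smul one_pos one_mem_strictPeriods_SL,
      ModularForm.qExpansion_smul one_pos one_mem_strictPeriods_SL, hx']
    ext n
    simp


/-- Construct a cusp form from a holomorphic quotient satisfying a monic equation over level one. -/
theorem exists_cuspForm_of_quotient {Γ : Subgroup SL(2, ℤ)} [Γ.FiniteIndex] {k wD : ℤ} (μ : ℕ)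
    (hμ : 0 < μ) (F' D Nn : ℍ → ℂ) (hF' : MDiff F') (hD : MDiff D) (hD0 : D ≠ 0)
    (hFD : ∀ z, F' z * D z = Nn z)
    (hDa : ∀ γ ∈ Γ, ∀ z : ℍ, D (γ • z) = denom γ z ^ wD * D z)
    (hNa : ∀ γ ∈ Γ, ∀ z : ℍ, Nn (γ • z) = denom γ z ^ (k + wD) * Nn z)
    (c : (i : ℕ) → ModularForm 𝒮ℒ (k * ((μ - i : ℕ) : ℤ)))
    (hc : ∀ i < μ, IsZeroAtImInfty (c i))
    (heq : ∀ z, F' z ^ μ + ∑ i ∈ Finset.range μ, c i z * F' z ^ i = 0) :
    ∃ f' : CuspForm (Γ : Subgroup (GL (Fin 2) ℝ)) k, ⇑f' = F' := by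
  have hinv : ∀ γ ∈ Γ, F' ∣[k] γ = F' := by
    intro γ hγ
    have hmul : (F' ∣[k] γ - F') * D = 0 := by
      ext z
      have hJ : denom γ z ≠ 0 := denom_ne_zero γ z
      have h1 := hFD (γ • z)
      rw [hDa γ hγ, hNa γ hγ, ← hFD z, zpow_add₀ hJ] at h1
      simp only [Pi.mul_apply, Pi.sub_apply, Pi.zero_apply, SL_slash_apply, zpow_neg]
      have h2 : denom γ z ^ wD ≠ 0 := zpow_ne_zero _ hJ
      have h3 : denom γ z ^ k ≠ 0 := zpow_ne_zero _ hJ
      have h4 : F' (γ • z) * D z = denom γ z ^ k * (F' z * D z) := by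
        apply mul_left_cancel₀ h2
        linear_combination h1
      field_simp
      linear_combination h4
    have hmd : MDiff (F' ∣[k] γ - F') := (hF'.slash k _).sub hF'
    rcases (UpperHalfPlane.mul_eq_zero_iff hmd hD).mp hmul with h | h
    · exact sub_eq_zero.mp h
    · exact absurd h hD0
  refine ⟨{ toFun := F', slash_action_eq' := ?_, holo' := hF', zero_at_cusps' := ?_ }, rfl⟩
  · rintro _ ⟨γ, hγ, rfl⟩
    exact hinv γ hγ
  · intro cu hcu
    rw [Subgroup.IsArithmetic.isCusp_iff_isCusp_SL2Z] at hcu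
    rw [OnePoint.isZeroAt_iff_forall_SL2Z hcu]
    intro γ _
    refine tendsto_zero_of_monic_eq _ μ hμ _ (fun i z => c i z) hc ?_
    intro z
    have hJ : denom γ z ≠ 0 := denom_ne_zero γ z
    have h1 := heq (γ • z)
    have hci : ∀ i, c i (γ • z) = denom γ z ^ (k * ((μ - i : ℕ) : ℤ)) * c i z := fun i =>
      slash_action_eqn'' (c i) (⟨γ, rfl⟩ : (Matrix.SpecialLinearGroup.mapGL ℝ γ) ∈ 𝒮ℒ) z
    simp only [SL_slash_apply]
    have h2 : (F' (γ • z) * denom γ z ^ (-k)) ^ μ +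
        ∑ i ∈ Finset.range μ, c i z * (F' (γ • z) * denom γ z ^ (-k)) ^ i =
        (denom γ z ^ (-k)) ^ μ * (F' (γ • z) ^ μ + ∑ i ∈ Finset.range μ, c i (γ • z) * F' (γ • z) ^ i) := by
      rw [mul_add, Finset.mul_sum, mul_pow]
      congr 1
      · ring
      · refine Finset.sum_congr rfl fun i hi => ?_
        have hi' : i ≤ μ := (Finset.mem_range.mp hi).le
        rw [hci i, mul_pow]
        have : (denom γ z ^ (-k)) ^ μ * denom γ z ^ (k * ((μ - i : ℕ) : ℤ)) = (denom γ z ^ (-k)) ^ i := by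
          rw [← zpow_natCast, ← zpow_natCast, ← zpow_mul, ← zpow_mul, ← zpow_add₀ hJ]
          congr 1
          push_cast [Nat.cast_sub hi']
          ring
        linear_combination (- c i z * F' (γ • z) ^ i) * this
    rw [h2, h1, mul_zero]


attribute [local instance] fintypeQ
attribute [local instance] Classical.propDecidable

/-- level one forms as elements of `perSub 1` -/
def per1 {w : ℤ} (G : ModularForm 𝒮ℒ w) : perSub 1 :=
  ⟨G, modularForm_mem_perSub one_pos one_mem_strictPeriods_SL G⟩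

/-- forms on `𝒢` as elements of `perSub 1` -/
def perG {𝒢 : Subgroup (GL (Fin 2) ℝ)} (h1 : (1 : ℝ) ∈ 𝒢.strictPeriods) {w : ℤ}
    (G : ModularForm 𝒢 w) : perSub 1 :=
  ⟨G, modularForm_mem_perSub one_pos h1 G⟩

lemma isZeroAtImInfty_iff_coeff_zero {w : ℤ} (G : ModularForm 𝒮ℒ w) :
    IsZeroAtImInfty G ↔ (qExpansion 1 G).coeff 0 = 0 := by
  rw [qExpansion_coeff_zero one_pos
      (ModularFormClass.analyticAt_cuspFunction_zero G one_pos one_mem_strictPeriods_SL)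
      (SlashInvariantFormClass.periodic_comp_ofComplex G one_mem_strictPeriods_SL)]
  exact ⟨fun h => h.valueAtInfty_eq_zero, fun h => isZeroAtImInfty_of_valueAtInfty_eq_zero G h⟩

/-- automorphy of the sums `∑ λ_r A^r B^(μ-1-r)`. -/
lemma sum_automorphy {Γ : Subgroup SL(2, ℤ)} {l w : ℤ} (μ : ℕ)
    (A B : ModularForm (Γ : Subgroup (GL (Fin 2) ℝ)) l) (lam : ℕ → ModularForm 𝒮ℒ w)
    (γ : SL(2, ℤ)) (hγ : γ ∈ Γ) (z : ℍ) :
    ∑ r ∈ Finset.range μ, lam r (γ • z) * A (γ • z) ^ r * B (γ • z) ^ (μ - 1 - r) =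
      denom γ z ^ (w + l * ((μ - 1 : ℕ) : ℤ)) *
        ∑ r ∈ Finset.range μ, lam r z * A z ^ r * B z ^ (μ - 1 - r) := by
  have hJ : denom γ z ≠ 0 := denom_ne_zero γ z
  rw [Finset.mul_sum]
  refine Finset.sum_congr rfl fun r hr => ?_
  have hr' : r ≤ μ - 1 := by have := Finset.mem_range.mp hr; omega
  have h1 : lam r (γ • z) = denom γ z ^ w * lam r z :=
    slash_action_eqn'' (lam r) (⟨γ, rfl⟩ : (Matrix.SpecialLinearGroup.mapGL ℝ γ) ∈ 𝒮ℒ) z
  have h2 : A (γ • z) = denom γ z ^ l * A z := slash_action_eqn_SL'' A hγ z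
  have h3 : B (γ • z) = denom γ z ^ l * B z := slash_action_eqn_SL'' B hγ z
  rw [h1, h2, h3, mul_pow, mul_pow, zpow_add₀ hJ, zpow_mul, zpow_natCast]
  have : (denom γ z ^ l) ^ (μ - 1) = (denom γ z ^ l) ^ r * (denom γ z ^ l) ^ (μ - 1 - r) := by
    rw [← pow_add]; congr 1; omega
  rw [this]; ring

/-- pure algebra: transporting the relations through `σ`. -/
theorem transport_relations {R : Type*} [CommRing R] (Ψ : R →+* PowerSeries ℂ)
    (hΨ : Function.Injective Ψ) (σ : ℂ →+* ℂ) (μ : ℕ) (a b Fp : R)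
    (ha : (Ψ a).map σ = Ψ a) (hb : (Ψ b).map σ = Ψ b)
    (lam lam' kap kap' c c' : ℕ → R)
    (hlam : ∀ r, Ψ (lam' r) = (Ψ (lam r)).map σ)
    (hkap : ∀ r, Ψ (kap' r) = (Ψ (kap r)).map σ)
    (hc : ∀ r, Ψ (c' r) = (Ψ (c r)).map σ)
    (hFD : Fp * (∑ r ∈ Finset.range μ, kap r * a ^ r * b ^ (μ - 1 - r)) =
      b * ∑ r ∈ Finset.range μ, lam r * a ^ r * b ^ (μ - 1 - r))
    (hD0 : (∑ r ∈ Finset.range μ, kap r * a ^ r * b ^ (μ - 1 - r)) ≠ 0)
    (hF : Fp ^ μ + ∑ i ∈ Finset.range μ, c i * Fp ^ i = 0) :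
    (b * ∑ r ∈ Finset.range μ, lam' r * a ^ r * b ^ (μ - 1 - r)) ^ μ +
      ∑ i ∈ Finset.range μ, c' i * (b * ∑ r ∈ Finset.range μ, lam' r * a ^ r * b ^ (μ - 1 - r)) ^ i *
        (∑ r ∈ Finset.range μ, kap' r * a ^ r * b ^ (μ - 1 - r)) ^ (μ - i) = 0 ∧
    (∑ r ∈ Finset.range μ, kap' r * a ^ r * b ^ (μ - 1 - r)) ≠ 0 ∧
    Ψ (b * ∑ r ∈ Finset.range μ, lam' r * a ^ r * b ^ (μ - 1 - r)) =
      (Ψ Fp).map σ * Ψ (∑ r ∈ Finset.range μ, kap' r * a ^ r * b ^ (μ - 1 - r)) := by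
  obtain ⟨Np, hNp⟩ : ∃ x, x = b * ∑ r ∈ Finset.range μ, lam r * a ^ r * b ^ (μ - 1 - r) := ⟨_, rfl⟩
  obtain ⟨Dp, hDp⟩ : ∃ x, x = ∑ r ∈ Finset.range μ, kap r * a ^ r * b ^ (μ - 1 - r) := ⟨_, rfl⟩
  obtain ⟨Np', hNp'⟩ : ∃ x, x = b * ∑ r ∈ Finset.range μ, lam' r * a ^ r * b ^ (μ - 1 - r) :=
    ⟨_, rfl⟩
  obtain ⟨Dp', hDp'⟩ : ∃ x, x = ∑ r ∈ Finset.range μ, kap' r * a ^ r * b ^ (μ - 1 - r) := ⟨_, rfl⟩
  have hΨN : Ψ Np' = (Ψ Np).map σ := by
    simp only [hNp', hNp, map_mul, map_sum, map_pow, hlam, ha, hb]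
  have hΨD : Ψ Dp' = (Ψ Dp).map σ := by
    simp only [hDp', hDp, map_mul, map_sum, map_pow, hkap, ha, hb]
  rw [← hNp', ← hDp']
  rw [← hNp, ← hDp] at hFD
  rw [← hDp] at hD0
  clear hNp hDp hNp' hDp'
  have hrel : Np ^ μ + ∑ i ∈ Finset.range μ, c i * Np ^ i * Dp ^ (μ - i) = 0 := by
    have h3 : Np ^ μ + ∑ i ∈ Finset.range μ, c i * Np ^ i * Dp ^ (μ - i) =
        Dp ^ μ * (Fp ^ μ + ∑ i ∈ Finset.range μ, c i * Fp ^ i) := by
      rw [← hFD, mul_add, Finset.mul_sum, mul_pow]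
      congr 1
      · ring
      · refine Finset.sum_congr rfl fun i hi => ?_
        have hi' : i ≤ μ := (Finset.mem_range.mp hi).le
        have : Dp ^ μ = Dp ^ i * Dp ^ (μ - i) := by rw [← pow_add]; congr 1; omega
        rw [this, mul_pow]; ring
    rw [h3, hF, mul_zero]
  refine ⟨?_, ?_, ?_⟩
  · apply hΨ
    have := congrArg (fun p => (Ψ p).map σ) hrel
    simp only [map_add, map_mul, map_sum, map_pow, map_zero] at this ⊢
    rw [hΨN, hΨD]
    simp only [hc]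
    exact this
  · intro h0
    apply hD0
    apply hΨ
    have : (Ψ Dp).map σ = 0 := by rw [← hΨD, h0, map_zero]
    rw [map_zero]
    ext n
    have h2 := congrArg (fun p => p.coeff n) this
    simpa using h2
  · rw [hΨN, hΨD, ← hFD, map_mul, map_mul]


theorem exists_conj_cuspForm {Γ : Subgroup SL(2, ℤ)} [Γ.FiniteIndex] {k l : ℤ}
    (h1 : (1 : ℝ) ∈ (Γ : Subgroup (GL (Fin 2) ℝ)).strictPeriods)
    (A B : ModularForm (Γ : Subgroup (GL (Fin 2) ℝ)) l) (hB : ∀ z, B z ≠ 0) (σ : ℂ →+* ℂ)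
    (hAσ : (qExpansion 1 A).map σ = qExpansion 1 A)
    (hBσ : (qExpansion 1 B).map σ = qExpansion 1 B)
    (hD : ∀ q, q ≠ q0 (Γ : Subgroup (GL (Fin 2) ℝ)) →
      quotientFunc B q * A - quotientFunc A q * B ≠ 0)
    (f : CuspForm (Γ : Subgroup (GL (Fin 2) ℝ)) k) :
    ∃ f' : CuspForm (Γ : Subgroup (GL (Fin 2) ℝ)) k,
      qExpansion 1 f' = (qExpansion 1 f).map σ := by
  let F : ModularForm (Γ : Subgroup (GL (Fin 2) ℝ)) k := ModularFormClass.modularForm f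
  set μ := idx (Γ : Subgroup (GL (Fin 2) ℝ)) with hμdef
  have hμ : 0 < μ := by
    have : Nonempty (𝒮ℒ ⧸ ((Γ : Subgroup (GL (Fin 2) ℝ)).subgroupOf 𝒮ℒ)) := ⟨q0 _⟩
    exact Fintype.card_pos
  choose c' hc' using fun i => exists_conj_levelOne σ _ (charCoeff F i)
  choose lam' hlam' using fun r => exists_conj_levelOne σ _ (lagCoeff F A B r)
  choose kap' hkap' using fun r => exists_conj_levelOne σ _ (lagCoeff B A B r)
  -- the discriminant-like product
  obtain ⟨Dl, hDl⟩ : ∃ Dl : ℍ → ℂ, Dl = ∏ q' ∈ Finset.univ.erase (q0 (Γ : Subgroup (GL (Fin 2) ℝ))),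
      (quotientFunc B q' * A - quotientFunc A q' * B) := ⟨_, rfl⟩
  have hDl0 : Dl ≠ 0 := by
    intro h0
    rw [hDl, UpperHalfPlane.prod_eq_zero_iff] at h0
    · obtain ⟨q, hq, hq0⟩ := h0
      exact hD q (Finset.ne_of_mem_erase hq) hq0
    · intro q _
      exact ((quotientFunc_mem_nice B q).1.mul A.holo').sub ((quotientFunc_mem_nice A q).1.mul B.holo')
  have hDl_apply : ∀ z, Dl z = ∏ q' ∈ Finset.univ.erase (q0 (Γ : Subgroup (GL (Fin 2) ℝ))),
      (quotientFunc B q' z * A z - quotientFunc A q' z * B z) := by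
    intro z; simp [hDl, Finset.prod_apply]
  have hDp_apply : ∀ z, ((∑ r ∈ Finset.range μ, per1 (lagCoeff B A B r) * perG h1 A ^ r *
      perG h1 B ^ (μ - 1 - r) : perSub 1) : ℍ → ℂ) z = B z * Dl z := by
    intro z
    rw [hDl_apply, ← lagCoeff_sum B A B z (hB z)]
    simp [per1, perG, Finset.sum_apply]
    rfl
  have hNp_apply : ∀ z, ((perG h1 B * ∑ r ∈ Finset.range μ, per1 (lagCoeff F A B r) * perG h1 A ^ r *
      perG h1 B ^ (μ - 1 - r) : perSub 1) : ℍ → ℂ) z = B z * (F z * Dl z) := by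
    intro z
    rw [hDl_apply, ← lagCoeff_sum F A B z (hB z)]
    simp [per1, perG, Finset.sum_apply]
    exact Or.inl rfl
  obtain ⟨hrel', hDp'0, hΨ⟩ := transport_relations (qHom 1 one_pos) (qHom_injective 1 one_pos) σ μ
    (perG h1 A) (perG h1 B) (perG h1 F) hAσ hBσ
    (fun r => per1 (lagCoeff F A B r)) (fun r => per1 (lam' r))
    (fun r => per1 (lagCoeff B A B r)) (fun r => per1 (kap' r))
    (fun i => per1 (charCoeff F i)) (fun i => per1 (c' i)) hlam' hkap' hc'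
    (by
      apply Subtype.ext
      ext z
      rw [hNp_apply]
      change F z * _ = _
      rw [hDp_apply]
      ring)
    (by
      intro h0
      apply hDl0
      ext z
      have := hDp_apply z
      rw [h0] at this
      exact (mul_eq_zero.mp this.symm).resolve_left (hB z))
    (by
      apply Subtype.ext
      ext z
      have := charCoeff_eq F z
      simpa [per1, perG, Finset.sum_apply] using this)
  obtain ⟨Np', hNp'⟩ : ∃ x : perSub 1, x = perG h1 B * ∑ r ∈ Finset.range μ, per1 (lam' r) *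
    perG h1 A ^ r * perG h1 B ^ (μ - 1 - r) := ⟨_, rfl⟩
  obtain ⟨Dp', hDp'⟩ : ∃ x : perSub 1, x = ∑ r ∈ Finset.range μ, per1 (kap' r) *
    perG h1 A ^ r * perG h1 B ^ (μ - 1 - r) := ⟨_, rfl⟩
  simp only [← hNp', ← hDp'] at hrel' hDp'0 hΨ
  have hNp'_apply : ∀ z, (Np' : ℍ → ℂ) z =
      B z * ∑ r ∈ Finset.range μ, lam' r z * A z ^ r * B z ^ (μ - 1 - r) := by
    intro z
    simp [hNp', per1, perG, Finset.sum_apply]
  have hDp'_apply : ∀ z, (Dp' : ℍ → ℂ) z =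
      ∑ r ∈ Finset.range μ, kap' r z * A z ^ r * B z ^ (μ - 1 - r) := by
    intro z
    simp [hDp', per1, perG, Finset.sum_apply]
  have hrel'_apply : ∀ z, (Np' : ℍ → ℂ) z ^ μ + ∑ i ∈ Finset.range μ,
      c' i z * (Np' : ℍ → ℂ) z ^ i * (Dp' : ℍ → ℂ) z ^ (μ - i) = 0 := by
    intro z
    have := congrArg (fun p : perSub 1 => (p : ℍ → ℂ) z) hrel'
    simpa [per1, Finset.sum_apply] using this
  have hDd0 : (Dp' : ℍ → ℂ) ≠ 0 := fun h => hDp'0 (Subtype.ext h)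
  -- the quotient
  obtain ⟨F', hF'hol, hF'⟩ := exists_mdiff_quotient (Np' : ℍ → ℂ) (Dp' : ℍ → ℂ) Np'.2.1 Dp'.2.1
    hDd0 μ (fun i => c' i) (fun i => (c' i).holo') hrel'_apply
  have heq : ∀ z, F' z ^ μ + ∑ i ∈ Finset.range μ, c' i z * F' z ^ i = 0 := by
    have hG : MDiff (F' ^ μ + ∑ i ∈ Finset.range μ, (c' i : ℍ → ℂ) * F' ^ i) := by
      refine (hF'hol.pow μ).add ?_
      exact MDifferentiable.sum fun i _ => (c' i).holo'.mul (hF'hol.pow i)
    have hmul : (F' ^ μ + ∑ i ∈ Finset.range μ, (c' i : ℍ → ℂ) * F' ^ i) * (Dp' : ℍ → ℂ) ^ μ = 0 := by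
      ext z
      have := hrel'_apply z
      simp only [← hF' z] at this
      simp only [Pi.mul_apply, Pi.add_apply, Pi.pow_apply, Finset.sum_apply, Pi.zero_apply]
      rw [← this, add_mul, Finset.sum_mul, mul_pow]
      congr 1
      refine Finset.sum_congr rfl fun i hi => ?_
      have hi' : i ≤ μ := (Finset.mem_range.mp hi).le
      have h5 : (Dp' : ℍ → ℂ) z ^ μ = (Dp' : ℍ → ℂ) z ^ i * (Dp' : ℍ → ℂ) z ^ (μ - i) := by
        rw [← pow_add]; congr 1; omega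
      rw [h5, mul_pow]; ring
    rcases (UpperHalfPlane.mul_eq_zero_iff hG (Dp'.2.1.pow μ)).mp hmul with h | h
    · intro z
      have := congrFun h z
      simpa [Finset.sum_apply] using this
    · exfalso
      apply hDd0
      ext z
      have := congrFun h z
      simpa using pow_eq_zero_iff (hμ.ne') |>.mp this
  have hc'0 : ∀ i < μ, IsZeroAtImInfty (c' i) := by
    intro i hi
    rw [isZeroAtImInfty_iff_coeff_zero, hc' i, PowerSeries.coeff_map,
      (isZeroAtImInfty_iff_coeff_zero _).mp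
        (charCoeff_isZeroAtImInfty F (fun γ => CuspFormClass.zero_at_infty_slash f γ) i hi), map_zero]
  have hDa : ∀ γ ∈ Γ, ∀ z : ℍ, (Dp' : ℍ → ℂ) (γ • z) =
      denom γ z ^ ((l + l * ((μ - 1 : ℕ) : ℤ)) + l * ((μ - 1 : ℕ) : ℤ)) * (Dp' : ℍ → ℂ) z := by
    intro γ hγ z
    rw [hDp'_apply, hDp'_apply]
    exact sum_automorphy μ A B kap' γ hγ z
  have hNa : ∀ γ ∈ Γ, ∀ z : ℍ, (Np' : ℍ → ℂ) (γ • z) =
      denom γ z ^ (k + ((l + l * ((μ - 1 : ℕ) : ℤ)) + l * ((μ - 1 : ℕ) : ℤ))) * (Np' : ℍ → ℂ) z := by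
    intro γ hγ z
    have hJ : denom γ z ≠ 0 := denom_ne_zero γ z
    rw [hNp'_apply, hNp'_apply, sum_automorphy μ A B lam' γ hγ z, slash_action_eqn_SL'' B hγ z]
    have : denom γ z ^ (k + ((l + l * ((μ - 1 : ℕ) : ℤ)) + l * ((μ - 1 : ℕ) : ℤ))) =
        denom γ z ^ l * denom γ z ^ (k + l * ((μ - 1 : ℕ) : ℤ) + l * ((μ - 1 : ℕ) : ℤ)) := by
      rw [← zpow_add₀ hJ]; congr 1; ring
    rw [this]; ring
  obtain ⟨f', hf'⟩ := exists_cuspForm_of_quotient μ hμ F' (Dp' : ℍ → ℂ) (Np' : ℍ → ℂ) hF'hol Dp'.2.1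
    hDd0 hF' hDa hNa c' hc'0 heq
  refine ⟨f', ?_⟩
  have hfp : (⟨f', modularForm_mem_perSub one_pos h1 f'⟩ : perSub 1) * Dp' = Np' := by
    apply Subtype.ext
    ext z
    change f' z * (Dp' : ℍ → ℂ) z = _
    rw [hf', hF']
  have h6 := congrArg (qHom 1 one_pos) hfp
  rw [map_mul, hΨ] at h6
  have h7 : qHom 1 one_pos Dp' ≠ 0 := by
    intro h
    exact hDp'0 (qHom_injective 1 one_pos (by rw [h, map_zero]))
  exact mul_right_cancel₀ h7 h6

end

end Fermat.Agent.S23Aux
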