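import Mathlib

set_option autoImplicit false

/-!
# P5: integrality of coefficients of power series
-/

namespace Fermat.Agent.S23Aux

open Finset

theorem coeff_integral_of_mul (p g h : PowerSeries ℂ) (s : ℕ)
    (hp : ∀ i, IsIntegral ℤ (p.coeff i)) (hs : ∀ i < s, p.coeff i = 0) (hu : p.coeff s ≠ 0)
    (hu' : IsIntegral ℤ (p.coeff s)⁻¹) (hh : ∀ i, IsIntegral ℤ (h.coeff i)) (hpg : p * g = h) :
    ∀ i, IsIntegral ℤ (g.coeff i) := by
  intro i
  induction i using Nat.strong_induction_on with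
  | _ i ih =>
    have h1 : h.coeff (s + i) = ∑ x ∈ antidiagonal (s + i), p.coeff x.1 * g.coeff x.2 := by
      rw [← hpg, PowerSeries.coeff_mul]
    have hmem : (s, i) ∈ antidiagonal (s + i) := by simp
    rw [← Finset.add_sum_erase _ _ hmem] at h1
    have h2 : IsIntegral ℤ (∑ x ∈ (antidiagonal (s + i)).erase (s, i),
        p.coeff x.1 * g.coeff x.2) := by
      refine IsIntegral.sum _ fun x hx => ?_
      obtain ⟨hne, hx'⟩ := Finset.mem_erase.mp hx
      rw [HasAntidiagonal.mem_antidiagonal] at hx'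
      rcases lt_trichotomy x.1 s with hlt | heq | hgt
      · rw [hs _ hlt, zero_mul]; exact isIntegral_zero
      · exfalso
        apply hne
        ext
        · exact heq
        · simp only; omega
      · exact (hp _).mul (ih _ (by omega))
    have h3 : IsIntegral ℤ (p.coeff s * g.coeff i) := by
      have : p.coeff s * g.coeff i = h.coeff (s + i) -
          ∑ x ∈ (antidiagonal (s + i)).erase (s, i), p.coeff x.1 * g.coeff x.2 := by
        rw [h1]; ring
      rw [this]
      exact (hh _).sub h2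
    have h4 : g.coeff i = (p.coeff s)⁻¹ * (p.coeff s * g.coeff i) := by
      field_simp
    rw [h4]
    exact hu'.mul h3

theorem exists_algebraic_combination {ι : Type*} (t : Finset ι) (m : ι → PowerSeries ℂ)
    (hm : ∀ j ∈ t, ∀ n, ∃ a : ℤ, (m j).coeff n = a) (c : ι → ℂ)
    (hc : ∀ n, IsAlgebraic ℚ ((∑ j ∈ t, c j • m j).coeff n)) :
    ∃ M : ℤ, M ≠ 0 ∧ ∀ n, IsIntegral ℤ ((M : ℂ) * (∑ j ∈ t, c j • m j).coeff n) := by
  classical
  let K : IntermediateField ℚ ℂ := algebraicClosure ℚ ℂ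
  obtain ⟨π, hπ⟩ := LinearMap.exists_leftInverse_of_injective (Algebra.linearMap K ℂ)
    (LinearMap.ker_eq_bot.mpr (algebraMap K ℂ).injective)
  have hπ' : ∀ x : K, π (x : ℂ) = x := fun x => LinearMap.congr_fun hπ x
  -- the new algebraic coefficients
  let c' : ι → ℂ := fun j => (π (c j) : ℂ)
  have hc' : ∀ j, IsAlgebraic ℚ (c' j) := fun j => (mem_algebraicClosure_iff).mp (π (c j)).2
  have hcoeff : ∀ n, (∑ j ∈ t, c j • m j).coeff n = ∑ j ∈ t, c' j * (m j).coeff n := by
    intro n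
    have h1 : (∑ j ∈ t, c j • m j).coeff n = ∑ j ∈ t, c j * (m j).coeff n := by
      simp [map_sum]
    let x : K := ⟨(∑ j ∈ t, c j • m j).coeff n, (mem_algebraicClosure_iff).mpr (hc n)⟩
    have h2 : ((π (x : ℂ) : K) : ℂ) = (∑ j ∈ t, c j • m j).coeff n := by rw [hπ']
    rw [← h2]
    show ((π ((∑ j ∈ t, c j • m j).coeff n) : K) : ℂ) = _
    rw [h1, map_sum]
    push_cast
    refine Finset.sum_congr rfl fun j hj => ?_
    obtain ⟨a, ha⟩ := hm j hj n
    rw [ha]
    have h3 : c j * (a : ℂ) = ((a : K)) • c j := by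
      rw [Algebra.smul_def, mul_comm]; simp
    rw [h3, map_smul]
    simp [c', mul_comm]
  -- clear denominators
  have hden : ∀ j, ∃ M : ℤ, M ≠ 0 ∧ IsIntegral ℤ ((M : ℂ) * c' j) := by
    intro j
    have halg : IsAlgebraic ℤ (c' j) := (IsFractionRing.isAlgebraic_iff ℤ ℚ ℂ).mpr (hc' j)
    obtain ⟨y, hy0, hy⟩ := halg.exists_integral_multiple
    refine ⟨y, hy0, ?_⟩
    simpa [Algebra.smul_def] using hy
  choose D hD0 hD using hden
  refine ⟨∏ j ∈ t, D j, Finset.prod_ne_zero_iff.mpr fun j _ => hD0 j, fun n => ?_⟩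
  rw [hcoeff, Finset.mul_sum]
  refine IsIntegral.sum _ fun j hj => ?_
  obtain ⟨a, ha⟩ := hm j hj n
  rw [ha, ← Finset.mul_prod_erase t D hj]
  have : (((D j * ∏ x ∈ t.erase j, D x : ℤ)) : ℂ) * (c' j * (a : ℂ)) =
      ((D j : ℂ) * c' j) * (((∏ x ∈ t.erase j, D x) * a : ℤ) : ℂ) := by
    push_cast; ring
  rw [this]
  exact (hD j).mul isIntegral_algebraMap

end Fermat.Agent.S23Aux
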