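import Mathlib
import Fermat.Prelude.Thm_UpperHalfPlane_qExpansion_coeff_nat_mul
import Fermat.Agent.Lib.S23_Sym
import Fermat.Agent.Lib.S23_QHom
import Fermat.Agent.Lib.S23_Int
import Fermat.Agent.Lib.S23_LevelOne
import Fermat.Agent.Lib.S23_Conj

/-!
# Bounded denominators
-/

open UpperHalfPlane ModularForm SlashInvariantForm Filter Topology
open scoped Manifold MatrixGroups

namespace Fermat.Agent.S23Aux

noncomputable section

/-- integral coefficients with unit lowest coefficient. -/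
def UnitLead (p : PowerSeries ℂ) : Prop :=
  (∀ i, IsIntegral ℤ (p.coeff i)) ∧
    ∃ s, (∀ i < s, p.coeff i = 0) ∧ p.coeff s ≠ 0 ∧ IsIntegral ℤ (p.coeff s)⁻¹

lemma UnitLead.one : UnitLead 1 := by
  refine ⟨fun i => ?_, 0, fun i hi => absurd hi (Nat.not_lt_zero i), by simp, by simp [isIntegral_one]⟩
  rw [PowerSeries.coeff_one]
  split_ifs
  · exact isIntegral_one
  · exact isIntegral_zero

lemma UnitLead.mul {p p' : PowerSeries ℂ} (h : UnitLead p) (h' : UnitLead p') :
    UnitLead (p * p') := by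
  obtain ⟨hi, s, hs, hu, hu'⟩ := h
  obtain ⟨hi', s', hs', hv, hv'⟩ := h'
  refine ⟨fun i => ?_, s + s', ?_, ?_⟩
  · rw [PowerSeries.coeff_mul]
    exact IsIntegral.sum _ fun x _ => (hi _).mul (hi' _)
  · obtain ⟨a, rfl⟩ := PowerSeries.X_pow_dvd_iff.mpr hs
    obtain ⟨a', rfl⟩ := PowerSeries.X_pow_dvd_iff.mpr hs'
    apply PowerSeries.X_pow_dvd_iff.mp
    exact ⟨a * a', by rw [pow_add]; ring⟩
  · obtain ⟨a, rfl⟩ := PowerSeries.X_pow_dvd_iff.mpr hs
    obtain ⟨a', rfl⟩ := PowerSeries.X_pow_dvd_iff.mpr hs'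
    have e : PowerSeries.X ^ s * a * (PowerSeries.X ^ s' * a') =
        PowerSeries.X ^ (s + s') * (a * a') := by rw [pow_add]; ring
    have h1 : (PowerSeries.X ^ s * a).coeff s = a.coeff 0 := by
      simpa using PowerSeries.coeff_X_pow_mul a s 0
    have h2 : (PowerSeries.X ^ s' * a').coeff s' = a'.coeff 0 := by
      simpa using PowerSeries.coeff_X_pow_mul a' s' 0
    have h3 : (PowerSeries.X ^ (s + s') * (a * a')).coeff (s + s') = a.coeff 0 * a'.coeff 0 := by
      have := PowerSeries.coeff_X_pow_mul (a * a') (s + s') 0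
      rw [zero_add] at this
      rw [this]
      simp
    rw [h1] at hu hu'
    rw [h2] at hv hv'
    rw [e, h3]
    refine ⟨mul_ne_zero hu hv, ?_⟩
    rw [mul_inv]
    exact hu'.mul hv'

/-- The substitution `q ↦ q^N` as a linear map. -/
def expandN (N : ℕ) : PowerSeries ℂ →ₗ[ℂ] PowerSeries ℂ where
  toFun p := PowerSeries.mk fun n => if N ∣ n then p.coeff (n / N) else 0
  map_add' p p' := by
    ext n
    simp only [PowerSeries.coeff_mk, map_add]
    split_ifs <;> simp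
  map_smul' c p := by
    ext n
    simp only [PowerSeries.coeff_mk, RingHom.id_apply, map_smul, smul_eq_mul]
    split_ifs <;> simp

lemma coeff_expandN (N : ℕ) (p : PowerSeries ℂ) (n : ℕ) :
    (expandN N p).coeff n = if N ∣ n then p.coeff (n / N) else 0 := by
  simp [expandN]

lemma expandN_mem_intSeries (N : ℕ) {p : PowerSeries ℂ} (hp : p ∈ intSeries) :
    expandN N p ∈ intSeries := by
  rw [mem_intSeries_iff] at hp ⊢
  intro n
  rw [coeff_expandN]
  split_ifs
  · exact hp _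
  · exact ⟨0, by simp⟩

lemma expandN_mem_span (N : ℕ) {p : PowerSeries ℂ}
    (hp : p ∈ Submodule.span ℂ (intSeries : Set (PowerSeries ℂ))) :
    expandN N p ∈ Submodule.span ℂ (intSeries : Set (PowerSeries ℂ)) := by
  have h1 : expandN N p ∈ Submodule.map (expandN N) (Submodule.span ℂ (intSeries : Set (PowerSeries ℂ))) :=
    Submodule.mem_map_of_mem hp
  rw [Submodule.map_span] at h1
  refine Submodule.span_mono ?_ h1
  rintro _ ⟨x, hx, rfl⟩
  exact expandN_mem_intSeries N hx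

lemma isAlgebraic_of_isIntegral_int {x : ℂ} (hx : IsIntegral ℤ x) : IsAlgebraic ℚ x :=
  (hx.tower_top (A := ℚ)).isAlgebraic

theorem bdd_core (N : ℕ) (hN : 0 < N) (P g E : PowerSeries ℂ) (hP : UnitLead P)
    (hg : ∀ n, ∃ r : ℚ, g.coeff n = r)
    (hE : E ∈ Submodule.span ℂ (intSeries : Set (PowerSeries ℂ)))
    (h : P * expandN N g = expandN N E) :
    ∃ M : ℤ, M ≠ 0 ∧ ∀ n, ∃ m : ℤ, (M : ℂ) * g.coeff n = m := by
  obtain ⟨hPi, s, hs, hu, hu'⟩ := hP
  obtain ⟨c, t, ht, -, hsum⟩ := Submodule.mem_span_iff_exists_finset_subset.mp (expandN_mem_span N hE)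
  have hsum' : ∑ j ∈ t, c j • (id j : PowerSeries ℂ) = P * expandN N g := by
    rw [h, ← hsum]; rfl
  obtain ⟨M, hM0, hM⟩ := exists_algebraic_combination t id
    (fun j hj => (mem_intSeries_iff _).mp (ht hj)) c (by
      intro n
      rw [hsum', PowerSeries.coeff_mul]
      rw [← mem_algebraicClosure_iff]
      refine sum_mem fun x _ => mul_mem ?_ ?_
      · exact mem_algebraicClosure_iff.mpr (isAlgebraic_of_isIntegral_int (hPi _))
      · rw [coeff_expandN]
        split_ifs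
        · obtain ⟨r, hr⟩ := hg (x.2 / N)
          rw [hr]
          exact mem_algebraicClosure_iff.mpr (isAlgebraic_algebraMap (R := ℚ) (A := ℂ) r)
        · exact zero_mem _)
  rw [hsum'] at hM
  have key := coeff_integral_of_mul P ((M : ℂ) • expandN N g) ((M : ℂ) • (P * expandN N g)) s hPi hs hu
    hu' (fun i => by simpa using hM i) (by rw [mul_smul_comm])
  refine ⟨M, hM0, fun n => ?_⟩
  have h1 := key (N * n)
  rw [map_smul, coeff_expandN, if_pos (Dvd.intro n rfl), Nat.mul_div_cancel_left n hN,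
    smul_eq_mul] at h1
  obtain ⟨r, hr⟩ := hg n
  rw [hr] at h1 ⊢
  have h2 : IsIntegral ℤ (algebraMap ℚ ℂ ((M : ℚ) * r)) := by
    simpa using h1
  rw [isIntegral_algebraMap_iff (algebraMap ℚ ℂ).injective] at h2
  obtain ⟨y, hy⟩ := IsIntegrallyClosed.isIntegral_iff.mp h2
  refine ⟨y, ?_⟩
  have := congrArg (algebraMap ℚ ℂ) hy
  simpa using this.symm


lemma span_intSeries_eq : Submodule.span ℂ (intSeries : Set (PowerSeries ℂ)) =
    Subalgebra.toSubmodule (Algebra.adjoin ℂ (intSeries : Set (PowerSeries ℂ))) := by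
  rw [Algebra.adjoin_eq_span]
  congr 1
  have := Submonoid.closure_eq intSeries.toSubmonoid
  exact (congrArg (fun S : Submonoid (PowerSeries ℂ) => (S : Set (PowerSeries ℂ))) this).symm

lemma levelOne_qExpansion_mem_span {w : ℤ} (G : ModularForm 𝒮ℒ w) :
    qExpansion 1 G ∈ Submodule.span ℂ (intSeries : Set (PowerSeries ℂ)) := by
  have hG : G ∈ Submodule.span ℂ
      {g : ModularForm 𝒮ℒ w | ∀ n, ∃ m : ℤ, (qExpansion 1 g).coeff n = (m : ℂ)} := by
    rw [levelOne_span_integral]; trivial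
  induction hG using Submodule.span_induction with
  | mem g hg => exact Submodule.subset_span ((mem_intSeries_iff _).mpr hg)
  | zero => simp [qExpansion_zero]
  | add x y _ _ hx hy =>
    rw [FunLike.coe_add, ModularForm.qExpansion_add one_pos one_mem_strictPeriods_SL]
    exact add_mem hx hy
  | smul a x _ hx =>
    rw [FunLike.coe_smul, ModularForm.qExpansion_smul one_pos one_mem_strictPeriods_SL]
    exact Submodule.smul_mem _ _ hx

lemma perSub_one_le (N : ℕ) {g : ℍ → ℂ} (hg : g ∈ perSub 1) : g ∈ perSub N := by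
  refine ⟨hg.1, hg.2.1, ?_⟩
  have := hg.2.2.nat_mul N
  simpa using this

lemma qExpansion_nat_eq_expandN (N : ℕ) (hN : 0 < N) {g : ℍ → ℂ} (hg : g ∈ perSub 1) :
    qExpansion N g = expandN N (qExpansion 1 g) := by
  ext n
  have := UpperHalfPlane.qExpansion_coeff_nat_mul one_pos hg.2.2 hg.1 hg.2.1 hN n
  rw [mul_one] at this
  rw [this, coeff_expandN]

attribute [local instance] fintypeQ
attribute [local instance] Classical.propDecidable

lemma exists_unitLead_prod {𝒢 : Subgroup (GL (Fin 2) ℝ)} [𝒢.IsArithmetic] {l : ℤ} (N : ℕ)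
    (hN : (0 : ℝ) < N) (A B : ModularForm 𝒢 l) (t : Finset (𝒮ℒ ⧸ (𝒢.subgroupOf 𝒮ℒ)))
    (hδ : ∀ q ∈ t, ∃ (c : ℚ) (s : ℕ) (δ : ℍ → ℂ), c ≠ 0 ∧
      δ = (c : ℂ) • (quotientFunc B q * A - quotientFunc A q * B) ∧
      Function.Periodic (δ ∘ ofComplex) N ∧
      (∀ i, IsIntegral ℤ ((qExpansion N δ).coeff i)) ∧
      (∀ i < s, (qExpansion N δ).coeff i = 0) ∧
      (qExpansion N δ).coeff s ≠ 0 ∧ IsIntegral ℤ ((qExpansion N δ).coeff s)⁻¹) :
    ∃ (c : ℂ) (D : perSub N),
      (D : ℍ → ℂ) = c • ∏ q ∈ t, (quotientFunc B q * A - quotientFunc A q * B) ∧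
      UnitLead (qHom N hN D) := by
  induction t using Finset.induction_on with
  | empty => exact ⟨1, 1, by simp, by rw [map_one]; exact UnitLead.one⟩
  | insert q t hq ih =>
    obtain ⟨c, D, hD, hU⟩ := ih fun q' hq' => hδ q' (Finset.mem_insert_of_mem hq')
    obtain ⟨cq, s, δ, -, hδ1, hper, hint, hs, hu, hu'⟩ := hδ q (Finset.mem_insert_self q t)
    have hAn : (A : ℍ → ℂ) ∈ niceSub := by
      have := quotientFunc_mem_nice A (q0 𝒢)
      rwa [quotientFunc_q0] at this
    have hBn : (B : ℍ → ℂ) ∈ niceSub := by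
      have := quotientFunc_mem_nice B (q0 𝒢)
      rwa [quotientFunc_q0] at this
    have hδn : δ ∈ niceSub := by
      rw [hδ1]
      exact niceSub.smul_mem (niceSub.sub_mem (niceSub.mul_mem (quotientFunc_mem_nice B q) hAn)
        (niceSub.mul_mem (quotientFunc_mem_nice A q) hBn)) _
    have hδp : δ ∈ perSub N := ⟨hδn.1, hδn.2, hper⟩
    refine ⟨cq * c, ⟨δ, hδp⟩ * D, ?_, ?_⟩
    · rw [Finset.prod_insert hq, Subalgebra.coe_mul, hD]
      change δ * _ = _
      rw [hδ1, smul_mul_smul_comm]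
    · rw [map_mul]
      exact UnitLead.mul ⟨hint, s, hs, hu, hu'⟩ hU

theorem bounded_denominators {𝒢 : Subgroup (GL (Fin 2) ℝ)} [𝒢.IsArithmetic] {k l : ℤ} (N : ℕ)
    (hN : 0 < N) (h1 : (1 : ℝ) ∈ 𝒢.strictPeriods)
    (A B : ModularForm 𝒢 l) (hB : ∀ z, B z ≠ 0)
    (hA : qExpansion 1 A ∈ intSeries) (hBi : qExpansion 1 B ∈ intSeries)
    (hδ : ∀ q, q ≠ q0 𝒢 → ∃ (c : ℚ) (s : ℕ) (δ : ℍ → ℂ), c ≠ 0 ∧
      δ = (c : ℂ) • (quotientFunc B q * A - quotientFunc A q * B) ∧
      Function.Periodic (δ ∘ ofComplex) N ∧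
      (∀ i, IsIntegral ℤ ((qExpansion N δ).coeff i)) ∧
      (∀ i < s, (qExpansion N δ).coeff i = 0) ∧
      (qExpansion N δ).coeff s ≠ 0 ∧ IsIntegral ℤ ((qExpansion N δ).coeff s)⁻¹)
    (F : ModularForm 𝒢 k) (hF : ∀ n, ∃ r : ℚ, (qExpansion 1 F).coeff n = r) :
    ∃ M : ℤ, M ≠ 0 ∧ ∀ n, ∃ m : ℤ, (M : ℂ) * (qExpansion 1 F).coeff n = m := by
  have hN' : (0 : ℝ) < N := by exact_mod_cast hN
  obtain ⟨c, D, hD, hU⟩ := exists_unitLead_prod N hN' A B (Finset.univ.erase (q0 𝒢))
    (fun q hq => hδ q (Finset.ne_of_mem_erase hq))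
  obtain ⟨E, hE⟩ : ∃ E : perSub 1, E = ∑ r ∈ Finset.range (idx 𝒢), per1 (lagCoeff F A B r) *
      perG h1 A ^ r * perG h1 B ^ (idx 𝒢 - 1 - r) := ⟨_, rfl⟩
  have hE_apply : ∀ z, (E : ℍ → ℂ) z = F z * (∏ q ∈ Finset.univ.erase (q0 𝒢),
      (quotientFunc B q * A - quotientFunc A q * B)) z := by
    intro z
    have := lagCoeff_sum F A B z (hB z)
    simp only [Finset.prod_apply, Pi.sub_apply, Pi.mul_apply]
    rw [← this]
    simp [hE, per1, perG, Finset.sum_apply]
  have hE_span : qHom 1 one_pos E ∈ Submodule.span ℂ (intSeries : Set (PowerSeries ℂ)) := by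
    rw [span_intSeries_eq, Subalgebra.mem_toSubmodule, hE, map_sum]
    refine Subalgebra.sum_mem _ fun r _ => ?_
    rw [map_mul, map_mul, map_pow, map_pow]
    refine Subalgebra.mul_mem _ (Subalgebra.mul_mem _ ?_ (Subalgebra.pow_mem _ ?_ _))
      (Subalgebra.pow_mem _ ?_ _)
    · rw [← Subalgebra.mem_toSubmodule, ← span_intSeries_eq]
      exact levelOne_qExpansion_mem_span _
    · exact Algebra.subset_adjoin hA
    · exact Algebra.subset_adjoin hBi
  refine bdd_core N hN (qHom N hN' D) (qExpansion 1 F) (c • qHom 1 one_pos E) hU hF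
    (Submodule.smul_mem _ _ hE_span) ?_
  have hFp : (F : ℍ → ℂ) ∈ perSub 1 := modularForm_mem_perSub one_pos h1 F
  rw [map_smul, qHom_apply 1, ← qExpansion_nat_eq_expandN N hN hFp,
    ← qExpansion_nat_eq_expandN N hN E.2]
  have e1 : D * (⟨F, perSub_one_le N hFp⟩ : perSub N) = c • (⟨E, perSub_one_le N E.2⟩ : perSub N) := by
    apply Subtype.ext
    ext z
    change (D : ℍ → ℂ) z * F z = c * (E : ℍ → ℂ) z
    rw [hD, hE_apply]
    simp only [Pi.smul_apply, smul_eq_mul]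
    ring
  have e2 := congrArg (qHom N hN') e1
  rw [map_mul, qHom_smul] at e2
  exact e2

end

end Fermat.Agent.S23Aux
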