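import Mathlib
import Fermat.Prelude.Def_CuspForm_IntegralStructure
import Fermat.Prelude.Sol.S_CuspForm_intLattice_fg
import Fermat.Agent.Lib.S23_AutC
import Fermat.Agent.Lib.S23_AB
import Fermat.Agent.Lib.S23_Conj
import Fermat.Agent.Lib.S23_Bdd

/-!
# Integral structure on `S_k(Γ₀(N))` (all weights)
-/

open UpperHalfPlane ModularForm SlashInvariantForm CongruenceSubgroup
open scoped Manifold MatrixGroups
open P2MW.S_CuspForm_intLattice_fg.W3WsD

namespace Fermat.Agent.S23Aux

noncomputable section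

/-- The `q`-expansion as a linear map on cusp forms. -/
def qLin (N : ℕ) (k : ℤ) : CuspForm (Gamma0 N) k →ₗ[ℂ] PowerSeries ℂ where
  toFun f := qExpansion 1 f
  map_add' f g := by
    rw [FunLike.coe_add, ModularForm.qExpansion_add one_pos (hΓ N) f g]
  map_smul' c f := by
    have h1 : ⇑(c • f) = c • ⇑f := by
      ext z
      simp
    rw [h1, ModularForm.qExpansion_smul one_pos (hΓ N) c f, RingHom.id_apply]

lemma qLin_apply (N : ℕ) (k : ℤ) (f : CuspForm (Gamma0 N) k) : qLin N k f = qExpansion 1 f := rfl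

lemma qLin_injective (N : ℕ) (k : ℤ) : Function.Injective (qLin N k) := by
  rw [injective_iff_map_eq_zero]
  intro f hf
  have hp := modularForm_mem_perSub one_pos (hΓ N) f
  have := (qExpansion_eq_zero_iff one_pos hp.2.2 hp.1 hp.2.1).mp hf
  exact DFunLike.coe_injective this

/-- The space of cusp forms is finite dimensional (via the Sturm bound). -/
theorem finite_cuspForm (N : ℕ) [NeZero N] (k : ℤ) :
    Module.Finite ℂ (CuspForm (Gamma0 N) k) := by
  let T : CuspForm (Gamma0 N) k →ₗ[ℂ] (Fin (sturmB N k + 1) → ℂ) :=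
    { toFun := fun f i => (qLin N k f).coeff i
      map_add' := fun f g => by
        funext i
        simp
      map_smul' := fun c f => by
        funext i
        simp }
  have hT : Function.Injective T := by
    intro f g hfg
    exact trunc_injective N k hfg
  exact Module.Finite.of_injective T hT

lemma map_eq_self_of_mem_intSeries (σ : ℂ →+* ℂ) {p : PowerSeries ℂ} (hp : p ∈ intSeries) :
    p.map σ = p := by
  ext n
  obtain ⟨m, hm⟩ := (mem_intSeries_iff p).mp hp n
  simp [hm]

theorem hasIntegralStructure (N : ℕ) [NeZero N] (k : ℤ) : CuspForm.HasIntegralStructure N k := by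
  unfold CuspForm.HasIntegralStructure
  rw [eq_top_iff]
  intro f _
  have hA : qExpansion 1 (formA N) ∈ intSeries := (mem_intSeries_iff _).mpr (formA_integral N)
  have hB : qExpansion 1 (formB N) ∈ intSeries := (mem_intSeries_iff _).mpr (formB_integral N)
  have hD : ∀ q, q ≠ q0 (Gamma0 N : Subgroup (GL (Fin 2) ℝ)) →
      quotientFunc (formB N) q * formA N - quotientFunc (formA N) q * formB N ≠ 0 := by
    intro q hq h0
    obtain ⟨c, s, δ, -, hδ, -, -, -, hs, -⟩ := delta_expansion N q hq
    rw [h0, smul_zero] at hδ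
    rw [hδ, qExpansion_zero] at hs
    simp at hs
  have := finite_cuspForm N k
  have hstable : ∀ σ : ℂ ≃+* ℂ, ∀ p ∈ LinearMap.range (qLin N k),
      p.map (σ : ℂ →+* ℂ) ∈ LinearMap.range (qLin N k) := by
    rintro σ _ ⟨g, rfl⟩
    obtain ⟨g', hg'⟩ := exists_conj_cuspForm (hΓ N) (formA N) (formB N) (formB_ne_zero N)
      (σ : ℂ →+* ℂ) (map_eq_self_of_mem_intSeries _ hA) (map_eq_self_of_mem_intSeries _ hB) hD g
    exact ⟨g', hg'⟩
  have h2 := le_span_rational_of_stable (LinearMap.range (qLin N k)) hstable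
    (LinearMap.mem_range_self (qLin N k) f)
  have h3 : Submodule.span ℂ {p | p ∈ LinearMap.range (qLin N k) ∧ ∀ n, ∃ r : ℚ, p.coeff n = (r : ℂ)} ≤
      Submodule.map (qLin N k) (Submodule.span ℂ ((CuspForm.intLattice N k :
        Submodule ℤ (CuspForm (Gamma0 N) k)) : Set (CuspForm (Gamma0 N) k))) := by
    rw [Submodule.span_le]
    rintro _ ⟨⟨g, rfl⟩, hg⟩
    obtain ⟨M, hM0, hM⟩ := bounded_denominators N (NeZero.pos N) (hΓ N) (formA N) (formB N)
      (formB_ne_zero N) hA hB (delta_expansion N) (ModularFormClass.modularForm g) hg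
    refine ⟨g, ?_, rfl⟩
    have h4 : (M : ℂ) • g ∈ Submodule.span ℂ ((CuspForm.intLattice N k :
        Submodule ℤ (CuspForm (Gamma0 N) k)) : Set (CuspForm (Gamma0 N) k)) := by
      refine Submodule.subset_span (Submodule.subset_span fun n => ?_)
      obtain ⟨m, hm⟩ := hM n
      refine ⟨m, ?_⟩
      rw [← hm]
      change (qLin N k ((M : ℂ) • g)).coeff n = _
      rw [map_smul]
      simp [qLin_apply]
    have hM0' : (M : ℂ) ≠ 0 := by exact_mod_cast hM0
    have h5 : g = (M : ℂ)⁻¹ • ((M : ℂ) • g) := by rw [smul_smul, inv_mul_cancel₀ hM0', one_smul]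
    rw [h5]
    exact Submodule.smul_mem _ _ h4
  obtain ⟨g, hg, hgf⟩ := h3 h2
  rwa [qLin_injective N k hgf] at hg

end

end Fermat.Agent.S23Aux
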