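/-
Combinatorics of `SL(2,ℤ) ⧸ Γ₀(N)`: the coset criterion in terms of first columns.
-/
import Mathlib

set_option autoImplicit false

open CongruenceSubgroup
open scoped MatrixGroups

namespace Fermat.Agent.X0

variable {N : ℕ}

/-- `g Γ₀(N) = g' Γ₀(N)` iff the first columns are proportional mod `N`. -/
theorem mk_eq_mk_iff (g g' : SL(2, ℤ)) :
    (QuotientGroup.mk g : SL(2, ℤ) ⧸ Gamma0 N) = QuotientGroup.mk g' ↔
      (N : ℤ) ∣ g 0 0 * g' 1 0 - g 1 0 * g' 0 0 := by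
  rw [QuotientGroup.eq, Gamma0_mem, ZMod.intCast_zmod_eq_zero_iff_dvd]
  have : (g⁻¹ * g') 1 0 = g 0 0 * g' 1 0 - g 1 0 * g' 0 0 := by
    rw [Matrix.SpecialLinearGroup.coe_mul, Matrix.SpecialLinearGroup.SL2_inv_expl]
    simp [Matrix.mul_apply, Fin.sum_univ_two]
    ring
  rw [this]

theorem isCoprime_col (g : SL(2, ℤ)) : IsCoprime (g 0 0) (g 1 0) := by
  refine ⟨g 1 1, -g 0 1, ?_⟩
  have := g.2
  rw [Matrix.det_fin_two] at this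
  linarith

/-- every primitive vector is a first column -/
theorem exists_col {a c : ℤ} (h : IsCoprime a c) : ∃ g : SL(2, ℤ), g 0 0 = a ∧ g 1 0 = c := by
  obtain ⟨u, w, h⟩ := h
  refine ⟨⟨!![a, -w; c, u], ?_⟩, rfl, rfl⟩
  rw [Matrix.det_fin_two_of]
  linarith

theorem T_zpow_smul_col (k : ℤ) (g : SL(2, ℤ)) :
    (ModularGroup.T ^ k * g) 0 0 = g 0 0 + k * g 1 0 ∧ (ModularGroup.T ^ k * g) 1 0 = g 1 0 := by
  rw [Matrix.SpecialLinearGroup.coe_mul, ModularGroup.coe_T_zpow]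
  simp [Matrix.mul_apply, Fin.sum_univ_two]

theorem S_smul_col (g : SL(2, ℤ)) :
    (ModularGroup.S * g) 0 0 = - g 1 0 ∧ (ModularGroup.S * g) 1 0 = g 0 0 := by
  rw [Matrix.SpecialLinearGroup.coe_mul, ModularGroup.coe_S]
  simp [Matrix.mul_apply, Fin.sum_univ_two]

theorem ST_smul_col (g : SL(2, ℤ)) :
    (ModularGroup.S * ModularGroup.T * g) 0 0 = - g 1 0 ∧
      (ModularGroup.S * ModularGroup.T * g) 1 0 = g 0 0 + g 1 0 := by
  rw [Matrix.SpecialLinearGroup.coe_mul, Matrix.SpecialLinearGroup.coe_mul, ModularGroup.coe_S,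
    ModularGroup.coe_T]
  simp [Matrix.mul_apply, Fin.sum_univ_two]

/-- `S` fixes `gΓ₀(N)` iff `a² + c² ≡ 0`. -/
theorem S_smul_mk_eq_iff (g : SL(2, ℤ)) :
    ModularGroup.S • (QuotientGroup.mk g : SL(2, ℤ) ⧸ Gamma0 N) = QuotientGroup.mk g ↔
      (N : ℤ) ∣ g 0 0 ^ 2 + g 1 0 ^ 2 := by
  rw [MulAction.Quotient.smul_mk, smul_eq_mul, mk_eq_mk_iff, (S_smul_col g).1, (S_smul_col g).2,
    ← dvd_neg]
  ring_nf

/-- `ST` fixes `gΓ₀(N)` iff `a² + ac + c² ≡ 0`. -/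
theorem ST_smul_mk_eq_iff (g : SL(2, ℤ)) :
    (ModularGroup.S * ModularGroup.T) • (QuotientGroup.mk g : SL(2, ℤ) ⧸ Gamma0 N)
      = QuotientGroup.mk g ↔ (N : ℤ) ∣ g 0 0 ^ 2 + g 0 0 * g 1 0 + g 1 0 ^ 2 := by
  rw [MulAction.Quotient.smul_mk, smul_eq_mul, mk_eq_mk_iff, (ST_smul_col g).1,
    (ST_smul_col g).2, ← dvd_neg]
  ring_nf

/-- `T^k gΓ₀(N) = g'Γ₀(N)` criterion. -/
theorem T_zpow_smul_mk_eq_iff (k : ℤ) (g g' : SL(2, ℤ)) :
    (ModularGroup.T ^ k) • (QuotientGroup.mk g : SL(2, ℤ) ⧸ Gamma0 N) = QuotientGroup.mk g' ↔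
      (N : ℤ) ∣ (g 0 0 + k * g 1 0) * g' 1 0 - g 1 0 * g' 0 0 := by
  rw [MulAction.Quotient.smul_mk, smul_eq_mul, mk_eq_mk_iff, (T_zpow_smul_col k g).1,
    (T_zpow_smul_col k g).2]

end Fermat.Agent.X0
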